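import Fermat.Agent.Models.Lattice

/-!
# Determination of the residue fields by counting degrees
-/

set_option autoImplicit false
set_option linter.unusedSectionVars false
set_option linter.style.haveILetI false

noncomputable section

namespace Fermat.Agent.Models

open AlgebraicCurve Fermat.Agent.Curves Polynomial

variable {k κ : Type*} [Field k] [Field κ] {B : Res k κ} {F : Type*} [Field F] [Algebra k F]
  {ι : Type*} {𝓕 : ι → Type*} [∀ i, Field (𝓕 i)] [∀ i, Algebra κ (𝓕 i)]
  {C : ∀ i, Comp B F (𝓕 i)}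

theorem over_gauss' {t : F} (htk : Transcendental k t) (hmem : ∀ i, t ∈ (C i).O)
    (htr : ∀ i, Transcendental κ ((C i).r t)) :
    letI := ratAlgebra t htk
    letI : ∀ i, Algebra (RatFunc κ) (𝓕 i) := fun i => ratAlgebra ((C i).r t) (htr i)
    Over (gauss B) C := by
  letI := ratAlgebra t htk
  letI : ∀ i, Algebra (RatFunc κ) (𝓕 i) := fun i => ratAlgebra ((C i).r t) (htr i)
  have hpolk : ∀ P : (B.O)[X], algebraMap (RatFunc k) F (toK B P) =
      aeval t (P.map B.O.subtype) := fun P => ratAlgebra_algebraMap t htk _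
  have hpolκ : ∀ i, ∀ P : (B.O)[X], algebraMap (RatFunc κ) (𝓕 i) (toκ B P) =
      aeval ((C i).r t) (P.map B.res) := fun i P =>
    ratAlgebra_algebraMap ((C i).r t) (htr i) _
  have key : ∀ i, ∀ f ∈ (gauss B).O, algebraMap (RatFunc k) F f ∈ (C i).O ∧
      (C i).r (algebraMap (RatFunc k) F f) =
        algebraMap (RatFunc κ) (𝓕 i) ((gauss B).r f) := by
    intro i f hf
    obtain ⟨P, Q, hQ, rfl⟩ := exists_of_mem_gauss hf
    have hP1 := (C i).aeval_mem (hmem i) P
    have hQ1 := (C i).aeval_mem (hmem i) Q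
    have hQ2 : (C i).r (aeval t (Q.map B.O.subtype)) ≠ 0 := by
      rw [hQ1.2]
      intro h0
      exact (transcendental_iff.mp (htr i) _).mt hQ h0
    have e : (gauss B).r (toK B P / toK B Q) = toκ B P / toκ B Q := gauss_r P Q hQ
    rw [e, map_div₀, map_div₀, hpolk, hpolk, hpolκ, hpolκ]
    refine ⟨?_, ?_⟩
    · rw [div_eq_mul_inv]
      exact mul_mem hP1.1 (Res.inv_mem_of_r hQ2)
    · rw [Res.r_div hP1.1 hQ2, hP1.2, hQ1.2]
  exact ⟨fun i f hf => (key i f hf).1, fun i f hf => (key i f hf).2⟩

/-- a field extension compatible with coordinates is linear over rational functions -/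
theorem ratAlgebra_comm {E E' : Type*} [Field E] [Algebra κ E] [Field E'] [Algebra κ E']
    (f : E →ₐ[κ] E') {x : E} {x' : E'} (h : f x = x') (hx : Transcendental κ x)
    (hx' : Transcendental κ x') (c : RatFunc κ) :
    letI := ratAlgebra x hx
    letI := ratAlgebra x' hx'
    f (algebraMap (RatFunc κ) E c) = algebraMap (RatFunc κ) E' c := by
  letI := ratAlgebra x hx
  letI := ratAlgebra x' hx'
  have h1 : (f : E →+* E').comp (algebraMap (RatFunc κ) E) = algebraMap (RatFunc κ) E' := by
    apply IsLocalization.ringHom_ext (nonZeroDivisors κ[X])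
    refine RingHom.ext fun P => ?_
    rw [RingHom.comp_apply, RingHom.comp_apply, RingHom.comp_apply]
    rw [ratAlgebra_algebraMap x hx, ratAlgebra_algebraMap x' hx', ← h]
    exact (Polynomial.aeval_algHom_apply f x _).symm
  exact DFunLike.congr_fun h1 c

/-- **Residue fields by counting degrees.** -/
theorem residue_surjective_of_deg [Fintype ι] [Infinite κ] (hB : B.RankOne) (hC : Incomp C)
    [IsFunctionField k F] {t : F} (htk : Transcendental k t) (hmem : ∀ i, t ∈ (C i).O)
    {𝓔 : ι → Type*} [∀ i, Field (𝓔 i)] [∀ i, Algebra κ (𝓔 i)] [∀ i, IsFunctionField κ (𝓔 i)]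
    (f : ∀ i, 𝓔 i →ₐ[κ] 𝓕 i) (tb : ∀ i, 𝓔 i) (htb : ∀ i, f i (tb i) = (C i).r t)
    (htr : ∀ i, Transcendental κ (tb i))
    (hdeg : Module.finrank (IntermediateField.adjoin k {t}) F ≤
      ∑ i, Module.finrank (IntermediateField.adjoin κ {tb i}) (𝓔 i)) (i : ι) :
    Function.Surjective (f i) := by
  classical
  have htr' : ∀ i, Transcendental κ ((C i).r t) := fun i => by
    rw [← htb i]
    exact fun h => htr i ((isAlgebraic_algHom_iff (f i) (f i).injective).mp h)
  letI := ratAlgebra t htk
  haveI := ratAlgebra_isScalarTower t htk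
  haveI : FiniteDimensional (RatFunc k) F := finiteDimensional_of_isFunctionField (k := k)
  letI : ∀ i, Algebra (RatFunc κ) (𝓕 i) := fun i => ratAlgebra ((C i).r t) (htr' i)
  haveI : ∀ i, IsScalarTower κ (RatFunc κ) (𝓕 i) := fun i =>
    ratAlgebra_isScalarTower ((C i).r t) (htr' i)
  letI : ∀ i, Algebra (RatFunc κ) (𝓔 i) := fun i => ratAlgebra (tb i) (htr i)
  haveI : ∀ i, IsScalarTower κ (RatFunc κ) (𝓔 i) := fun i => ratAlgebra_isScalarTower (tb i) (htr i)
  haveI : ∀ i, FiniteDimensional (RatFunc κ) (𝓔 i) := fun i =>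
    finiteDimensional_of_isFunctionField (k := κ)
  have hO : Over (gauss B) C := over_gauss' htk hmem htr'
  have hdeg' : Module.finrank (RatFunc k) F ≤ ∑ i, Module.finrank (RatFunc κ) (𝓔 i) := by
    rw [ratAlgebra_finrank t htk]
    refine hdeg.trans_eq (Finset.sum_congr rfl fun i _ => (ratAlgebra_finrank (tb i) (htr i)).symm)
  by_contra hsurj
  rw [Function.Surjective] at hsurj
  push Not at hsurj
  obtain ⟨y, hy⟩ := hsurj
  let n : ι → ℕ := fun i => Module.finrank (RatFunc κ) (𝓔 i)
  let fl : ∀ i, 𝓔 i →ₗ[RatFunc κ] 𝓕 i := fun i =>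
    { toFun := f i
      map_add' := map_add (f i)
      map_smul' := fun c x => by
        rw [Algebra.smul_def, map_mul, Algebra.smul_def, RingHom.id_apply,
          ratAlgebra_comm (f i) (htb i) (htr i) (htr' i) c] }
  have hfl : ∀ i, LinearMap.ker (fl i) = ⊥ := fun i =>
    LinearMap.ker_eq_bot.mpr (f i).injective
  let bas : ∀ i, Module.Basis (Fin (n i)) (RatFunc κ) (𝓔 i) := fun i => Module.finBasis _ _
  have hLI : ∀ j, LinearIndependent (RatFunc κ) fun a => fl j (bas j a) := fun j =>
    (bas j).linearIndependent.map' (fl j) (hfl j)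
  let m : ι → ℕ := fun j => if j = i then n j + 1 else n j
  have hfam : ∀ j, ∃ w : Fin (m j) → 𝓕 j, LinearIndependent (RatFunc κ) w := by
    intro j
    by_cases hj : j = i
    · subst hj
      have e : m j = n j + 1 := if_pos rfl
      rw [e]
      refine ⟨Fin.cons y fun a => fl j (bas j a), linearIndependent_finCons.mpr ⟨hLI j, ?_⟩⟩
      intro hmem'
      have h1 : Submodule.span (RatFunc κ) (Set.range fun a => fl j (bas j a)) ≤
          LinearMap.range (fl j) := by
        rw [Submodule.span_le]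
        rintro _ ⟨a, rfl⟩
        exact ⟨bas j a, rfl⟩
      obtain ⟨x, hx⟩ := h1 hmem'
      exact hy x hx
    · have e : m j = n j := if_neg hj
      rw [e]
      exact ⟨_, hLI j⟩
  choose w hw using hfam
  choose b hb hb1 hb0 using fun p : Σ j, Fin (m j) => exists_res_single (C := C) hB hC p.1 (w p.1 p.2)
  have hli := hO.linearIndependent b hb hb0 (fun j => by
    have : (fun a => (C j).r (b ⟨j, a⟩)) = w j := funext fun a => hb1 ⟨j, a⟩
    rw [this]
    exact hw j)
  have h1 := hli.fintype_card_le_finrank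
  rw [Fintype.card_sigma] at h1
  have h2 : ∑ j, Fintype.card (Fin (m j)) = ∑ j, n j + 1 := by
    simp only [Fintype.card_fin]
    rw [← Finset.add_sum_erase _ _ (Finset.mem_univ i), ← Finset.add_sum_erase _ n
      (Finset.mem_univ i)]
    have e1 : m i = n i + 1 := if_pos rfl
    have e2 : ∑ j ∈ Finset.univ.erase i, m j = ∑ j ∈ Finset.univ.erase i, n j :=
      Finset.sum_congr rfl fun j hj => if_neg (Finset.ne_of_mem_erase hj)
    rw [e1, e2]
    ring
  rw [h2] at h1
  have h3 : ∑ j, n j = ∑ i, Module.finrank (RatFunc κ) (𝓔 i) := rfl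
  omega

end Fermat.Agent.Models
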