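import Fermat.Agent.Models.Lattice

/-!
# Functions whose residues are compatible powers are powers
-/

set_option autoImplicit false
set_option linter.unusedSectionVars false
set_option linter.style.haveILetI false

noncomputable section

namespace Fermat.Agent.Models

open AlgebraicCurve Fermat.Agent.Curves Polynomial WithZero

open Fermat.Agent.GoodRed (InL inL_iff genPos genNeg genAll mulE mulE_zpow_apply exists_pow_inL
  zpow_mem_genAll inL_of_mem_span genNeg_eq h1_bound exists_approx_root)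

variable {k κ : Type*} [Field k] [Field κ] {B : Res k κ} {F : Type*} [Field F] [Algebra k F]
  {ι : Type*} {𝓕 : ι → Type*} [∀ i, Field (𝓕 i)] [∀ i, Algebra κ (𝓕 i)]
  {C : ∀ i, Comp B F (𝓕 i)}

/-- comparison of approximate roots -/
theorem exists_sub_eq {n : ℕ} (hn : (n : κ) ≠ 0) {u p p' : F} {v : ∀ i, 𝓕 i}
    (hv : ∀ i, v i ≠ 0) (hp : ∀ i, p ∈ (C i).O ∧ (C i).r p = v i)
    (hp' : ∀ i, p' ∈ (C i).O ∧ (C i).r p' = v i) (hu0 : u ≠ 0) {α : k} (hα : α ∈ B.O)
    (hα0 : B.r α = 0) (hαne : α ≠ 0) {c c' : F} (hc : ∀ i, c ∈ (C i).O) (hc' : ∀ i, c' ∈ (C i).O)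
    (h : p ^ n * u = 1 + algebraMap k F α * c) (h' : p' ^ n * u = 1 + algebraMap k F α * c') :
    ∃ x, (∀ i, x ∈ (C i).O) ∧ p - p' = algebraMap k F α * x := by
  have hαF : algebraMap k F α ≠ 0 := by simpa using hαne
  refine ⟨(algebraMap k F α)⁻¹ * (p - p'), fun i => ?_, by rw [mul_inv_cancel_left₀ hαF]⟩
  -- the geometric sum
  have hgeom : (∑ j ∈ Finset.range n, p ^ j * p' ^ (n - 1 - j)) * (p - p') = p ^ n - p' ^ n :=
    Commute.geom_sum₂_mul (Commute.all _ _) n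
  set S := ∑ j ∈ Finset.range n, p ^ j * p' ^ (n - 1 - j) with hSdef
  have hSr : (C i).r S = n * v i ^ (n - 1) := by
    rw [hSdef, Res.r_sum _ _ fun j _ => mul_mem (pow_mem (hp i).1 _) (pow_mem (hp' i).1 _)]
    rw [Finset.sum_congr rfl (g := fun _ => v i ^ (n - 1)) fun j hj => ?_, Finset.sum_const,
      Finset.card_range, nsmul_eq_mul]
    rw [Finset.mem_range] at hj
    rw [Res.r_mul (pow_mem (hp i).1 _) (pow_mem (hp' i).1 _), Res.r_pow (hp i).1,
      Res.r_pow (hp' i).1, (hp i).2, (hp' i).2, ← pow_add]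
    congr 1
    omega
  have hnF : (n : 𝓕 i) ≠ 0 := by
    rw [← map_natCast (algebraMap κ (𝓕 i))]
    exact (_root_.map_ne_zero _).mpr hn
  have hSr0 : (C i).r S ≠ 0 := by
    rw [hSr]
    exact mul_ne_zero hnF (pow_ne_zero _ (hv i))
  have hS0 : S ≠ 0 := Res.ne_zero_of_r hSr0
  -- `u` is a unit
  have h1c : (C i).r (1 + algebraMap k F α * c) = 1 := by
    rw [Res.r_add (one_mem _) (mul_mem ((C i).algebraMap_mem α hα) (hc i)), Res.r_one,
      Res.r_mul ((C i).algebraMap_mem α hα) (hc i), (C i).r_algebraMap_eq_zero hα hα0, zero_mul,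
      add_zero]
  have hp0 : p ≠ 0 := Res.ne_zero_of_r (C := (C i).toRes) (by rw [(hp i).2]; exact hv i)
  have hpr : (C i).r (p ^ n) ≠ 0 := by
    rw [Res.r_pow (hp i).1, (hp i).2]
    exact pow_ne_zero _ (hv i)
  have huinv : u⁻¹ ∈ (C i).O := by
    have h2 : (C i).r (1 + algebraMap k F α * c) ≠ 0 := by rw [h1c]; exact one_ne_zero
    have e : u⁻¹ = p ^ n * (1 + algebraMap k F α * c)⁻¹ := by
      rw [← h]
      field_simp
    rw [e]
    exact mul_mem (Res.mem_of_r_ne_zero hpr) (Res.inv_mem_of_r h2)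
  have hdiff : p ^ n - p' ^ n = algebraMap k F α * ((c - c') * u⁻¹) := by
    have h3 : (p ^ n - p' ^ n) * u = algebraMap k F α * (c - c') := by
      linear_combination h - h'
    field_simp
    linear_combination h3
  have e : (algebraMap k F α)⁻¹ * (p - p') = S⁻¹ * ((c - c') * u⁻¹) := by
    rw [hdiff] at hgeom
    field_simp
    field_simp at hgeom
    linear_combination hgeom
  rw [e]
  exact mul_mem (Res.inv_mem_of_r hSr0) (mul_mem (sub_mem (hc i) (hc' i)) huinv)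

theorem smul_mem_genPos_image {t : F} (ht0 : t ≠ 0) (s : Finset F) (e : B.O) [DecidableEq F]
    {z : F} (hz : z ∈ genPos B.O (mulE k t ht0) s) :
    e • z ∈ genPos B.O (mulE k t ht0) (s.image fun x => e • x) := by
  unfold genPos at hz ⊢
  induction hz using Submodule.span_induction with
  | mem x hx =>
    obtain ⟨j, y, hy, rfl⟩ := hx
    refine Submodule.subset_span ⟨j, e • y, Finset.mem_image.mpr ⟨y, hy, rfl⟩, ?_⟩
    rw [mulE_zpow_apply, mulE_zpow_apply, mul_smul_comm]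
  | zero => rw [smul_zero]; exact Submodule.zero_mem _
  | add x y _ _ hx hy => rw [smul_add]; exact Submodule.add_mem _ hx hy
  | smul r x _ hx => rw [smul_comm]; exact Submodule.smul_mem _ _ hx

theorem mem_O_of_genPos {t : F} (ht0 : t ≠ 0) {s : Finset F} {i : ι} (htO : t ∈ (C i).O)
    (hs : ∀ y ∈ s, y ∈ (C i).O) {z : F} (hz : z ∈ genPos B.O (mulE k t ht0) s) :
    z ∈ (C i).O := by
  unfold genPos at hz
  induction hz using Submodule.span_induction with
  | mem x hx =>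
    obtain ⟨j, y, hy, rfl⟩ := hx
    rw [mulE_zpow_apply, zpow_natCast]
    exact mul_mem (pow_mem htO _) (hs y hy)
  | zero => exact zero_mem _
  | add x y _ _ hx hy => exact add_mem hx hy
  | smul r x _ hx =>
    rw [Algebra.smul_def]
    exact mul_mem ((C i).algebraMap_mem _ r.2) hx

variable [IsAlgClosed k] [IsAlgClosed κ] [IsFunctionField k F] [∀ i, IsFunctionField κ (𝓕 i)]
  [Fintype ι] [DecidableEq ι] [Nonempty ι]

/-- the Newton approximations -/
theorem exists_approx_chart {t : F} {n : ℕ} (hn : (n : κ) ≠ 0) {u y : F} {v : ∀ i, 𝓕 i}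
    (hy : ∀ i, y ∈ (C i).O ∧ (C i).r y = v i) {D : Divisor k F} (hyD : InL t D y)
    {a : k} (haO : a ∈ B.O) (ha : B.r a = 0) {b : F} (hb : b ∈ chart C t)
    (hyu : y ^ n * u = 1 + algebraMap k F a * b) (N : ℕ) :
    ∃ w c, InL t D w ∧ (∀ i, w ∈ (C i).O ∧ (C i).r w = v i) ∧ (∀ i, c ∈ (C i).O) ∧
      w ^ n * u = 1 + algebraMap k F (a ^ (N + 1)) * c := by
  obtain ⟨hn1, hn2⟩ := natCast_inv_mem (B := B) (k := k) hn
  have hn0 : (n : k) ≠ 0 := Res.ne_zero_of_r (C := B) (by rwa [hn1])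
  obtain ⟨v', d, c, hv, hvc⟩ := exists_approx_root (B := chart C t) n
    ⟨_, algebraMap_mem_chart t hn2⟩ (by
      apply Subtype.ext
      show ((n : chart C t) : F) * algebraMap k F ((n : k))⁻¹ = 1
      rw [show ((n : chart C t) : F) = (n : F) from rfl, ← map_natCast (algebraMap k F),
        ← map_mul, mul_inv_cancel₀ hn0, map_one]) ⟨_, algebraMap_mem_chart t haO⟩ ⟨b, hb⟩ N
  have hvF : (v' : F) = 1 + algebraMap k F a * (d : F) := congrArg Subtype.val hv
  have hvcF : (v' : F) ^ n * (1 + algebraMap k F a * b) = 1 + (algebraMap k F a) ^ (N + 1) * c :=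
    congrArg Subtype.val hvc
  refine ⟨v' * y, c, hyD.mul_aff v'.2.1, fun i => ⟨mul_mem (v'.2.2 i) (hy i).1, ?_⟩,
    fun i => c.2.2 i, ?_⟩
  · rw [Res.r_mul (v'.2.2 i) (hy i).1, (hy i).2, hvF,
      Res.r_add (one_mem _) (mul_mem ((C i).algebraMap_mem a haO) (d.2.2 i)), Res.r_one,
      Res.r_mul ((C i).algebraMap_mem a haO) (d.2.2 i), (C i).r_algebraMap_eq_zero haO ha,
      zero_mul, add_zero, one_mul]
  · rw [mul_pow, mul_assoc, hyu, hvcF, map_pow]

/-- a global function divides an `n`-th root -/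
theorem isPow_of_global {n : ℕ} (hn0 : n ≠ 0) {u : F} (hu0 : u ≠ 0) {D : Divisor k F}
    (hD : ∀ P : Place k F, P.ord u = n * D P) {t x : F} (hx0 : x ≠ 0) (hx : InL t D x)
    (hx' : InL t⁻¹ D x) : ∃ f : F, u = f ^ n := by
  classical
  have hnZ : (n : ℤ) ≠ 0 := by exact_mod_cast hn0
  have hnn : ∀ w : Place k F, 0 ≤ w.ord x + D w := by
    intro w
    rcases w.toValuationSubring.mem_or_inv_mem t with h | h
    · exact (hx w h).resolve_left hx0
    · exact (hx' w h).resolve_left hx0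
  have hdegD : Divisor.degree D = 0 := by
    have h1 : (n : ℤ) • D = divisorOf u := by
      ext P
      rw [Finsupp.smul_apply, divisorOf_apply, hD, smul_eq_mul]
    have h2 := congrArg Divisor.degree h1
    rw [map_zsmul, degree_divisorOf, smul_eq_mul, mul_eq_zero] at h2
    exact h2.resolve_left hnZ
  have hE : Divisor.degree (divisorOf x + D) = 0 := by
    rw [map_add, degree_divisorOf, hdegD, add_zero]
  rw [degree_eq_sum, Finsupp.sum, Finset.sum_eq_zero_iff_of_nonneg (fun w _ => by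
    rw [Finsupp.add_apply, divisorOf_apply]; exact hnn w)] at hE
  have hzero : ∀ w : Place k F, w.ord x + D w = 0 := by
    intro w
    by_cases hw : w ∈ (divisorOf x + D).support
    · have := hE w hw
      rwa [Finsupp.add_apply, divisorOf_apply] at this
    · rw [Finsupp.notMem_support_iff, Finsupp.add_apply, divisorOf_apply] at hw
      exact hw
  have hz0 : x ^ n * u ≠ 0 := mul_ne_zero (pow_ne_zero _ hx0) hu0
  have hz : ∀ w : Place k F, w.ord (x ^ n * u) = 0 := by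
    intro w
    rw [w.ord_mul (pow_ne_zero _ hx0) hu0, ord_pow, hD, ← mul_add, hzero w, mul_zero]
  rcases transcendental_or (k := k) (x ^ n * u) with htr | ⟨c, hc⟩
  · obtain ⟨w, hw⟩ := exists_ord_pos_of_transcendental htr
    have := hz w
    omega
  · obtain ⟨d, hd⟩ := IsAlgClosed.exists_pow_nat_eq c (Nat.pos_of_ne_zero hn0)
    refine ⟨algebraMap k F d / x, ?_⟩
    rw [div_pow, ← map_pow, hd, ← hc]
    field_simp

/-- **Functions whose residues are compatible `n`-th powers are `n`-th powers.** -/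
theorem isPow_of_residues [CharZero k] (hB : B.RankOne) (hC : Incomp C) {t : F}
    (ht : IsGood C t) (hS : Surj C t) (hS' : Surj C t⁻¹) {n : ℕ} (hn : (n : κ) ≠ 0)
    {u : F} (hu : ∀ i, (C i).r u ≠ 0) (w : ∀ i, 𝓕 i) (hw : ∀ i, w i ^ n = (C i).r u)
    {D : Divisor k F} (hD : ∀ P : Place k F, P.ord u = n * D P)
    (hL : ∀ M : Ideal (chart C t), IsPoint t M → LocData C t D w M)
    (hL' : ∀ M : Ideal (chart C t⁻¹), IsPoint t⁻¹ M → LocData C t⁻¹ D w M) :
    ∃ f : F, u = f ^ n := by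
  classical
  have hn0 : n ≠ 0 := by rintro rfl; simp at hn
  have hu0 : u ≠ 0 := Res.ne_zero_of_r (hu (Classical.arbitrary ι))
  have ht0 : t ≠ 0 := Res.ne_zero_of_r (ht.r_ne_zero (Classical.arbitrary ι))
  have hw0 : ∀ i, w i ≠ 0 := fun i hi => hu i (by rw [← hw, hi, zero_pow hn0])
  have hwinv : ∀ i, (w i)⁻¹ ≠ 0 := fun i => inv_ne_zero (hw0 i)
  obtain ⟨y, hyD, hyr⟩ := exists_lift_chart hB hC ht hS hn hu w hw hD hL
  obtain ⟨y', hyD', hyr'⟩ := exists_lift_chart hB hC ht.inv hS' hn hu w hw hD hL'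
  have haff : ∀ {t : F} {y : F}, InL t D y → (∀ i, y ∈ (C i).O ∧ (C i).r y = (w i)⁻¹) →
      y ^ n * u - 1 ∈ chart C t ∧ ∀ i, (C i).r (y ^ n * u - 1) = 0 := by
    intro t y hy hyR
    have hy0 : y ≠ 0 := Res.ne_zero_of_r (C := (C (Classical.arbitrary ι)).toRes)
      (by rw [(hyR _).2]; exact hwinv _)
    have hm : ∀ i, y ^ n * u ∈ (C i).O := fun i =>
      mul_mem (pow_mem (hyR i).1 _) (Res.mem_of_r_ne_zero (hu i))
    refine ⟨⟨fun v hv => sub_mem ?_ (one_mem _), fun i => sub_mem (hm i) (one_mem _)⟩, fun i => ?_⟩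
    · rw [mem_iff_ord v (mul_ne_zero (pow_ne_zero _ hy0) hu0), v.ord_mul (pow_ne_zero _ hy0) hu0,
        ord_pow, hD, ← mul_add]
      exact mul_nonneg (by positivity) ((hy v hv).resolve_left hy0)
    · rw [Res.r_sub (hm i) (one_mem _), Res.r_mul (pow_mem (hyR i).1 _)
        (Res.mem_of_r_ne_zero (hu i)), Res.r_pow (hyR i).1, (hyR i).2, ← hw, Res.r_one, inv_pow,
        inv_mul_cancel₀ (pow_ne_zero _ (hw0 i)), sub_self]
  obtain ⟨hb, hbr⟩ := haff hyD hyr
  obtain ⟨hb', hbr'⟩ := haff hyD' hyr'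
  have hroot : ∀ {y : F}, y ≠ 0 → y ^ n * u - 1 = 0 → ∃ f : F, u = f ^ n := by
    intro y hy0 h
    refine ⟨y⁻¹, ?_⟩
    rw [inv_pow, eq_comm, inv_eq_iff_eq_inv]
    rw [sub_eq_zero] at h
    exact eq_inv_of_mul_eq_one_left h
  have hy0 : y ≠ 0 := Res.ne_zero_of_r (C := (C (Classical.arbitrary ι)).toRes)
    (by rw [(hyr _).2]; exact hwinv _)
  have hy0' : y' ≠ 0 := Res.ne_zero_of_r (C := (C (Classical.arbitrary ι)).toRes)
    (by rw [(hyr' _).2]; exact hwinv _)
  by_cases hb0 : y ^ n * u - 1 = 0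
  · exact hroot hy0 hb0
  by_cases hb0' : y' ^ n * u - 1 = 0
  · exact hroot hy0' hb0'
  obtain ⟨a, ha, har, x, hx, hbx⟩ := exists_factor_chart hb hbr
  obtain ⟨a', ha', har', x', hx', hbx'⟩ := exists_factor_chart hb' hbr'
  have hane : a ≠ 0 := by
    rintro rfl
    rw [map_zero, zero_mul] at hbx
    exact hb0 hbx
  have hane' : a' ≠ 0 := by
    rintro rfl
    rw [map_zero, zero_mul] at hbx'
    exact hb0' hbx'
  -- a common small constant
  obtain ⟨a₀, ha₀, ha₀r, ha₀ne, e, he, hee, e', he', hee'⟩ : ∃ a₀ ∈ B.O, B.r a₀ = 0 ∧ a₀ ≠ 0 ∧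
      ∃ e ∈ B.O, a = a₀ * e ∧ ∃ e' ∈ B.O, a' = a₀ * e' := by
    rcases B.O.mem_or_inv_mem (a / a') with h | h
    · exact ⟨a', ha', har', hane', a / a', h, by field_simp, 1, one_mem _, (mul_one _).symm⟩
    · rw [inv_div] at h
      exact ⟨a, ha, har, hane, 1, one_mem _, (mul_one _).symm, a' / a, h, by field_simp⟩
  have hb1 : y ^ n * u = 1 + algebraMap k F a₀ * (algebraMap k F e * x) := by
    rw [← mul_assoc, ← map_mul, ← hee, ← hbx]; ring
  have hb1' : y' ^ n * u = 1 + algebraMap k F a₀ * (algebraMap k F e' * x') := by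
    rw [← mul_assoc, ← map_mul, ← hee', ← hbx']; ring
  have happ := fun N => exists_approx_chart (C := C) hn hyr hyD ha₀ ha₀r
    (mul_mem (algebraMap_mem_chart t he) hx) hb1 N
  have happ' := fun N => exists_approx_chart (C := C) hn hyr' hyD' ha₀ ha₀r
    (mul_mem (algebraMap_mem_chart t⁻¹ he') hx') hb1' N
  -- the modules
  obtain ⟨s, hs, as, has0, hsgen⟩ := exists_lattice hB hC ht ht0 D
  obtain ⟨s', hs', as', has0', hsgen'⟩ := exists_lattice hB hC ht.inv (inv_ne_zero ht0) D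
  rw [genNeg_eq ht0 s'] at hsgen'
  set s₁ := s.image fun x => as' • x with hs₁
  have hTO : ∀ i, t ∈ (C i).O := ht.mem
  have hTO' : ∀ i, t⁻¹ ∈ (C i).O := ht.inv.mem
  have hs₁m : ∀ y ∈ s₁, InL t D y ∧ ∀ i, y ∈ (C i).O := by
    intro y hy
    obtain ⟨z, hz, rfl⟩ := Finset.mem_image.mp hy
    rw [Algebra.smul_def]
    exact ⟨(hs z hz).1.mul_aff (Fermat.Agent.GoodRed.algebraMap_mem_affineRing t (as' : k)),
      fun i => mul_mem ((C i).algebraMap_mem _ as'.2) ((hs z hz).2 i)⟩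
  set A : B.O := as' * as with hA
  have hA0 : A ≠ 0 := mul_ne_zero has0' has0
  have hgen1 : ∀ x, InL t D x → (∀ i, x ∈ (C i).O) → A • x ∈ genPos B.O (mulE k t ht0) s₁ := by
    intro x hx hxO
    rw [hA, mul_smul]
    exact smul_mem_genPos_image ht0 s as' (hsgen x hx hxO)
  have hgen2 : ∀ x, InL t⁻¹ D x → (∀ i, x ∈ (C i).O) →
      A • x ∈ genNeg B.O (mulE k t ht0) s' := by
    intro x hx hxO
    rw [hA, mul_comm, mul_smul]
    exact Submodule.smul_mem _ _ (hsgen' x hx hxO)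
  by_cases h0 : Submodule.span k (genPos B.O (mulE k t ht0) s₁ : Set F) ⊓
      Submodule.span k (genNeg B.O (mulE k t ht0) s' : Set F) = ⊥
  swap
  · obtain ⟨x, hx, hx0⟩ := Submodule.exists_mem_ne_zero_of_ne_bot h0
    refine isPow_of_global hn0 hu0 hD hx0 (inL_of_mem_span ht0 (fun y hy => (hs₁m y hy).1) hx.1) ?_
    have h1 := hx.2
    rw [← genNeg_eq ht0 s'] at h1
    exact inL_of_mem_span (inv_ne_zero ht0) (fun y hy => (hs' y hy).1) h1
  exfalso
  have h1 : ∀ x ∈ s₁, ∃ j : ℕ, ((mulE k t ht0) ^ (-(j : ℤ))) x ∈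
      genNeg B.O (mulE k t ht0) s' := by
    intro x hx
    obtain ⟨z, hz, rfl⟩ := Finset.mem_image.mp hx
    obtain ⟨N, hN⟩ := exists_pow_inL (inv_ne_zero ht0) D z (fun w _ hw => by
      rw [inv_inv] at hw
      exact (hs z hz).1 w hw)
    refine ⟨N, ?_⟩
    rw [mulE_zpow_apply, zpow_neg, zpow_natCast, ← inv_pow, mul_smul_comm]
    exact hsgen' _ hN fun i => mul_mem (pow_mem (hTO' i) N) ((hs z hz).2 i)
  obtain ⟨c, hc0, hc⟩ := h1_bound (R := B.O) (K := k) (mulE k t ht0) s₁ s' h1 h0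
  have hcK : (c : k) ≠ 0 := fun h => hc0 (Subtype.ext h)
  have hAK : (A : k) ≠ 0 := fun h => hA0 (Subtype.ext h)
  obtain ⟨N, hN, -⟩ := hB a₀ ha₀ ha₀r ((c : k) * A)⁻¹
  obtain ⟨p, cp, hpD, hpr, hcp, hpu⟩ := happ N
  obtain ⟨p', cp', hpD', hpr', hcp', hpu'⟩ := happ' N
  have ha₀N : a₀ ^ (N + 1) ≠ 0 := pow_ne_zero _ ha₀ne
  obtain ⟨z, hzO, hpp⟩ := exists_sub_eq hn hwinv hpr hpr' hu0 (pow_mem ha₀ (N + 1))
    (by rw [Res.r_pow ha₀, ha₀r, zero_pow (Nat.succ_ne_zero N)]) ha₀N hcp hcp' hpu hpu'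
  have hzall : A • z ∈ genAll B.O (mulE k t ht0) s₁ := by
    obtain ⟨M, hM⟩ := exists_pow_inL ht0 D z (fun v hv hv' => by
      have h3 : v.adicValuation p ≤ exp (D v) := inL_iff.1 hpD v hv
      have h4 : v.adicValuation p' ≤ exp (D v) := inL_iff.1 hpD' v hv'
      have h5 : v.adicValuation (p - p') ≤ exp (D v) :=
        (Valuation.map_sub _ _ _).trans (max_le h3 h4)
      rw [hpp, map_mul, val_algebraMap v ha₀N, one_mul] at h5
      rcases eq_or_ne z 0 with h6 | h6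
      · exact Or.inl h6
      · right
        rw [← neg_neg (D v), val_le_exp_iff v h6] at h5
        omega)
    have h2 := zpow_mem_genAll ht0 (hgen1 _ hM fun i => mul_mem (pow_mem (hTO i) M) (hzO i))
      (-(M : ℤ))
    rwa [zpow_neg, zpow_natCast, mul_smul_comm, ← mul_assoc,
      inv_mul_cancel₀ (pow_ne_zero _ ht0), one_mul] at h2
  obtain ⟨v, hv, hcv⟩ := hc ⟨a₀ ^ (N + 1), pow_mem ha₀ _⟩ (A • p) (hgen1 p hpD fun i => (hpr i).1)
    (A • p') (hgen2 p' hpD' fun i => (hpr' i).1) (A • z) hzall (by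
      rw [← smul_sub, hpp, Algebra.smul_def, Algebra.smul_def, Algebra.smul_def]
      show algebraMap k F (A : k) * (algebraMap k F (a₀ ^ (N + 1)) * z) =
        algebraMap k F (a₀ ^ (N + 1)) * (algebraMap k F (A : k) * z)
      ring)
  -- contradiction
  set i₀ : ι := Classical.arbitrary ι
  have hvO : v ∈ (C i₀).O := mem_O_of_genPos ht0 (hTO i₀) (fun y hy => (hs₁m y hy).2 i₀) hv
  have hpv : p = algebraMap k F a₀ * (algebraMap k F (a₀ ^ N * ((c : k) * A)⁻¹) * v) := by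
    rw [Algebra.smul_def, Algebra.smul_def, Algebra.smul_def] at hcv
    change algebraMap k F (c : k) * (algebraMap k F (A : k) * p) =
      algebraMap k F (a₀ ^ (N + 1)) * v at hcv
    have hcF : algebraMap k F ((c : k) * A) ≠ 0 := by
      simpa using And.intro hcK hAK
    apply mul_left_cancel₀ hcF
    rw [map_mul, mul_assoc, hcv]
    have : a₀ ^ (N + 1) = (c : k) * A * (a₀ * (a₀ ^ N * ((c : k) * A)⁻¹)) := by
      field_simp
      ring
    rw [this]
    simp only [map_mul]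
    ring
  have hpr0 : (C i₀).r p = 0 := by
    rw [hpv, Res.r_mul ((C i₀).algebraMap_mem _ ha₀) (mul_mem ((C i₀).algebraMap_mem _ hN) hvO),
      (C i₀).r_algebraMap_eq_zero ha₀ ha₀r, zero_mul]
  exact hwinv i₀ (by rw [← (hpr i₀).2, hpr0])

end Fermat.Agent.Models
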