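import Fermat.Agent.Models.LP
import Fermat.Agent.Models.KL

/-!
# Inertia acts unipotently on torsion classes
-/

set_option autoImplicit false
set_option linter.unusedSectionVars false
set_option linter.style.haveILetI false

noncomputable section

namespace Fermat.Agent.Models

open AlgebraicCurve Fermat.Agent.Curves Polynomial

open Fermat.Agent.GoodRed (InL)

variable {k κ : Type*} [Field k] [Field κ] {B : Res k κ} {F : Type*} [Field F] [Algebra k F]
  {ι : Type*} {𝓕 : ι → Type*} [∀ i, Field (𝓕 i)] [∀ i, Algebra κ (𝓕 i)]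
  {C : ∀ i, Comp B F (𝓕 i)}
  [IsAlgClosed k] [IsAlgClosed κ] [IsFunctionField k F] [∀ i, IsFunctionField κ (𝓕 i)]
  [Fintype ι] [DecidableEq ι] [Nonempty ι]

/-- places in the chart `t⁻¹` where `t⁻¹` does not vanish -/
theorem gen_inv_subset (hB : B.RankOne) (hC : Incomp C) {t : F} (ht : IsGood C t)
    {M : Ideal (chart C t⁻¹)}
    (hMt : (⟨t⁻¹, self_mem_chart ht.inv.mem⟩ : chart C t⁻¹) ∉ M)
    {P : Place k F} (hP : P ∈ gen t⁻¹ M) :
    ∃ N : Ideal (chart C t), IsPoint t N ∧ gen t⁻¹ M ⊆ gen t N := by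
  have ht0 : t ≠ 0 := by
    have := ht.transcendental
    rintro rfl; exact this isAlgebraic_zero
  -- all places in `gen t⁻¹ M` are integral for `t`
  have key : ∀ Q ∈ gen t⁻¹ M, t ∈ Q.toValuationSubring ∧ value Q t ∈ B.O ∧
      value Q t ≠ 0 ∧ B.r (value Q t) ≠ 0 := by
    intro Q hQ
    have h1 : B.r (value Q t⁻¹) ≠ 0 := fun h => hMt ((hQ.2.2 _).mpr h)
    have h2 : value Q t⁻¹ ≠ 0 := Res.ne_zero_of_r h1
    obtain ⟨h3, h4⟩ := value_inv' hQ.1 h2
    rw [inv_inv] at h3 h4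
    rw [h4]
    exact ⟨h3, Res.inv_mem_of_r h1, inv_ne_zero h2, Res.r_inv_ne_zero h1⟩
  obtain ⟨hP1, hP2, -, -⟩ := key P hP
  refine ⟨_, isPoint_evP hB hC ht P hP1 hP2, fun Q hQ => ?_⟩
  obtain ⟨hQ1, hQ2, hQ3, hQ4⟩ := key Q hQ
  refine ⟨hQ1, hQ2, fun x => ?_⟩
  have hPx : x ∈ RingHom.ker (evP hB hC ht P hP1 hP2) ↔ B.r (value P (x : F)) = 0 := Iff.rfl
  rw [hPx]
  obtain ⟨b, hb⟩ := exists_pole_bound ht.transcendental x.2.1
  have hxb : (x : F) * t⁻¹ ^ b ∈ chart C t⁻¹ :=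
    ⟨hb, fun i => mul_mem (x.2.2 i) (pow_mem (ht.inv.mem i) _)⟩
  have key2 : ∀ R ∈ gen t⁻¹ M, (B.r (value R (x : F)) = 0 ↔
      (⟨(x : F) * t⁻¹ ^ b, hxb⟩ : chart C t⁻¹) ∈ M) := by
    intro R hR
    obtain ⟨hR1, hR2, hR3, hR4⟩ := key R hR
    rw [hR.2.2]
    have h5 := value_inv' hR1 hR3
    show _ ↔ B.r (value R ((x : F) * t⁻¹ ^ b)) = 0
    rw [value_mul R (x.2.1 R hR1) (pow_mem h5.1 _), value_pow' R h5.1, h5.2,
      Res.r_mul (value_mem hB hC ht x.2 hR1 hR2) (pow_mem (Res.inv_mem_of_r hR4) _),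
      Res.r_pow (Res.inv_mem_of_r hR4), Res.r_inv hR4, mul_eq_zero,
      or_iff_left (pow_ne_zero _ (inv_ne_zero hR4))]
  rw [key2 P hP, key2 Q hQ]

theorem LP.inv (hB : B.RankOne) (hC : Incomp C) {t : F} (ht : IsGood C t)
    (hLP : ∀ M : Ideal (chart C t), IsPoint t M → LP C t M) {M : Ideal (chart C t⁻¹)}
    (hMt : (⟨t⁻¹, self_mem_chart ht.inv.mem⟩ : chart C t⁻¹) ∉ M) : LP C t⁻¹ M := by
  intro P hP
  obtain ⟨N, hN, hsub⟩ := gen_inv_subset hB hC ht hMt hP
  obtain ⟨h, h0, hh⟩ := hLP N hN P (hsub hP)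
  exact ⟨h, h0, fun Q hQ => hh Q (hsub hQ)⟩

/-- A semilinear automorphism compatible with the components (inertia type). -/
structure Inertial (C : ∀ i, Comp B F (𝓕 i)) (σ : F ≃+* F) (σ₀ : k ≃+* k)
    (s : Place k F ≃ Place k F) : Prop where
  map_const : ∀ a : k, σ (algebraMap k F a) = algebraMap k F (σ₀ a)
  unit : ∀ c : k, c ≠ 0 → B.r (σ₀ c / c) ≠ 0
  res : ∀ c ∈ B.O, B.r (σ₀ c) = B.r c
  mem : ∀ i, ∀ x ∈ (C i).O, σ x ∈ (C i).O
  r_eq : ∀ i, ∀ x ∈ (C i).O, (C i).r (σ x) = (C i).r x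
  ord : ∀ (P : Place k F) (x : F), (s P).ord (σ x) = P.ord x

namespace Inertial

variable {σ : F ≃+* F} {σ₀ : k ≃+* k} {s : Place k F ≃ Place k F}

omit [IsAlgClosed k] [IsAlgClosed κ] [IsFunctionField k F] [∀ i, IsFunctionField κ (𝓕 i)]
  [Fintype ι] [DecidableEq ι] [Nonempty ι]

theorem mem_base (h : Inertial C σ σ₀ s) {c : k} : σ₀ c ∈ B.O ↔ c ∈ B.O := by
  rcases eq_or_ne c 0 with rfl | hc
  · rw [map_zero]
  have h1 := h.unit c hc
  constructor
  · intro h2
    have e : c = (σ₀ c / c)⁻¹ * σ₀ c := by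
      have : σ₀ c ≠ 0 := by simpa using hc
      field_simp
    rw [e]
    exact mul_mem (Res.inv_mem_of_r h1) h2
  · intro h2
    have e : σ₀ c = (σ₀ c / c) * c := by field_simp
    rw [e]
    exact mul_mem (Res.mem_of_r_ne_zero h1) h2

/-- `σ x / x` is a unit with constant residue on every component -/
theorem exists_const (h : Inertial C σ σ₀ s) {x : F} (hx : x ≠ 0) (i : ι) :
    ∃ γ : κ, γ ≠ 0 ∧ (C i).r (σ x / x) = algebraMap κ (𝓕 i) γ := by
  obtain ⟨c, hc0, hc⟩ := (C i).exists_scale x hx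
  have hcF : algebraMap k F c ≠ 0 := by simpa using hc0
  have hσc : σ₀ c ≠ 0 := by simpa using hc0
  have hσcF : algebraMap k F (σ₀ c) ≠ 0 := by simpa using hσc
  have h1 : (C i).r (σ (algebraMap k F c * x)) = (C i).r (algebraMap k F c * x) :=
    h.r_eq i _ (Res.mem_of_r_ne_zero hc)
  have e : σ x / x = (σ (algebraMap k F c * x) / (algebraMap k F c * x)) *
      algebraMap k F (σ₀ c / c)⁻¹ := by
    rw [map_mul, h.map_const, map_inv₀, map_div₀]
    field_simp
  have h2 : (C i).r (σ (algebraMap k F c * x)) ≠ 0 := by rw [h1]; exact hc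
  have h3 : B.r (σ₀ c / c)⁻¹ ≠ 0 := Res.r_inv_ne_zero (h.unit c hc0)
  refine ⟨B.r (σ₀ c / c)⁻¹, h3, ?_⟩
  rw [e, Res.r_mul (Res.mem_of_r_ne_zero (Res.r_div_ne_zero h2 hc))
    (Res.mem_of_r_ne_zero ((C i).r_algebraMap_ne_zero h3)), Res.r_div (Res.mem_of_r_ne_zero h2) hc,
    h1, div_self hc, one_mul, (C i).r_algebraMap _ (Res.mem_of_r_ne_zero h3)]

theorem r_ne_zero (h : Inertial C σ σ₀ s) {x : F} (hx : x ≠ 0) (i : ι) :
    (C i).r (σ x / x) ≠ 0 := by
  obtain ⟨γ, hγ, h1⟩ := h.exists_const hx i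
  rw [h1]
  simpa using hγ

/-- `σ² x · x / (σ x)²` has residue one on every component -/
theorem r_two (h : Inertial C σ σ₀ s) {x : F} (hx : x ≠ 0) (i : ι) :
    (C i).r (σ (σ x / x) / (σ x / x)) = 1 := by
  have h1 := h.r_ne_zero hx i
  have h2 := h.r_eq i _ (Res.mem_of_r_ne_zero h1)
  rw [Res.r_div (h.mem i _ (Res.mem_of_r_ne_zero h1)) h1, h2, div_self h1]

end Inertial

omit [DecidableEq ι] [Nonempty ι] [∀ i, IsFunctionField κ (𝓕 i)] in
theorem Inertial.value_eq {σ : F ≃+* F} {σ₀ : k ≃+* k} {s : Place k F ≃ Place k F}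
    (h : Inertial C σ σ₀ s) {P : Place k F} {x : F} (hx : x ∈ P.toValuationSubring) :
    σ x ∈ (s P).toValuationSubring ∧ value (s P) (σ x) = σ₀ (value P x) := by
  have hmem : ∀ y : F, y ∈ P.toValuationSubring ↔ σ y ∈ (s P).toValuationSubring := by
    intro y
    rcases eq_or_ne y 0 with rfl | hy
    · simp [zero_mem]
    · have : σ y ≠ 0 := by simpa using hy
      rw [mem_iff_ord P hy, mem_iff_ord (s P) this, h.ord]
  refine ⟨(hmem x).mp hx, ?_⟩
  rw [value_eq_iff _ ((hmem x).mp hx)]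
  have h1 := value_spec P hx
  have e : σ x - algebraMap k F (σ₀ (value P x)) =
      σ (x - algebraMap k F (value P x)) := by
    rw [map_sub, h.map_const]
  rw [e, val_lt_one_iff, h.ord]
  rw [val_lt_one_iff] at h1
  rcases h1 with h1 | h1
  · left; rw [h1, map_zero]
  · exact Or.inr h1

/-- inertial automorphisms preserve the places specialising to a point -/
theorem Inertial.gen_iff (hB : B.RankOne) (hC : Incomp C) {t : F} (ht : IsGood C t)
    (hS : Surj C t) {σ : F ≃+* F} {σ₀ : k ≃+* k} {s : Place k F ≃ Place k F}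
    (h : Inertial C σ σ₀ s) (hσt : σ t = t) {M : Ideal (chart C t)} (hM : IsPoint t M)
    {P : Place k F} : P ∈ gen t M → s P ∈ gen t M := by
  intro hP
  obtain ⟨i, 𝔭, h𝔭⟩ := exists_spec hB hC ht hS hM.isMaximal fun a ha ha0 => hM.small_mem ha ha0
  have h1 := h.value_eq hP.1
  rw [hσt] at h1
  -- the chart is stable
  have hst : ∀ x : F, x ∈ chart C t → ∃ y ∈ chart C t, σ y = x := by
    intro x hx
    refine ⟨σ.symm x, ⟨fun Q hQ => ?_, fun i => ?_⟩, σ.apply_symm_apply x⟩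
    · have h2 := (h.value_eq hQ).1
      rw [hσt] at h2
      have h3 := hx.1 _ h2
      rcases eq_or_ne x 0 with h4 | h4
      · rw [h4, map_zero]; exact zero_mem _
      · have h5 : σ.symm x ≠ 0 := by simpa using h4
        rw [mem_iff_ord _ h4] at h3
        rw [mem_iff_ord _ h5, ← h.ord, σ.apply_symm_apply]
        exact h3
    · -- `σ⁻¹` preserves the valuation rings
      by_contra hne
      have h5 := Res.inv_mem_of_notMem hne
      have h6 := Res.r_inv_of_notMem hne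
      have h7 := h.mem i _ h5
      have h8 := h.r_eq i _ h5
      rw [map_inv₀, σ.apply_symm_apply] at h7 h8
      rw [h6] at h8
      have hx0 : x ≠ 0 := by
        rintro rfl
        rw [map_zero] at hne
        exact hne (zero_mem _)
      exact Res.inv_notMem (inv_ne_zero hx0) h8 h7 (by rw [inv_inv]; exact hx.2 i)
  refine ⟨h1.1, by rw [h1.2, h.mem_base]; exact hP.2.1, fun x => ?_⟩
  obtain ⟨y, hy, hyx⟩ := hst x x.2
  have h2 : x ∈ M ↔ (⟨y, hy⟩ : chart C t) ∈ M := by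
    rw [h𝔭.2, h𝔭.2]
    show value 𝔭 ((C i).r (x : F)) = 0 ↔ value 𝔭 ((C i).r y) = 0
    rw [← hyx, h.r_eq i y (hy.2 i)]
  have hyP := hy.1 P hP.1
  rw [h2, hP.2.2, ← hyx, (h.value_eq hyP).2]
  show B.r (value P y) = 0 ↔ _
  rw [h.res _ (value_mem hB hC ht hy hP.1 hP.2.1)]

/-- iterates of an automorphism of finite-support data -/
theorem Inertial.gen_iff' (hB : B.RankOne) (hC : Incomp C) {t : F} (ht : IsGood C t)
    (hS : Surj C t) {σ : F ≃+* F} {σ₀ : k ≃+* k} {s : Place k F ≃ Place k F}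
    (h : Inertial C σ σ₀ s) (h' : Inertial C σ.symm σ₀.symm s.symm)
    (hσt : σ t = t) {M : Ideal (chart C t)} (hM : IsPoint t M)
    {P : Place k F} : P ∈ gen t M ↔ s P ∈ gen t M := by
  refine ⟨h.gen_iff hB hC ht hS hσt hM, fun hP => ?_⟩
  have := h'.gen_iff hB hC ht hS (by rw [← hσt, σ.symm_apply_apply, hσt]) hM hP
  rwa [s.symm_apply_apply] at this

/-- **Unipotence of inertia on torsion classes.** -/
theorem isPow_inertia [CharZero k] (hB : B.RankOne) (hC : Incomp C) {t : F}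
    (ht : IsGood C t) (hS : Surj C t) (hS' : Surj C t⁻¹) {n : ℕ} (hn : (n : κ) ≠ 0)
    (hLP : ∀ M : Ideal (chart C t), IsPoint t M → LP C t M)
    (hLP' : ∀ M : Ideal (chart C t⁻¹), IsPoint t⁻¹ M → LP C t⁻¹ M)
    {σ : F ≃+* F} {σ₀ : k ≃+* k} {s : Place k F ≃ Place k F}
    (h : Inertial C σ σ₀ s) (h' : Inertial C σ.symm σ₀.symm s.symm) (hσt : σ t = t)
    {u : F} (hu : u ≠ 0) (hdiv : ∀ P : Place k F, (n : ℤ) ∣ P.ord u) :
    ∃ f : F, σ (σ u / u) / (σ u / u) = f ^ n := by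
  classical
  have hn0 : n ≠ 0 := by rintro rfl; simp at hn
  have hnZ : (n : ℤ) ≠ 0 := by exact_mod_cast hn0
  obtain ⟨D, hD⟩ : ∃ D : Divisor k F, ∀ P, P.ord u = n * D P := by
    choose d hd using hdiv
    refine ⟨Finsupp.ofSupportFinite d ((finite_support (k := k) u).subset fun P hP => ?_), hd⟩
    rw [Function.mem_support] at hP ⊢
    rw [hd]
    exact mul_ne_zero hnZ hP
  -- orders of second differences
  have hord : ∀ (x : F), x ≠ 0 → ∀ P : Place k F, P.ord (σ (σ x / x) / (σ x / x)) =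
      (s.symm (s.symm P)).ord x - 2 * (s.symm P).ord x + P.ord x := by
    intro x hx P
    have hσx : σ x ≠ 0 := by simpa using hx
    have hσσx : σ (σ x) ≠ 0 := by simpa using hσx
    have h1 : ∀ y : F, P.ord (σ y) = (s.symm P).ord y := by
      intro y
      have := h.ord (s.symm P) y
      rwa [s.apply_symm_apply] at this
    have h2 : ∀ y : F, (s.symm P).ord (σ y) = (s.symm (s.symm P)).ord y := by
      intro y
      have := h.ord (s.symm (s.symm P)) y
      rwa [s.apply_symm_apply] at this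
    rw [map_div₀, div_div_div_eq, div_eq_mul_inv, P.ord_mul (mul_ne_zero hσσx hx)
      (inv_ne_zero (mul_ne_zero hσx hσx)), P.ord_inv, P.ord_mul hσσx hx, P.ord_mul hσx hσx, h1, h1,
      h2]
    ring
  let D₂ : Divisor k F := Finsupp.mapDomain s (Finsupp.mapDomain s D) - 2 • Finsupp.mapDomain s D + D
  have hmap : ∀ (E : Divisor k F) (P : Place k F), Finsupp.mapDomain s E P = E (s.symm P) := by
    intro E P
    conv_lhs => rw [← s.apply_symm_apply P]
    rw [Finsupp.mapDomain_apply s.injective]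
  have hD₂ : ∀ P, D₂ P = D (s.symm (s.symm P)) - 2 * D (s.symm P) + D P := by
    intro P
    show (Finsupp.mapDomain s (Finsupp.mapDomain s D) - 2 • Finsupp.mapDomain s D + D) P = _
    rw [Finsupp.add_apply, Finsupp.sub_apply, Finsupp.smul_apply, hmap, hmap, hmap]
    rfl
  have hu2 : ∀ i, (C i).r (σ (σ u / u) / (σ u / u)) = 1 := fun i => h.r_two hu i
  have hloc : ∀ {τ : F} (hτ : IsGood C τ) (_ : Surj C τ) (_ : σ τ = τ)
      (_ : ∀ M : Ideal (chart C τ), IsPoint τ M → LP C τ M),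
      ∀ M : Ideal (chart C τ), IsPoint τ M → LocData C τ D₂ (fun _ => 1) M := by
    intro τ hτ hSτ hστ hLPτ M hM
    obtain ⟨g, hg0, hg⟩ := (hLPτ M hM).exists_ord D
    have hg2 : ∀ i, (C i).r (σ (σ g / g) / (σ g / g)) = 1 := fun i => h.r_two hg0 i
    have hs' : ∀ P ∈ gen τ M, s.symm P ∈ gen τ M := by
      intro P hP
      rw [h.gen_iff' hB hC hτ hSτ h' hστ hM, s.apply_symm_apply]
      exact hP
    have hne : σ (σ g / g) / (σ g / g) ≠ 0 := by
      refine Res.ne_zero_of_r (C := (C (Classical.arbitrary ι)).toRes) ?_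
      rw [hg2]; exact one_ne_zero
    refine ⟨σ (σ g / g) / (σ g / g), hne, fun i _ => by rw [hg2]; exact one_ne_zero,
      fun P hP => ?_, 1, fun i 𝔭 _ => ?_⟩
    · rw [hord g hg0, hD₂, hg P hP, hg _ (hs' P hP), hg _ (hs' _ (hs' P hP))]
    · rw [hg2 i, div_one]
      exact ⟨one_mem _, value_one' 𝔭⟩
  refine isPow_of_residues hB hC ht hS hS' hn (fun i => by rw [hu2 i]; exact one_ne_zero)
    (fun _ => 1) (fun i => by rw [hu2 i, one_pow]) (D := D₂) (fun P => ?_)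
    (hloc ht hS hσt hLP) (hloc ht.inv hS' (by rw [map_inv₀, hσt]) hLP')
  rw [hord u hu, hD₂, hD, hD, hD]
  ring

end Fermat.Agent.Models
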