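import Fermat.Agent.PicFlat.RRDim
import Fermat.Agent.GoodRed.S18Core

/-!
# Torsion bound for divisor classes fixed by Frobenius
-/

set_option autoImplicit false
set_option linter.unusedSectionVars false

noncomputable section

namespace Fermat.Agent.Models

open AlgebraicCurve Fermat.Agent.Curves Fermat.Agent.GoodRed Fermat.Agent.PicFlat

variable {κ E : Type*} [Field κ] [Field E] [Algebra κ E] [IsFunctionField κ E] [IsAlgClosed κ]

/-- the values of a function fixed by Frobenius at a fixed place -/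
theorem finite_fixed {Q : ℕ} (hQ : 2 ≤ Q) {τ : E ≃+* E}
    (hτ : ∀ c : κ, τ (algebraMap κ E c) = algebraMap κ E (c ^ Q)) {s : Place κ E ≃ Place κ E}
    (hs : ∀ P x, (s P).ord (τ x) = P.ord x) {j : E} (hj : Transcendental κ j) (hτj : τ j = j) :
    {P | s P = P}.Finite := by
  have hj' : Transcendental κ j⁻¹ := fun h => hj (by simpa using h.inv)
  refine ((finite_zeros (k := κ) j⁻¹).union (finite_zeros (k := κ) (j ^ Q - j))).subset ?_
  intro P hP
  have hP' : s P = P := hP
  have hj0 : j ≠ 0 := by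
    rintro rfl
    exact hj isAlgebraic_zero
  by_cases h0 : 0 ≤ P.ord j
  · right
    obtain ⟨c, hc⟩ := exists_residue P ((mem_iff_val P).mp ((mem_iff_ord P hj0).mpr h0))
    have h1 : P.adicValuation (j - algebraMap κ E (c ^ Q)) < 1 := by
      rw [val_lt_one_iff] at hc ⊢
      rcases hc with hc | hc
      · exfalso
        exact hj (by rw [sub_eq_zero.mp hc]; exact isAlgebraic_algebraMap c)
      · right
        have h2 := hs P (j - algebraMap κ E c)
        rw [map_sub, hτj, hτ, hP'] at h2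
        rw [h2]
        exact hc
    have h3 : c = c ^ Q := by
      by_contra hne
      have h4 : P.adicValuation (algebraMap κ E (c ^ Q - c)) < 1 := by
        have e : algebraMap κ E (c ^ Q - c) = (j - algebraMap κ E c) -
            (j - algebraMap κ E (c ^ Q)) := by rw [map_sub]; ring
        rw [e]
        exact lt_of_le_of_lt (Valuation.map_sub _ _ _) (max_lt hc h1)
      rw [val_algebraMap P (sub_ne_zero.mpr (Ne.symm hne))] at h4
      exact lt_irrefl _ h4
    have h5 : P.adicValuation (j ^ Q - j) < 1 := by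
      have e : j ^ Q - j = (j ^ Q - algebraMap κ E c ^ Q) - (j - algebraMap κ E c) := by
        rw [← map_pow, ← h3]; ring
      rw [e]
      refine lt_of_le_of_lt (Valuation.map_sub _ _ _) (max_lt ?_ hc)
      obtain ⟨d, hd⟩ := sub_dvd_pow_sub_pow
        (⟨j, (mem_iff_ord P hj0).mpr h0⟩ : P.toValuationSubring)
        ⟨algebraMap κ E c, P.algebraMap_mem' c⟩ Q
      have hd' := congrArg Subtype.val hd
      change j ^ Q - algebraMap κ E c ^ Q = (j - algebraMap κ E c) * d at hd'
      rw [hd', map_mul]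
      calc P.adicValuation (j - algebraMap κ E c) * P.adicValuation (d : E)
          ≤ P.adicValuation (j - algebraMap κ E c) * 1 := by
            gcongr
            exact (mem_iff_val P).mp d.2
        _ < 1 := by rw [mul_one]; exact hc
    rw [val_lt_one_iff] at h5
    refine h5.resolve_left fun h6 => hj ?_
    refine ⟨Polynomial.X ^ Q - Polynomial.X, ?_, by simpa using h6⟩
    intro h7
    have h8 := congrArg (fun p => Polynomial.coeff p Q) h7
    simp only [Polynomial.coeff_sub, Polynomial.coeff_X_pow_self, Polynomial.coeff_zero,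
      Polynomial.coeff_X, if_neg (show ¬ 1 = Q by omega)] at h8
    simp at h8
  · left
    show 0 < P.ord j⁻¹
    rw [P.ord_inv]
    omega

theorem iter_ord {τ : E ≃+* E} {s : Place κ E ≃ Place κ E}
    (hs : ∀ P x, (s P).ord (τ x) = P.ord x) (i : ℕ) (P : Place κ E) (x : E) :
    ((s ^ i) P).ord ((τ ^ i) x) = P.ord x := by
  induction i generalizing P x with
  | zero => rfl
  | succ i ih =>
    rw [pow_succ, pow_succ]
    show ((s ^ i) (s P)).ord ((τ ^ i) (τ x)) = _
    rw [ih, hs]

theorem iter_const {Q : ℕ} {τ : E ≃+* E}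
    (hτ : ∀ c : κ, τ (algebraMap κ E c) = algebraMap κ E (c ^ Q)) (i : ℕ) (c : κ) :
    (τ ^ i) (algebraMap κ E c) = algebraMap κ E (c ^ (Q ^ i)) := by
  induction i generalizing c with
  | zero => rw [pow_zero, pow_zero, pow_one]; rfl
  | succ i ih =>
    rw [pow_succ]
    show (τ ^ i) (τ _) = _
    rw [hτ, ih, ← pow_mul, ← pow_succ']

theorem iter_fix {τ : E ≃+* E} {j : E} (hτj : τ j = j) (i : ℕ) : (τ ^ i) j = j := by
  induction i with
  | zero => rfl
  | succ i ih =>
    rw [pow_succ]
    show (τ ^ i) (τ _) = _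
    rw [hτj, ih]

/-- fixed effective divisors of bounded degree -/
theorem finite_effective {s : Place κ E ≃ Place κ E}
    (hfin : ∀ i : ℕ, 0 < i → {P | (s ^ i) P = P}.Finite) (g : ℕ) :
    {D : Divisor κ E | 0 ≤ D ∧ Divisor.degree D ≤ g ∧ ∀ P, D (s P) = D P}.Finite := by
  classical
  have hS : (⋃ i ∈ Finset.Icc 1 g, {P : Place κ E | (s ^ i) P = P}).Finite :=
    Set.Finite.biUnion (Finset.finite_toSet _) fun i hi =>
      hfin i (by rw [Finset.mem_coe, Finset.mem_Icc] at hi; omega)
  set B : Divisor κ E := ∑ P ∈ hS.toFinset, Finsupp.single P (g : ℤ) with hB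
  have hBP : ∀ P, B P = if P ∈ hS.toFinset then (g : ℤ) else 0 := by
    intro P
    rw [hB, Finsupp.finsetSum_apply]
    simp only [Finsupp.single_apply]
    rw [Finset.sum_ite_eq' hS.toFinset P (fun _ => (g : ℤ))]
  refine (Set.finite_Icc (0 : Divisor κ E) B).subset ?_
  rintro D ⟨h0, hdeg, hinv⟩
  refine ⟨h0, fun P => ?_⟩
  have hsum : ∀ T : Finset (Place κ E), ∑ P ∈ T, D P ≤ g := by
    intro T
    refine le_trans ?_ hdeg
    rw [degree_eq_sum, Finsupp.sum]
    calc ∑ P ∈ T, D P ≤ ∑ P ∈ T ∪ D.support, D P :=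
          Finset.sum_le_sum_of_subset_of_nonneg Finset.subset_union_left fun P _ _ => h0 P
      _ = ∑ P ∈ D.support, D P := by
          symm
          refine Finset.sum_subset Finset.subset_union_right fun P _ hP => ?_
          simpa using hP
  have hiter : ∀ (i : ℕ), D ((s ^ i) P) = D P := by
    intro i
    induction i with
    | zero => rfl
    | succ i ih =>
      rw [pow_succ']
      show D (s ((s ^ i) P)) = _
      rw [hinv, ih]
  rw [hBP]
  have hle : D P ≤ g := by
    have := hsum {P}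
    rwa [Finset.sum_singleton] at this
  split_ifs with hmem
  · exact hle
  · by_contra hpos
    push Not at hpos
    apply hmem
    rw [Set.Finite.mem_toFinset]
    simp only [Set.mem_iUnion, Finset.mem_Icc, Set.mem_ofPred_eq, exists_prop]
    by_contra hcon
    push Not at hcon
    have hinj : Set.InjOn (fun i : ℕ => (s ^ i) P) (Finset.range (g + 1)) := by
      have key : ∀ a b : ℕ, a < b → b ≤ g → (s ^ a) P ≠ (s ^ b) P := by
        intro a b hab hb he
        refine hcon (b - a) ⟨by omega, by omega⟩ ?_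
        have h1 : (s ^ b) P = (s ^ a) ((s ^ (b - a)) P) := by
          rw [← Equiv.Perm.mul_apply, ← pow_add]
          congr 3
          omega
        rw [h1] at he
        exact ((s ^ a).injective he).symm
      intro a ha b hb he
      rw [Finset.mem_coe, Finset.mem_range] at ha hb
      rcases lt_trichotomy a b with h | h | h
      · exact absurd he (key a b h (by omega))
      · exact h
      · exact absurd he.symm (key b a h (by omega))
    have h1 := hsum ((Finset.range (g + 1)).image fun i : ℕ => (s ^ i) P)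
    rw [Finset.sum_image hinj, Finset.sum_congr rfl fun i _ => hiter i, Finset.sum_const,
      Finset.card_range, nsmul_eq_mul] at h1
    push_cast at h1
    nlinarith

theorem eq_const_mul {x y : E} (hx : x ≠ 0) (hy : y ≠ 0) (h : ∀ P : Place κ E, P.ord x = P.ord y) :
    ∃ c : κ, c ≠ 0 ∧ x = algebraMap κ E c * y := by
  obtain ⟨c, hc⟩ := exists_const_of_ord_zero (k := κ) (x := x / y) fun P => by
    rw [ord_div P hx hy, h P, sub_self]
  refine ⟨c, ?_, by rw [← hc, div_mul_cancel₀ _ hy]⟩
  rintro rfl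
  rw [map_zero] at hc
  exact div_ne_zero hx hy hc

/-- one dimensional Riemann–Roch spaces -/
theorem exists_ell_one {g c : ℤ} (h : RR κ E g c) {D : Divisor κ E} (hD : Divisor.degree D = 0)
    (P₀ : Place κ E) : ∃ m : ℕ, m ≤ g.toNat ∧ ell (D + Finsupp.single P₀ (m : ℤ)) = 1 := by
  classical
  have hex : ∃ m : ℕ, 1 ≤ ell (D + Finsupp.single P₀ (m : ℤ)) := by
    refine ⟨g.toNat, ?_⟩
    have h1 := h.le (D + Finsupp.single P₀ (g.toNat : ℤ))
    rw [map_add, hD, degree_single_one, zero_add] at h1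
    have h2 := Int.self_le_toNat g
    omega
  have hle : Nat.find hex ≤ g.toNat := by
    refine Nat.find_min' hex ?_
    have h1 := h.le (D + Finsupp.single P₀ (g.toNat : ℤ))
    rw [map_add, hD, degree_single_one, zero_add] at h1
    have h2 := Int.self_le_toNat g
    omega
  refine ⟨Nat.find hex, hle, le_antisymm ?_ (Nat.find_spec hex)⟩
  set m := Nat.find hex with hm
  have h1 := ell_add_le (D + Finsupp.single P₀ ((m : ℤ) - 1)) (Finsupp.single P₀ 1) (by
    rw [Finsupp.single_nonneg]; norm_num)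
  rw [degree_single_one, add_assoc, ← Finsupp.single_add, sub_add_cancel] at h1
  have h2 : ell (D + Finsupp.single P₀ ((m : ℤ) - 1)) = 0 := by
    rcases Nat.eq_zero_or_pos m with h0 | hpos
    · apply ell_eq_zero
      rw [map_add, hD, degree_single_one, h0]
      norm_num
    · have h3 := Nat.find_min hex (m := m - 1) (by omega)
      rw [show ((m : ℤ) - 1) = ((m - 1 : ℕ) : ℤ) by omega]
      omega
  omega

theorem exists_scalar {D : Divisor κ E} (h : ell D = 1) {x y : E} (hx : x ≠ 0)
    (hxm : x ∈ riemannRochSpace D) (hym : y ∈ riemannRochSpace D) :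
    ∃ c : κ, y = algebraMap κ E c * x := by
  have h1 : Module.finrank κ (riemannRochSpace D) = 1 := h
  obtain ⟨c, hc⟩ := (finrank_eq_one_iff_of_nonzero' (⟨x, hxm⟩ : riemannRochSpace D)
    (fun h0 => hx (congrArg Subtype.val h0))).mp h1 ⟨y, hym⟩
  refine ⟨c, ?_⟩
  have h2 := congrArg Subtype.val hc
  rw [← Algebra.smul_def]
  exact h2.symm

theorem bound_fixed {Q : ℕ} (hQ : 2 ≤ Q) {τ : E ≃+* E}
    (hτ : ∀ c : κ, τ (algebraMap κ E c) = algebraMap κ E (c ^ Q)) {s : Place κ E ≃ Place κ E}
    (hs : ∀ P x, (s P).ord (τ x) = P.ord x) {j : E} (hj : Transcendental κ j) (hτj : τ j = j)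
    {P₀ : Place κ E} (hP₀ : s P₀ = P₀) :
    ∃ C : ℕ, 0 < C ∧ ∀ n : ℕ, 0 < n → ∀ a h : E, a ≠ 0 → h ≠ 0 →
      (∀ P : Place κ E, (n : ℤ) ∣ P.ord a) → τ a = a * h ^ n → ∃ x : E, x ≠ 0 ∧ a ^ C = x ^ n := by
  classical
  obtain ⟨g, c, hRR⟩ := exists_RR (k := κ) (F := E)
  have hfin : ∀ i : ℕ, 0 < i → {P | (s ^ i) P = P}.Finite := fun i hi =>
    finite_fixed (Q := Q ^ i) (by
      calc 2 ≤ Q := hQ
        _ = Q ^ 1 := (pow_one Q).symm
        _ ≤ Q ^ i := Nat.pow_le_pow_right (by omega) hi) (iter_const hτ i) (iter_ord hs i) hj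
      (iter_fix hτj i)
  have hS := finite_effective hfin g.toNat
  refine ⟨(hS.toFinset.card).factorial, Nat.factorial_pos _, ?_⟩
  intro n hn a h ha hh hdiv hτa
  have hn0 : (n : ℤ) ≠ 0 := by exact_mod_cast hn.ne'
  set D : Divisor κ E := (divisorOf (k := κ) a).mapRange (fun z => z / (n : ℤ)) (by simp) with hDdef
  have hD : ∀ P, (n : ℤ) * D P = P.ord a := by
    intro P
    rw [hDdef, Finsupp.mapRange_apply]
    exact Int.mul_ediv_cancel' (hdiv P)
  have hDdeg : Divisor.degree D = 0 := by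
    have h1 : (n : ℤ) • D = divisorOf a := by
      ext P
      rw [Finsupp.smul_apply, smul_eq_mul, hD, divisorOf_apply]
    have h2 := congrArg Divisor.degree h1
    rw [map_zsmul, degree_divisorOf, smul_eq_mul] at h2
    exact (mul_eq_zero.mp h2).resolve_left hn0
  have hDs : ∀ P, D (s.symm P) = D P + P.ord h := by
    intro P
    have h1 := hs (s.symm P) a
    rw [s.apply_symm_apply, hτa, P.ord_mul ha (pow_ne_zero _ hh), ord_pow, ← hD, ← hD] at h1
    have h2 : (n : ℤ) * (D P + P.ord h) = n * D (s.symm P) := by rw [← h1]; ring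
    exact (mul_left_cancel₀ hn0 h2).symm
  have hs0 : ∀ P, (Finsupp.single P₀ (1 : ℤ) : Divisor κ E) (s.symm P) =
      (Finsupp.single P₀ (1 : ℤ) : Divisor κ E) P := by
    intro P
    rw [Finsupp.single_apply, Finsupp.single_apply]
    have : (P₀ = s.symm P) ↔ (P₀ = P) := by
      rw [Equiv.eq_symm_apply, hP₀]
    simp only [this]
  choose m hm hell using fun k : ℕ => exists_ell_one hRR (D := k • D)
    (by rw [map_nsmul, hDdeg, smul_zero]) P₀
  choose f hf0 hf using fun k : ℕ => exists_mem_of_finrank_pos (k := κ)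
    (D := k • D + Finsupp.single P₀ (m k : ℤ)) (by
      have : Module.finrank κ (riemannRochSpace (k • D + Finsupp.single P₀ (m k : ℤ))) = 1 :=
        hell k
      omega)
  have hval : ∀ (k : ℕ) (P : Place κ E), (k • D + Finsupp.single P₀ (m k : ℤ)) P =
      k * D P + m k * (Finsupp.single P₀ (1 : ℤ) : Divisor κ E) P := by
    intro k P
    rw [Finsupp.add_apply, Finsupp.smul_apply, nsmul_eq_mul, Finsupp.single_apply,
      Finsupp.single_apply]
    split_ifs <;> simp
  set Ek : ℕ → Divisor κ E := fun k => divisorOf (f k) + (k • D + Finsupp.single P₀ (m k : ℤ))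
    with hEk
  have hEkv : ∀ k P, Ek k P = P.ord (f k) + (k * D P + m k *
      (Finsupp.single P₀ (1 : ℤ) : Divisor κ E) P) := by
    intro k P
    rw [← hval]
    rfl
  have hEdeg : ∀ k, Divisor.degree (Ek k) = m k := by
    intro k
    rw [hEk]
    simp only [map_add, degree_divisorOf, map_nsmul, hDdeg, smul_zero, zero_add,
      degree_single_one]
  have hEmem : ∀ k, Ek k ∈ {D : Divisor κ E | 0 ≤ D ∧ Divisor.degree D ≤ g.toNat ∧
      ∀ P, D (s P) = D P} := by
    intro k
    refine ⟨hf k, ?_, ?_⟩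
    · rw [hEdeg]
      exact_mod_cast hm k
    · set f' := τ (f k) * h ^ k with hf'
      have hf'0 : f' ≠ 0 := mul_ne_zero ((map_ne_zero _).mpr (hf0 k)) (pow_ne_zero _ hh)
      have hord : ∀ P, P.ord f' + (k * D P + m k * (Finsupp.single P₀ (1 : ℤ) : Divisor κ E) P) =
          Ek k (s.symm P) := by
        intro P
        rw [hEkv, hf', P.ord_mul ((map_ne_zero _).mpr (hf0 k)) (pow_ne_zero _ hh), ord_pow, hDs,
          hs0]
        have h1 := hs (s.symm P) (f k)
        rw [s.apply_symm_apply] at h1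
        rw [h1]
        ring
      obtain ⟨c, hc⟩ := exists_scalar (hell k) (x := f k) (y := f') (hf0 k)
        ((mem_iff_div (hf0 k)).mpr (hf k)) ((mem_iff_of_ne hf'0).mpr fun P => by
          rw [hval, hord]
          exact hf k _)
      have hc0 : c ≠ 0 := by
        rintro rfl
        rw [map_zero, zero_mul] at hc
        exact hf'0 hc
      intro P
      have h1 := hord (s P)
      rw [s.symm_apply_apply] at h1
      rw [← h1, hEkv, hc, (s P).ord_mul (by simpa using hc0) (hf0 k), ord_algebraMap, zero_add]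
  -- pigeonhole
  obtain ⟨k₁, hk₁, k₂, hk₂, hne, he⟩ := Finset.exists_ne_map_eq_of_card_lt_of_maps_to
    (s := Finset.range (hS.toFinset.card + 1)) (t := hS.toFinset) (f := Ek)
    (by rw [Finset.card_range]; omega) (fun k _ => by
      rw [Finset.mem_coe, Set.Finite.mem_toFinset]
      exact hEmem k)
  rw [Finset.mem_range] at hk₁ hk₂
  have main : ∀ k k' : ℕ, k < k' → k' ≤ hS.toFinset.card → Ek k = Ek k' →
      ∃ x : E, x ≠ 0 ∧ a ^ (hS.toFinset.card).factorial = x ^ n := by
    intro k k' hkk hk' he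
    have hmm : (m k : ℤ) = m k' := by rw [← hEdeg, ← hEdeg, he]
    have h1 : ∀ P : Place κ E, P.ord (a ^ (k' - k)) = P.ord ((f k / f k') ^ n) := by
      intro P
      rw [ord_pow, ord_pow, ord_div P (hf0 k) (hf0 k')]
      have h2 := DFunLike.congr_fun he P
      rw [hEkv, hEkv, hmm] at h2
      rw [← hD, Nat.cast_sub hkk.le]
      have h3 : P.ord (f k) - P.ord (f k') = ((k' : ℤ) - k) * D P := by linarith
      rw [h3]
      ring
    obtain ⟨c, hc0, hc⟩ := eq_const_mul (pow_ne_zero _ ha)
      (pow_ne_zero _ (div_ne_zero (hf0 k) (hf0 k'))) h1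
    obtain ⟨d, hd⟩ := IsAlgClosed.exists_pow_nat_eq c hn
    have hd0 : d ≠ 0 := by
      rintro rfl
      rw [zero_pow hn.ne'] at hd
      exact hc0 hd.symm
    obtain ⟨e, he'⟩ := Nat.dvd_factorial (show 0 < k' - k by omega)
      (show k' - k ≤ hS.toFinset.card by omega)
    refine ⟨(algebraMap κ E d * (f k / f k')) ^ e, pow_ne_zero _ (mul_ne_zero (by simpa using hd0)
      (div_ne_zero (hf0 k) (hf0 k'))), ?_⟩
    rw [he', pow_mul, hc, ← hd, map_pow, ← mul_pow, ← pow_mul, ← pow_mul, mul_comm n e]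
  rcases lt_or_gt_of_ne hne with hlt | hlt
  · exact main k₁ k₂ hlt (by omega) he
  · exact main k₂ k₁ hlt (by omega) he.symm

/-- **Divisor classes fixed by Frobenius have bounded order.** -/
theorem class_bound {Q : ℕ} (hQ : 2 ≤ Q) {τ : E ≃+* E}
    (hτ : ∀ c : κ, τ (algebraMap κ E c) = algebraMap κ E (c ^ Q)) {s : Place κ E ≃ Place κ E}
    (hs : ∀ P x, (s P).ord (τ x) = P.ord x) {j : E} (hj : Transcendental κ j) (hτj : τ j = j) :
    ∃ C : ℕ, 0 < C ∧ ∀ n : ℕ, 0 < n → ∀ a h : E, a ≠ 0 → h ≠ 0 →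
      (∀ P : Place κ E, (n : ℤ) ∣ P.ord a) → τ a = a * h ^ n → ∃ x : E, x ≠ 0 ∧ a ^ C = x ^ n := by
  obtain ⟨P, hP⟩ := exists_ord_pos_of_transcendental (k := κ) hj
  -- the orbit of `P` is contained in the zeros of `j`
  have horb : ∀ i : ℕ, (s ^ i) P ∈ {P : Place κ E | 0 < P.ord j} := by
    intro i
    show 0 < ((s ^ i) P).ord j
    have h1 := iter_ord hs i P j
    rw [iter_fix hτj] at h1
    rw [h1]
    exact hP
  have hfin := finite_zeros (k := κ) j
  obtain ⟨i, i', hne, he⟩ : ∃ i i' : ℕ, i ≠ i' ∧ (s ^ i) P = (s ^ i') P := by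
    by_contra hcon
    push Not at hcon
    exact Set.infinite_range_of_injective (f := fun i : ℕ => (s ^ i) P)
      (fun a b hab => by
        by_contra h
        exact hcon a b h hab) (hfin.subset (by rintro _ ⟨i, rfl⟩; exact horb i))
  have key : ∀ a b : ℕ, a < b → (s ^ a) P = (s ^ b) P → ∃ r : ℕ, 0 < r ∧ (s ^ r) P = P := by
    intro a b hab h
    refine ⟨b - a, by omega, ?_⟩
    have h1 : (s ^ b) P = (s ^ a) ((s ^ (b - a)) P) := by
      rw [← Equiv.Perm.mul_apply, ← pow_add]
      congr 3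
      omega
    rw [h1] at h
    exact ((s ^ a).injective h).symm
  obtain ⟨r, hr, hrP⟩ : ∃ r : ℕ, 0 < r ∧ (s ^ r) P = P := by
    rcases lt_or_gt_of_ne hne with h | h
    · exact key _ _ h he
    · exact key _ _ h he.symm
  have hQr : 2 ≤ Q ^ r := by
    calc 2 ≤ Q := hQ
      _ = Q ^ 1 := (pow_one Q).symm
      _ ≤ Q ^ r := Nat.pow_le_pow_right (by omega) hr
  obtain ⟨C, hC, H⟩ := bound_fixed hQr (iter_const hτ r) (iter_ord hs r) hj (iter_fix hτj r) hrP
  refine ⟨C, hC, fun n hn a h ha hh hdiv hτa => ?_⟩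
  have h1 : ∀ i : ℕ, ∃ h' : E, h' ≠ 0 ∧ (τ ^ i) a = a * h' ^ n := by
    intro i
    induction i with
    | zero => exact ⟨1, one_ne_zero, by rw [one_pow, mul_one]; rfl⟩
    | succ i ih =>
      obtain ⟨h', hh', e⟩ := ih
      refine ⟨h * τ h', mul_ne_zero hh ((map_ne_zero _).mpr hh'), ?_⟩
      rw [pow_succ']
      show τ ((τ ^ i) a) = _
      rw [e, map_mul, map_pow, hτa, mul_pow]
      ring
  obtain ⟨h', hh', e⟩ := h1 r
  exact H n hn a h' ha hh' hdiv e

end Fermat.Agent.Models
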