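import Fermat.Agent.Models.Toric

/-!
# Residues up to `n`-th powers, and the characteristic polynomial of Frobenius at new vectors
-/

set_option autoImplicit false
set_option linter.unusedSectionVars false
set_option linter.style.haveILetI false

noncomputable section

namespace Fermat.Agent.Models

open AlgebraicCurve Fermat.Agent.Curves

section RP

variable {k κ : Type*} [Field k] [Field κ] {B : Res k κ} {F 𝓕 : Type*} [Field F] [Algebra k F]
  [Field 𝓕] [Algebra κ 𝓕] (C : Bool → Comp B F 𝓕) (n : ℕ) (i : Bool)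

/-- the residue of `u` is `a` up to constants and `n`-th powers -/
def RP (u : F) (a : 𝓕) : Prop := a ≠ 0 ∧ ResPow C n i u a

variable {C n i} {u v : F} {a b : 𝓕}

namespace RP

theorem ne_zero (h : RP C n i u a) : a ≠ 0 := h.1

theorem mul (h : RP C n i u a) (h' : RP C n i v b) : RP C n i (u * v) (a * b) := by
  obtain ⟨ha, c, hc, x, hx, e⟩ := h
  obtain ⟨hb, c', hc', x', hx', e'⟩ := h'
  refine ⟨mul_ne_zero ha hb, c * c', mul_ne_zero hc hc', x * x', mul_ne_zero hx hx', ?_⟩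
  have h1 : (C i).r (algebraMap k F c * u) ≠ 0 := by
    rw [e]; exact mul_ne_zero ha (pow_ne_zero _ hx)
  have h2 : (C i).r (algebraMap k F c' * v) ≠ 0 := by
    rw [e']; exact mul_ne_zero hb (pow_ne_zero _ hx')
  rw [show algebraMap k F (c * c') * (u * v) = (algebraMap k F c * u) * (algebraMap k F c' * v) by
    rw [map_mul]; ring, Res.r_mul (Res.mem_of_r_ne_zero h1) (Res.mem_of_r_ne_zero h2), e, e']
  ring

theorem inv (h : RP C n i u a) : RP C n i u⁻¹ a⁻¹ := by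
  obtain ⟨ha, c, hc, x, hx, e⟩ := h
  refine ⟨inv_ne_zero ha, c⁻¹, inv_ne_zero hc, x⁻¹, inv_ne_zero hx, ?_⟩
  have h1 : (C i).r (algebraMap k F c * u) ≠ 0 := by
    rw [e]; exact mul_ne_zero ha (pow_ne_zero _ hx)
  rw [show algebraMap k F c⁻¹ * u⁻¹ = (algebraMap k F c * u)⁻¹ by rw [map_inv₀, mul_inv],
    Res.r_inv h1, e, mul_inv, inv_pow]

theorem div (h : RP C n i u a) (h' : RP C n i v b) : RP C n i (u / v) (a / b) := by
  rw [div_eq_mul_inv, div_eq_mul_inv]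
  exact h.mul h'.inv

theorem one : RP C n i (1 : F) 1 :=
  ⟨one_ne_zero, 1, one_ne_zero, 1, one_ne_zero, by
    rw [map_one, one_mul, Res.r_one, one_pow, one_mul]⟩

theorem pow (h : RP C n i u a) (m : ℕ) : RP C n i (u ^ m) (a ^ m) := by
  induction m with
  | zero => rw [pow_zero, pow_zero]; exact one
  | succ m ih => rw [pow_succ, pow_succ]; exact ih.mul h

theorem congr {x : 𝓕} (hx : x ≠ 0) (h : RP C n i u (a * x ^ n)) : RP C n i u a := by
  obtain ⟨ha, c, hc, y, hy, e⟩ := h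
  exact ⟨left_ne_zero_of_mul ha, c, hc, x * y, mul_ne_zero hx hy, by rw [e, mul_pow, mul_assoc]⟩

theorem of_pow {f : F} (hf : f ≠ 0) : RP C n i (f ^ n) 1 := by
  obtain ⟨c, hc, h⟩ := (C i).exists_scale f hf
  refine ⟨one_ne_zero, c ^ n, pow_ne_zero _ hc, _, h, ?_⟩
  rw [map_pow, ← mul_pow, Res.r_pow (Res.mem_of_r_ne_zero h), one_mul]

theorem mul_pow {f : F} (hf : f ≠ 0) (h : RP C n i u a) : RP C n i (u * f ^ n) a := by
  have := h.mul (of_pow (C := C) (n := n) (i := i) hf)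
  rwa [mul_one] at this

theorem exists_of_ne_zero (C : Bool → Comp B F 𝓕) (n : ℕ) (i : Bool) (hu : u ≠ 0) :
    ∃ a, RP C n i u a := by
  obtain ⟨c, hc, h⟩ := (C i).exists_scale u hu
  exact ⟨_, h, c, hc, 1, one_ne_zero, by rw [one_pow, mul_one]⟩

theorem uniq [IsAlgClosed κ] (hn : n ≠ 0) (h : RP C n i u a) (h' : RP C n i u b) :
    ∃ x : 𝓕, x ≠ 0 ∧ a = b * x ^ n := by
  obtain ⟨ha, c, hc, x, hx, e⟩ := h
  obtain ⟨hb, c', hc', x', hx', e'⟩ := h'
  have h1 : (C i).r (algebraMap k F c * u) ≠ 0 := by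
    rw [e]; exact mul_ne_zero ha (pow_ne_zero _ hx)
  have h2 : (C i).r (algebraMap k F c' * u) ≠ 0 := by
    rw [e']; exact mul_ne_zero hb (pow_ne_zero _ hx')
  have hu : u ≠ 0 := right_ne_zero_of_mul (Res.ne_zero_of_r h1)
  have hcF : algebraMap k F c' ≠ 0 := by simpa using hc'
  have h3 := Res.r_div_ne_zero h1 h2
  have e3 : algebraMap k F c * u / (algebraMap k F c' * u) = algebraMap k F (c / c') := by
    rw [map_div₀]; field_simp
  have h4 := Res.r_div (C := (C i).toRes) (Res.mem_of_r_ne_zero h1) h2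
  rw [e3] at h3 h4
  have h5 : c / c' ∈ B.O := (C i).algebraMap_mem_iff.mp (Res.mem_of_r_ne_zero h3)
  rw [(C i).r_algebraMap _ h5] at h3 h4
  have h6 : B.r (c / c') ≠ 0 := by simpa using h3
  obtain ⟨d, hd⟩ := IsAlgClosed.exists_pow_nat_eq (B.r (c / c')) (Nat.pos_of_ne_zero hn)
  have hd0 : d ≠ 0 := by
    rintro rfl
    rw [zero_pow hn] at hd
    exact h6 hd.symm
  have hd𝓕 : algebraMap κ 𝓕 d ≠ 0 := by simpa using hd0
  refine ⟨algebraMap κ 𝓕 d * x' / x, div_ne_zero (mul_ne_zero hd𝓕 hx') hx, ?_⟩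
  rw [← hd, map_pow, eq_div_iff h2, e, e'] at h4
  rw [div_pow, _root_.mul_pow]
  field_simp
  rw [← h4]
  ring

/-- values of `RP` at the same element -/
theorem of_eq (h : RP C n i u a) (e : u = v) (e' : a = b) : RP C n i v b := by
  subst e e'; exact h

end RP

end RP

section Chain

variable {k κ : Type*} [Field k] [Field κ] {B : Res k κ} {F 𝓕 : Type*} [Field F] [Algebra k F]
  [Field 𝓕] [Algebra κ 𝓕] {C : Bool → Comp B F 𝓕}
  [IsAlgClosed k] [IsAlgClosed κ] [IsFunctionField k F] [IsFunctionField κ 𝓕]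

/-- the multiplicative operators `U` and `Φ` and their effect on residues -/
structure Chain (C : Bool → Comp B F 𝓕) (n q : ℕ) (U : F → F) (Φ : F ≃+* F) (φ : 𝓕 ≃+* 𝓕) :
    Prop where
  U_true : ∀ {u : F} {a : 𝓕}, RP C n true u a → RP C n true (U u) (φ a)
  U_false : ∀ {u : F} {a b : 𝓕}, RP C n true u a → RP C n false u b →
    RP C n false (U u) (φ.symm b ^ q * a ^ (q - 1))
  Φ_res : ∀ {i : Bool} {u : F} {a : 𝓕}, RP C n i u a → RP C n i (Φ u) (φ a)
  U_mul : ∀ u v : F, U (u * v) = U u * U v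
  U_one : U 1 = 1
  U_Φ : ∀ u : F, U (Φ u) = Φ (U u)

variable {n q : ℕ} {U : F → F} {Φ : F ≃+* F} {φ : 𝓕 ≃+* 𝓕}

namespace Chain

theorem U_pow (H : Chain C n q U Φ φ) (u : F) (m : ℕ) : U (u ^ m) = U u ^ m := by
  induction m with
  | zero => rw [pow_zero, pow_zero, H.U_one]
  | succ m ih => rw [pow_succ, pow_succ, H.U_mul, ih]

theorem U_div (H : Chain C n q U Φ φ) (u v : F) (hv : v ≠ 0) : U (u / v) = U u / U v := by
  have h1 : U v * U v⁻¹ = 1 := by rw [← H.U_mul, mul_inv_cancel₀ hv, H.U_one]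
  rw [div_eq_mul_inv, H.U_mul, eq_inv_of_mul_eq_one_right h1, ← div_eq_mul_inv]

theorem isPow [CharZero k] (H : Chain C n q U Φ φ) {t : F} (hm : NodeModel C t)
    {σ₀ : k ≃+* k} {τ₀ : κ ≃+* κ} {s : Place k F ≃ Place k F} {s' : Place κ 𝓕 ≃ Place κ 𝓕}
    (h : Frobenial C (q ^ 2) (Φ.trans Φ) σ₀ (φ.trans φ) τ₀ s s')
    (ht : Φ t = t)
    (hfix : ∀ (M : Ideal (chart C t)) (𝔭₁ 𝔭₂ : Place κ 𝓕), 𝔭₁ ∈ spec t M true →
      𝔭₂ ∈ spec t M false → s' 𝔭₁ = 𝔭₁ ∧ s' 𝔭₂ = 𝔭₂) (hn : (n : κ) ≠ 0)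
    {u f : F} (hu : u ≠ 0) (hf : f ≠ 0) (hU : U (U u) = u * f ^ n)
    (hdiv : ∀ P : Place k F, (n : ℤ) ∣ P.ord u) :
    ∀ v w, v = Φ (Φ u) / u → w = Φ (Φ v) / v ^ (q ^ 2) →
      ∃ g : F, Φ (Φ w) / w ^ (q ^ 2) = g ^ n := by
  rintro v w hv hw
  have hn0 : n ≠ 0 := by rintro rfl; simp at hn
  have hΦ0 : ∀ {x : F}, x ≠ 0 → Φ x ≠ 0 := fun hx => by simpa using hx
  have hφ0 : ∀ {x : 𝓕}, x ≠ 0 → φ x ≠ 0 := fun hx => by simpa using hx
  have hv0 : v ≠ 0 := by rw [hv]; exact div_ne_zero (hΦ0 (hΦ0 hu)) hu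
  have hw0 : w ≠ 0 := by rw [hw]; exact div_ne_zero (hΦ0 (hΦ0 hv0)) (pow_ne_zero _ hv0)
  -- the first component
  obtain ⟨a, ha⟩ := RP.exists_of_ne_zero C n true hu
  obtain ⟨x, hx, e1⟩ := RP.uniq hn0 (H.U_true (H.U_true ha)) ((ha.mul_pow hf).of_eq hU.symm rfl)
  have hv1 : RP C n true v 1 := by
    have h1 := (H.Φ_res (H.Φ_res ha)).div ha
    refine RP.congr (x := x) hx (h1.of_eq hv.symm ?_)
    rw [e1]
    have := ha.ne_zero
    field_simp
  have hw1 : RP C n true w 1 := by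
    have h1 := (H.Φ_res (H.Φ_res hv1)).div (hv1.pow (q ^ 2))
    refine h1.of_eq hw.symm ?_
    rw [map_one, map_one, one_pow, div_one]
  -- the second component
  have hUv : U (U v) = v * (Φ (Φ f) / f) ^ n := by
    rw [hv, H.U_div _ _ hu, H.U_div _ _ (by
      intro h0
      rw [h0] at hU
      have h1 : U 0 = 0 := by
        have h2 := H.U_mul (0 : F) 0
        rw [mul_zero] at h2
        have h3 := H.U_mul u 0
        rw [mul_zero, h0, zero_mul] at h3
        exact h3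
      rw [h1] at hU
      exact mul_ne_zero hu (pow_ne_zero _ hf) hU.symm), H.U_Φ, H.U_Φ, H.U_Φ, H.U_Φ, hU]
    rw [map_mul, map_mul, map_pow, map_pow, div_pow]
    field_simp
  obtain ⟨b, hb⟩ := RP.exists_of_ne_zero C n false hv0
  have h2 := H.U_false hv1 hb
  rw [one_pow, mul_one] at h2
  have h3 := H.U_false (H.U_true hv1) h2
  rw [map_one, one_pow, mul_one] at h3
  have hf0 : Φ (Φ f) / f ≠ 0 := div_ne_zero (hΦ0 (hΦ0 hf)) hf
  obtain ⟨y, hy, e2⟩ := RP.uniq hn0 h3 ((hb.mul_pow hf0).of_eq hUv.symm rfl)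
  -- `φ² b = b ^ (q²)` up to `n`-th powers
  have hw2 : RP C n false w 1 := by
    have h1 := (H.Φ_res (H.Φ_res hb)).div (hb.pow (q ^ 2))
    have hy' : φ (φ y) ≠ 0 := hφ0 (hφ0 hy)
    refine RP.congr (x := (φ (φ y))⁻¹) (inv_ne_zero hy') (h1.of_eq hw.symm ?_)
    have e3 := congrArg (fun z => φ (φ z)) e2
    simp only [map_mul, map_pow, RingEquiv.apply_symm_apply] at e3
    have e4 : b ^ (q ^ 2) = φ (φ b) * φ (φ y) ^ n := by
      rw [← e3, ← pow_mul, sq]
    rw [e4, inv_pow]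
    have := hφ0 (hφ0 hb.ne_zero)
    have := pow_ne_zero n hy'
    field_simp
  -- divisibility
  have hsymm : ∀ (x : F) (P : Place k F), P.ord (Φ (Φ x)) = (s.symm P).ord x := by
    intro x P
    have := h.ord (s.symm P) x
    rwa [s.apply_symm_apply] at this
  have hdv : ∀ P : Place k F, (n : ℤ) ∣ P.ord v := by
    intro P
    rw [hv, div_eq_mul_inv, P.ord_mul (hΦ0 (hΦ0 hu)) (inv_ne_zero hu), P.ord_inv, hsymm]
    exact (hdiv _).add ((hdiv _).neg_right)
  have hdw : ∀ P : Place k F, (n : ℤ) ∣ P.ord w := by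
    intro P
    rw [hw, div_eq_mul_inv, P.ord_mul (hΦ0 (hΦ0 hv0)) (inv_ne_zero (pow_ne_zero _ hv0)), P.ord_inv,
      hsymm, ord_pow]
    exact (hdv _).add (((hdv _).mul_left _).neg_right)
  exact h.isPow hm (by rw [RingEquiv.trans_apply, ht, ht]) hfix hn hdw fun i => match i with
    | true => hw1.2
    | false => hw2.2

end Chain

end Chain

end Fermat.Agent.Models
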