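import Fermat.Agent.Models.RamSlope
import Fermat.Agent.Models.ClassBound
import Fermat.Agent.Models.FrobChain

/-!
# Inertia-invariant classes with `U² = 1` are toric up to a bounded factor
-/

set_option autoImplicit false
set_option linter.unusedSectionVars false
set_option linter.style.haveILetI false

noncomputable section

namespace Fermat.Agent.Models

open AlgebraicCurve Fermat.Agent.Curves Fermat.Agent.Mono

variable {k κ : Type*} [Field k] [Field κ] {B : Res k κ} {F 𝓕 : Type*} [Field F] [Algebra k F]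
  [Field 𝓕] [Algebra κ 𝓕] {C : Bool → Comp B F 𝓕}
  [IsAlgClosed k] [IsAlgClosed κ] [IsFunctionField k F] [IsFunctionField κ 𝓕]

theorem RP.dvd_ord {n : ℕ} {i : Bool} {u : F} {a : 𝓕} (h : RP C n i u a) {𝔭 : Place κ 𝓕}
    (hd : (n : ℤ) ∣ so (C i) 𝔭 u) : (n : ℤ) ∣ 𝔭.ord a := by
  obtain ⟨ha, c, hc, x, hx, e⟩ := h
  have h1 : (C i).r (algebraMap k F c * u) ≠ 0 := by
    rw [e]; exact mul_ne_zero ha (pow_ne_zero _ hx)
  rw [so_eq (C i) 𝔭 h1, e, 𝔭.ord_mul ha (pow_ne_zero _ hx), ord_pow] at hd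
  exact (dvd_add_left (dvd_mul_right _ _)).mp hd

namespace Chain

variable {n q : ℕ} {U : F → F} {Φ : F ≃+* F} {φ : 𝓕 ≃+* 𝓕}

/-- functions with trivial residue on the first component -/
theorem isPow_of_true [CharZero k] (H : Chain C n q U Φ φ) {t : F} (hm : NodeModel C t)
    {σ₀ : k ≃+* k} {τ₀ : κ ≃+* κ} {s : Place k F ≃ Place k F} {s' : Place κ 𝓕 ≃ Place κ 𝓕}
    (h : Frobenial C (q ^ 2) (Φ.trans Φ) σ₀ (φ.trans φ) τ₀ s s')
    (ht : Φ t = t)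
    (hfix : ∀ (M : Ideal (chart C t)) (𝔭₁ 𝔭₂ : Place κ 𝓕), 𝔭₁ ∈ spec t M true →
      𝔭₂ ∈ spec t M false → s' 𝔭₁ = 𝔭₁ ∧ s' 𝔭₂ = 𝔭₂) (hn : (n : κ) ≠ 0)
    {v f : F} (hv0 : v ≠ 0) (hf0 : f ≠ 0) (hUv : U (U v) = v * f ^ n)
    (hdv : ∀ P : Place k F, (n : ℤ) ∣ P.ord v) (hv1 : RP C n true v 1) :
    ∀ w, w = Φ (Φ v) / v ^ (q ^ 2) → ∃ g : F, Φ (Φ w) / w ^ (q ^ 2) = g ^ n := by
  rintro w hw
  have hn0 : n ≠ 0 := by rintro rfl; simp at hn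
  have hΦ0 : ∀ {x : F}, x ≠ 0 → Φ x ≠ 0 := fun hx => by simpa using hx
  have hφ0 : ∀ {x : 𝓕}, x ≠ 0 → φ x ≠ 0 := fun hx => by simpa using hx
  have hw0 : w ≠ 0 := by rw [hw]; exact div_ne_zero (hΦ0 (hΦ0 hv0)) (pow_ne_zero _ hv0)
  have hw1 : RP C n true w 1 := by
    have h1 := (H.Φ_res (H.Φ_res hv1)).div (hv1.pow (q ^ 2))
    refine h1.of_eq hw.symm ?_
    rw [map_one, map_one, one_pow, div_one]
  -- the second component
  obtain ⟨b, hb⟩ := RP.exists_of_ne_zero C n false hv0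
  have h2 := H.U_false hv1 hb
  rw [one_pow, mul_one] at h2
  have h3 := H.U_false (H.U_true hv1) h2
  rw [map_one, one_pow, mul_one] at h3
  obtain ⟨y, hy, e2⟩ := RP.uniq hn0 h3 ((hb.mul_pow hf0).of_eq hUv.symm rfl)
  -- `φ² b = b ^ (q²)` up to `n`-th powers
  have hw2 : RP C n false w 1 := by
    have h1 := (H.Φ_res (H.Φ_res hb)).div (hb.pow (q ^ 2))
    have hy' : φ (φ y) ≠ 0 := hφ0 (hφ0 hy)
    refine RP.congr (x := (φ (φ y))⁻¹) (inv_ne_zero hy') (h1.of_eq hw.symm ?_)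
    have e3 := congrArg (fun z => φ (φ z)) e2
    simp only [map_mul, map_pow, RingEquiv.apply_symm_apply] at e3
    have e4 : b ^ (q ^ 2) = φ (φ b) * φ (φ y) ^ n := by
      rw [← e3, ← pow_mul, sq]
    rw [e4, inv_pow]
    have := hφ0 (hφ0 hb.ne_zero)
    have := pow_ne_zero n hy'
    field_simp
  -- divisibility
  have hsymm : ∀ (x : F) (P : Place k F), P.ord (Φ (Φ x)) = (s.symm P).ord x := by
    intro x P
    have := h.ord (s.symm P) x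
    rwa [s.apply_symm_apply] at this
  have hdw : ∀ P : Place k F, (n : ℤ) ∣ P.ord w := by
    intro P
    rw [hw, div_eq_mul_inv, P.ord_mul (hΦ0 (hΦ0 hv0)) (inv_ne_zero (pow_ne_zero _ hv0)), P.ord_inv,
      hsymm, ord_pow]
    exact (hdv _).add (((hdv _).mul_left _).neg_right)
  exact h.isPow hm (by rw [RingEquiv.trans_apply, ht, ht]) hfix hn hdw fun i => match i with
    | true => hw1.2
    | false => hw2.2

/-- **Inertia-invariant Kummer functions with `U² = 1`.** -/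
theorem exists_ram_bound [CharZero k] {t : F} {a b : F} {j : 𝓕} {R : Subfield F}
    {φ' : 𝓕 ≃+* 𝓕} {g d : F} {q₀ : k} (hc : Cross C t q a b j)
    (hl : CrossLift C t q j R φ' g d q₀)
    (H : ∀ n, Chain C n q U Φ φ)
    {σ₀ : k ≃+* k} {τ₀ : κ ≃+* κ} {s : Place k F ≃ Place k F} {s' : Place κ 𝓕 ≃ Place κ 𝓕}
    (h : Frobenial C (q ^ 2) (Φ.trans Φ) σ₀ (φ.trans φ) τ₀ s s')
    (ht : Φ t = t)
    (hfix : ∀ (M : Ideal (chart C t)) (𝔭₁ 𝔭₂ : Place κ 𝓕), 𝔭₁ ∈ spec t M true →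
      𝔭₂ ∈ spec t M false → s' 𝔭₁ = 𝔭₁ ∧ s' 𝔭₂ = 𝔭₂)
    (hj : Transcendental κ j) (hφj : φ j = j)
    (hconst : ∀ c : κ, φ (algebraMap κ 𝓕 c) = algebraMap κ 𝓕 (c ^ q)) :
    ∃ D : ℕ, 0 < D ∧ ∀ n : ℕ, (n : κ) ≠ 0 → ∀ u f : F, u ≠ 0 → f ≠ 0 → U (U u) = u * f ^ n →
      (∀ P : Place k F, (n : ℤ) ∣ P.ord u) →
      (∀ b : k, b ≠ 0 → (∀ (σ : F ≃+* F) (σ₀ : k ≃+* k) (s : Place k F ≃ Place k F),
          Inertial C σ σ₀ s → Inertial C σ.symm σ₀.symm s.symm → σ t = t →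
          (∃ f : F, σ u / u = f ^ n) → B.r (σ₀ b / b) = 1) →
        ∀ m : ℤ, B.r (b ^ n * q₀ ^ m) ≠ 0 → (n : ℤ) ∣ m) →
      ∀ v w, v = u ^ D → w = Φ (Φ v) / v ^ (q ^ 2) → ∃ g : F, Φ (Φ w) / w ^ (q ^ 2) = g ^ n := by
  have hm := hl.nodeModel hc
  obtain ⟨C₁, hC₁, hslope⟩ := exists_slope_bound hc hl
  have hQ : 2 ≤ q ^ 2 := by
    have := hc.two_le
    nlinarith
  obtain ⟨C₂, hC₂, hclass⟩ := class_bound (κ := κ) (E := 𝓕) hQ (τ := φ.trans φ)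
    (fun c => by
      rw [RingEquiv.trans_apply, hconst, hconst, ← pow_mul, sq]) (s := s')
    (fun P x => h.ord' P x) hj (by rw [RingEquiv.trans_apply, hφj, hφj])
  refine ⟨C₁ * C₂, Nat.mul_pos hC₁ hC₂, ?_⟩
  intro n hn u f hu hf hU hdiv hval v w hv hw
  have hn0 : n ≠ 0 := by rintro rfl; simp at hn
  set u₁ := u ^ C₁ with hu₁
  have hu₁0 : u₁ ≠ 0 := pow_ne_zero _ hu
  have hU₁ : U (U u₁) = u₁ * (f ^ C₁) ^ n := by
    rw [hu₁, (H n).U_pow, (H n).U_pow, hU, mul_pow, ← pow_mul, ← pow_mul, mul_comm n]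
  obtain ⟨a, ha⟩ := RP.exists_of_ne_zero C n true hu₁0
  obtain ⟨x, hx, e1⟩ := RP.uniq hn0 ((H n).U_true ((H n).U_true ha))
    ((ha.mul_pow (pow_ne_zero C₁ hf)).of_eq hU₁.symm rfl)
  obtain ⟨y, hy, e2⟩ := hclass n (Nat.pos_of_ne_zero hn0) a x ha.ne_zero hx
    (fun 𝔭 => ha.dvd_ord (hslope n hn0 u hu hdiv hval true 𝔭)) e1
  have hvu : v = u₁ ^ C₂ := by rw [hv, hu₁, pow_mul]
  have hv1 : RP C n true v 1 := by
    refine RP.congr (x := y) hy ((ha.pow C₂).of_eq hvu.symm ?_)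
    rw [e2, one_mul]
  refine (H n).isPow_of_true hm h ht hfix hn (v := v) (f := f ^ (C₁ * C₂))
    (by rw [hv]; exact pow_ne_zero _ hu) (pow_ne_zero _ hf) ?_ (fun P => ?_) hv1 w hw
  · rw [hv, (H n).U_pow, (H n).U_pow, hU, mul_pow, ← pow_mul, ← pow_mul, mul_comm n]
  · rw [hv, ord_pow]
    exact (hdiv P).mul_left _

end Chain

end Fermat.Agent.Models
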