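import Fermat.Agent.Models.NodeCoord
import Fermat.Agent.Models.SS

/-!
# Two-component models with nodes
-/

set_option autoImplicit false
set_option linter.unusedSectionVars false
set_option linter.style.haveILetI false

noncomputable section

namespace Fermat.Agent.Models

open AlgebraicCurve Fermat.Agent.Curves Polynomial

variable {k κ : Type*} [Field k] [Field κ] {B : Res k κ} {F 𝓕 : Type*} [Field F] [Algebra k F]
  [Field 𝓕] [Algebra κ 𝓕] {C : Bool → Comp B F 𝓕}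
  [IsAlgClosed k] [IsAlgClosed κ] [IsFunctionField k F] [IsFunctionField κ 𝓕]

/-- A model with two components crossing at nodes, the poles of `t` being smooth. -/
structure NodeModel (C : Bool → Comp B F 𝓕) (t : F) : Prop where
  rank : B.RankOne
  commens : B.Commens
  incomp : Incomp C
  good : IsGood C t
  surj : Surj C t
  surj' : Surj C t⁻¹
  node : ∀ (M : Ideal (chart C t)) (𝔭₁ 𝔭₂ : Place κ 𝓕), 𝔭₁ ∈ spec t M true →
    𝔭₂ ∈ spec t M false → ∃ (Y : F) (ϖ : k), IsNode C t M true false 𝔭₁ 𝔭₂ Y ϖ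
  cusp : ∀ (M : Ideal (chart C t⁻¹)) (𝔭₁ 𝔭₂ : Place κ 𝓕),
    (⟨t⁻¹, self_mem_chart good.inv.mem⟩ : chart C t⁻¹) ∈ M → 𝔭₁ ∈ spec t⁻¹ M true →
    𝔭₂ ∈ spec t⁻¹ M false → False

namespace NodeModel

variable {t : F}

theorem lp (h : NodeModel C t) (M : Ideal (chart C t)) (hM : IsPoint t M) : LP C t M := by
  by_cases h1 : (spec t M true).Nonempty <;> by_cases h2 : (spec t M false).Nonempty
  · obtain ⟨𝔭₁, h𝔭₁⟩ := h1
    obtain ⟨𝔭₂, h𝔭₂⟩ := h2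
    obtain ⟨Y, ϖ, hn⟩ := h.node M 𝔭₁ 𝔭₂ h𝔭₁ h𝔭₂
    exact lp_of_node h.rank h.commens h.incomp h.good h.surj hn
  · obtain ⟨𝔭₁, h𝔭₁⟩ := h1
    refine lp_of_smooth h.rank h.incomp h.good h.surj h𝔭₁ fun j hj => ?_
    cases j
    · exact h2
    · exact absurd rfl hj
  · obtain ⟨𝔭₂, h𝔭₂⟩ := h2
    refine lp_of_smooth h.rank h.incomp h.good h.surj h𝔭₂ fun j hj => ?_
    cases j
    · exact absurd rfl hj
    · exact h1
  · obtain ⟨i, 𝔭, h𝔭⟩ := exists_spec h.rank h.incomp h.good h.surj hM.isMaximal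
      fun a ha ha0 => hM.small_mem ha ha0
    cases i
    · exact absurd ⟨𝔭, h𝔭⟩ h2
    · exact absurd ⟨𝔭, h𝔭⟩ h1

theorem lp' (h : NodeModel C t) (M : Ideal (chart C t⁻¹)) (hM : IsPoint t⁻¹ M) :
    LP C t⁻¹ M := by
  by_cases hM' : (⟨t⁻¹, self_mem_chart h.good.inv.mem⟩ : chart C t⁻¹) ∈ M
  swap
  · exact LP.inv h.rank h.incomp h.good h.lp hM'
  have hx := h.cusp M
  by_cases h1 : (spec t⁻¹ M true).Nonempty
  · obtain ⟨𝔭₁, h𝔭₁⟩ := h1
    refine lp_of_smooth h.rank h.incomp h.good.inv h.surj' h𝔭₁ fun j hj => ?_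
    cases j
    · rintro ⟨𝔭₂, h𝔭₂⟩
      exact hx 𝔭₁ 𝔭₂ hM' h𝔭₁ h𝔭₂
    · exact absurd rfl hj
  · obtain ⟨i, 𝔭, h𝔭⟩ := exists_spec h.rank h.incomp h.good.inv h.surj' hM.isMaximal
      fun a ha ha0 => hM.small_mem ha ha0
    cases i
    · refine lp_of_smooth h.rank h.incomp h.good.inv h.surj' h𝔭 fun j hj => ?_
      cases j
      · exact absurd rfl hj
      · exact h1
    · exact absurd ⟨𝔭, h𝔭⟩ h1

/-- **Unipotence of inertia.** -/
theorem isPow_inertia [CharZero k] (hm : NodeModel C t) {n : ℕ} (hn : (n : κ) ≠ 0)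
    {σ : F ≃+* F} {σ₀ : k ≃+* k} {s : Place k F ≃ Place k F}
    (h : Inertial C σ σ₀ s) (h' : Inertial C σ.symm σ₀.symm s.symm) (hσt : σ t = t)
    {u : F} (hu : u ≠ 0) (hdiv : ∀ P : Place k F, (n : ℤ) ∣ P.ord u) :
    ∃ f : F, σ (σ u / u) / (σ u / u) = f ^ n :=
  Models.isPow_inertia hm.rank hm.incomp hm.good hm.surj hm.surj' hn hm.lp hm.lp' h h' hσt hu hdiv

end NodeModel

/-! ### abstract cusps -/

theorem order_of_inv_mem {𝔭 : Place κ 𝓕}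
    {x : 𝓕} {n : ℕ} (hn : 0 < n) (hx0 : x ≠ 0) (h : (x ^ n)⁻¹ ∈ 𝔭.toValuationSubring)
    (h0 : value 𝔭 (x ^ n)⁻¹ = 0) : 𝔭.ord x < 0 := by
  rw [value_eq_zero_iff 𝔭 h, val_lt_one_iff, or_iff_right (inv_ne_zero (pow_ne_zero _ hx0)),
    𝔭.ord_inv, ord_pow] at h0
  by_contra h1
  have h2 : 0 ≤ (n : ℤ) * 𝔭.ord x := mul_nonneg (by positivity) (not_lt.mp h1)
  omega

/-- The crossing data of `X₀(qM)`. -/
structure Cross (C : Bool → Comp B F 𝓕) (t : F) (q : ℕ) (a b : F) (j : 𝓕) : Prop where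
  rank : B.RankOne
  commens : B.Commens
  incomp : Incomp C
  good : IsGood C t
  surj : Surj C t
  surj' : Surj C t⁻¹
  two_le : 2 ≤ q
  t_eq : t = a * b
  a_ne : a ≠ 0
  b_ne : b ≠ 0
  j_ne : j ≠ 0
  poles : ∀ P : Place k F, a ∈ P.toValuationSubring ↔ b ∈ P.toValuationSubring
  growth : ∀ P : Place k F, a ∉ P.toValuationSubring → b / a ^ q ∈ P.toValuationSubring
  r_t : ∀ i, (C i).r t = j ^ (q + 1)
  r_true : b / a ^ q ∈ (C true).O ∧ (C true).r (b / a ^ q) = 1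
  r_false : b / a ^ q ∈ (C false).O ∧ (C false).r (b / a ^ q) = j / (j ^ q) ^ q

namespace Cross

variable {t : F} {q : ℕ} {a b : F} {j : 𝓕}

theorem cusp (h : Cross C t q a b j) (M : Ideal (chart C t⁻¹)) (𝔭₁ 𝔭₂ : Place κ 𝓕)
    (hM' : (⟨t⁻¹, self_mem_chart h.good.inv.mem⟩ : chart C t⁻¹) ∈ M)
    (h1 : 𝔭₁ ∈ spec t⁻¹ M true) (h2 : 𝔭₂ ∈ spec t⁻¹ M false) : False := by
  have hM := isPoint_of_spec h.rank h.incomp h.good.inv ⟨𝔭₁, h1⟩
  set y := b / a ^ q with hy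
  have ht0 : t ≠ 0 := by rw [h.t_eq]; exact mul_ne_zero h.a_ne h.b_ne
  have hygen : ∀ P ∈ gen t⁻¹ M, y ∈ P.toValuationSubring := by
    intro P hP
    by_cases hjA : a ∈ P.toValuationSubring
    · have h3 := hP.1
      rw [mem_iff_ord P (inv_ne_zero ht0), P.ord_inv, h.t_eq, P.ord_mul h.a_ne h.b_ne] at h3
      have h4 := (mem_iff_ord P h.a_ne).mp hjA
      have h5 := (mem_iff_ord P h.b_ne).mp ((h.poles P).mp hjA)
      have h6 : P.ord a = 0 := by omega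
      rw [hy, mem_iff_ord P (div_ne_zero h.b_ne (pow_ne_zero _ h.a_ne)), div_eq_mul_inv,
        P.ord_mul h.b_ne (inv_ne_zero (pow_ne_zero _ h.a_ne)), P.ord_inv, ord_pow, h6]
      omega
    · exact h.growth P hjA
  have hloc := mem_loc_of h.rank h.incomp h.good.inv h.surj' hM hygen (fun i _ => by
    cases i
    · exact h.r_false.1
    · exact h.r_true.1)
  have hval := loc_value_eq h.rank h.incomp h.good.inv hM.isMaximal.isPrime h1 h2 hloc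
  rw [h.r_true.2, h.r_false.2, value_one'] at hval
  have hr2 : (C false).r t ≠ 0 := by
    rw [h.r_t]; exact pow_ne_zero _ h.j_ne
  have h4 : value 𝔭₂ ((C false).r t⁻¹) = 0 := (h2.2 _).mp hM'
  have h5 := h2.1
  rw [Res.r_inv hr2, h.r_t] at h4 h5
  have h6 : 𝔭₂.ord j < 0 := order_of_inv_mem (Nat.succ_pos q) h.j_ne h5 h4
  have hne : j / (j ^ q) ^ q ≠ 0 := div_ne_zero h.j_ne (pow_ne_zero _ (pow_ne_zero _ h.j_ne))
  have h7 : 0 < 𝔭₂.ord (j / (j ^ q) ^ q) := by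
    rw [div_eq_mul_inv, 𝔭₂.ord_mul h.j_ne (inv_ne_zero (pow_ne_zero _ (pow_ne_zero _ h.j_ne))),
      𝔭₂.ord_inv, ord_pow, ord_pow]
    have h8 : (4 : ℤ) ≤ (q : ℤ) * q := by
      have : (2 : ℤ) ≤ q := by exact_mod_cast h.two_le
      nlinarith
    have h9 : (q : ℤ) * ((q : ℤ) * 𝔭₂.ord j) = ((q : ℤ) * q) * 𝔭₂.ord j := by ring
    rw [h9]
    nlinarith
  have h8 : value 𝔭₂ (j / (j ^ q) ^ q) = 0 := by
    rw [value_eq_zero_iff 𝔭₂ ((mem_iff_ord 𝔭₂ hne).mpr h7.le), val_lt_one_iff]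
    exact Or.inr h7
  rw [h8] at hval
  exact one_ne_zero hval

/-- regularity of `j` at branches -/
theorem j_mem (h : Cross C t q a b j) {M : Ideal (chart C t)} {i : Bool} {𝔭 : Place κ 𝓕}
    (h𝔭 : 𝔭 ∈ spec t M i) : j ∈ 𝔭.toValuationSubring := by
  have h1 := h𝔭.1
  rw [h.r_t, mem_iff_ord 𝔭 (pow_ne_zero _ h.j_ne), ord_pow] at h1
  rw [mem_iff_ord 𝔭 h.j_ne]
  exact nonneg_of_mul_nonneg_right h1 (by positivity)

theorem a_mem (h : Cross C t q a b j) {M : Ideal (chart C t)} {P : Place k F}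
    (hP : P ∈ gen t M) : a ∈ P.toValuationSubring := by
  have h1 := hP.1
  rw [h.t_eq, mem_iff_ord P (mul_ne_zero h.a_ne h.b_ne), P.ord_mul h.a_ne h.b_ne] at h1
  by_contra h2
  have h3 : b ∉ P.toValuationSubring := fun h4 => h2 ((h.poles P).mpr h4)
  rw [mem_iff_ord P h.a_ne] at h2
  rw [mem_iff_ord P h.b_ne] at h3
  omega

end Cross

/-- The lifting and rationality data of `X₀(qM)`. -/
structure CrossLift (C : Bool → Comp B F 𝓕) (t : F) (q : ℕ) (j : 𝓕) (R : Subfield F)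
    (φ : 𝓕 ≃+* 𝓕) (g u : F) (q₀ : k) : Prop where
  φ_mem : ∀ f ∈ affineRing κ j, φ.symm f ∈ affineRing κ j
  lift : ∀ f ∈ affineRing κ j, ∃ x y : F, x ∈ R ∧ y ∈ R ∧ x ∈ chart C t ∧ y ∈ chart C t ∧
    (C true).r x = f ∧ (C false).r y = f ∧ (C false).r x = (φ.symm f) ^ q ∧
    (C true).r y = (φ.symm f) ^ q
  q_mem : q₀ ∈ B.O
  q_r : B.r q₀ = 0
  q_ne : q₀ ≠ 0
  q_rat : algebraMap k F q₀ ∈ R
  hval : ∀ Y ∈ R, Y ≠ 0 → ∃ n : ℤ, (C false).r (Y / algebraMap k F q₀ ^ n) ≠ 0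
  ug : u * g = algebraMap k F (q₀ ^ 12)
  g_r : (C true).r g ≠ 0
  u_r : (C false).r u ≠ 0
  reg : ∀ M : Ideal (chart C t), ∀ P ∈ gen t M, g ∈ P.toValuationSubring ∧
    u ∈ P.toValuationSubring

namespace CrossLift

variable {t : F} {q : ℕ} {a b : F} {j : 𝓕} {R : Subfield F} {φ : 𝓕 ≃+* 𝓕} {g u : F} {q₀ : k}

theorem dunit (_ : Cross C t q a b j) (hl : CrossLift C t q j R φ g u q₀)
    {M : Ideal (chart C t)} {𝔭₁ 𝔭₂ : Place κ 𝓕} (h1 : 𝔭₁ ∈ spec t M true)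
    (h2 : 𝔭₂ ∈ spec t M false) :
    DUnit C t M true false 𝔭₁ 𝔭₂ g (q₀ ^ 12) := by
  have hg0 : g ≠ 0 := Res.ne_zero_of_r hl.g_r
  have hu0 : u ≠ 0 := Res.ne_zero_of_r hl.u_r
  have hq0 : algebraMap k F (q₀ ^ 12) ≠ 0 := by
    rw [← hl.ug]; exact mul_ne_zero hu0 hg0
  refine ⟨by decide, h1, h2, fun j h3 h4 => ?_, pow_ne_zero _ hl.q_ne, pow_mem hl.q_mem _, ?_,
    hl.g_r, ?_, fun P hP => ?_⟩
  · cases j
    · exact absurd rfl h4
    · exact absurd rfl h3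
  · rw [Res.r_pow hl.q_mem, hl.q_r, zero_pow (by norm_num)]
  · have e : g / algebraMap k F (q₀ ^ 12) = u⁻¹ := by
      rw [← hl.ug]; field_simp
    rw [e]
    exact Res.r_inv_ne_zero hl.u_r
  · obtain ⟨h3, h4⟩ := hl.reg M P hP
    rw [mem_iff_ord P hg0] at h3
    rw [mem_iff_ord P hu0] at h4
    have h5 : P.ord (u * g) = 0 := by rw [hl.ug, ord_algebraMap]
    rw [P.ord_mul hu0 hg0] at h5
    omega

theorem exists_isNode (h : Cross C t q a b j) (hl : CrossLift C t q j R φ g u q₀)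
    {M : Ideal (chart C t)} {𝔭₁ 𝔭₂ : Place κ 𝓕} (h1 : 𝔭₁ ∈ spec t M true)
    (h2 : 𝔭₂ ∈ spec t M false) :
    ∃ (Y : F) (n : ℕ), 0 < n ∧ (n : ℤ) * 𝔭₁.ord ((C true).r g) = 12 ∧
      IsNode C t M true false 𝔭₁ 𝔭₂ Y (q₀ ^ n) := by
  have hM := isPoint_of_spec h.rank h.incomp h.good ⟨𝔭₁, h1⟩
  have hτ : Transcendental κ j := by
    intro hj
    have := h.good.trans true
    rw [h.r_t] at this
    exact this (hj.pow _)
  -- the starting function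
  obtain ⟨f, hf, hf0, hf1⟩ := exists_uniformizer_affine hτ (h.j_mem h1)
  obtain ⟨x, -, hxR, -, hxC, -, hx1, -, hx2, -⟩ := hl.lift f hf
  have hf' := hl.φ_mem f hf
  obtain ⟨-, y, -, hyR, -, hyC, -, hy2, -, hy1⟩ := hl.lift _ hf'
  set Y₀ := x - y ^ q with hY₀
  have hY₀C : Y₀ ∈ chart C t := sub_mem hxC (pow_mem hyC q)
  have hY₀2 : (C false).r Y₀ = 0 := by
    rw [hY₀, Res.r_sub (hxC.2 _) (pow_mem (hyC.2 _) q), Res.r_pow (hyC.2 _), hx2, hy2, sub_self]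
  set w := φ.symm (φ.symm f) with hw
  have hw' := hl.φ_mem _ hf'
  have hY₀1 : (C true).r Y₀ = f - (w ^ q) ^ q := by
    rw [hY₀, Res.r_sub (hxC.2 _) (pow_mem (hyC.2 _) q), Res.r_pow (hyC.2 _), hx1, hy1]
  have hw0 : w ≠ 0 := by
    rw [hw]; simpa using hf0
  have hfval : value 𝔭₁ f = 0 := by
    rw [value_eq_zero_iff 𝔭₁ (hf 𝔭₁ (h.j_mem h1)), val_lt_one_iff]
    right; omega
  have hwmem : w ∈ 𝔭₁.toValuationSubring := hw' 𝔭₁ (h.j_mem h1)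
  have hwval : value 𝔭₁ w = 0 := by
    have h3 := loc_value_eq h.rank h.incomp h.good hM.isMaximal.isPrime h1 h2
      (chart_le_loc _ hY₀C)
    rw [hY₀1, hY₀2, DUnit.value_zero, value_sub' 𝔭₁ (hf 𝔭₁ (h.j_mem h1))
      (pow_mem (pow_mem hwmem q) q), hfval, zero_sub, neg_eq_zero,
      value_pow' 𝔭₁ (pow_mem hwmem q), value_pow' 𝔭₁ hwmem] at h3
    exact pow_eq_zero_iff (by have := h.two_le; omega) |>.mp
      (pow_eq_zero_iff (by have := h.two_le; omega) |>.mp h3)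
  have hword : 0 < 𝔭₁.ord w := by
    rw [value_eq_zero_iff 𝔭₁ hwmem, val_lt_one_iff] at hwval
    exact hwval.resolve_left hw0
  have hwq : 𝔭₁.ord f < 𝔭₁.ord ((w ^ q) ^ q) := by
    rw [ord_pow, ord_pow, hf1]
    have h3 : (2 : ℤ) ≤ q := by exact_mod_cast h.two_le
    have h4 : (2 : ℤ) ≤ q * 𝔭₁.ord w := by nlinarith
    nlinarith
  have hwq0 : (w ^ q) ^ q ≠ 0 := pow_ne_zero _ (pow_ne_zero _ hw0)
  have hne : f - (w ^ q) ^ q ≠ 0 := by
    intro h3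
    rw [sub_eq_zero] at h3
    rw [← h3] at hwq
    exact lt_irrefl _ hwq
  have hord : 𝔭₁.ord (f - (w ^ q) ^ q) = 1 := by
    rw [sub_eq_add_neg, (ord_add_eq_left 𝔭₁ hf0
      (Or.inr (by rw [ord_neg 𝔭₁]; exact hwq))).2, hf1]
  refine exists_node_coord' h.rank h.incomp h.good h.surj (dunit h hl h1 h2) (R : Set F) hl.q_mem
    hl.q_r hl.q_ne hl.hval (m := 12) ?_ ?_ (Y₀ := Y₀) (sub_mem hxR (pow_mem hyR q))
    (fun P hP => hY₀C.1 P hP.1) ?_ ?_ (hY₀C.2 _) hY₀2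
  · rw [div_self (pow_ne_zero _ hl.q_ne), Res.r_one]
    exact one_ne_zero
  · intro Y hY n hn hYr hYo
    obtain ⟨d, hd, hd0, hdf⟩ := exists_denominator hτ (h.j_mem h2)
      ((mem_iff_ord 𝔭₂ hYr).mpr hYo)
    obtain ⟨-, x₁, -, hx₁R, -, hx₁C, -, hx₁2, -, hx₁1⟩ := hl.lift _ hdf
    obtain ⟨-, x₂, -, hx₂R, -, hx₂C, -, hx₂2, -, hx₂1⟩ := hl.lift _ hd
    have hdne : d ≠ 0 := by
      rintro rfl
      exact hd0 (DUnit.value_zero 𝔭₂)
    have hr2 : (C false).r x₂ ≠ 0 := by rw [hx₂2]; exact hdne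
    have hr1 : (C true).r x₂ ≠ 0 := by
      rw [hx₂1]
      exact pow_ne_zero _ (by simpa using hdne)
    refine ⟨x₁ / x₂, fun P hP => ?_, ?_, ?_, ?_, ?_⟩
    · rw [div_eq_mul_inv]
      refine mul_mem (hx₁C.1 P hP.1) ?_
      have hx₂M : (⟨x₂, hx₂C⟩ : chart C t) ∉ M := by
        rw [h2.2]
        show value 𝔭₂ ((C false).r x₂) ≠ 0
        rw [hx₂2]
        exact hd0
      have h3 : value P x₂ ≠ 0 := fun h4 => hx₂M ((hP.2.2 _).mpr (by
        show B.r (value P x₂) = 0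
        rw [h4, Res.r_zero]))
      exact (value_inv' (hx₂C.1 P hP.1) h3).1
    · rw [div_eq_mul_inv]
      exact mul_mem (hx₁C.2 _) (Res.inv_mem_of_r hr1)
    · rw [div_eq_mul_inv]
      exact mul_mem (hx₁C.2 _) (Res.inv_mem_of_r hr2)
    · rw [Res.r_div (hx₁C.2 _) hr2, hx₁2, hx₂2, mul_div_cancel_left₀ _ hdne]
    · exact sub_mem hY (mul_mem (pow_mem hl.q_rat n) (div_mem hx₁R hx₂R))
  · rw [hY₀1]; exact hne
  · rw [hY₀1]; exact hord

theorem nodeModel (h : Cross C t q a b j) (hl : CrossLift C t q j R φ g u q₀) :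
    NodeModel C t where
  rank := h.rank
  commens := h.commens
  incomp := h.incomp
  good := h.good
  surj := h.surj
  surj' := h.surj'
  node M 𝔭₁ 𝔭₂ h1 h2 := by
    obtain ⟨Y, n, -, -, hn⟩ := exists_isNode h hl h1 h2
    exact ⟨Y, _, hn⟩
  cusp := h.cusp

end CrossLift

end Fermat.Agent.Models
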