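import Fermat.Agent.Mono.Node
import Fermat.Agent.Models.NodeModel

/-!
# Orders of the residues of inertia-invariant Kummer functions
-/

set_option autoImplicit false
set_option linter.unusedSectionVars false
set_option linter.style.haveILetI false

noncomputable section

namespace Fermat.Agent.Models

open AlgebraicCurve Fermat.Agent.Curves Polynomial Fermat.Agent.Mono

section Smooth

variable {k κ : Type*} [Field k] [Field κ] {B : Res k κ} {F : Type*} [Field F] [Algebra k F]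
  {ι : Type*} {𝓕 : ι → Type*} [∀ i, Field (𝓕 i)] [∀ i, Algebra κ (𝓕 i)]
  {C : ∀ i, Comp B F (𝓕 i)}
  [IsAlgClosed k] [IsAlgClosed κ] [IsFunctionField k F] [∀ i, IsFunctionField κ (𝓕 i)]
  [Fintype ι] [DecidableEq ι] [Nonempty ι]

theorem exists_div {n : ℕ} (hn : n ≠ 0) {u : F} (hu : ∀ P : Place k F, (n : ℤ) ∣ P.ord u) :
    ∃ D : Divisor k F, ∀ P, P.ord u = n * D P := by
  have hnZ : (n : ℤ) ≠ 0 := by exact_mod_cast hn
  choose d hd using hu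
  refine ⟨Finsupp.ofSupportFinite d ((finite_support (k := k) u).subset fun P hP => ?_), hd⟩
  rw [Function.mem_support] at hP ⊢
  rw [hd]
  exact mul_ne_zero hnZ hP

/-- orders at smooth points -/
theorem so_dvd_smooth (hB : B.RankOne) (hC : Incomp C) {t : F} (ht : IsGood C t)
    (hS : Surj C t) {M : Ideal (chart C t)} (hLP : LP C t M) {i : ι} {𝔭 : Place κ (𝓕 i)}
    (h𝔭 : 𝔭 ∈ spec t M i) (hj : ∀ j, j ≠ i → ¬ (spec t M j).Nonempty) {n : ℕ} (hn : n ≠ 0)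
    {u : F} (hu0 : u ≠ 0) (hu : ∀ P : Place k F, (n : ℤ) ∣ P.ord u) :
    (n : ℤ) ∣ so (C i) 𝔭 u := by
  have hM := isPoint_of_spec hB hC ht ⟨𝔭, h𝔭⟩
  obtain ⟨D, hD⟩ := exists_div hn hu
  obtain ⟨g, hg0, hg⟩ := hLP.exists_ord D
  obtain ⟨c, hc0, hc⟩ := (C i).exists_scale (u / g ^ n) (div_ne_zero hu0 (pow_ne_zero _ hg0))
  have hcF : algebraMap k F c ≠ 0 := by simpa using hc0
  set x := algebraMap k F c * (u / g ^ n) with hx
  have hx0 : x ≠ 0 := mul_ne_zero hcF (div_ne_zero hu0 (pow_ne_zero _ hg0))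
  have hxP : ∀ P ∈ gen t M, P.ord x = 0 := by
    intro P hP
    rw [hx, P.ord_mul hcF (div_ne_zero hu0 (pow_ne_zero _ hg0)), ord_algebraMap, div_eq_mul_inv,
      P.ord_mul hu0 (inv_ne_zero (pow_ne_zero _ hg0)), P.ord_inv, ord_pow, hg P hP, hD]
    ring
  have hcnt := local_conserve' hB hC ht hS hM hx0 (fun j hj' => by
    by_cases hji : j = i
    · subst hji; exact hc
    · exact absurd hj' (hj j hji))
  rw [Finset.sum_eq_single i (fun j _ hji => cnt_empty (hj j hji) _)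
    (fun h => absurd (Finset.mem_univ i) h), cnt_subsingleton (spec_subsingleton ht hS M i) h𝔭,
    cnt_eq_zero hxP] at hcnt
  have h1 : so (C i) 𝔭 (u / g ^ n) = 0 := by rw [so_eq (C i) 𝔭 hc]; exact hcnt.symm
  rw [so_div (C i) 𝔭 hu0 (pow_ne_zero _ hg0), so_pow] at h1
  exact ⟨so (C i) 𝔭 g, by omega⟩

end Smooth

variable {k κ : Type*} [Field k] [Field κ] {B : Res k κ} {F : Type*} [Field F] [Algebra k F]
  {𝓕 : Type*} [Field 𝓕] [Algebra κ 𝓕] {C : Bool → Comp B F 𝓕}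
  [IsAlgClosed k] [IsAlgClosed κ] [IsFunctionField k F] [IsFunctionField κ 𝓕]

section Node

variable {t : F} (hm : NodeModel C t) {n : ℕ} (hn : n ≠ 0) {u : F} (hu0 : u ≠ 0)
  (hu : ∀ P : Place k F, (n : ℤ) ∣ P.ord u)

include hm hn hu0 hu

theorem dvd_or_node (i : Bool) (𝔭 : Place κ 𝓕) : (n : ℤ) ∣ so (C i) 𝔭 u ∨
    ∃ (M : Ideal (chart C t)) (𝔮 : Place κ 𝓕), 𝔭 ∈ spec t M i ∧ 𝔮 ∈ spec t M (!i) := by
  have hB := hm.rank
  have hC := hm.incomp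
  have ht := hm.good
  have hne : ∀ j : Bool, j ≠ i → j = !i := by
    intro j hj
    cases i <;> cases j <;> simp_all
  by_cases h : (C i).r t ∈ 𝔭.toValuationSubring
  · set M := RingHom.ker (evb hB hC ht i 𝔭 h) with hM
    have h𝔭 : 𝔭 ∈ spec t M i := (mem_spec_iff hB hC ht).mpr ⟨h, hM⟩
    by_cases h2 : (spec t M (!i)).Nonempty
    · obtain ⟨𝔮, h𝔮⟩ := h2
      exact Or.inr ⟨M, 𝔮, h𝔭, h𝔮⟩
    · left
      exact so_dvd_smooth hB hC ht hm.surj (hm.lp M (isPoint_evb hB hC ht i 𝔭 h)) h𝔭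
        (fun j hj => by rw [hne j hj]; exact h2) hn hu0 hu
  · left
    have hr := ht.r_ne_zero i
    have hord : 𝔭.ord ((C i).r t) < 0 := by
      rw [mem_iff_ord 𝔭 hr] at h
      omega
    have hri : (C i).r t⁻¹ = ((C i).r t)⁻¹ := Res.r_inv hr
    have h' : (C i).r t⁻¹ ∈ 𝔭.toValuationSubring := by
      rw [hri, mem_iff_ord 𝔭 (inv_ne_zero hr), 𝔭.ord_inv]
      omega
    set M := RingHom.ker (evb hB hC ht.inv i 𝔭 h') with hM
    have h𝔭 : 𝔭 ∈ spec t⁻¹ M i := (mem_spec_iff hB hC ht.inv).mpr ⟨h', hM⟩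
    have htM : (⟨t⁻¹, self_mem_chart ht.inv.mem⟩ : chart C t⁻¹) ∈ M := by
      rw [h𝔭.2]
      show value 𝔭 ((C i).r t⁻¹) = 0
      rw [value_eq_zero_iff 𝔭 h', val_lt_one_iff]
      right
      rw [hri, 𝔭.ord_inv]
      omega
    refine so_dvd_smooth hB hC ht.inv hm.surj' (hm.lp' M (isPoint_evb hB hC ht.inv i 𝔭 h')) h𝔭
        (fun j hj => ?_) hn hu0 hu
    rintro ⟨𝔮, h𝔮⟩
    cases i <;> cases j
    · exact hj rfl
    · exact hm.cusp M 𝔮 𝔭 htM h𝔮 h𝔭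
    · exact hm.cusp M 𝔭 𝔮 htM h𝔭 h𝔮
    · exact hj rfl

end Node

/-- **The orders of the residues of an inertia-invariant Kummer function are divisible by `n` up
to a bounded factor.** -/
theorem exists_slope_bound {t : F} {q : ℕ} {a b : F} {j : 𝓕} {R : Subfield F}
    {φ : 𝓕 ≃+* 𝓕} {g d : F} {q₀ : k} (h : Cross C t q a b j)
    (hl : CrossLift C t q j R φ g d q₀) :
    ∃ C₁ : ℕ, 0 < C₁ ∧ ∀ n : ℕ, n ≠ 0 → ∀ u : F, u ≠ 0 → (∀ P : Place k F, (n : ℤ) ∣ P.ord u) →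
      (∀ b : k, b ≠ 0 → (∀ (σ : F ≃+* F) (σ₀ : k ≃+* k) (s : Place k F ≃ Place k F),
          Inertial C σ σ₀ s → Inertial C σ.symm σ₀.symm s.symm → σ t = t →
          (∃ f : F, σ u / u = f ^ n) → B.r (σ₀ b / b) = 1) →
        ∀ m : ℤ, B.r (b ^ n * q₀ ^ m) ≠ 0 → (n : ℤ) ∣ m) →
      ∀ (i : Bool) (𝔭 : Place κ 𝓕), (n : ℤ) ∣ so (C i) 𝔭 (u ^ C₁) := by
  classical
  have hm := hl.nodeModel h
  have hr0 := hl.g_r
  set hr := (C true).r g with hhr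
  set N : Set (Place κ 𝓕) := {𝔭 | ∃ (M : Ideal (chart C t)) (𝔮 : Place κ 𝓕),
    𝔭 ∈ spec t M true ∧ 𝔮 ∈ spec t M false} with hN
  have hpos : ∀ 𝔭 ∈ N, 0 < 𝔭.ord hr := by
    rintro 𝔭 ⟨M, 𝔮, h1, h2⟩
    obtain ⟨Y, m, hm0, h3, -⟩ := CrossLift.exists_isNode h hl h1 h2
    by_contra hcon
    push Not at hcon
    have : (m : ℤ) * 𝔭.ord hr ≤ 0 := mul_nonpos_of_nonneg_of_nonpos (by positivity) hcon
    rw [hhr] at this
    omega
  have hfin : N.Finite := (finite_zeros (k := κ) hr).subset hpos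
  set E : ℤ := ∑ 𝔭 ∈ hfin.toFinset, 𝔭.ord hr with hE
  have hE0 : 0 ≤ E := Finset.sum_nonneg fun 𝔭 h𝔭 => (hpos 𝔭 (hfin.mem_toFinset.mp h𝔭)).le
  refine ⟨12 * max 1 E.toNat, by positivity, ?_⟩
  intro n hn u hu0 hu hval
  have hnZ : (n : ℤ) ≠ 0 := by exact_mod_cast hn
  -- the case of the first component is enough
  suffices key : ∀ 𝔭 ∈ N, (n : ℤ) ∣ so (C true) 𝔭 (u ^ (12 * max 1 E.toNat)) by
    intro i 𝔭
    have hpow0 : u ^ (12 * max 1 E.toNat) ≠ 0 := pow_ne_zero _ hu0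
    have hupow : ∀ P : Place k F, (n : ℤ) ∣ P.ord (u ^ (12 * max 1 E.toNat)) := fun P => by
      rw [ord_pow]; exact (hu P).mul_left _
    rcases dvd_or_node hm hn hpow0 hupow i 𝔭 with h1 | ⟨M, 𝔮, h1, h2⟩
    · exact h1
    · cases i
      · obtain ⟨Y, m, hm0, h3, h4⟩ := CrossLift.exists_isNode h hl h2 h1
        have h5 := so_add_dvd h.rank h.commens h.incomp h.good h.surj h4 hn hpow0 hupow
        exact (dvd_add_right (key 𝔮 ⟨M, 𝔭, h2, h1⟩)).mp h5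
      · exact key 𝔭 ⟨M, 𝔮, h1, h2⟩
  intro 𝔭₀ h𝔭₀
  -- the multiplicities
  have hE1 : 0 < E := by
    refine lt_of_lt_of_le (hpos 𝔭₀ h𝔭₀) ?_
    rw [hE]
    exact Finset.single_le_sum (f := fun 𝔭 : Place κ 𝓕 => 𝔭.ord hr)
      (fun 𝔭 h𝔭 => (hpos 𝔭 (hfin.mem_toFinset.mp h𝔭)).le) (hfin.mem_toFinset.mpr h𝔭₀)
  have hmax : ((max 1 E.toNat : ℕ) : ℤ) = E := by
    have : 1 ≤ E.toNat := by omega
    rw [max_eq_right this]
    exact Int.toNat_of_nonneg hE0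
  have hdat : ∀ 𝔭 ∈ N, ∃ (M : Ideal (chart C t)) (𝔮 : Place κ 𝓕) (Y : F) (m : ℕ), 0 < m ∧
      (m : ℤ) * 𝔭.ord hr = 12 ∧ IsNode C t M true false 𝔭 𝔮 Y (q₀ ^ m) := by
    rintro 𝔭 ⟨M, 𝔮, h1, h2⟩
    obtain ⟨Y, m, hm0, h3, h4⟩ := CrossLift.exists_isNode h hl h1 h2
    exact ⟨M, 𝔮, Y, m, hm0, h3, h4⟩
  obtain ⟨M₀, 𝔮₀, Y₀, m₀, hm₀, hmo₀, hN₀⟩ := hdat 𝔭₀ h𝔭₀
  set lam : ℤ := m₀ * so (C true) 𝔭₀ u with hlam
  have hnode : ∀ 𝔭 ∈ N, (n : ℤ) ∣ 12 * so (C true) 𝔭 u - lam * 𝔭.ord hr := by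
    intro 𝔭 h𝔭
    obtain ⟨M, 𝔮, Y, m, hm, hmo, hNd⟩ := hdat 𝔭 h𝔭
    obtain ⟨b, hb0, hb1, hb2⟩ := monodromy_pair h.rank h.commens h.incomp h.good h.surj hNd hN₀ hn
      hu0 hu
    have h3 := hval b hb0 hb1 (m * (-so (C false) 𝔮 u) - m₀ * (-so (C false) 𝔮₀ u)) (by
      convert hb2 using 2
      rw [zpow_sub₀ hl.q_ne, zpow_mul, zpow_mul, zpow_natCast, zpow_natCast, mul_div_assoc])
    have h4 := so_add_dvd h.rank h.commens h.incomp h.good h.surj hNd hn hu0 hu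
    have h5 := so_add_dvd h.rank h.commens h.incomp h.good h.surj hN₀ hn hu0 hu
    have h6 : (n : ℤ) ∣ m * so (C true) 𝔭 u - lam := by
      have e : m * so (C true) 𝔭 u - lam = (m : ℤ) * (so (C true) 𝔭 u + so (C false) 𝔮 u) -
          m₀ * (so (C true) 𝔭₀ u + so (C false) 𝔮₀ u) +
          (m * (-so (C false) 𝔮 u) - m₀ * (-so (C false) 𝔮₀ u)) := by rw [hlam]; ring
      rw [e]
      exact dvd_add (dvd_sub (h4.mul_left _) (h5.mul_left _)) h3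
    have e2 : 12 * so (C true) 𝔭 u - lam * 𝔭.ord hr =
        𝔭.ord hr * (m * so (C true) 𝔭 u - lam) := by
      rw [← hmo]
      ring
    rw [e2]
    exact h6.mul_left _
  -- the sum over all places
  obtain ⟨c, hc0, hc⟩ := (C true).exists_scale u hu0
  have hso : ∀ 𝔭 : Place κ 𝓕, so (C true) 𝔭 u = 𝔭.ord ((C true).r (algebraMap k F c * u)) :=
    fun 𝔭 => so_eq (C true) 𝔭 hc
  set T : Finset (Place κ 𝓕) := (divisorOf (k := κ) ((C true).r (algebraMap k F c * u))).support ∪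
    hfin.toFinset with hT
  have hsum : ∑ 𝔭 ∈ T, so (C true) 𝔭 u = 0 := by
    have h1 := degree_divisorOf (k := κ) ((C true).r (algebraMap k F c * u))
    rw [degree_eq_sum, Finsupp.sum] at h1
    rw [← h1]
    symm
    refine Finset.sum_subset_zero_on_sdiff Finset.subset_union_left (fun 𝔭 h𝔭 => ?_)
      (fun 𝔭 _ => (hso 𝔭).symm)
    rw [hso]
    have h2 := (Finset.mem_sdiff.mp h𝔭).2
    rw [Finsupp.notMem_support_iff] at h2
    exact h2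
  have hlamE : (n : ℤ) ∣ lam * E := by
    have h1 : (n : ℤ) ∣ ∑ 𝔭 ∈ T, (12 * so (C true) 𝔭 u -
        if 𝔭 ∈ hfin.toFinset then lam * 𝔭.ord hr else 0) := by
      refine Finset.dvd_sum fun 𝔭 _ => ?_
      split_ifs with h2
      · exact hnode 𝔭 (hfin.mem_toFinset.mp h2)
      · rw [sub_zero]
        rcases dvd_or_node hm hn hu0 hu true 𝔭 with h3 | ⟨M, 𝔮, h3, h4⟩
        · exact h3.mul_left _
        · exact absurd (hfin.mem_toFinset.mpr ⟨M, 𝔮, h3, h4⟩) h2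
    rw [Finset.sum_sub_distrib, ← Finset.mul_sum, hsum, mul_zero, zero_sub, dvd_neg,
      Finset.sum_ite_mem, Finset.inter_eq_right.mpr Finset.subset_union_right,
      ← Finset.mul_sum] at h1
    exact h1
  rw [so_pow, Nat.cast_mul, hmax, Nat.cast_ofNat]
  have e3 : 12 * E * so (C true) 𝔭₀ u = E * (12 * so (C true) 𝔭₀ u - lam * 𝔭₀.ord hr) +
      (lam * E) * 𝔭₀.ord hr := by ring
  rw [e3]
  exact dvd_add ((hnode 𝔭₀ h𝔭₀).mul_left _) (hlamE.mul_right _)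

end Fermat.Agent.Models
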