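import Fermat.Agent.Models.Slope

/-!
# Frobenius on toric classes
-/

set_option autoImplicit false
set_option linter.unusedSectionVars false
set_option linter.style.haveILetI false

noncomputable section

namespace Fermat.Agent.Models

open AlgebraicCurve Fermat.Agent.Curves Polynomial

section Gen

variable {k κ : Type*} [Field k] [Field κ] {B : Res k κ} {F : Type*} [Field F] [Algebra k F]
  {ι : Type*} {𝓕 : ι → Type*} [∀ i, Field (𝓕 i)] [∀ i, Algebra κ (𝓕 i)]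
  {C : ∀ i, Comp B F (𝓕 i)}
  [IsAlgClosed k] [IsAlgClosed κ] [IsFunctionField k F] [∀ i, IsFunctionField κ (𝓕 i)]
  [Fintype ι] [DecidableEq ι] [Nonempty ι]

/-- comparison of the charts `t` and `t⁻¹` at points where `t` is a unit -/
theorem chart_inv_point (hB : B.RankOne) (hC : Incomp C) {t : F} (ht : IsGood C t)
    (hS' : Surj C t⁻¹) {M : Ideal (chart C t⁻¹)} (hM : IsPoint t⁻¹ M)
    (hMt : (⟨t⁻¹, self_mem_chart ht.inv.mem⟩ : chart C t⁻¹) ∉ M) :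
    ∃ N : Ideal (chart C t), IsPoint t N ∧ gen t⁻¹ M ⊆ gen t N ∧
      ∀ i, spec t⁻¹ M i ⊆ spec t N i := by
  have ht0 : t ≠ 0 := by
    have := ht.transcendental
    rintro rfl; exact this isAlgebraic_zero
  obtain ⟨i₀, 𝔭₀, h𝔭₀⟩ := exists_spec hB hC ht.inv hS' hM.isMaximal
    fun a ha ha0 => hM.small_mem ha ha0
  -- branches
  have keyS : ∀ i, ∀ 𝔭 ∈ spec t⁻¹ M i, (C i).r t ∈ 𝔭.toValuationSubring ∧
      value 𝔭 ((C i).r t) ≠ 0 := by
    intro i 𝔭 h𝔭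
    have h1 : value 𝔭 ((C i).r t⁻¹) ≠ 0 := fun h => hMt ((h𝔭.2 _).mpr h)
    have h2 := h𝔭.1
    have h3 := value_inv' h2 h1
    rw [← Res.r_inv (ht.inv.r_ne_zero i), inv_inv] at h3
    exact ⟨h3.1, by rw [h3.2]; exact inv_ne_zero h1⟩
  -- places
  have key : ∀ Q ∈ gen t⁻¹ M, t ∈ Q.toValuationSubring ∧ value Q t ∈ B.O ∧
      value Q t ≠ 0 ∧ B.r (value Q t) ≠ 0 := by
    intro Q hQ
    have h1 : B.r (value Q t⁻¹) ≠ 0 := fun h => hMt ((hQ.2.2 _).mpr h)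
    have h2 : value Q t⁻¹ ≠ 0 := Res.ne_zero_of_r h1
    obtain ⟨h3, h4⟩ := value_inv' hQ.1 h2
    rw [inv_inv] at h3 h4
    rw [h4]
    exact ⟨h3, Res.inv_mem_of_r h1, inv_ne_zero h2, Res.r_inv_ne_zero h1⟩
  -- membership through a power of `t⁻¹`
  have hb : ∀ x : chart C t, ∃ b : ℕ, (x : F) * t⁻¹ ^ b ∈ chart C t⁻¹ := by
    intro x
    obtain ⟨b, hb⟩ := exists_pole_bound ht.transcendental x.2.1
    exact ⟨b, hb, fun i => mul_mem (x.2.2 i) (pow_mem (ht.inv.mem i) _)⟩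
  have hSx : ∀ (x : chart C t) (b : ℕ) (hb : (x : F) * t⁻¹ ^ b ∈ chart C t⁻¹), ∀ i,
      ∀ 𝔭 ∈ spec t⁻¹ M i, (value 𝔭 ((C i).r (x : F)) = 0 ↔
        (⟨(x : F) * t⁻¹ ^ b, hb⟩ : chart C t⁻¹) ∈ M) := by
    intro x b hb i 𝔭 h𝔭
    obtain ⟨h1, h2⟩ := keyS i 𝔭 h𝔭
    have hx := r_mem hB hC ht x.2 i h1
    have h4 : value 𝔭 ((C i).r t⁻¹) ≠ 0 := fun h => hMt ((h𝔭.2 _).mpr h)
    rw [h𝔭.2]
    show _ ↔ value 𝔭 ((C i).r ((x : F) * t⁻¹ ^ b)) = 0
    rw [Res.r_mul (x.2.2 i) (pow_mem (ht.inv.mem i) _), Res.r_pow (ht.inv.mem i),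
      value_mul 𝔭 hx (pow_mem h𝔭.1 _), value_pow' 𝔭 h𝔭.1, mul_eq_zero,
      or_iff_left (pow_ne_zero _ h4)]
  obtain ⟨h₀1, h₀2⟩ := keyS i₀ 𝔭₀ h𝔭₀
  set N : Ideal (chart C t) := RingHom.ker (evb hB hC ht i₀ 𝔭₀ h₀1) with hN
  have hNx : ∀ x : chart C t, x ∈ N ↔ value 𝔭₀ ((C i₀).r (x : F)) = 0 := fun x => Iff.rfl
  refine ⟨N, isPoint_evb hB hC ht i₀ 𝔭₀ h₀1, fun P hP => ?_, fun i 𝔭 h𝔭 => ?_⟩
  · obtain ⟨hR1, hR2, hR3, hR4⟩ := key P hP
    refine ⟨hR1, hR2, fun x => ?_⟩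
    obtain ⟨b, hb'⟩ := hb x
    rw [hNx, hSx x b hb' i₀ 𝔭₀ h𝔭₀, hP.2.2]
    have h5 := value_inv' hR1 hR3
    show B.r (value P ((x : F) * t⁻¹ ^ b)) = 0 ↔ _
    rw [value_mul P (x.2.1 P hR1) (pow_mem h5.1 _), value_pow' P h5.1, h5.2,
      Res.r_mul (value_mem hB hC ht x.2 hR1 hR2) (pow_mem (Res.inv_mem_of_r hR4) _),
      Res.r_pow (Res.inv_mem_of_r hR4), Res.r_inv hR4, mul_eq_zero,
      or_iff_left (pow_ne_zero _ (inv_ne_zero hR4))]
  · obtain ⟨h1, h2⟩ := keyS i 𝔭 h𝔭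
    refine ⟨h1, fun x => ?_⟩
    obtain ⟨b, hb'⟩ := hb x
    rw [hNx, hSx x b hb' i₀ 𝔭₀ h𝔭₀, ← hSx x b hb' i 𝔭 h𝔭]

/-- local data transfer to the chart at infinity -/
theorem LocData.inv (hB : B.RankOne) (hC : Incomp C) {t : F} (ht : IsGood C t)
    (hS' : Surj C t⁻¹) {D : Divisor k F} {w : ∀ i, 𝓕 i}
    (hL : ∀ N : Ideal (chart C t), IsPoint t N → LocData C t D w N)
    {M : Ideal (chart C t⁻¹)} (hM : IsPoint t⁻¹ M)
    (hMt : (⟨t⁻¹, self_mem_chart ht.inv.mem⟩ : chart C t⁻¹) ∉ M) : LocData C t⁻¹ D w M := by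
  obtain ⟨N, hN, h1, h2⟩ := chart_inv_point hB hC ht hS' hM hMt
  obtain ⟨h, h0, hr, hP, γ, hγ⟩ := hL N hN
  exact ⟨h, h0, fun i hi => hr i (hi.mono (h2 i)), fun P hP' => hP P (h1 hP'), γ,
    fun i 𝔭 h𝔭 => hγ i 𝔭 (h2 i h𝔭)⟩

end Gen

variable {k κ : Type*} [Field k] [Field κ] {B : Res k κ} {F 𝓕 : Type*} [Field F] [Algebra k F]
  [Field 𝓕] [Algebra κ 𝓕] {C : Bool → Comp B F 𝓕}
  [IsAlgClosed k] [IsAlgClosed κ] [IsFunctionField k F] [IsFunctionField κ 𝓕]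

/-- A semilinear automorphism compatible with the components, acting on the residual constants
by `x ↦ x ^ Q`. -/
structure Frobenial (C : Bool → Comp B F 𝓕) (Q : ℕ) (σ : F ≃+* F) (σ₀ : k ≃+* k) (τ : 𝓕 ≃+* 𝓕)
    (τ₀ : κ ≃+* κ) (s : Place k F ≃ Place k F) (s' : Place κ 𝓕 ≃ Place κ 𝓕) : Prop where
  map_const : ∀ a : k, σ (algebraMap k F a) = algebraMap k F (σ₀ a)
  map_const' : ∀ a : κ, τ (algebraMap κ 𝓕 a) = algebraMap κ 𝓕 (τ₀ a)
  pow : ∀ a : κ, τ₀ a = a ^ Q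
  mem_base : ∀ c : k, σ₀ c ∈ B.O ↔ c ∈ B.O
  res : ∀ c ∈ B.O, B.r (σ₀ c) = τ₀ (B.r c)
  mem : ∀ i x, σ x ∈ (C i).O ↔ x ∈ (C i).O
  r_eq : ∀ i, ∀ x ∈ (C i).O, (C i).r (σ x) = τ ((C i).r x)
  ord : ∀ (P : Place k F) (x : F), (s P).ord (σ x) = P.ord x
  ord' : ∀ (𝔭 : Place κ 𝓕) (x : 𝓕), (s' 𝔭).ord (τ x) = 𝔭.ord x

section SemiPlace

variable {k E : Type*} [Field k] [Field E] [Algebra k E] [IsAlgClosed k] [IsFunctionField k E]

/-- values and semilinear automorphisms -/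
theorem value_semi {σ : E ≃+* E} {σ₀ : k ≃+* k} {P P' : Place k E}
    (hc : ∀ a : k, σ (algebraMap k E a) = algebraMap k E (σ₀ a))
    (ho : ∀ x : E, P'.ord (σ x) = P.ord x) {x : E} (hx : x ∈ P.toValuationSubring) :
    σ x ∈ P'.toValuationSubring ∧ value P' (σ x) = σ₀ (value P x) := by
  have hmem : ∀ y : E, y ∈ P.toValuationSubring ↔ σ y ∈ P'.toValuationSubring := by
    intro y
    rcases eq_or_ne y 0 with rfl | hy
    · simp [zero_mem]
    · have : σ y ≠ 0 := by simpa using hy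
      rw [mem_iff_ord P hy, mem_iff_ord P' this, ho]
  refine ⟨(hmem x).mp hx, ?_⟩
  rw [value_eq_iff _ ((hmem x).mp hx)]
  have h1 := value_spec P hx
  have e : σ x - algebraMap k E (σ₀ (value P x)) = σ (x - algebraMap k E (value P x)) := by
    rw [map_sub, hc]
  rw [e, val_lt_one_iff, ho]
  rw [val_lt_one_iff] at h1
  rcases h1 with h1 | h1
  · left; rw [h1, map_zero]
  · exact Or.inr h1

theorem mem_semi {σ : E ≃+* E} {P P' : Place k E}
    (ho : ∀ x : E, P'.ord (σ x) = P.ord x) (x : E) :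
    σ x ∈ P'.toValuationSubring ↔ x ∈ P.toValuationSubring := by
  rcases eq_or_ne x 0 with rfl | hy
  · simp [zero_mem]
  · have : σ x ≠ 0 := by simpa using hy
    rw [mem_iff_ord P hy, mem_iff_ord P' this, ho]

end SemiPlace

namespace Frobenial

variable {t : F} {Q : ℕ} {σ : F ≃+* F} {σ₀ : k ≃+* k} {τ : 𝓕 ≃+* 𝓕} {τ₀ : κ ≃+* κ}
  {s : Place k F ≃ Place k F} {s' : Place κ 𝓕 ≃ Place κ 𝓕}

theorem r_ne_zero (h : Frobenial C Q σ σ₀ τ τ₀ s s') {i : Bool} {x : F} (hx : (C i).r x ≠ 0) :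
    (C i).r (σ x) ≠ 0 := by
  rw [h.r_eq i x (Res.mem_of_r_ne_zero hx)]
  simpa using hx

theorem mem_chart_iff (h : Frobenial C Q σ σ₀ τ τ₀ s s') (hσt : σ t = t) (x : F) :
    σ x ∈ chart C t ↔ x ∈ chart C t := by
  have hP : ∀ P : Place k F, t ∈ P.toValuationSubring ↔ t ∈ (s P).toValuationSubring := by
    intro P
    conv_rhs => rw [← hσt]
    exact (mem_semi (h.ord P) t).symm
  constructor
  · intro hx
    refine ⟨fun P hP' => ?_, fun i => (h.mem i x).mp (hx.2 i)⟩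
    rw [← mem_semi (h.ord P)]
    exact hx.1 _ ((hP P).mp hP')
  · intro hx
    refine ⟨fun P hP' => ?_, fun i => (h.mem i x).mpr (hx.2 i)⟩
    rw [← s.apply_symm_apply P, mem_semi (h.ord _)]
    refine hx.1 _ ?_
    rw [hP, s.apply_symm_apply]
    exact hP'

/-- points with a fixed branch are stable -/
theorem gen_iff (hm : NodeModel C t) (h : Frobenial C Q σ σ₀ τ τ₀ s s') (hσt : σ t = t)
    {M : Ideal (chart C t)} {i : Bool} {𝔭 : Place κ 𝓕} (h𝔭 : 𝔭 ∈ spec t M i) (hfix : s' 𝔭 = 𝔭)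
    {P : Place k F} : P ∈ gen t M ↔ s P ∈ gen t M := by
  have hM : ∀ (x : F) (hx : x ∈ chart C t), (⟨σ x, (h.mem_chart_iff hσt x).mpr hx⟩ : chart C t) ∈ M ↔
      (⟨x, hx⟩ : chart C t) ∈ M := by
    intro x hx
    rw [h𝔭.2, h𝔭.2]
    show value 𝔭 ((C i).r (σ x)) = 0 ↔ value 𝔭 ((C i).r x) = 0
    have h1 := value_semi h.map_const' (h.ord' 𝔭) (r_mem hm.rank hm.incomp hm.good hx i h𝔭.1)
    rw [hfix] at h1
    rw [h.r_eq i x (hx.2 i), h1.2, map_eq_zero]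
  have ht : t ∈ P.toValuationSubring ↔ t ∈ (s P).toValuationSubring := by
    conv_rhs => rw [← hσt]
    exact (mem_semi (h.ord P) t).symm
  have hval : ∀ x ∈ P.toValuationSubring, value (s P) (σ x) = σ₀ (value P x) := fun x hx =>
    (value_semi h.map_const (h.ord P) hx).2
  constructor
  · intro hP
    refine ⟨ht.mp hP.1, ?_, fun x => ?_⟩
    · have := hval t hP.1
      rw [hσt] at this
      rw [this, h.mem_base]
      exact hP.2.1
    · have hx' : σ.symm (x : F) ∈ chart C t := by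
        rw [← h.mem_chart_iff hσt, σ.apply_symm_apply]; exact x.2
      have e : x = (⟨σ (σ.symm (x : F)), (h.mem_chart_iff hσt _).mpr hx'⟩ : chart C t) :=
        Subtype.ext (σ.apply_symm_apply _).symm
      have h1 := hM _ hx'
      rw [← e] at h1
      have h2 := hval _ (hx'.1 P hP.1)
      rw [σ.apply_symm_apply] at h2
      rw [h1, hP.2.2, h2, h.res _ (value_mem hm.rank hm.incomp hm.good hx' hP.1 hP.2.1),
        map_eq_zero]
  · intro hP
    have htP := ht.mpr hP.1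
    have h0 := hval t htP
    rw [hσt] at h0
    have hO : value P t ∈ B.O := by rw [← h.mem_base, ← h0]; exact hP.2.1
    refine ⟨htP, hO, fun x => ?_⟩
    have h1 := hM (x : F) x.2
    rw [← h1, hP.2.2]
    show B.r (value (s P) (σ (x : F))) = 0 ↔ _
    rw [hval _ (x.2.1 P htP), h.res _ (value_mem hm.rank hm.incomp hm.good x.2 htP hO),
      map_eq_zero]

/-- **Frobenius on toric classes.** -/
theorem isPow_aux [CharZero k] (hm : NodeModel C t) (h : Frobenial C Q σ σ₀ τ τ₀ s s')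
    (hσt : σ t = t)
    (hfix : ∀ (M : Ideal (chart C t)) (𝔭₁ 𝔭₂ : Place κ 𝓕), 𝔭₁ ∈ spec t M true →
      𝔭₂ ∈ spec t M false → s' 𝔭₁ = 𝔭₁ ∧ s' 𝔭₂ = 𝔭₂) {n : ℕ} (hn : (n : κ) ≠ 0)
    {u : F} (hu : ∀ i, (C i).r u ≠ 0) (w : Bool → 𝓕) (hw : ∀ i, w i ^ n = (C i).r u)
    (hdiv : ∀ P : Place k F, (n : ℤ) ∣ P.ord u) :
    ∃ f : F, σ u / u ^ Q = f ^ n := by
  classical
  have hn0 : n ≠ 0 := by rintro rfl; simp at hn
  have hnZ : (n : ℤ) ≠ 0 := by exact_mod_cast hn0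
  have hu0 : u ≠ 0 := Res.ne_zero_of_r (hu true)
  obtain ⟨D, hD⟩ : ∃ D : Divisor k F, ∀ P, P.ord u = n * D P := by
    choose d hd using hdiv
    refine ⟨Finsupp.ofSupportFinite d ((finite_support (k := k) u).subset fun P hP => ?_), hd⟩
    rw [Function.mem_support] at hP ⊢
    rw [hd]
    exact mul_ne_zero hnZ hP
  have hsymm : ∀ (x : F) (P : Place k F), P.ord (σ x) = (s.symm P).ord x := by
    intro x P
    have := h.ord (s.symm P) x
    rwa [s.apply_symm_apply] at this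
  have hordq : ∀ (x : F), x ≠ 0 → ∀ P : Place k F, P.ord (σ x / x ^ Q) =
      (s.symm P).ord x - Q * P.ord x := by
    intro x hx P
    have hσx : σ x ≠ 0 := by simpa using hx
    rw [div_eq_mul_inv, P.ord_mul hσx (inv_ne_zero (pow_ne_zero _ hx)), P.ord_inv, ord_pow, hsymm]
    ring
  let D' : Divisor k F := Finsupp.mapDomain s D - Q • D
  have hD' : ∀ P, D' P = D (s.symm P) - Q * D P := by
    intro P
    show (Finsupp.mapDomain s D - Q • D) P = _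
    have h1 : Finsupp.mapDomain s D P = D (s.symm P) := by
      conv_lhs => rw [← s.apply_symm_apply P]
      rw [Finsupp.mapDomain_apply s.injective]
    rw [Finsupp.sub_apply, h1, Finsupp.smul_apply, nsmul_eq_mul]
  have hσr : ∀ {i : Bool} {x : F}, (C i).r x ≠ 0 → (C i).r (σ x / x ^ Q) =
      τ ((C i).r x) / (C i).r x ^ Q := by
    intro i x hx
    rw [Res.r_div (Res.mem_of_r_ne_zero (h.r_ne_zero hx)) (Res.r_pow_ne_zero hx Q),
      h.r_eq i x (Res.mem_of_r_ne_zero hx), Res.r_pow (Res.mem_of_r_ne_zero hx)]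
  have hσr0 : ∀ {i : Bool} {x : F}, (C i).r x ≠ 0 → (C i).r (σ x / x ^ Q) ≠ 0 := by
    intro i x hx
    exact Res.r_div_ne_zero (h.r_ne_zero hx) (Res.r_pow_ne_zero hx Q)
  have hw0 : ∀ i, w i ≠ 0 := fun i hi => hu i (by rw [← hw, hi, zero_pow hn0])
  set w' : Bool → 𝓕 := fun i => τ (w i) / w i ^ Q with hw'
  have hw'' : ∀ i, w' i ^ n = (C i).r (σ u / u ^ Q) := by
    intro i
    rw [hσr (hu i), ← hw, hw']
    simp only [div_pow, map_pow, ← pow_mul, mul_comm]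
  have hDu : ∀ P : Place k F, P.ord (σ u / u ^ Q) = n * D' P := by
    intro P
    rw [hordq u hu0, hD', hD, hD]
    ring
  have hloc : ∀ M : Ideal (chart C t), IsPoint t M → LocData C t D' w' M := by
    intro M hM
    by_cases h1 : (spec t M true).Nonempty <;> by_cases h2 : (spec t M false).Nonempty
    · obtain ⟨𝔭₁, h𝔭₁⟩ := h1
      obtain ⟨𝔭₂, h𝔭₂⟩ := h2
      obtain ⟨f1, f2⟩ := hfix M 𝔭₁ 𝔭₂ h𝔭₁ h𝔭₂
      obtain ⟨Y, ϖ, hY⟩ := hm.node M 𝔭₁ 𝔭₂ h𝔭₁ h𝔭₂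
      obtain ⟨g, hg0, hgP, hg1, hg2, ho1, ho2⟩ := exists_adapted hm.rank hm.incomp hm.good hm.surj
        (hm.lp M hM) hY hn0 hu hw hD
      have hgr : ∀ i, (C i).r g ≠ 0 := by
        intro i; cases i
        · exact hg2
        · exact hg1
      have hs1 : ∀ P ∈ gen t M, s.symm P ∈ gen t M := by
        intro P hP
        rw [h.gen_iff hm hσt h𝔭₁ f1, s.apply_symm_apply]
        exact hP
      -- values
      have hval : ∀ i (𝔭 : Place κ 𝓕), s' 𝔭 = 𝔭 → 𝔭.ord ((C i).r g / w i) = 0 →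
          (C i).r (σ g / g ^ Q) / w' i ∈ 𝔭.toValuationSubring ∧
            value 𝔭 ((C i).r (σ g / g ^ Q) / w' i) = 1 := by
        intro i 𝔭 hf ho
        set z := (C i).r g / w i with hz
        have hz0 : z ≠ 0 := div_ne_zero (hgr i) (hw0 i)
        have hzm : z ∈ 𝔭.toValuationSubring := (mem_iff_ord 𝔭 hz0).mpr ho.ge
        have hzv : value 𝔭 z ≠ 0 := (value_ne_zero_iff hz0 hzm).mpr ho
        have e : (C i).r (σ g / g ^ Q) / w' i = τ z * (z ^ Q)⁻¹ := by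
          rw [hσr (hgr i), hw', hz, map_div₀, div_pow]
          have := hgr i
          have := hw0 i
          have h5 : τ (w i) ≠ 0 := by simpa using hw0 i
          field_simp
        have h3 := value_semi h.map_const' (h.ord' 𝔭) hzm
        rw [hf] at h3
        have h4 : value 𝔭 (z ^ Q) ≠ 0 := by
          rw [value_pow' 𝔭 hzm]; exact pow_ne_zero _ hzv
        have h5 := value_inv' (pow_mem hzm Q) h4
        rw [e]
        refine ⟨mul_mem h3.1 h5.1, ?_⟩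
        rw [value_mul 𝔭 h3.1 h5.1, h3.2, h5.2, value_pow' 𝔭 hzm, h.pow]
        exact mul_inv_cancel₀ (pow_ne_zero _ hzv)
      refine ⟨σ g / g ^ Q, ?_, fun i _ => hσr0 (hgr i), fun P hP => ?_, 1, fun i 𝔭 h𝔭 => ?_⟩
      · exact Res.ne_zero_of_r (hσr0 (hgr true))
      · rw [hordq g hg0, hD', hgP P hP, hgP _ (hs1 P hP)]
      · cases i
        · have e := spec_subsingleton hm.good hm.surj M false h𝔭 h𝔭₂
          subst e
          exact hval false 𝔭 f2 ho2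
        · have e := spec_subsingleton hm.good hm.surj M true h𝔭 h𝔭₁
          subst e
          exact hval true 𝔭 f1 ho1
    · obtain ⟨𝔭₁, h𝔭₁⟩ := h1
      refine locData_of_smooth hm.rank hm.incomp hm.good hm.surj (hm.lp M hM) h𝔭₁ (fun j hj => ?_)
        hn0 (hσr0 (hu true)) (hw'' true) hDu
      cases j
      · exact h2
      · exact absurd rfl hj
    · obtain ⟨𝔭₂, h𝔭₂⟩ := h2
      refine locData_of_smooth hm.rank hm.incomp hm.good hm.surj (hm.lp M hM) h𝔭₂ (fun j hj => ?_)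
        hn0 (hσr0 (hu false)) (hw'' false) hDu
      cases j
      · exact absurd rfl hj
      · exact h1
    · obtain ⟨i, 𝔭, h𝔭⟩ := exists_spec hm.rank hm.incomp hm.good hm.surj hM.isMaximal
        fun a ha ha0 => hM.small_mem ha ha0
      cases i
      · exact absurd ⟨𝔭, h𝔭⟩ h2
      · exact absurd ⟨𝔭, h𝔭⟩ h1
  have hloc' : ∀ M : Ideal (chart C t⁻¹), IsPoint t⁻¹ M → LocData C t⁻¹ D' w' M := by
    intro M hM
    by_cases hM' : (⟨t⁻¹, self_mem_chart hm.good.inv.mem⟩ : chart C t⁻¹) ∈ M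
    swap
    · exact LocData.inv hm.rank hm.incomp hm.good hm.surj' hloc hM hM'
    have hx := hm.cusp M
    by_cases h1 : (spec t⁻¹ M true).Nonempty
    · obtain ⟨𝔭₁, h𝔭₁⟩ := h1
      refine locData_of_smooth hm.rank hm.incomp hm.good.inv hm.surj' (hm.lp' M hM) h𝔭₁
        (fun j hj => ?_) hn0 (hσr0 (hu true)) (hw'' true) hDu
      cases j
      · rintro ⟨𝔭₂, h𝔭₂⟩
        exact hx 𝔭₁ 𝔭₂ hM' h𝔭₁ h𝔭₂
      · exact absurd rfl hj
    · obtain ⟨i, 𝔭, h𝔭⟩ := exists_spec hm.rank hm.incomp hm.good.inv hm.surj' hM.isMaximal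
        fun a ha ha0 => hM.small_mem ha ha0
      cases i
      · refine locData_of_smooth hm.rank hm.incomp hm.good.inv hm.surj' (hm.lp' M hM) h𝔭
          (fun j hj => ?_) hn0 (hσr0 (hu false)) (hw'' false) hDu
        cases j
        · exact absurd rfl hj
        · exact h1
      · exact absurd ⟨𝔭, h𝔭⟩ h1
  exact isPow_of_residues hm.rank hm.incomp hm.good hm.surj hm.surj' hn
    (fun i => hσr0 (hu i)) w' hw'' hDu hloc hloc'

end Frobenial

/-! ### adjusting scales -/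

/-- a function with prescribed scales on the two components -/
theorem exists_two_scale [Infinite κ] (hB : B.RankOne) (hC : Incomp C) {d : k} (hd : d ≠ 0) :
    ∃ x : F, (C true).r x ≠ 0 ∧ (C false).r (algebraMap k F d * x) ≠ 0 := by
  obtain ⟨e, he, he'⟩ := exists_idem hC true
  obtain ⟨e', hf, hf'⟩ := exists_idem hC false
  have hdF : algebraMap k F d ≠ 0 := by simpa using hd
  have h1 : (C true).r e = 1 := by rw [he', if_pos rfl]
  have h2 : (C false).r e = 0 := by rw [he', if_neg (by decide)]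
  have h3 : (C false).r e' = 1 := by rw [hf', if_pos rfl]
  have h4 : (C true).r e' = 0 := by rw [hf', if_neg (by decide)]
  obtain ⟨N, hN, hN'⟩ := (C false).exists_pow_mul hB (he false) h2 (algebraMap k F d)
  obtain ⟨N', hN1, hN1'⟩ := (C true).exists_pow_mul hB (hf true) h4 (algebraMap k F d)⁻¹
  set x := e ^ N + e' ^ N' * (algebraMap k F d)⁻¹ with hx
  have e1 : (C true).r x = 1 := by
    rw [hx, Res.r_add (pow_mem (he true) N) hN1, hN1', Res.r_pow (he true), h1, one_pow, add_zero]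
  have e2 : algebraMap k F d * x = e ^ N * algebraMap k F d + e' ^ N' := by
    rw [hx]; field_simp
  have e3 : (C false).r (algebraMap k F d * x) = 1 := by
    rw [e2, Res.r_add hN (pow_mem (hf false) N'), hN', Res.r_pow (hf false), h3, one_pow, zero_add]
  refine ⟨x, ?_, ?_⟩
  · rw [e1]; exact one_ne_zero
  · rw [e3]; exact one_ne_zero

/-- the residue of `u` on a component is an `n`-th power up to constants -/
def ResPow (C : Bool → Comp B F 𝓕) (n : ℕ) (i : Bool) (u : F) (a : 𝓕) : Prop :=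
  ∃ c : k, c ≠ 0 ∧ ∃ h : 𝓕, h ≠ 0 ∧ (C i).r (algebraMap k F c * u) = a * h ^ n

namespace Frobenial

variable {t : F} {Q : ℕ} {σ : F ≃+* F} {σ₀ : k ≃+* k} {τ : 𝓕 ≃+* 𝓕} {τ₀ : κ ≃+* κ}
  {s : Place k F ≃ Place k F} {s' : Place κ 𝓕 ≃ Place κ 𝓕}

/-- **Frobenius on toric classes.** -/
theorem isPow [CharZero k] (hm : NodeModel C t) (h : Frobenial C Q σ σ₀ τ τ₀ s s')
    (hσt : σ t = t)
    (hfix : ∀ (M : Ideal (chart C t)) (𝔭₁ 𝔭₂ : Place κ 𝓕), 𝔭₁ ∈ spec t M true →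
      𝔭₂ ∈ spec t M false → s' 𝔭₁ = 𝔭₁ ∧ s' 𝔭₂ = 𝔭₂) {n : ℕ} (hn : (n : κ) ≠ 0)
    {u : F} (hdiv : ∀ P : Place k F, (n : ℤ) ∣ P.ord u) (h1 : ∀ i, ResPow C n i u 1) :
    ∃ f : F, σ u / u ^ Q = f ^ n := by
  have hn0 : n ≠ 0 := by rintro rfl; simp at hn
  obtain ⟨c₁, hc₁, w₁, hw₁, e₁⟩ := h1 true
  obtain ⟨c₂, hc₂, w₂, hw₂, e₂⟩ := h1 false
  rw [one_mul] at e₁ e₂
  have hc₁F : algebraMap k F c₁ ≠ 0 := by simpa using hc₁
  have hr1 : (C true).r (algebraMap k F c₁ * u) ≠ 0 := by rw [e₁]; exact pow_ne_zero _ hw₁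
  have hr2 : (C false).r (algebraMap k F c₂ * u) ≠ 0 := by rw [e₂]; exact pow_ne_zero _ hw₂
  have hu0 : u ≠ 0 := by
    rintro rfl
    rw [mul_zero, Res.r_zero] at hr1
    exact hr1 rfl
  obtain ⟨d, hd⟩ := IsAlgClosed.exists_pow_nat_eq (c₁ / c₂) (Nat.pos_of_ne_zero hn0)
  have hd0 : d ≠ 0 := by
    rintro rfl
    rw [zero_pow hn0] at hd
    exact div_ne_zero hc₁ hc₂ hd.symm
  obtain ⟨x, hx1, hx2⟩ := exists_two_scale hm.rank hm.incomp hd0
  have hx0 : x ≠ 0 := Res.ne_zero_of_r hx1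
  set v := algebraMap k F c₁ * u * x ^ n with hv
  have ev2 : v = (algebraMap k F c₂ * u) * (algebraMap k F d * x) ^ n := by
    rw [hv, mul_pow, ← map_pow, hd, map_div₀]
    have : algebraMap k F c₂ ≠ 0 := by simpa using hc₂
    field_simp
  have hv1 : (C true).r v = (w₁ * (C true).r x) ^ n := by
    rw [hv, Res.r_mul (Res.mem_of_r_ne_zero hr1) (pow_mem (Res.mem_of_r_ne_zero hx1) n), e₁,
      Res.r_pow (Res.mem_of_r_ne_zero hx1), mul_pow]
  have hv2 : (C false).r v = (w₂ * (C false).r (algebraMap k F d * x)) ^ n := by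
    rw [ev2, Res.r_mul (Res.mem_of_r_ne_zero hr2) (pow_mem (Res.mem_of_r_ne_zero hx2) n), e₂,
      Res.r_pow (Res.mem_of_r_ne_zero hx2), mul_pow]
  obtain ⟨f, hf⟩ := h.isPow_aux hm hσt hfix hn (u := v)
    (by
      intro i
      cases i
      · rw [hv2]; exact pow_ne_zero _ (mul_ne_zero hw₂ hx2)
      · rw [hv1]; exact pow_ne_zero _ (mul_ne_zero hw₁ hx1))
    (fun i => match i with
      | true => w₁ * (C true).r x
      | false => w₂ * (C false).r (algebraMap k F d * x))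
    (by
      intro i
      cases i
      · exact hv2.symm
      · exact hv1.symm)
    (by
      intro P
      rw [hv, P.ord_mul (mul_ne_zero hc₁F hu0) (pow_ne_zero _ hx0), P.ord_mul hc₁F hu0,
        ord_algebraMap, zero_add, ord_pow]
      exact (hdiv P).add (dvd_mul_right _ _))
  -- remove the correction
  obtain ⟨d', hd'⟩ := IsAlgClosed.exists_pow_nat_eq (σ₀ c₁ / c₁ ^ Q) (Nat.pos_of_ne_zero hn0)
  have hσ0 : σ₀ c₁ ≠ 0 := by simpa using hc₁
  have hd'0 : d' ≠ 0 := by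
    rintro rfl
    rw [zero_pow hn0] at hd'
    exact div_ne_zero hσ0 (pow_ne_zero _ hc₁) hd'.symm
  have hσx : σ x ≠ 0 := by simpa using hx0
  refine ⟨f / (algebraMap k F d' * (σ x / x ^ Q)), ?_⟩
  have hd'F : algebraMap k F d' ≠ 0 := by simpa using hd'0
  have hσF : algebraMap k F (σ₀ c₁) ≠ 0 := by simpa using hσ0
  have e4 : (algebraMap k F d' * (σ x / x ^ Q)) ^ n =
      algebraMap k F (σ₀ c₁) / algebraMap k F c₁ ^ Q * (σ x / x ^ Q) ^ n := by
    rw [mul_pow, ← map_pow, hd', map_div₀, map_pow]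
  have e5 : σ v = algebraMap k F (σ₀ c₁) * σ u * σ x ^ n := by
    rw [hv, map_mul, map_mul, h.map_const, map_pow]
  have e6 : v ^ Q = algebraMap k F c₁ ^ Q * u ^ Q * (x ^ Q) ^ n := by
    rw [hv, mul_pow, mul_pow, ← pow_mul, ← pow_mul, mul_comm n Q]
  rw [div_pow, ← hf, e4, e5, e6, div_pow]
  field_simp

end Frobenial

end Fermat.Agent.Models
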