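import Mathlib

/-!
# Residue maps and components

`Res F 𝓕`: a valuation subring of the field `F` with a residue map onto `𝓕`.
A component `Comp B F 𝓕` over a base `B : Res k κ` is a residue map on `F ⊇ k` compatible with the
base and such that every nonzero element of `F` is a constant times a unit.
-/

set_option autoImplicit false

noncomputable section

namespace Fermat.Agent.Models

open Polynomial

/-- A valuation subring with a residue map. -/
structure Res (F 𝓕 : Type*) [Field F] [Field 𝓕] where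
  /-- the valuation ring -/
  O : ValuationSubring F
  /-- the residue map -/
  res : O →+* 𝓕
  res_surjective : Function.Surjective res
  res_ne_zero_iff : ∀ x : O, res x ≠ 0 ↔ (x : F) ≠ 0 ∧ (x : F)⁻¹ ∈ O

namespace Res

variable {F 𝓕 : Type*} [Field F] [Field 𝓕] (C : Res F 𝓕)

open Classical in
/-- The residue map as a total function. -/
def r (x : F) : 𝓕 := if h : x ∈ C.O then C.res ⟨x, h⟩ else 0

variable {C}

theorem r_of_mem {x : F} (h : x ∈ C.O) : C.r x = C.res ⟨x, h⟩ := dif_pos h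

theorem mem_of_r_ne_zero {x : F} (h : C.r x ≠ 0) : x ∈ C.O := by
  by_contra h'
  exact h (dif_neg h')

@[simp]
theorem r_zero : C.r 0 = 0 := by
  rw [r_of_mem (zero_mem _)]; exact map_zero C.res

@[simp]
theorem r_one : C.r 1 = 1 := by
  rw [r_of_mem (one_mem _)]; exact map_one C.res

theorem r_add {x y : F} (hx : x ∈ C.O) (hy : y ∈ C.O) : C.r (x + y) = C.r x + C.r y := by
  rw [r_of_mem hx, r_of_mem hy, r_of_mem (add_mem hx hy), ← map_add]; rfl

theorem r_mul {x y : F} (hx : x ∈ C.O) (hy : y ∈ C.O) : C.r (x * y) = C.r x * C.r y := by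
  rw [r_of_mem hx, r_of_mem hy, r_of_mem (mul_mem hx hy), ← map_mul]; rfl

theorem r_neg {x : F} (hx : x ∈ C.O) : C.r (-x) = -C.r x := by
  rw [r_of_mem hx, r_of_mem (neg_mem hx), ← map_neg]; rfl

theorem r_sub {x y : F} (hx : x ∈ C.O) (hy : y ∈ C.O) : C.r (x - y) = C.r x - C.r y := by
  rw [r_of_mem hx, r_of_mem hy, r_of_mem (sub_mem hx hy), ← map_sub]; rfl

theorem r_pow {x : F} (hx : x ∈ C.O) (n : ℕ) : C.r (x ^ n) = C.r x ^ n := by
  rw [r_of_mem hx, r_of_mem (pow_mem hx n), ← map_pow]; rfl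

theorem r_sum {ι : Type*} (s : Finset ι) (f : ι → F) (hf : ∀ i ∈ s, f i ∈ C.O) :
    C.r (∑ i ∈ s, f i) = ∑ i ∈ s, C.r (f i) := by
  classical
  induction s using Finset.induction_on with
  | empty => simp [r_zero]
  | insert a s ha ih =>
    rw [Finset.sum_insert ha, Finset.sum_insert ha, r_add (hf a (Finset.mem_insert_self _ _))
      (sum_mem fun i hi => hf i (Finset.mem_insert_of_mem hi)),
      ih fun i hi => hf i (Finset.mem_insert_of_mem hi)]

theorem r_prod {ι : Type*} (s : Finset ι) (f : ι → F) (hf : ∀ i ∈ s, f i ∈ C.O) :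
    C.r (∏ i ∈ s, f i) = ∏ i ∈ s, C.r (f i) := by
  classical
  induction s using Finset.induction_on with
  | empty => simp [r_one]
  | insert a s ha ih =>
    rw [Finset.prod_insert ha, Finset.prod_insert ha, r_mul (hf a (Finset.mem_insert_self _ _))
      (prod_mem fun i hi => hf i (Finset.mem_insert_of_mem hi)),
      ih fun i hi => hf i (Finset.mem_insert_of_mem hi)]

variable (C) in
theorem r_surjective (y : 𝓕) : ∃ x ∈ C.O, C.r x = y := by
  obtain ⟨x, rfl⟩ := C.res_surjective y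
  exact ⟨x, x.2, r_of_mem x.2⟩

theorem ne_zero_of_r {x : F} (h : C.r x ≠ 0) : x ≠ 0 := by
  rintro rfl; exact h r_zero

theorem r_ne_zero_iff {x : F} (hx : x ≠ 0) : C.r x ≠ 0 ↔ x ∈ C.O ∧ x⁻¹ ∈ C.O := by
  constructor
  · intro h
    have h1 := mem_of_r_ne_zero h
    rw [r_of_mem h1, C.res_ne_zero_iff] at h
    exact ⟨h1, h.2⟩
  · rintro ⟨h1, h2⟩
    rw [r_of_mem h1, C.res_ne_zero_iff]
    exact ⟨hx, h2⟩

theorem inv_mem_of_r {x : F} (h : C.r x ≠ 0) : x⁻¹ ∈ C.O :=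
  ((r_ne_zero_iff (ne_zero_of_r h)).mp h).2

theorem r_inv {x : F} (h : C.r x ≠ 0) : C.r x⁻¹ = (C.r x)⁻¹ := by
  have h1 := mem_of_r_ne_zero h
  have h2 := inv_mem_of_r h
  refine eq_inv_of_mul_eq_one_left ?_
  rw [← r_mul h2 h1, inv_mul_cancel₀ (ne_zero_of_r h), r_one]

theorem r_inv_ne_zero {x : F} (h : C.r x ≠ 0) : C.r x⁻¹ ≠ 0 := by
  rw [r_inv h]; exact inv_ne_zero h

theorem r_mul_ne_zero {x y : F} (hx : C.r x ≠ 0) (hy : C.r y ≠ 0) : C.r (x * y) ≠ 0 := by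
  rw [r_mul (mem_of_r_ne_zero hx) (mem_of_r_ne_zero hy)]; exact mul_ne_zero hx hy

theorem r_pow_ne_zero {x : F} (hx : C.r x ≠ 0) (n : ℕ) : C.r (x ^ n) ≠ 0 := by
  rw [r_pow (mem_of_r_ne_zero hx)]; exact pow_ne_zero _ hx

theorem r_div {x y : F} (hx : x ∈ C.O) (hy : C.r y ≠ 0) : C.r (x / y) = C.r x / C.r y := by
  rw [div_eq_mul_inv, r_mul hx (inv_mem_of_r hy), r_inv hy, div_eq_mul_inv]

theorem r_div_ne_zero {x y : F} (hx : C.r x ≠ 0) (hy : C.r y ≠ 0) : C.r (x / y) ≠ 0 := by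
  rw [r_div (mem_of_r_ne_zero hx) hy]; exact div_ne_zero hx hy

theorem r_zpow {x : F} (h : C.r x ≠ 0) (n : ℤ) : C.r (x ^ n) = C.r x ^ n := by
  obtain ⟨m, rfl | rfl⟩ := n.eq_nat_or_neg
  · rw [zpow_natCast, zpow_natCast, r_pow (mem_of_r_ne_zero h)]
  · rw [zpow_neg, zpow_neg, zpow_natCast, zpow_natCast, r_inv, r_pow (mem_of_r_ne_zero h)]
    rw [r_pow (mem_of_r_ne_zero h)]; exact pow_ne_zero _ h

/-- If `x` is in the valuation ring with residue zero then its inverse is not. -/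
theorem inv_notMem {x : F} (hx : x ≠ 0) (h : C.r x = 0) (hx' : x ∈ C.O) : x⁻¹ ∉ C.O := by
  intro h'
  exact (r_ne_zero_iff hx).mpr ⟨hx', h'⟩ h

theorem ne_zero_of_notMem {x : F} (h : x ∉ C.O) : x ≠ 0 := by
  rintro rfl; exact h (zero_mem _)

theorem inv_mem_of_notMem {x : F} (h : x ∉ C.O) : x⁻¹ ∈ C.O :=
  (C.O.mem_or_inv_mem x).resolve_left h

theorem r_inv_of_notMem {x : F} (h : x ∉ C.O) : C.r x⁻¹ = 0 := by
  by_contra h2
  have := inv_mem_of_r h2
  rw [inv_inv] at this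
  exact h this

theorem r_mul_eq_zero {x y : F} (hx : x ∈ C.O) (hy : y ∈ C.O) (h : C.r y = 0) :
    C.r (x * y) = 0 := by
  rw [r_mul hx hy, h, mul_zero]

theorem mem_or {x : F} : C.r x ≠ 0 ∨ (x ∈ C.O ∧ C.r x = 0) ∨ (x ∉ C.O) := by
  by_cases h : x ∈ C.O
  · by_cases h' : C.r x = 0
    · exact Or.inr (Or.inl ⟨h, h'⟩)
    · exact Or.inl h'
  · exact Or.inr (Or.inr h)

/-- rank at most one -/
def RankOne (B : Res F 𝓕) : Prop :=
  ∀ a ∈ B.O, B.r a = 0 → ∀ b : F, ∃ n : ℕ, a ^ n * b ∈ B.O ∧ B.r (a ^ n * b) = 0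

end Res

variable {k κ : Type*} [Field k] [Field κ]

/-- A component of `F` over the base `B`. -/
structure Comp (B : Res k κ) (F 𝓕 : Type*) [Field F] [Field 𝓕]
    [Algebra k F] [Algebra κ 𝓕] extends Res F 𝓕 where
  algebraMap_mem : ∀ a ∈ B.O, algebraMap k F a ∈ O
  r_algebraMap : ∀ a ∈ B.O, toRes.r (algebraMap k F a) = algebraMap κ 𝓕 (B.r a)
  exists_scale : ∀ f : F, f ≠ 0 → ∃ c : k, c ≠ 0 ∧ toRes.r (algebraMap k F c * f) ≠ 0

namespace Comp

variable {B : Res k κ} {F 𝓕 : Type*} [Field F] [Field 𝓕]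
    [Algebra k F] [Algebra κ 𝓕] (C : Comp B F 𝓕)

theorem r_algebraMap_ne_zero {a : k} (ha : B.r a ≠ 0) : C.r (algebraMap k F a) ≠ 0 := by
  rw [C.r_algebraMap a (Res.mem_of_r_ne_zero ha)]
  simpa using ha

theorem r_algebraMap_eq_zero {a : k} (ha : a ∈ B.O) (h : B.r a = 0) :
    C.r (algebraMap k F a) = 0 := by
  rw [C.r_algebraMap a ha, h, map_zero]

theorem algebraMap_mem_iff {c : k} : algebraMap k F c ∈ C.O ↔ c ∈ B.O := by
  refine ⟨fun h => ?_, fun h => C.algebraMap_mem c h⟩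
  by_contra hc
  have h1 := Res.inv_mem_of_notMem hc
  have h2 := Res.r_inv_of_notMem hc
  have h3 := C.r_algebraMap_eq_zero h1 h2
  refine Res.inv_notMem ?_ h3 (C.algebraMap_mem _ h1) ?_
  · rw [map_inv₀]; exact inv_ne_zero (by simpa using Res.ne_zero_of_notMem hc)
  · rw [map_inv₀, inv_inv]; exact h

/-- Every element of `F` becomes small after multiplication by a power of a small element. -/
theorem exists_pow_mul (hB : B.RankOne) {e : F} (he : e ∈ C.O) (he0 : C.r e = 0) (y : F) :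
    ∃ n : ℕ, e ^ n * y ∈ C.O ∧ C.r (e ^ n * y) = 0 := by
  rcases eq_or_ne e 0 with rfl | hne
  · exact ⟨1, by simp⟩
  rcases eq_or_ne y 0 with rfl | hy
  · exact ⟨1, by simp⟩
  obtain ⟨c, hc0, hc⟩ := C.exists_scale e hne
  obtain ⟨d, hd0, hd⟩ := C.exists_scale y hy
  -- `c⁻¹` is small
  have hcs : c⁻¹ ∈ B.O ∧ B.r c⁻¹ = 0 := by
    by_cases hcO : c ∈ B.O
    · exfalso
      apply hc
      exact Res.r_mul_eq_zero (C.algebraMap_mem c hcO) he he0
    · exact ⟨Res.inv_mem_of_notMem hcO, Res.r_inv_of_notMem hcO⟩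
  obtain ⟨n, hn, hn0⟩ := hB c⁻¹ hcs.1 hcs.2 d⁻¹
  refine ⟨n, ?_⟩
  have e1 : e ^ n * y = algebraMap k F ((c⁻¹) ^ n * d⁻¹) *
      ((algebraMap k F c * e) ^ n * (algebraMap k F d * y)) := by
    have h1 : algebraMap k F c ≠ 0 := by simpa using hc0
    have h2 : algebraMap k F d ≠ 0 := by simpa using hd0
    rw [map_mul, map_pow, map_inv₀, map_inv₀, mul_pow, inv_pow]
    field_simp
  have h3 : C.r ((algebraMap k F c * e) ^ n * (algebraMap k F d * y)) ≠ 0 :=
    Res.r_mul_ne_zero (Res.r_pow_ne_zero hc n) hd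
  rw [e1]
  refine ⟨mul_mem (C.algebraMap_mem _ hn) (Res.mem_of_r_ne_zero h3), ?_⟩
  rw [Res.r_mul (C.algebraMap_mem _ hn) (Res.mem_of_r_ne_zero h3),
    C.r_algebraMap_eq_zero hn hn0, zero_mul]

end Comp

end Fermat.Agent.Models
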