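import Fermat.Agent.Models.Lift

/-!
# Local conservation of number using only the components through the point
-/

set_option autoImplicit false
set_option linter.unusedSectionVars false
set_option linter.style.haveILetI false

noncomputable section

namespace Fermat.Agent.Models

open AlgebraicCurve Fermat.Agent.Curves Polynomial

theorem ord_eq_of_cnt_one {K E : Type*} [Field K] [Field E] [Algebra K E] [IsAlgClosed K]
    [IsFunctionField K E] {S : Set (Place K E)} {x : E} (h : ∀ v ∈ S, 0 ≤ v.ord x)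
    (hc : cnt S x ≤ 1) {v : Place K E} (hv : v ∈ S) (hv1 : 1 ≤ v.ord x) (w : Place K E)
    (hw : w ∈ S) [Decidable (w = v)] : w.ord x = if w = v then 1 else 0 := by
  classical
  set D := divisorOf (k := K) x with hD
  have e : D = Finsupp.single v (D v) + D.erase v := (Finsupp.single_add_erase v D).symm
  have h1 : ∀ w ∈ S, 0 ≤ D.erase v w := by
    intro w hw
    by_cases hwv : w = v
    · subst hwv; simp
    · rw [Finsupp.erase_ne hwv]; exact h w hw
  have h2 : cnt S x = v.ord x + degOn S (D.erase v) := by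
    show degOn S D = _
    conv_lhs => rw [e, map_add, degOn_single_mem hv]
    rfl
  have h3 := degOn_nonneg h1
  have h4 : v.ord x = 1 := by omega
  have h5 : degOn S (D.erase v) = 0 := by omega
  split_ifs with hwv
  · rw [hwv]; exact h4
  · have := eq_zero_of_degOn h1 h5 hw
    rw [Finsupp.erase_ne hwv] at this
    exact this

theorem cnt_subsingleton {K E : Type*} [Field K] [Field E] [Algebra K E] [IsAlgClosed K]
    [IsFunctionField K E] {S : Set (Place K E)} (hS : S.Subsingleton) {v : Place K E}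
    (hv : v ∈ S) (x : E) : cnt S x = v.ord x :=
  cnt_eq_single hv fun w hw hwv => absurd (hS hw hv) hwv

theorem cnt_empty {K E : Type*} [Field K] [Field E] [Algebra K E] [IsAlgClosed K]
    [IsFunctionField K E] {S : Set (Place K E)} (hS : ¬ S.Nonempty) (x : E) : cnt S x = 0 :=
  cnt_eq_zero fun w hw => absurd ⟨w, hw⟩ hS

variable {k κ : Type*} [Field k] [Field κ] {B : Res k κ} {F : Type*} [Field F] [Algebra k F]
  {ι : Type*} {𝓕 : ι → Type*} [∀ i, Field (𝓕 i)] [∀ i, Algebra κ (𝓕 i)]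
  {C : ∀ i, Comp B F (𝓕 i)}
  [IsAlgClosed k] [IsAlgClosed κ] [IsFunctionField k F] [∀ i, IsFunctionField κ (𝓕 i)]
  [Fintype ι] [DecidableEq ι] [Nonempty ι]

/-- `y` is a unit at the point `M` -/
structure UnitAt (C : ∀ i, Comp B F (𝓕 i)) (t : F) (M : Ideal (chart C t)) (y : F) : Prop where
  ne_zero : y ≠ 0
  gen : ∀ P ∈ gen t M, P.ord y = 0
  spec : ∀ i, ∀ 𝔭 ∈ spec t M i, (C i).r y ≠ 0 ∧ 𝔭.ord ((C i).r y) = 0

omit [DecidableEq ι] in
theorem UnitAt.inv {t : F} {M : Ideal (chart C t)} {y : F} (h : UnitAt C t M y) :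
    UnitAt C t M y⁻¹ where
  ne_zero := inv_ne_zero h.ne_zero
  gen P hP := by rw [P.ord_inv, h.gen P hP, neg_zero]
  spec i 𝔭 h𝔭 := by
    obtain ⟨h1, h2⟩ := h.spec i 𝔭 h𝔭
    exact ⟨Res.r_inv_ne_zero h1, by rw [Res.r_inv h1, 𝔭.ord_inv, h2, neg_zero]⟩

omit [DecidableEq ι] in
theorem UnitAt.mul {t : F} {M : Ideal (chart C t)} {y z : F} (h : UnitAt C t M y)
    (h' : UnitAt C t M z) : UnitAt C t M (y * z) where
  ne_zero := mul_ne_zero h.ne_zero h'.ne_zero
  gen P hP := by rw [P.ord_mul h.ne_zero h'.ne_zero, h.gen P hP, h'.gen P hP, add_zero]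
  spec i 𝔭 h𝔭 := by
    obtain ⟨h1, h2⟩ := h.spec i 𝔭 h𝔭
    obtain ⟨h3, h4⟩ := h'.spec i 𝔭 h𝔭
    refine ⟨Res.r_mul_ne_zero h1 h3, ?_⟩
    rw [Res.r_mul (Res.mem_of_r_ne_zero h1) (Res.mem_of_r_ne_zero h3), 𝔭.ord_mul h1 h3, h2, h4,
      add_zero]

omit [DecidableEq ι] in
theorem UnitAt.one (t : F) (M : Ideal (chart C t)) : UnitAt C t M 1 where
  ne_zero := one_ne_zero
  gen P _ := by simp
  spec i 𝔭 _ := ⟨by rw [Res.r_one]; exact one_ne_zero, by rw [Res.r_one]; simp⟩

omit [DecidableEq ι] in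
theorem UnitAt.prod {α : Type*} (s : Finset α) {t : F} {M : Ideal (chart C t)} {y : α → F}
    (h : ∀ a ∈ s, UnitAt C t M (y a)) : UnitAt C t M (∏ a ∈ s, y a) := by
  classical
  induction s using Finset.induction_on with
  | empty => rw [Finset.prod_empty]; exact UnitAt.one t M
  | insert a s ha ih =>
    rw [Finset.prod_insert ha]
    exact (h a (Finset.mem_insert_self _ _)).mul (ih fun b hb => h b (Finset.mem_insert_of_mem hb))

/-- elements of the chart outside `M` are units at `M` -/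
theorem UnitAt.of_notMem (hB : B.RankOne) (hC : Incomp C) {t : F} (ht : IsGood C t)
    {M : Ideal (chart C t)} {s : chart C t} (hs : s ∉ M) : UnitAt C t M (s : F) where
  ne_zero := ne_zero_of_notMem_ideal hs
  gen P hP := by
    have h1 : B.r (value P (s : F)) ≠ 0 := fun h => hs ((hP.2.2 s).mpr h)
    exact (value_ne_zero_iff (ne_zero_of_notMem_ideal hs) (s.2.1 P hP.1)).mp
      (Res.ne_zero_of_r h1)
  spec i 𝔭 h𝔭 := by
    have h1 : value 𝔭 ((C i).r (s : F)) ≠ 0 := fun h => hs ((h𝔭.2 s).mpr h)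
    have h2 : (C i).r (s : F) ≠ 0 := by
      intro h
      rw [h] at h1
      apply h1
      have := value_algebraMap 𝔭 (0 : κ)
      rwa [map_zero] at this
    exact ⟨h2, (value_ne_zero_iff h2 (r_mem hB hC ht s.2 i h𝔭.1)).mp h1⟩

/-- adjusting the vertical order along one component not through `M` -/
theorem exists_adjust_one (hB : B.RankOne) (hC : Incomp C) {t : F} (ht : IsGood C t)
    (hS : Surj C t) {M : Ideal (chart C t)} (hM : IsPoint t M) {j : ι}
    (hj : ¬ (spec t M j).Nonempty) {x : F} (hx : x ≠ 0) :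
    ∃ y, UnitAt C t M y ∧ (∀ i, i ≠ j → (C i).r y ≠ 0) ∧ (C j).r (x * y) ≠ 0 := by
  classical
  have hMp := hM.isMaximal.isPrime
  obtain ⟨c, hc0, hc⟩ := (C j).exists_scale x hx
  -- the case of a small constant
  have key : ∀ c : k, c ≠ 0 → c ∈ B.O → B.r c = 0 → ∃ y, UnitAt C t M y ∧
      (∀ i, i ≠ j → (C i).r y ≠ 0) ∧ (C j).r (y / algebraMap k F c) ≠ 0 := by
    intro c hc0 hcO hcr
    obtain ⟨σ₀, hσ₀, hσ₀r⟩ := exists_kill_comp hB hC ht hS hM hj
    choose s hs hsi hsj using fun i => exists_chart_single hB hC ht i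
    set S : F := ∑ i ∈ Finset.univ.erase j, s i with hSdef
    have hSm : S ∈ chart C t := sum_mem fun i _ => hs i
    have hSr : ∀ l, l ≠ j → (C l).r S = (C l).r (s l) := by
      intro l hl
      rw [hSdef, Res.r_sum _ _ fun i _ => (hs i).2 l,
        Finset.sum_eq_single_of_mem l (Finset.mem_erase.mpr ⟨hl, Finset.mem_univ l⟩)]
      intro i _ hi
      exact hsj i l hi.symm
    have hSrj : (C j).r S = 0 := by
      rw [hSdef, Res.r_sum _ _ fun i _ => (hs i).2 j]
      exact Finset.sum_eq_zero fun i hi => hsj i j (Finset.ne_of_mem_erase hi).symm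
    obtain ⟨φ, hφ, hMφ⟩ := hM
    have hσφ : φ σ₀ ≠ 0 := by
      intro h
      apply hσ₀
      rw [hMφ, RingHom.mem_ker]
      exact h
    haveI : Infinite κ := IsAlgClosed.instInfinite
    have hfin1 : {d : κ | φ σ₀ + d * φ ⟨S, hSm⟩ = 0}.Finite := by
      by_cases h0 : φ ⟨S, hSm⟩ = 0
      · convert Set.finite_empty (α := κ)
        ext d
        simp [h0, hσφ]
      · refine Set.Subsingleton.finite fun d hd d' hd' => ?_
        have h1 : (d - d') * φ ⟨S, hSm⟩ = 0 := by
          have h2 : φ σ₀ + d * φ ⟨S, hSm⟩ = 0 := hd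
          have h3 : φ σ₀ + d' * φ ⟨S, hSm⟩ = 0 := hd'
          linear_combination h2 - h3
        exact sub_eq_zero.mp ((mul_eq_zero.mp h1).resolve_right h0)
    have hfin2 : (⋃ l, {d : κ | l ≠ j ∧ (C l).r (σ₀ : F) +
        algebraMap κ (𝓕 l) d * (C l).r (s l) = 0}).Finite := by
      refine Set.finite_iUnion fun l => Set.Subsingleton.finite ?_
      rintro d ⟨-, hd⟩ d' ⟨-, hd'⟩
      have h1 : (algebraMap κ (𝓕 l) d - algebraMap κ (𝓕 l) d') * (C l).r (s l) = 0 := by
        linear_combination hd - hd'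
      exact (algebraMap κ (𝓕 l)).injective (sub_eq_zero.mp ((mul_eq_zero.mp h1).resolve_right
        (hsi l)))
    obtain ⟨d, hd⟩ := (hfin1.union hfin2).infinite_compl.nonempty
    rw [Set.mem_compl_iff, Set.mem_union, not_or] at hd
    obtain ⟨a, ha, rfl⟩ := B.r_surjective d
    set σ : chart C t := σ₀ + ⟨algebraMap k F a, algebraMap_mem_chart t ha⟩ * ⟨S, hSm⟩ with hσdef
    have hσF : (σ : F) = σ₀ + algebraMap k F a * S := rfl
    have hσM : σ ∉ M := by
      rw [hMφ, RingHom.mem_ker, hσdef, map_add, map_mul, hφ a ha]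
      exact hd.1
    have hσr : ∀ l, l ≠ j → (C l).r (σ : F) ≠ 0 := by
      intro l hl h
      apply hd.2
      rw [Set.mem_iUnion]
      refine ⟨l, hl, ?_⟩
      rw [hσF, Res.r_add (σ₀.2.2 l) (mul_mem ((C l).algebraMap_mem a ha) (hSm.2 l)),
        Res.r_mul ((C l).algebraMap_mem a ha) (hSm.2 l), (C l).r_algebraMap a ha, hSr l hl] at h
      exact h
    have hσj : (C j).r (σ : F) = 0 := by
      rw [hσF, Res.r_add (σ₀.2.2 j) (mul_mem ((C j).algebraMap_mem a ha) (hSm.2 j)),
        Res.r_mul ((C j).algebraMap_mem a ha) (hSm.2 j), hSrj, hσ₀r, mul_zero, add_zero]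
    obtain ⟨m, hm, hm0⟩ := (C j).exists_pow_mul hB (σ.2.2 j) hσj (algebraMap k F c)⁻¹
    have hcF : algebraMap k F c ≠ 0 := by simpa using hc0
    refine ⟨((σ ^ m + ⟨algebraMap k F c, algebraMap_mem_chart t hcO⟩ : chart C t) : F),
      UnitAt.of_notMem hB hC ht (s := σ ^ m + ⟨algebraMap k F c, algebraMap_mem_chart t hcO⟩)
        fun h => ?_, fun l hl => ?_, ?_⟩
    · have h1 : (⟨algebraMap k F c, algebraMap_mem_chart t hcO⟩ : chart C t) ∈ M := by
        rw [hMφ, RingHom.mem_ker, hφ c hcO, hcr]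
      have h2 := M.sub_mem h h1
      rw [add_sub_cancel_right] at h2
      exact hσM (hMp.mem_of_pow_mem m h2)
    · show (C l).r ((σ : F) ^ m + algebraMap k F c) ≠ 0
      rw [Res.r_add (pow_mem (σ.2.2 l) m) ((C l).algebraMap_mem c hcO),
        (C l).r_algebraMap_eq_zero hcO hcr, add_zero, Res.r_pow (σ.2.2 l)]
      exact pow_ne_zero _ (hσr l hl)
    · show (C j).r (((σ : F) ^ m + algebraMap k F c) / algebraMap k F c) ≠ 0
      have e : ((σ : F) ^ m + algebraMap k F c) / algebraMap k F c =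
          (σ : F) ^ m * (algebraMap k F c)⁻¹ + 1 := by field_simp
      rw [e, Res.r_add hm (one_mem _), hm0, Res.r_one, zero_add]
      exact one_ne_zero
  have hcF : algebraMap k F c ≠ 0 := by simpa using hc0
  by_cases hcO : c ∈ B.O
  · by_cases hcr : B.r c = 0
    · obtain ⟨y, hy, hy1, hy2⟩ := key c hc0 hcO hcr
      refine ⟨y, hy, hy1, ?_⟩
      have e : x * y = (algebraMap k F c * x) * (y / algebraMap k F c) := by field_simp
      rw [e]
      exact Res.r_mul_ne_zero hc hy2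
    · refine ⟨1, UnitAt.one t M, fun i _ => by rw [Res.r_one]; exact one_ne_zero, ?_⟩
      have e : x * 1 = (algebraMap k F c * x) * (algebraMap k F c)⁻¹ := by field_simp
      rw [e]
      exact Res.r_mul_ne_zero hc (Res.r_inv_ne_zero ((C j).r_algebraMap_ne_zero hcr))
  · obtain ⟨y, hy, hy1, hy2⟩ := key c⁻¹ (inv_ne_zero hc0) (Res.inv_mem_of_notMem hcO)
      (Res.r_inv_of_notMem hcO)
    refine ⟨y⁻¹, hy.inv, fun i hi => Res.r_inv_ne_zero (hy1 i hi), ?_⟩
    have hy0 := hy.ne_zero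
    have e : x * y⁻¹ = (algebraMap k F c * x) * (y / algebraMap k F c⁻¹)⁻¹ := by
      rw [map_inv₀]
      field_simp
    rw [e]
    exact Res.r_mul_ne_zero hc (Res.r_inv_ne_zero hy2)

/-- **Local conservation of number.** Only the components through `M` matter. -/
theorem local_conserve' (hB : B.RankOne) (hC : Incomp C) {t : F} (ht : IsGood C t)
    (hS : Surj C t) {M : Ideal (chart C t)} (hM : IsPoint t M) {x : F} (hx0 : x ≠ 0)
    (hx : ∀ i, (spec t M i).Nonempty → (C i).r x ≠ 0) :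
    cnt (gen t M) x = ∑ i, cnt (spec t M i) ((C i).r x) := by
  classical
  have h1 : ∀ j, ∃ y, ¬ (spec t M j).Nonempty →
      UnitAt C t M y ∧ (∀ i, i ≠ j → (C i).r y ≠ 0) ∧ (C j).r (x * y) ≠ 0 := by
    intro j
    by_cases hj : (spec t M j).Nonempty
    · exact ⟨1, fun h => absurd hj h⟩
    · obtain ⟨y, hy⟩ := exists_adjust_one hB hC ht hS hM hj hx0
      exact ⟨y, fun _ => hy⟩
  choose y hy using h1
  set bad : Finset ι := Finset.univ.filter fun j => ¬ (spec t M j).Nonempty with hbad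
  have hmem : ∀ {j}, j ∈ bad ↔ ¬ (spec t M j).Nonempty := by
    intro j; rw [hbad, Finset.mem_filter]; simp
  set z := ∏ j ∈ bad, y j with hz
  have hzU : UnitAt C t M z := UnitAt.prod bad fun j hj => (hy j (hmem.mp hj)).1
  have hrprod : ∀ (s : Finset ι) i, s ⊆ bad → i ∉ s → (C i).r (∏ j ∈ s, y j) ≠ 0 := by
    intro s i hs his
    have h2 : ∀ j ∈ s, (C i).r (y j) ≠ 0 := fun j hj =>
      (hy j (hmem.mp (hs hj))).2.1 i fun h => his (h ▸ hj)
    rw [Res.r_prod _ _ fun j hj => Res.mem_of_r_ne_zero (h2 j hj), Finset.prod_ne_zero_iff]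
    exact h2
  have hxz : ∀ i, (C i).r (x * z) ≠ 0 := by
    intro i
    by_cases hi : (spec t M i).Nonempty
    · exact Res.r_mul_ne_zero (hx i hi) (hrprod bad i subset_rfl fun h => hmem.mp h hi)
    · have e : x * z = (x * y i) * ∏ j ∈ bad.erase i, y j := by
        rw [hz, ← Finset.mul_prod_erase bad y (hmem.mpr hi), mul_assoc]
      rw [e]
      exact Res.r_mul_ne_zero (hy i hi).2.2 (hrprod _ i (Finset.erase_subset _ _)
        (Finset.notMem_erase _ _))
  have h2 := local_conserve hB hC ht hM hxz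
  rw [cnt_mul _ hx0 hzU.ne_zero, cnt_eq_zero hzU.gen, add_zero] at h2
  rw [h2]
  refine Finset.sum_congr rfl fun i _ => ?_
  by_cases hi : (spec t M i).Nonempty
  · obtain ⟨𝔭, h𝔭⟩ := hi
    have h3 := (hzU.spec i 𝔭 h𝔭).1
    have h4 := hx i ⟨𝔭, h𝔭⟩
    rw [Res.r_mul (Res.mem_of_r_ne_zero h4) (Res.mem_of_r_ne_zero h3), cnt_mul _ h4 h3,
      cnt_eq_zero (x := (C i).r z) fun 𝔮 h𝔮 => (hzU.spec i 𝔮 h𝔮).2, add_zero]
  · rw [cnt_empty hi, cnt_empty hi]

end Fermat.Agent.Models
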