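import Fermat.Agent.Models.Chart

/-!
# Centers and local conservation of number
-/

set_option autoImplicit false
set_option linter.unusedSectionVars false
set_option linter.style.haveILetI false

noncomputable section

namespace Fermat.Agent.Models

open AlgebraicCurve Fermat.Agent.Curves Polynomial

variable {k κ : Type*} [Field k] [Field κ] {B : Res k κ} {F : Type*} [Field F] [Algebra k F]
  {ι : Type*} {𝓕 : ι → Type*} [∀ i, Field (𝓕 i)] [∀ i, Algebra κ (𝓕 i)]
  {C : ∀ i, Comp B F (𝓕 i)}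
  [IsAlgClosed k] [IsAlgClosed κ] [IsFunctionField k F] [∀ i, IsFunctionField κ (𝓕 i)]
  [Fintype ι] [DecidableEq ι] [Nonempty ι]

/-- evaluation at an integral place, modulo the maximal ideal -/
def evP (hB : B.RankOne) (hC : Incomp C) {t : F} (ht : IsGood C t) (P : Place k F)
    (hP : t ∈ P.toValuationSubring) (hPt : value P t ∈ B.O) : chart C t →+* κ where
  toFun x := B.r (value P (x : F))
  map_one' := by
    show B.r (value P (1 : F)) = 1
    rw [value_one', Res.r_one]
  map_mul' x y := by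
    show B.r (value P ((x : F) * y)) = _
    rw [value_mul P (x.2.1 P hP) (y.2.1 P hP), Res.r_mul (value_mem hB hC ht x.2 hP hPt)
      (value_mem hB hC ht y.2 hP hPt)]
  map_zero' := by
    show B.r (value P (0 : F)) = 0
    have := value_algebraMap P (0 : k)
    rw [map_zero] at this
    rw [this, Res.r_zero]
  map_add' x y := by
    show B.r (value P ((x : F) + y)) = _
    rw [value_add P (x.2.1 P hP) (y.2.1 P hP), Res.r_add (value_mem hB hC ht x.2 hP hPt)
      (value_mem hB hC ht y.2 hP hPt)]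

/-- evaluation at a branch -/
def evb (hB : B.RankOne) (hC : Incomp C) {t : F} (ht : IsGood C t) (i : ι) (𝔭 : Place κ (𝓕 i))
    (h𝔭 : (C i).r t ∈ 𝔭.toValuationSubring) : chart C t →+* κ where
  toFun x := value 𝔭 ((C i).r (x : F))
  map_one' := by
    show value 𝔭 ((C i).r (1 : F)) = 1
    rw [Res.r_one, value_one']
  map_mul' x y := by
    show value 𝔭 ((C i).r ((x : F) * y)) = _
    rw [Res.r_mul (x.2.2 i) (y.2.2 i), value_mul 𝔭 (r_mem hB hC ht x.2 i h𝔭)
      (r_mem hB hC ht y.2 i h𝔭)]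
  map_zero' := by
    show value 𝔭 ((C i).r (0 : F)) = 0
    have := value_algebraMap 𝔭 (0 : κ)
    rw [map_zero] at this
    rw [Res.r_zero, this]
  map_add' x y := by
    show value 𝔭 ((C i).r ((x : F) + y)) = _
    rw [Res.r_add (x.2.2 i) (y.2.2 i), value_add 𝔭 (r_mem hB hC ht x.2 i h𝔭)
      (r_mem hB hC ht y.2 i h𝔭)]

theorem evP_surjective (hB : B.RankOne) (hC : Incomp C) {t : F} (ht : IsGood C t) (P : Place k F)
    (hP : t ∈ P.toValuationSubring) (hPt : value P t ∈ B.O) :
    Function.Surjective (evP hB hC ht P hP hPt) := by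
  intro c
  obtain ⟨a, ha, rfl⟩ := B.r_surjective c
  refine ⟨⟨algebraMap k F a, algebraMap_mem_chart t ha⟩, ?_⟩
  show B.r (value P (algebraMap k F a)) = _
  rw [value_algebraMap]

theorem evb_surjective (hB : B.RankOne) (hC : Incomp C) {t : F} (ht : IsGood C t) (i : ι)
    (𝔭 : Place κ (𝓕 i)) (h𝔭 : (C i).r t ∈ 𝔭.toValuationSubring) :
    Function.Surjective (evb hB hC ht i 𝔭 h𝔭) := by
  intro c
  obtain ⟨a, ha, rfl⟩ := B.r_surjective c
  refine ⟨⟨algebraMap k F a, algebraMap_mem_chart t ha⟩, ?_⟩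
  show value 𝔭 ((C i).r (algebraMap k F a)) = _
  rw [(C i).r_algebraMap a ha, value_algebraMap]

/-- a closed point of the special fibre of the chart -/
def IsPoint (t : F) (M : Ideal (chart C t)) : Prop :=
  ∃ φ : chart C t →+* κ, (∀ a : k, ∀ ha : a ∈ B.O,
    φ ⟨algebraMap k F a, algebraMap_mem_chart t ha⟩ = B.r a) ∧ M = RingHom.ker φ

theorem IsPoint.isMaximal {t : F} {M : Ideal (chart C t)} (hM : IsPoint t M) : M.IsMaximal := by
  obtain ⟨φ, hφ, rfl⟩ := hM
  refine RingHom.ker_isMaximal_of_surjective φ fun c => ?_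
  obtain ⟨a, ha, rfl⟩ := B.r_surjective c
  exact ⟨_, hφ a ha⟩

theorem IsPoint.small_mem {t : F} {M : Ideal (chart C t)} (hM : IsPoint t M) {a : k}
    (ha : a ∈ B.O) (ha0 : B.r a = 0) :
    (⟨algebraMap k F a, algebraMap_mem_chart t ha⟩ : chart C t) ∈ M := by
  obtain ⟨φ, hφ, rfl⟩ := hM
  rw [RingHom.mem_ker, hφ a ha, ha0]

/-- every function is congruent to a constant -/
theorem IsPoint.exists_const {t : F} {M : Ideal (chart C t)} (hM : IsPoint t M)
    (x : chart C t) : ∃ a, ∃ ha : a ∈ B.O,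
      x - ⟨algebraMap k F a, algebraMap_mem_chart t ha⟩ ∈ M := by
  obtain ⟨φ, hφ, rfl⟩ := hM
  obtain ⟨a, ha, h⟩ := B.r_surjective (φ x)
  exact ⟨a, ha, by rw [RingHom.mem_ker, map_sub, hφ a ha, h, sub_self]⟩

/-- places of the generic fibre specialising to `M` -/
def gen (t : F) (M : Ideal (chart C t)) : Set (Place k F) :=
  {P | t ∈ P.toValuationSubring ∧ value P t ∈ B.O ∧
    ∀ x : chart C t, x ∈ M ↔ B.r (value P (x : F)) = 0}

/-- branches of the special fibre at `M` -/
def spec (t : F) (M : Ideal (chart C t)) (i : ι) : Set (Place κ (𝓕 i)) :=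
  {𝔭 | (C i).r t ∈ 𝔭.toValuationSubring ∧
    ∀ x : chart C t, x ∈ M ↔ value 𝔭 ((C i).r (x : F)) = 0}

theorem mem_gen_iff (hB : B.RankOne) (hC : Incomp C) {t : F} (ht : IsGood C t)
    {M : Ideal (chart C t)} {P : Place k F} :
    P ∈ gen t M ↔ ∃ (hP : t ∈ P.toValuationSubring) (hPt : value P t ∈ B.O),
      M = RingHom.ker (evP hB hC ht P hP hPt) := by
  constructor
  · rintro ⟨h1, h2, h3⟩
    refine ⟨h1, h2, ?_⟩
    ext x
    rw [h3]
    rfl
  · rintro ⟨h1, h2, rfl⟩
    exact ⟨h1, h2, fun x => Iff.rfl⟩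

theorem mem_spec_iff (hB : B.RankOne) (hC : Incomp C) {t : F} (ht : IsGood C t)
    {M : Ideal (chart C t)} {i : ι} {𝔭 : Place κ (𝓕 i)} :
    𝔭 ∈ spec t M i ↔ ∃ (h𝔭 : (C i).r t ∈ 𝔭.toValuationSubring),
      M = RingHom.ker (evb hB hC ht i 𝔭 h𝔭) := by
  constructor
  · rintro ⟨h1, h3⟩
    refine ⟨h1, ?_⟩
    ext x
    rw [h3]
    rfl
  · rintro ⟨h1, rfl⟩
    exact ⟨h1, fun x => Iff.rfl⟩

theorem isPoint_evP (hB : B.RankOne) (hC : Incomp C) {t : F} (ht : IsGood C t) (P : Place k F)
    (hP : t ∈ P.toValuationSubring) (hPt : value P t ∈ B.O) :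
    IsPoint t (RingHom.ker (evP hB hC ht P hP hPt)) :=
  ⟨_, fun a ha => by
    show B.r (value P (algebraMap k F a)) = _
    rw [value_algebraMap], rfl⟩

theorem isPoint_evb (hB : B.RankOne) (hC : Incomp C) {t : F} (ht : IsGood C t) (i : ι)
    (𝔭 : Place κ (𝓕 i)) (h𝔭 : (C i).r t ∈ 𝔭.toValuationSubring) :
    IsPoint t (RingHom.ker (evb hB hC ht i 𝔭 h𝔭)) :=
  ⟨_, fun a ha => by
    show value 𝔭 ((C i).r (algebraMap k F a)) = _
    rw [(C i).r_algebraMap a ha, value_algebraMap], rfl⟩

/-- degrees of functions with proportional poles -/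
theorem finrank_of_poles {K E : Type*} [Field K] [Field E] [Algebra K E] [IsAlgClosed K]
    [IsFunctionField K E] {t y : E} (ht : Transcendental K t) {m : ℕ} (hm : 0 < m)
    (h1 : ∀ P : Place K E, t ∈ P.toValuationSubring → y ∈ P.toValuationSubring)
    (h2 : ∀ P : Place K E, t ∉ P.toValuationSubring → P.ord y = m * P.ord t) :
    Transcendental K y ∧ Module.finrank (IntermediateField.adjoin K {y}) E =
      m * Module.finrank (IntermediateField.adjoin K {t}) E := by
  have ht0 : t ≠ 0 := by rintro rfl; exact ht isAlgebraic_zero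
  obtain ⟨v, hv⟩ := exists_notMem t ht
  have hv' : v.ord t < 0 := by rw [mem_iff_ord v ht0] at hv; omega
  have hvy : v.ord y ≠ 0 := by
    rw [h2 v hv]
    have : (0 : ℤ) < m := by exact_mod_cast hm
    exact mul_ne_zero this.ne' hv'.ne
  have hy : Transcendental K y := transcendental_of_ord_ne_zero hvy
  have hy0 : y ≠ 0 := by rintro rfl; exact hy isAlgebraic_zero
  refine ⟨hy, ?_⟩
  have hD : poleDivisor (k := K) y = m • poleDivisor t := by
    ext P
    rw [poleDivisor_apply, Finsupp.smul_apply, poleDivisor_apply]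
    by_cases hP : t ∈ P.toValuationSubring
    · have h3 := (mem_iff_ord P ht0).mp hP
      have h4 := (mem_iff_ord P hy0).mp (h1 P hP)
      rw [max_eq_left (by omega), max_eq_left (by omega), smul_zero]
    · have h3 := h2 P hP
      rw [mem_iff_ord P ht0] at hP
      rw [h3, max_eq_right (by nlinarith), max_eq_right (by omega), nsmul_eq_mul]
      ring
  have h5 := degree_poleDivisor hy
  rw [hD, map_nsmul, degree_poleDivisor ht, nsmul_eq_mul] at h5
  exact_mod_cast h5.symm

theorem exists_ord_bound {K E : Type*} [Field K] [Field E] [Algebra K E] [IsAlgClosed K]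
    [IsFunctionField K E] (s : E) : ∃ b : ℕ, ∀ P : Place K E, (P.ord s).natAbs ≤ b := by
  classical
  refine ⟨(divisorOf (k := K) s).support.sup fun P => (divisorOf (k := K) s P).natAbs,
    fun P => ?_⟩
  by_cases hP : P ∈ (divisorOf (k := K) s).support
  · exact Finset.le_sup (f := fun P => (divisorOf (k := K) s P).natAbs) hP
  · rw [Finsupp.notMem_support_iff, divisorOf_apply] at hP
    rw [hP]
    exact Nat.zero_le _

/-- a bound for the poles of a function regular where `t` is -/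
theorem exists_pole_bound {K E : Type*} [Field K] [Field E] [Algebra K E] [IsAlgClosed K]
    [IsFunctionField K E] {t s : E} (ht : Transcendental K t)
    (h1 : ∀ P : Place K E, t ∈ P.toValuationSubring → s ∈ P.toValuationSubring) :
    ∃ b : ℕ, ∀ P : Place K E, t⁻¹ ∈ P.toValuationSubring → s * t⁻¹ ^ b ∈ P.toValuationSubring := by
  classical
  have ht0 : t ≠ 0 := by rintro rfl; exact ht isAlgebraic_zero
  rcases eq_or_ne s 0 with rfl | hs
  · exact ⟨0, fun P _ => by simp⟩
  obtain ⟨b, hb⟩ := exists_ord_bound (K := K) s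
  refine ⟨b, fun P hP => ?_⟩
  by_cases hPt : t ∈ P.toValuationSubring
  · exact mul_mem (h1 P hPt) (pow_mem hP _)
  · rw [mem_iff_ord P (mul_ne_zero hs (pow_ne_zero _ (inv_ne_zero ht0))),
      P.ord_mul hs (pow_ne_zero _ (inv_ne_zero ht0)), ord_pow, P.ord_inv]
    rw [mem_iff_ord P ht0] at hPt
    have h2 := hb P
    have h3 : -(b : ℤ) ≤ P.ord s := by omega
    have h4 : (b : ℤ) * 1 ≤ b * -P.ord t := by
      apply mul_le_mul_of_nonneg_left _ (by positivity)
      omega
    omega

/-- the basic computation near `t = ∞` on a single function field -/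
theorem ord_add_pow {K E : Type*} [Field K] [Field E] [Algebra K E] [IsAlgClosed K]
    [IsFunctionField K E] {t s : E} (ht : Transcendental K t) {b J : ℕ} (T : Finset K)
    (hJ : b < T.card * J) (P : Place K E) (hP : t ∉ P.toValuationSubring)
    (hs : s * t⁻¹ ^ b ∈ P.toValuationSubring) :
    P.ord (s + (∏ τ ∈ T, (t - algebraMap K E τ)) ^ J) = (T.card * J : ℕ) * P.ord t := by
  have ht0 : t ≠ 0 := by rintro rfl; exact ht isAlgebraic_zero
  set m := T.card * J with hm
  set y := s + (∏ τ ∈ T, (t - algebraMap K E τ)) ^ J with hy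
  have hPt : P.ord t < 0 := by rw [mem_iff_ord P ht0] at hP; omega
  have hti : t⁻¹ ∈ P.toValuationSubring := by
    rw [mem_iff_ord P (inv_ne_zero ht0), P.ord_inv]; omega
  have htv : value P t⁻¹ = 0 := by
    rw [value_eq_zero_iff P hti, val_lt_one_iff, P.ord_inv]
    right; omega
  have e1 : y * t⁻¹ ^ m = (s * t⁻¹ ^ b) * t⁻¹ ^ (m - b) +
      (∏ τ ∈ T, (1 - algebraMap K E τ * t⁻¹)) ^ J := by
    have h2 : ∏ τ ∈ T, (1 - algebraMap K E τ * t⁻¹) =
        (∏ τ ∈ T, (t - algebraMap K E τ)) * t⁻¹ ^ T.card := by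
      rw [← Finset.prod_const, ← Finset.prod_mul_distrib]
      refine Finset.prod_congr rfl fun τ _ => ?_
      rw [sub_mul, mul_inv_cancel₀ ht0]
    rw [h2, mul_pow, ← pow_mul, ← hm, hy, add_mul, mul_assoc, ← pow_add,
      Nat.add_sub_cancel' hJ.le]
  have hmem1 : ∀ τ ∈ T, (1 - algebraMap K E τ * t⁻¹) ∈ P.toValuationSubring := fun τ _ =>
    sub_mem (one_mem _) (mul_mem (P.algebraMap_mem' _) hti)
  have hval1 : ∀ τ ∈ T, value P (1 - algebraMap K E τ * t⁻¹) = 1 := by
    intro τ _
    rw [value_sub' P (one_mem _) (mul_mem (P.algebraMap_mem' _) hti), value_one',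
      value_mul P (P.algebraMap_mem' _) hti, htv, mul_zero, sub_zero]
  have hprod : value P (∏ τ ∈ T, (1 - algebraMap K E τ * t⁻¹)) = 1 := by
    classical
    have : ∀ U : Finset K, U ⊆ T → value P (∏ τ ∈ U, (1 - algebraMap K E τ * t⁻¹)) = 1 := by
      intro U
      induction U using Finset.induction_on with
      | empty => intro _; simpa using value_one' P
      | insert a U ha ih =>
        intro hU
        rw [Finset.prod_insert ha, value_mul P (hmem1 a (hU (Finset.mem_insert_self _ _)))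
          (prod_mem fun τ hτ => hmem1 τ (hU (Finset.mem_insert_of_mem hτ))),
          hval1 a (hU (Finset.mem_insert_self _ _)),
          ih fun τ hτ => hU (Finset.mem_insert_of_mem hτ), one_mul]
    exact this T subset_rfl
  have hz : y * t⁻¹ ^ m ∈ P.toValuationSubring := by
    rw [e1]
    exact add_mem (mul_mem hs (pow_mem hti _)) (pow_mem (prod_mem hmem1) _)
  have hzv : value P (y * t⁻¹ ^ m) = 1 := by
    rw [e1, value_add P (mul_mem hs (pow_mem hti _)) (pow_mem (prod_mem hmem1) _),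
      value_mul P hs (pow_mem hti _), value_pow' P hti, htv, zero_pow (by omega), mul_zero,
      value_pow' P (prod_mem hmem1), hprod, one_pow, zero_add]
  have hy0 : y ≠ 0 := by
    intro h
    rw [h, zero_mul] at hzv
    have := value_algebraMap P (0 : K)
    rw [map_zero] at this
    rw [this] at hzv
    exact zero_ne_one hzv
  have h5 := (value_ne_zero_iff (w := P) (mul_ne_zero hy0 (pow_ne_zero m (inv_ne_zero ht0))) hz).mp
    (by rw [hzv]; exact one_ne_zero)
  rw [P.ord_mul hy0 (pow_ne_zero m (inv_ne_zero ht0)), ord_pow, P.ord_inv] at h5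
  linarith

/-- a `good` perturbation: adding a high power of a polynomial in `t` -/
theorem IsGood.add_pow (hB : B.RankOne) (hC : Incomp C) {t : F} (ht : IsGood C t) {s : F}
    (hs : s ∈ chart C t) (T : Finset k) (hT : ∀ τ ∈ T, τ ∈ B.O)
    (hTr : Set.InjOn B.r (T : Set k)) (hTne : T.Nonempty) :
    ∃ J : ℕ, 0 < J ∧ IsGood C (s + (∏ τ ∈ T, (t - algebraMap k F τ)) ^ J) ∧
      (∀ P : Place k F, s + (∏ τ ∈ T, (t - algebraMap k F τ)) ^ J ∈ P.toValuationSubring →
        t ∈ P.toValuationSubring ∧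
        (value P (s + (∏ τ ∈ T, (t - algebraMap k F τ)) ^ J) ∈ B.O → value P t ∈ B.O)) ∧
      ∀ i, ∀ 𝔭 : Place κ (𝓕 i), (C i).r (s + (∏ τ ∈ T, (t - algebraMap k F τ)) ^ J) ∈
        𝔭.toValuationSubring → (C i).r t ∈ 𝔭.toValuationSubring := by
  classical
  have htk := ht.transcendental
  have ht0 : t ≠ 0 := by rintro rfl; exact htk isAlgebraic_zero
  obtain ⟨b, hb⟩ := exists_pole_bound htk hs.1
  have hti : ∀ i, t⁻¹ ∈ (C i).O := ht.inv.mem
  have hsb : s * t⁻¹ ^ b ∈ chart C t⁻¹ := ⟨hb, fun i => mul_mem (hs.2 i) (pow_mem (hti i) _)⟩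
  have hcard : 0 < T.card := hTne.card_pos
  set J := b + 1 with hJ
  have hJb : b < T.card * J := by nlinarith
  set m := T.card * J with hm
  have hm0 : 0 < m := by omega
  set y := s + (∏ τ ∈ T, (t - algebraMap k F τ)) ^ J with hy
  have hκ : True ∧ IsGood C y ∧
      ∀ i, ∀ 𝔭 : Place κ (𝓕 i), (C i).r t ∉ 𝔭.toValuationSubring →
        𝔭.ord ((C i).r y) = (m : ℕ) * 𝔭.ord ((C i).r t) := by
    -- goodness
    have hprod : ∏ τ ∈ T, (t - algebraMap k F τ) ∈ chart C t :=
      prod_mem fun τ hτ => sub_mem (self_mem_chart ht.mem) (algebraMap_mem_chart t (hT τ hτ))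
    have hymem : y ∈ chart C t := add_mem hs (pow_mem hprod _)
    have hpk := finrank_of_poles htk hm0 hymem.1 (fun P hP => ord_add_pow htk T hJb P hP
      (hb P ((P.toValuationSubring.mem_or_inv_mem t).resolve_left hP)))
    -- residues
    have hr : ∀ i, (C i).r y = (C i).r s +
        (∏ τ ∈ T.image B.r, ((C i).r t - algebraMap κ (𝓕 i) τ)) ^ J := by
      intro i
      rw [hy, Res.r_add (hs.2 i) (pow_mem (hprod.2 i) _), Res.r_pow (hprod.2 i),
        Res.r_prod _ _ fun τ hτ => sub_mem (ht.mem i) ((C i).algebraMap_mem _ (hT τ hτ)),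
        Finset.prod_image hTr]
      congr 2
      refine Finset.prod_congr rfl fun τ hτ => ?_
      rw [Res.r_sub (ht.mem i) ((C i).algebraMap_mem _ (hT τ hτ)), (C i).r_algebraMap _ (hT τ hτ)]
    have hcard' : (T.image B.r).card = T.card := Finset.card_image_of_injOn hTr
    have hordκ : ∀ i, ∀ 𝔭 : Place κ (𝓕 i), (C i).r t ∉ 𝔭.toValuationSubring →
        𝔭.ord ((C i).r y) = (m : ℕ) * 𝔭.ord ((C i).r t) := by
      intro i 𝔭 h𝔭
      have h1 : ((C i).r t)⁻¹ ∈ 𝔭.toValuationSubring :=
        (𝔭.toValuationSubring.mem_or_inv_mem _).resolve_left h𝔭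
      have h2 : (C i).r t⁻¹ ∈ 𝔭.toValuationSubring := by
        rw [Res.r_inv (ht.r_ne_zero i)]; exact h1
      have h3 := r_mem hB hC ht.inv hsb i h2
      rw [Res.r_mul (hs.2 i) (pow_mem (hti i) _), Res.r_pow (hti i),
        Res.r_inv (ht.r_ne_zero i)] at h3
      rw [hr i, ord_add_pow (ht.trans i) (T.image B.r) (by rw [hcard']; exact hJb) 𝔭 h𝔭 h3,
        hcard']
    have hpκ : ∀ i, Transcendental κ ((C i).r y) ∧
        Module.finrank (IntermediateField.adjoin κ {(C i).r y}) (𝓕 i) =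
          m * Module.finrank (IntermediateField.adjoin κ {(C i).r t}) (𝓕 i) := by
      intro i
      exact finrank_of_poles (ht.trans i) hm0 (fun 𝔭 h𝔭 => r_mem hB hC ht hymem i h𝔭)
        (fun 𝔭 h𝔭 => hordκ i 𝔭 h𝔭)
    refine ⟨trivial, ⟨hymem.2, fun i => (hpκ i).1, ?_⟩, hordκ⟩
    rw [hpk.2, ← ht.deg, Finset.mul_sum]
    exact Finset.sum_congr rfl fun i _ => (hpκ i).2
  refine ⟨J, by omega, hκ.2.1, ?_, ?_⟩
  rotate_left
  · intro i 𝔭 h1
    by_contra h2
    have h3 := hκ.2.2 i 𝔭 h2
    have h4 := hκ.2.1.r_ne_zero i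
    rw [← hy] at h1
    rw [mem_iff_ord 𝔭 h4] at h1
    rw [mem_iff_ord 𝔭 (ht.r_ne_zero i)] at h2
    have h5 : (0 : ℤ) < (m : ℕ) := by exact_mod_cast hm0
    have h6 := mul_neg_of_pos_of_neg h5 (show 𝔭.ord ((C i).r t) < 0 by omega)
    omega
  · intro P hP
    have hPt : t ∈ P.toValuationSubring := by
      by_contra hPt
      have h1 := ord_add_pow htk T hJb P hPt
        (hb P ((P.toValuationSubring.mem_or_inv_mem t).resolve_left hPt))
      rw [← hy] at h1
      have h2 : P.ord t < 0 := by rw [mem_iff_ord P ht0] at hPt; omega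
      have h3 : P.ord y < 0 := by
        rw [h1]
        have : (0 : ℤ) < (m : ℕ) := by exact_mod_cast hm0
        exact mul_neg_of_pos_of_neg this h2
      have hy0 : y ≠ 0 := by
        intro h
        rw [h] at h3
        simp at h3
      rw [mem_iff_ord P hy0] at hP
      omega
    refine ⟨hPt, fun hPy => ?_⟩
    by_contra ha
    set a := value P t with haa
    have ha0 : a ≠ 0 := Res.ne_zero_of_notMem ha
    have hai := Res.inv_mem_of_notMem ha
    have har := Res.r_inv_of_notMem ha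
    obtain ⟨htiP, htiv⟩ := value_inv' hPt ha0
    have hsbv := value_mem hB hC ht.inv hsb htiP (by rw [htiv]; exact hai)
    have e1 : y * t⁻¹ ^ m = (s * t⁻¹ ^ b) * t⁻¹ ^ (m - b) +
        (∏ τ ∈ T, (1 - algebraMap k F τ * t⁻¹)) ^ J := by
      have h2 : ∏ τ ∈ T, (1 - algebraMap k F τ * t⁻¹) =
          (∏ τ ∈ T, (t - algebraMap k F τ)) * t⁻¹ ^ T.card := by
        rw [← Finset.prod_const, ← Finset.prod_mul_distrib]
        refine Finset.prod_congr rfl fun τ _ => ?_
        rw [sub_mul, mul_inv_cancel₀ ht0]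
      rw [h2, mul_pow, ← pow_mul, ← hm, hy, add_mul, mul_assoc, ← pow_add,
        Nat.add_sub_cancel' hJb.le]
    have hmem1 : ∀ τ ∈ T, (1 - algebraMap k F τ * t⁻¹) ∈ P.toValuationSubring := fun τ _ =>
      sub_mem (one_mem _) (mul_mem (P.algebraMap_mem' _) htiP)
    have hval1 : ∀ τ ∈ T, value P (1 - algebraMap k F τ * t⁻¹) ∈ B.O ∧
        B.r (value P (1 - algebraMap k F τ * t⁻¹)) = 1 := by
      intro τ hτ
      have h3 : value P (1 - algebraMap k F τ * t⁻¹) = 1 - τ * a⁻¹ := by
        rw [value_sub' P (one_mem _) (mul_mem (P.algebraMap_mem' _) htiP), value_one',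
          value_mul P (P.algebraMap_mem' _) htiP, htiv, value_algebraMap]
      rw [h3]
      refine ⟨sub_mem (one_mem _) (mul_mem (hT τ hτ) hai), ?_⟩
      rw [Res.r_sub (one_mem _) (mul_mem (hT τ hτ) hai), Res.r_mul (hT τ hτ) hai, har, mul_zero,
        sub_zero, Res.r_one]
    have hprod : ∀ U : Finset k, U ⊆ T → value P (∏ τ ∈ U, (1 - algebraMap k F τ * t⁻¹)) ∈ B.O ∧
        B.r (value P (∏ τ ∈ U, (1 - algebraMap k F τ * t⁻¹))) = 1 := by
      intro U
      induction U using Finset.induction_on with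
      | empty =>
        intro _
        rw [Finset.prod_empty, value_one']
        exact ⟨one_mem _, Res.r_one⟩
      | insert c U hc ih =>
        intro hU
        have h4 := hval1 c (hU (Finset.mem_insert_self _ _))
        have h5 := ih fun τ hτ => hU (Finset.mem_insert_of_mem hτ)
        rw [Finset.prod_insert hc, value_mul P (hmem1 c (hU (Finset.mem_insert_self _ _)))
          (prod_mem fun τ hτ => hmem1 τ (hU (Finset.mem_insert_of_mem hτ)))]
        exact ⟨mul_mem h4.1 h5.1, by rw [Res.r_mul h4.1 h5.1, h4.2, h5.2, mul_one]⟩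
    obtain ⟨hpm, hpr⟩ := hprod T subset_rfl
    have hz : value P (y * t⁻¹ ^ m) = value P (s * t⁻¹ ^ b) * a⁻¹ ^ (m - b) +
        (value P (∏ τ ∈ T, (1 - algebraMap k F τ * t⁻¹))) ^ J := by
      rw [e1, value_add P (mul_mem (hb P htiP) (pow_mem htiP _)) (pow_mem (prod_mem hmem1) _),
        value_mul P (hb P htiP) (pow_mem htiP _), value_pow' P htiP, htiv,
        value_pow' P (prod_mem hmem1)]
    have hzm : value P (y * t⁻¹ ^ m) ∈ B.O := by
      rw [hz]; exact add_mem (mul_mem hsbv (pow_mem hai _)) (pow_mem hpm _)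
    have hzr : B.r (value P (y * t⁻¹ ^ m)) = 1 := by
      rw [hz, Res.r_add (mul_mem hsbv (pow_mem hai _)) (pow_mem hpm _), Res.r_mul hsbv
        (pow_mem hai _), Res.r_pow hai, har, zero_pow (by omega), mul_zero, zero_add,
        Res.r_pow hpm, hpr, one_pow]
    rw [value_mul P hP (pow_mem htiP _), value_pow' P htiP, htiv] at hzm hzr
    rw [Res.r_mul hPy (pow_mem hai _), Res.r_pow hai, har, zero_pow (by omega), mul_zero] at hzr
    exact zero_ne_one hzr

end Fermat.Agent.Models
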