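import Fermat.Agent.Models.Conserve

/-!
# Charts
-/

set_option autoImplicit false
set_option linter.unusedSectionVars false
set_option linter.style.haveILetI false

noncomputable section

namespace Fermat.Agent.Models

open AlgebraicCurve Fermat.Agent.Curves Polynomial

section Val

variable {k F : Type*} [Field k] [Field F] [Algebra k F] [IsAlgClosed k] [IsFunctionField k F]

theorem value_sub' (w : Place k F) {x y : F} (hx : x ∈ w.toValuationSubring)
    (hy : y ∈ w.toValuationSubring) : value w (x - y) = value w x - value w y := by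
  have h := value_add w (sub_mem hx hy) hy
  rw [sub_add_cancel] at h
  rw [h, add_sub_cancel_right]

theorem value_pow' (w : Place k F) {x : F} (hx : x ∈ w.toValuationSubring) (n : ℕ) :
    value w (x ^ n) = value w x ^ n := by
  induction n with
  | zero =>
    have := value_algebraMap w (1 : k)
    rw [map_one] at this
    simpa using this
  | succ n ih => rw [pow_succ, value_mul w (pow_mem hx n) hx, ih, pow_succ]

theorem value_one' (w : Place k F) : value w (1 : F) = 1 := by
  have := value_algebraMap w (1 : k)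
  rwa [map_one] at this

theorem value_ne_zero_iff {w : Place k F} {x : F} (hx : x ≠ 0) (hxw : x ∈ w.toValuationSubring) :
    value w x ≠ 0 ↔ w.ord x = 0 := by
  rw [Ne, value_eq_zero_iff w hxw, val_lt_one_iff, or_iff_right hx]
  have := (mem_iff_ord w hx).mp hxw
  omega

theorem value_inv' {w : Place k F} {x : F} (hxw : x ∈ w.toValuationSubring)
    (h : value w x ≠ 0) : x⁻¹ ∈ w.toValuationSubring ∧ value w x⁻¹ = (value w x)⁻¹ := by
  have hx : x ≠ 0 := by
    rintro rfl
    apply h
    have := value_algebraMap w (0 : k)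
    rwa [map_zero] at this
  have h1 : x⁻¹ ∈ w.toValuationSubring := by
    rw [mem_iff_ord w (inv_ne_zero hx), w.ord_inv, (value_ne_zero_iff hx hxw).mp h]
    simp
  refine ⟨h1, eq_inv_of_mul_eq_one_left ?_⟩
  rw [← value_mul w h1 hxw, inv_mul_cancel₀ hx, value_one']

theorem fib_finite (t : F) (ht : Transcendental k t) (c : k) : (fib t c).Finite := by
  refine (finite_zeros (k := k) (t - algebraMap k F c)).subset ?_
  rintro v ⟨h1, h2⟩
  exact (ord_sub_pos_iff ht h1 c).mpr h2

theorem exists_notMem (t : F) (ht : Transcendental k t) :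
    ∃ v : Place k F, t ∉ v.toValuationSubring := by
  have ht' : Transcendental k t⁻¹ := fun h => ht (by simpa using h.inv)
  obtain ⟨v, hv⟩ := exists_ord_pos_of_transcendental ht'
  refine ⟨v, fun h => ?_⟩
  have ht0 : t ≠ 0 := by rintro rfl; exact ht isAlgebraic_zero
  rw [mem_iff_ord v ht0] at h
  rw [v.ord_inv] at hv
  omega

end Val

variable {k κ : Type*} [Field k] [Field κ] {B : Res k κ} {F : Type*} [Field F] [Algebra k F]
  {ι : Type*} {𝓕 : ι → Type*} [∀ i, Field (𝓕 i)] [∀ i, Algebra κ (𝓕 i)]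
  (C : ∀ i, Comp B F (𝓕 i))

/-- The ring of the chart `t ≠ ∞`. -/
def chart (t : F) : Subring F where
  carrier := {x | (∀ P : Place k F, t ∈ P.toValuationSubring → x ∈ P.toValuationSubring) ∧
    ∀ i, x ∈ (C i).O}
  mul_mem' hx hy := ⟨fun P hP => mul_mem (hx.1 P hP) (hy.1 P hP), fun i => mul_mem (hx.2 i) (hy.2 i)⟩
  one_mem' := ⟨fun _ _ => one_mem _, fun _ => one_mem _⟩
  add_mem' hx hy := ⟨fun P hP => add_mem (hx.1 P hP) (hy.1 P hP), fun i => add_mem (hx.2 i) (hy.2 i)⟩
  zero_mem' := ⟨fun _ _ => zero_mem _, fun _ => zero_mem _⟩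
  neg_mem' hx := ⟨fun P hP => neg_mem (hx.1 P hP), fun i => neg_mem (hx.2 i)⟩

variable {C}

theorem mem_chart {t x : F} : x ∈ chart C t ↔
    (∀ P : Place k F, t ∈ P.toValuationSubring → x ∈ P.toValuationSubring) ∧
      ∀ i, x ∈ (C i).O := Iff.rfl

theorem algebraMap_mem_chart (t : F) {a : k} (ha : a ∈ B.O) : algebraMap k F a ∈ chart C t :=
  ⟨fun P _ => P.algebraMap_mem' a, fun i => (C i).algebraMap_mem a ha⟩

theorem self_mem_chart {t : F} (ht : ∀ i, t ∈ (C i).O) : t ∈ chart C t := ⟨fun _ h => h, ht⟩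

section Inv

variable [Fintype ι]

theorem IsGood.inv {t : F} (ht : IsGood C t) : IsGood C t⁻¹ := by
  have h0 : ∀ i, (C i).r t ≠ 0 := fun i h => ht.trans i (by rw [h]; exact isAlgebraic_zero)
  refine ⟨fun i => Res.inv_mem_of_r (h0 i), fun i => ?_, ?_⟩
  · rw [Res.r_inv (h0 i)]
    intro h
    exact ht.trans i (by simpa using h.inv)
  · rw [finrank_adjoin_inv, ← ht.deg]
    refine Finset.sum_congr rfl fun i _ => ?_
    rw [Res.r_inv (h0 i), finrank_adjoin_inv]

theorem IsGood.r_ne_zero {t : F} (ht : IsGood C t) (i : ι) : (C i).r t ≠ 0 :=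
  fun h => ht.trans i (by rw [h]; exact isAlgebraic_zero)

end Inv

variable [IsAlgClosed k] [IsAlgClosed κ] [IsFunctionField k F] [∀ i, IsFunctionField κ (𝓕 i)]
  [Fintype ι] [DecidableEq ι] [Nonempty ι]

theorem IsGood.transcendental {t : F} (ht : IsGood C t) : Transcendental k t :=
  (C (Classical.arbitrary ι)).transcendental (ht.mem _) (ht.trans _)

/-- Values at integral places are integral. -/
theorem value_mem (hB : B.RankOne) (hC : Incomp C) {t : F} (ht : IsGood C t) {x : F}
    (hx : x ∈ chart C t) {P : Place k F} (hP : t ∈ P.toValuationSubring)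
    (hPt : value P t ∈ B.O) : value P x ∈ B.O := by
  by_contra hne
  set a := value P x with ha
  have ha0 := Res.ne_zero_of_notMem hne
  have ha1 := Res.inv_mem_of_notMem hne
  have ha2 := Res.r_inv_of_notMem hne
  have hxP := hx.1 P hP
  set y := algebraMap k F a⁻¹ * x - 1 with hy
  have hyr : ∀ i, (C i).r y = -1 := by
    intro i
    have h1 := (C i).algebraMap_mem _ ha1
    rw [hy, Res.r_sub (mul_mem h1 (hx.2 i)) (one_mem _), Res.r_mul h1 (hx.2 i),
      (C i).r_algebraMap_eq_zero ha1 ha2, zero_mul, Res.r_one, zero_sub]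
  have hyr0 : ∀ i, (C i).r y ≠ 0 := fun i => by
    rw [hyr]; exact neg_ne_zero.mpr one_ne_zero
  have hcons := conserve hB hC ht (B.r (value P t)) hyr0
  have h0 : ∑ i, cnt (fib ((C i).r t) (B.r (value P t))) ((C i).r y) = 0 := by
    refine Finset.sum_eq_zero fun i _ => ?_
    rw [hyr]
    have := cnt_algebraMap (fib ((C i).r t) (B.r (value P t))) (-1 : κ)
    rwa [map_neg, map_one] at this
  rw [h0] at hcons
  have hy0 : y ≠ 0 := Res.ne_zero_of_r (hyr0 (Classical.arbitrary ι))
  have hymem : ∀ Q : Place k F, t ∈ Q.toValuationSubring → y ∈ Q.toValuationSubring := fun Q hQ =>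
    sub_mem (mul_mem (Q.algebraMap_mem' _) (hx.1 Q hQ)) (one_mem _)
  have hnn : ∀ Q ∈ disc B t (B.r (value P t)), 0 ≤ Q.ord y := fun Q hQ =>
    (mem_iff_ord Q hy0).mp (hymem Q hQ.1)
  have hle := le_cnt hnn (v := P) ⟨hP, hPt, rfl⟩
  rw [hcons] at hle
  have hval : value P y = 0 := by
    rw [hy, value_sub' P (mul_mem (P.algebraMap_mem' _) hxP) (one_mem _),
      value_mul P (P.algebraMap_mem' _) hxP, value_algebraMap, ← ha, inv_mul_cancel₀ ha0,
      value_one', sub_self]
  rw [value_eq_zero_iff P (hymem P hP), val_lt_one_iff, or_iff_right hy0] at hval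
  omega

/-- The residue of a regular function is regular. -/
theorem r_mem (hB : B.RankOne) (hC : Incomp C) {t : F} (ht : IsGood C t) {x : F}
    (hx : x ∈ chart C t) (i : ι) {𝔭 : Place κ (𝓕 i)} (h𝔭 : (C i).r t ∈ 𝔭.toValuationSubring) :
    (C i).r x ∈ 𝔭.toValuationSubring := by
  classical
  by_contra hne
  set c := value 𝔭 ((C i).r t) with hc
  -- a generic shift
  have hfin1 : (⋃ j, {d : κ | algebraMap κ (𝓕 j) d = -(C j).r x}).Finite := by
    refine Set.finite_iUnion fun j => Set.Subsingleton.finite ?_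
    intro d hd d' hd'
    exact (algebraMap κ (𝓕 j)).injective (hd.trans hd'.symm)
  have hfin2 : (⋃ j, ⋃ 𝔮 ∈ fib ((C j).r t) c, {-value 𝔮 ((C j).r x)}).Finite := by
    refine Set.finite_iUnion fun j => ?_
    exact (fib_finite _ (ht.trans j) c).biUnion fun 𝔮 _ => Set.finite_singleton _
  haveI : Infinite κ := IsAlgClosed.instInfinite
  obtain ⟨d, hd⟩ := (hfin1.union hfin2).infinite_compl.nonempty
  rw [Set.mem_compl_iff, Set.mem_union, not_or] at hd
  obtain ⟨a, ha, rfl⟩ := B.r_surjective d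
  set y := x + algebraMap k F a with hy
  have hyr : ∀ j, (C j).r y = (C j).r x + algebraMap κ (𝓕 j) (B.r a) := by
    intro j
    rw [hy, Res.r_add (hx.2 j) ((C j).algebraMap_mem a ha), (C j).r_algebraMap a ha]
  have hyr0 : ∀ j, (C j).r y ≠ 0 := by
    intro j h0
    apply hd.1
    rw [Set.mem_iUnion]
    refine ⟨j, ?_⟩
    rw [hyr] at h0
    exact eq_neg_of_add_eq_zero_right h0
  have hcons := conserve hB hC ht c hyr0
  have hy0 : y ≠ 0 := Res.ne_zero_of_r (hyr0 (Classical.arbitrary ι))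
  have hnn : 0 ≤ cnt (disc B t c) y := cnt_nonneg fun Q hQ =>
    (mem_iff_ord Q hy0).mp (add_mem (hx.1 Q hQ.1) (Q.algebraMap_mem' _))
  -- orders on the special fibre are nonpositive
  have hord : ∀ j, ∀ 𝔮 ∈ fib ((C j).r t) c, 𝔮.ord ((C j).r y) ≤ 0 := by
    intro j 𝔮 h𝔮
    by_contra hpos
    push Not at hpos
    have hymem : (C j).r y ∈ 𝔮.toValuationSubring := (mem_iff_ord 𝔮 (hyr0 j)).mpr hpos.le
    have hxmem : (C j).r x ∈ 𝔮.toValuationSubring := by
      rw [hyr] at hymem
      have := sub_mem hymem (𝔮.algebraMap_mem' (B.r a))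
      rwa [add_sub_cancel_right] at this
    have hv : value 𝔮 ((C j).r y) = 0 := by
      rw [value_eq_zero_iff 𝔮 hymem, val_lt_one_iff]
      exact Or.inr hpos
    rw [hyr, value_add 𝔮 hxmem (𝔮.algebraMap_mem' _), value_algebraMap] at hv
    apply hd.2
    simp only [Set.mem_iUnion, Set.mem_singleton_iff]
    exact ⟨j, 𝔮, h𝔮, eq_neg_of_add_eq_zero_right hv⟩
  have hle : ∀ j, cnt (fib ((C j).r t) c) ((C j).r y) ≤ 0 := by
    intro j
    have := cnt_nonneg (S := fib ((C j).r t) c) (x := ((C j).r y)⁻¹) fun 𝔮 h𝔮 => by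
      rw [𝔮.ord_inv]; have := hord j 𝔮 h𝔮; omega
    rw [cnt_inv] at this
    omega
  have hlt : cnt (fib ((C i).r t) c) ((C i).r y) < 0 := by
    have h1 := le_cnt (S := fib ((C i).r t) c) (x := ((C i).r y)⁻¹) (fun 𝔮 h𝔮 => by
      rw [𝔮.ord_inv]; have := hord i 𝔮 h𝔮; omega) (v := 𝔭) ⟨h𝔭, rfl⟩
    rw [cnt_inv, 𝔭.ord_inv] at h1
    have h2 : 𝔭.ord ((C i).r y) < 0 := by
      by_contra h3
      push Not at h3
      apply hne
      have := (mem_iff_ord 𝔭 (hyr0 i)).mpr h3
      rw [hyr] at this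
      have := sub_mem this (𝔭.algebraMap_mem' (B.r a))
      rwa [add_sub_cancel_right] at this
    omega
  have hsum : ∑ j, cnt (fib ((C j).r t) c) ((C j).r y) < ∑ _j : ι, (0 : ℤ) :=
    Finset.sum_lt_sum (fun j _ => hle j) ⟨i, Finset.mem_univ i, hlt⟩
  rw [Finset.sum_const_zero] at hsum
  omega

/-- A function vanishing on all components is divisible by a small constant. -/
theorem exists_factor {x : F} (hx : ∀ i, x ∈ (C i).O) (hx0 : ∀ i, (C i).r x = 0) :
    ∃ a ∈ B.O, B.r a = 0 ∧ ∃ y : F, (∀ i, y ∈ (C i).O) ∧ x = algebraMap k F a * y := by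
  classical
  rcases eq_or_ne x 0 with rfl | hne
  · exact ⟨0, zero_mem _, Res.r_zero, 0, fun i => zero_mem _, by simp⟩
  choose c hc0 hc using fun i => (C i).exists_scale x hne
  obtain ⟨i, -, hi⟩ := Finset.exists_min_image Finset.univ (fun i => B.O.valuation (c i))
    ⟨Classical.arbitrary ι, Finset.mem_univ _⟩
  have hci : c i ∉ B.O := by
    intro h
    exact hc i (Res.r_mul_eq_zero ((C i).algebraMap_mem _ h) (hx i) (hx0 i))
  refine ⟨(c i)⁻¹, Res.inv_mem_of_notMem hci, Res.r_inv_of_notMem hci, algebraMap k F (c i) * x,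
    fun j => ?_, ?_⟩
  · have e : algebraMap k F (c i) * x = algebraMap k F (c i / c j) * (algebraMap k F (c j) * x) := by
      have : algebraMap k F (c j) ≠ 0 := by simpa using hc0 j
      rw [map_div₀]
      field_simp
    rw [e]
    refine mul_mem ((C j).algebraMap_mem _ ?_) (Res.mem_of_r_ne_zero (hc j))
    rw [← ValuationSubring.valuation_le_one_iff, map_div₀]
    exact div_le_one_of_le₀ (hi j (Finset.mem_univ _)) zero_le
  · have : algebraMap k F (c i) ≠ 0 := by simpa using hc0 i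
    rw [map_inv₀]
    field_simp

theorem exists_factor_chart {t x : F} (hx : x ∈ chart C t) (hx0 : ∀ i, (C i).r x = 0) :
    ∃ a ∈ B.O, B.r a = 0 ∧ ∃ y ∈ chart C t, x = algebraMap k F a * y := by
  rcases eq_or_ne x 0 with rfl | hne
  · exact ⟨0, zero_mem _, Res.r_zero, 0, zero_mem _, by simp⟩
  obtain ⟨a, ha, ha0, y, hy, rfl⟩ := exists_factor hx.2 hx0
  refine ⟨a, ha, ha0, y, ⟨fun P hP => ?_, hy⟩, rfl⟩
  have h1 := hx.1 P hP
  have ha' : a ≠ 0 := by rintro rfl; simp at hne
  have e : y = algebraMap k F a⁻¹ * (algebraMap k F a * y) := by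
    rw [← mul_assoc, ← map_mul, inv_mul_cancel₀ ha', map_one, one_mul]
  rw [e]
  exact mul_mem (P.algebraMap_mem' _) h1

end Fermat.Agent.Models
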