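import Fermat.Agent.Models.Disc

/-!
# Conservation of number
-/

set_option autoImplicit false
set_option linter.unusedSectionVars false
set_option linter.style.haveILetI false

noncomputable section

namespace Fermat.Agent.Models

open AlgebraicCurve Fermat.Agent.Curves Polynomial

section Value

variable {k F F' : Type*} [Field k] [Field F] [Field F'] [Algebra k F] [Algebra k F']
  [Algebra F F'] [IsScalarTower k F F'] [IsAlgClosed k] [IsFunctionField k F]
  [IsFunctionField k F'] [FiniteDimensional F F']

theorem value_restrict (w : Place k F') {x : F} (hx : algebraMap F F' x ∈ w.toValuationSubring) :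
    value (w.restrict F) x = value w (algebraMap F F' x) := by
  have hx' : x ∈ (w.restrict F).toValuationSubring := hx
  rw [value_eq_iff _ hx', val_lt_one_iff]
  have h := value_spec w hx
  rw [val_lt_one_iff] at h
  have e : algebraMap F F' x - algebraMap k F' (value w (algebraMap F F' x)) =
      algebraMap F F' (x - algebraMap k F (value w (algebraMap F F' x))) := by
    rw [map_sub, ← IsScalarTower.algebraMap_apply]
  rw [e] at h
  rcases h with h | h
  · left
    exact (map_eq_zero_iff _ (algebraMap F F').injective).mp h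
  · right
    rw [w.ord_restrict (F := F)] at h
    exact pos_of_mul_pos_right h (by positivity)

end Value

section RatAlg

variable {k F : Type*} [Field k] [Field F] [Algebra k F]

/-- the field `F` as an algebra over `k(X)` via a transcendental element -/
@[reducible]
def ratAlgebra (t : F) (ht : Transcendental k t) : Algebra (RatFunc k) F :=
  ((algebraMap (IntermediateField.adjoin k {t}) F).comp
    (RatFunc.algEquivOfTranscendental t ht).toAlgHom.toRingHom).toAlgebra

theorem ratAlgebra_algebraMap (t : F) (ht : Transcendental k t) (P : k[X]) :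
    letI := ratAlgebra t ht
    algebraMap (RatFunc k) F (algebraMap k[X] (RatFunc k) P) = aeval t P := by
  letI := ratAlgebra t ht
  show algebraMap (IntermediateField.adjoin k {t}) F
    (RatFunc.algEquivOfTranscendental t ht (algebraMap k[X] (RatFunc k) P)) = _
  rw [RatFunc.algEquivOfTranscendental_algebraMap]
  exact (Polynomial.aeval_algebraMap_apply F (IntermediateField.AdjoinSimple.gen k t) P).symm

theorem ratAlgebra_isScalarTower (t : F) (ht : Transcendental k t) :
    letI := ratAlgebra t ht
    IsScalarTower k (RatFunc k) F := by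
  letI := ratAlgebra t ht
  refine IsScalarTower.of_algebraMap_eq fun c => ?_
  show algebraMap k F c = algebraMap (IntermediateField.adjoin k {t}) F
    (RatFunc.algEquivOfTranscendental t ht (algebraMap k (RatFunc k) c))
  rw [AlgEquiv.commutes]
  rfl

theorem ratAlgebra_finrank (t : F) (ht : Transcendental k t) :
    letI := ratAlgebra t ht
    Module.finrank (RatFunc k) F = Module.finrank (IntermediateField.adjoin k {t}) F := by
  letI := ratAlgebra t ht
  refine Algebra.finrank_eq_of_equiv_equiv
    (RatFunc.algEquivOfTranscendental t ht).toRingEquiv (RingEquiv.refl F) ?_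
  ext x
  rfl

theorem ratAlgebra_X (t : F) (ht : Transcendental k t) :
    letI := ratAlgebra t ht
    algebraMap (RatFunc k) F RatFunc.X = t := by
  letI := ratAlgebra t ht
  have := ratAlgebra_algebraMap t ht X
  rwa [RatFunc.algebraMap_X, aeval_X] at this

end RatAlg

variable {k κ : Type*} [Field k] [Field κ] {B : Res k κ} {F : Type*} [Field F] [Algebra k F]
  {ι : Type*} {𝓕 : ι → Type*} [∀ i, Field (𝓕 i)] [∀ i, Algebra κ (𝓕 i)]

section Pol

variable {𝓕₀ : Type*} [Field 𝓕₀] [Algebra κ 𝓕₀] (C : Comp B F 𝓕₀)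

/-- polynomials in an integral element -/
theorem Comp.aeval_mem {t : F} (ht : t ∈ C.O) (P : (B.O)[X]) :
    aeval t (P.map B.O.subtype) ∈ C.O ∧
      C.r (aeval t (P.map B.O.subtype)) = aeval (C.r t) (P.map B.res) := by
  induction P using Polynomial.induction_on' with
  | add p q hp hq =>
    rw [Polynomial.map_add, map_add, Polynomial.map_add, map_add]
    exact ⟨add_mem hp.1 hq.1, by rw [Res.r_add hp.1 hq.1, hp.2, hq.2]⟩
  | monomial n a =>
    rw [Polynomial.map_monomial, aeval_monomial, Polynomial.map_monomial, aeval_monomial]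
    have h1 : algebraMap k F (B.O.subtype a) ∈ C.O := C.algebraMap_mem _ a.2
    have h2 : t ^ n ∈ C.O := pow_mem ht n
    refine ⟨mul_mem h1 h2, ?_⟩
    rw [Res.r_mul h1 h2, Res.r_pow ht]
    congr 1
    show C.r (algebraMap k F (a : k)) = _
    rw [C.r_algebraMap _ a.2, Res.r_of_mem a.2]

end Pol

variable (C : ∀ i, Comp B F (𝓕 i))

/-- `t` is a good coordinate: its Gauss valuation extends exactly to the components. -/
structure IsGood [Fintype ι] (t : F) : Prop where
  mem : ∀ i, t ∈ (C i).O
  trans : ∀ i, Transcendental κ ((C i).r t)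
  deg : ∑ i, Module.finrank (IntermediateField.adjoin κ {(C i).r t}) (𝓕 i) =
    Module.finrank (IntermediateField.adjoin k {t}) F

variable {C}

/-- transcendence lifts from the special fibre -/
theorem Comp.transcendental {𝓕₀ : Type*} [Field 𝓕₀] [Algebra κ 𝓕₀] (C : Comp B F 𝓕₀) {t : F}
    (ht : t ∈ C.O) (h : Transcendental κ (C.r t)) : Transcendental k t := by
  intro halg
  obtain ⟨P, hP0, hP⟩ := halg
  obtain ⟨c, hc, P', hP', hP0'⟩ := exists_primitive (B := B) hP0
  apply h
  refine ⟨P'.map B.res, hP0', ?_⟩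
  rw [← (C.aeval_mem ht P').2, hP', map_mul, hP, mul_zero, Res.r_zero]

variable [IsAlgClosed k] [IsAlgClosed κ] [IsFunctionField k F] [∀ i, IsFunctionField κ (𝓕 i)]

/-- **Conservation of number.** -/
theorem conserve [Fintype ι] [DecidableEq ι] [Nonempty ι] (hB : B.RankOne) (hC : Incomp C)
    {t : F} (ht : IsGood C t) (c : κ) {x : F} (hx : ∀ i, (C i).r x ≠ 0) :
    cnt (disc B t c) x = ∑ i, cnt (fib ((C i).r t) c) ((C i).r x) := by
  have htk : Transcendental k t := (C (Classical.arbitrary ι)).transcendental (ht.mem _) (ht.trans _)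
  letI := ratAlgebra t htk
  haveI := ratAlgebra_isScalarTower t htk
  haveI : FiniteDimensional (RatFunc k) F := finiteDimensional_of_isFunctionField (k := k)
  letI : ∀ i, Algebra (RatFunc κ) (𝓕 i) := fun i => ratAlgebra ((C i).r t) (ht.trans i)
  haveI : ∀ i, IsScalarTower κ (RatFunc κ) (𝓕 i) := fun i =>
    ratAlgebra_isScalarTower ((C i).r t) (ht.trans i)
  haveI : ∀ i, FiniteDimensional (RatFunc κ) (𝓕 i) := fun i =>
    finiteDimensional_of_isFunctionField (k := κ)
  haveI : Infinite κ := IsAlgClosed.instInfinite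
  have hpolk : ∀ P : (B.O)[X], algebraMap (RatFunc k) F (toK B P) =
      aeval t (P.map B.O.subtype) := fun P => ratAlgebra_algebraMap t htk _
  have hpolκ : ∀ i, ∀ P : (B.O)[X], algebraMap (RatFunc κ) (𝓕 i) (toκ B P) =
      aeval ((C i).r t) (P.map B.res) := fun i P =>
    ratAlgebra_algebraMap ((C i).r t) (ht.trans i) _
  have hO : Over (gauss B) C := by
    have key : ∀ i, ∀ f ∈ (gauss B).O, algebraMap (RatFunc k) F f ∈ (C i).O ∧
        (C i).r (algebraMap (RatFunc k) F f) =
          algebraMap (RatFunc κ) (𝓕 i) ((gauss B).r f) := by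
      intro i f hf
      obtain ⟨P, Q, hQ, rfl⟩ := exists_of_mem_gauss hf
      have hP1 := (C i).aeval_mem (ht.mem i) P
      have hQ1 := (C i).aeval_mem (ht.mem i) Q
      have hQ2 : (C i).r (aeval t (Q.map B.O.subtype)) ≠ 0 := by
        rw [hQ1.2]
        intro h0
        exact (transcendental_iff.mp (ht.trans i) _).mt hQ h0
      have e : (gauss B).r (toK B P / toK B Q) = toκ B P / toκ B Q := gauss_r P Q hQ
      rw [e, map_div₀, map_div₀, hpolk, hpolk, hpolκ, hpolκ]
      refine ⟨?_, ?_⟩
      · rw [div_eq_mul_inv]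
        exact mul_mem hP1.1 (Res.inv_mem_of_r hQ2)
      · rw [Res.r_div hP1.1 hQ2, hP1.2, hQ1.2]
    exact ⟨fun i f hf => (key i f hf).1, fun i f hf => (key i f hf).2⟩
  have hdeg : ∑ i, Module.finrank (RatFunc κ) (𝓕 i) = Module.finrank (RatFunc k) F := by
    rw [ratAlgebra_finrank t htk, ← ht.deg]
    exact Finset.sum_congr rfl fun i _ => ratAlgebra_finrank ((C i).r t) (ht.trans i)
  have hx0 : x ≠ 0 := Res.ne_zero_of_r (hx (Classical.arbitrary ι))
  obtain ⟨hN1, hN2⟩ := hO.norm hB hC hdeg x fun i => Res.mem_of_r_ne_zero (hx i)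
  have hN3 : (gauss B).r (Algebra.norm (RatFunc k) x) ≠ 0 := by
    rw [hN2, Finset.prod_ne_zero_iff]
    exact fun i _ => Algebra.norm_ne_zero_iff.mpr (hx i)
  -- the sets of places
  have hS : {w : Place k F | w.restrict (RatFunc k) ∈ disc B (RatFunc.X : RatFunc k) c} =
      disc B t c := by
    ext w
    have hX : algebraMap (RatFunc k) F RatFunc.X = t := ratAlgebra_X t htk
    constructor
    · rintro ⟨h1, h2, h3⟩
      have h1' : algebraMap (RatFunc k) F RatFunc.X ∈ w.toValuationSubring := h1
      rw [value_restrict w h1', hX] at h2 h3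
      rw [hX] at h1'
      exact ⟨h1', h2, h3⟩
    · rintro ⟨h1, h2, h3⟩
      have h1' : algebraMap (RatFunc k) F RatFunc.X ∈ w.toValuationSubring := by rw [hX]; exact h1
      refine ⟨h1', ?_, ?_⟩
      · rw [value_restrict w h1', hX]; exact h2
      · rw [value_restrict w h1', hX]; exact h3
  have hS' : ∀ i, {w : Place κ (𝓕 i) | w.restrict (RatFunc κ) ∈
      fib (RatFunc.X : RatFunc κ) c} = fib ((C i).r t) c := by
    intro i
    ext w
    have hX : algebraMap (RatFunc κ) (𝓕 i) RatFunc.X = (C i).r t :=
      ratAlgebra_X ((C i).r t) (ht.trans i)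
    constructor
    · rintro ⟨h1, h2⟩
      have h1' : algebraMap (RatFunc κ) (𝓕 i) RatFunc.X ∈ w.toValuationSubring := h1
      rw [value_restrict w h1', hX] at h2
      rw [hX] at h1'
      exact ⟨h1', h2⟩
    · rintro ⟨h1, h2⟩
      have h1' : algebraMap (RatFunc κ) (𝓕 i) RatFunc.X ∈ w.toValuationSubring := by
        rw [hX]; exact h1
      refine ⟨h1', ?_⟩
      rw [value_restrict w h1', hX]; exact h2
  rw [← hS, ← cnt_norm (disc B (RatFunc.X : RatFunc k) c) hx0, gauss_cnt c hN3, hN2,
    cnt_prod _ _ _ fun i _ => Algebra.norm_ne_zero_iff.mpr (hx i)]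
  refine Finset.sum_congr rfl fun i _ => ?_
  rw [← hS' i, ← cnt_norm (fib (RatFunc.X : RatFunc κ) c) (hx i)]

end Fermat.Agent.Models
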