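import Fermat.Agent.Models.Gauss
import Fermat.Agent.Curves.Affine
import Fermat.Agent.Curves.Tower

/-!
# Counting zeros in residue discs
-/

set_option autoImplicit false
set_option linter.unusedSectionVars false

noncomputable section

namespace Fermat.Agent.Models

open AlgebraicCurve Fermat.Agent.Curves Polynomial

section General

variable {k F : Type*} [Field k] [Field F] [Algebra k F]

open Classical in
/-- degree of the part of a divisor supported on `S` (all places have degree one) -/
def degOn (S : Set (Place k F)) : Divisor k F →+ ℤ :=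
  Finsupp.liftAddHom fun v => if v ∈ S then AddMonoidHom.id ℤ else 0

@[simp]
theorem degOn_single_mem {S : Set (Place k F)} {v : Place k F} (hv : v ∈ S) (n : ℤ) :
    degOn S (Finsupp.single v n) = n := by
  rw [degOn, Finsupp.liftAddHom_apply_single, if_pos hv]; rfl

@[simp]
theorem degOn_single_notMem {S : Set (Place k F)} {v : Place k F} (hv : v ∉ S) (n : ℤ) :
    degOn S (Finsupp.single v n) = 0 := by
  rw [degOn, Finsupp.liftAddHom_apply_single, if_neg hv]; rfl

open Classical in
theorem degOn_eq_sum (S : Set (Place k F)) (D : Divisor k F) :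
    degOn S D = ∑ v ∈ D.support, if v ∈ S then D v else 0 := by
  rw [degOn, Finsupp.liftAddHom_apply, Finsupp.sum]
  refine Finset.sum_congr rfl fun v _ => ?_
  split_ifs <;> rfl

theorem degOn_eq_zero {S : Set (Place k F)} {D : Divisor k F} (h : ∀ v ∈ S, D v = 0) :
    degOn S D = 0 := by
  classical
  rw [degOn_eq_sum]
  refine Finset.sum_eq_zero fun v _ => ?_
  split_ifs with hv
  · exact h v hv
  · rfl

theorem degOn_congr {S : Set (Place k F)} {D D' : Divisor k F} (h : ∀ v ∈ S, D v = D' v) :
    degOn S D = degOn S D' := by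
  rw [← sub_eq_zero, ← map_sub]
  refine degOn_eq_zero fun v hv => ?_
  rw [Finsupp.sub_apply, h v hv, sub_self]

theorem degOn_nonneg {S : Set (Place k F)} {D : Divisor k F} (h : ∀ v ∈ S, 0 ≤ D v) :
    0 ≤ degOn S D := by
  classical
  rw [degOn_eq_sum]
  refine Finset.sum_nonneg fun v _ => ?_
  split_ifs with hv
  · exact h v hv
  · exact le_rfl

theorem degOn_congr_set {S S' : Set (Place k F)} {D : Divisor k F}
    (h : ∀ v, D v ≠ 0 → (v ∈ S ↔ v ∈ S')) : degOn S D = degOn S' D := by
  classical
  rw [degOn_eq_sum, degOn_eq_sum]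
  refine Finset.sum_congr rfl fun v hv => ?_
  have := h v (Finsupp.mem_support_iff.mp hv)
  by_cases h1 : v ∈ S
  · rw [if_pos h1, if_pos (this.mp h1)]
  · rw [if_neg h1, if_neg (fun h2 => h1 (this.mpr h2))]

/-- a nonnegative divisor with an entry `≤` the degree -/
theorem le_degOn {S : Set (Place k F)} {D : Divisor k F} (h : ∀ v ∈ S, 0 ≤ D v) {v : Place k F}
    (hv : v ∈ S) : D v ≤ degOn S D := by
  classical
  have e : D = Finsupp.single v (D v) + D.erase v := (Finsupp.single_add_erase v D).symm
  have h1 : 0 ≤ degOn S (D.erase v) := by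
    refine degOn_nonneg fun w hw => ?_
    by_cases hwv : w = v
    · subst hwv; simp
    · rw [Finsupp.erase_ne hwv]; exact h w hw
  calc D v ≤ D v + degOn S (D.erase v) := by omega
    _ = degOn S D := by
      conv_rhs => rw [e, map_add, degOn_single_mem hv]

theorem degOn_eq_single {S : Set (Place k F)} {D : Divisor k F} {v : Place k F}
    (hv : v ∈ S) (h : ∀ w ∈ S, w ≠ v → D w = 0) : degOn S D = D v := by
  classical
  rw [degOn_congr (D' := Finsupp.single v (D v)), degOn_single_mem hv]
  intro w hw
  by_cases hwv : w = v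
  · subst hwv; simp
  · rw [h w hw hwv, Finsupp.single_eq_of_ne (by tauto)]

/-- all entries vanish if the degree of a nonnegative divisor vanishes -/
theorem eq_zero_of_degOn {S : Set (Place k F)} {D : Divisor k F} (h : ∀ v ∈ S, 0 ≤ D v)
    (h0 : degOn S D = 0) {v : Place k F} (hv : v ∈ S) : D v = 0 :=
  le_antisymm ((le_degOn h hv).trans h0.le) (h v hv)

end General

section FunctionField

variable {k F : Type*} [Field k] [Field F] [Algebra k F] [IsAlgClosed k] [IsFunctionField k F]

theorem divisorOf_mul {x y : F} (hx : x ≠ 0) (hy : y ≠ 0) :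
    divisorOf (k := k) (x * y) = divisorOf x + divisorOf y := by
  ext v
  simp [v.ord_mul hx hy]

theorem divisorOf_inv (x : F) : divisorOf (k := k) x⁻¹ = -divisorOf x := by
  ext v
  simp [v.ord_inv]

theorem divisorOf_algebraMap (c : k) : divisorOf (k := k) (algebraMap k F c) = 0 := by
  ext v
  simp [ord_algebraMap]

theorem divisorOf_one : divisorOf (k := k) (1 : F) = 0 := by
  ext v
  simp

theorem divisorOf_pow (x : F) (n : ℕ) : divisorOf (k := k) (x ^ n) = n • divisorOf x := by
  ext v
  simp [ord_pow]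

/-- number of zeros minus poles on a set of places -/
def cnt (S : Set (Place k F)) (x : F) : ℤ := degOn S (divisorOf (k := k) x)

theorem cnt_mul (S : Set (Place k F)) {x y : F} (hx : x ≠ 0) (hy : y ≠ 0) :
    cnt S (x * y) = cnt S x + cnt S y := by
  rw [cnt, divisorOf_mul hx hy, map_add]; rfl

theorem cnt_inv (S : Set (Place k F)) (x : F) : cnt S x⁻¹ = -cnt S x := by
  rw [cnt, divisorOf_inv, map_neg]; rfl

theorem cnt_div (S : Set (Place k F)) {x y : F} (hx : x ≠ 0) (hy : y ≠ 0) :
    cnt S (x / y) = cnt S x - cnt S y := by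
  rw [div_eq_mul_inv, cnt_mul S hx (inv_ne_zero hy), cnt_inv, sub_eq_add_neg]

theorem cnt_algebraMap (S : Set (Place k F)) (c : k) : cnt S (algebraMap k F c) = 0 := by
  rw [cnt, divisorOf_algebraMap, map_zero]

theorem cnt_one (S : Set (Place k F)) : cnt S (1 : F) = 0 := by
  rw [cnt, divisorOf_one, map_zero]

theorem cnt_pow (S : Set (Place k F)) (x : F) (n : ℕ) : cnt S (x ^ n) = n * cnt S x := by
  rw [cnt, divisorOf_pow, map_nsmul, nsmul_eq_mul]; rfl

theorem cnt_prod (S : Set (Place k F)) {ι : Type*} (s : Finset ι) (f : ι → F)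
    (hf : ∀ i ∈ s, f i ≠ 0) : cnt S (∏ i ∈ s, f i) = ∑ i ∈ s, cnt S (f i) := by
  classical
  induction s using Finset.induction_on with
  | empty => simp [cnt_one]
  | insert a s ha ih =>
    rw [Finset.prod_insert ha, Finset.sum_insert ha, cnt_mul S (hf a (Finset.mem_insert_self _ _))
      (Finset.prod_ne_zero_iff.mpr fun i hi => hf i (Finset.mem_insert_of_mem hi)),
      ih fun i hi => hf i (Finset.mem_insert_of_mem hi)]

theorem cnt_nonneg {S : Set (Place k F)} {x : F} (h : ∀ v ∈ S, 0 ≤ v.ord x) : 0 ≤ cnt S x :=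
  degOn_nonneg fun v hv => by rw [divisorOf_apply]; exact h v hv

theorem cnt_eq_zero {S : Set (Place k F)} {x : F} (h : ∀ v ∈ S, v.ord x = 0) : cnt S x = 0 :=
  degOn_eq_zero fun v hv => by rw [divisorOf_apply]; exact h v hv

theorem le_cnt {S : Set (Place k F)} {x : F} (h : ∀ v ∈ S, 0 ≤ v.ord x) {v : Place k F}
    (hv : v ∈ S) : v.ord x ≤ cnt S x :=
  le_degOn (D := divisorOf (k := k) x) (fun v hv => by rw [divisorOf_apply]; exact h v hv) hv

theorem cnt_eq_single {S : Set (Place k F)} {x : F} {v : Place k F} (hv : v ∈ S)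
    (h : ∀ w ∈ S, w ≠ v → w.ord x = 0) : cnt S x = v.ord x :=
  degOn_eq_single (D := divisorOf (k := k) x) hv h

theorem cnt_congr_set {S S' : Set (Place k F)} {x : F}
    (h : ∀ v : Place k F, v.ord x ≠ 0 → (v ∈ S ↔ v ∈ S')) : cnt S x = cnt S' x :=
  degOn_congr_set h

theorem cnt_congr {S : Set (Place k F)} {x y : F}
    (h : ∀ v ∈ S, v.ord x = v.ord y) : cnt S x = cnt S y :=
  degOn_congr h

section Push

variable {F' : Type*} [Field F'] [Algebra k F'] [Algebra F F'] [IsScalarTower k F F']
  [IsFunctionField k F'] [FiniteDimensional F F']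

theorem degOn_pushforward (S : Set (Place k F)) (D : Divisor k F') :
    degOn S (Divisor.pushforward F D) = degOn {w : Place k F' | w.restrict F ∈ S} D := by
  have h : (degOn S).comp (Divisor.pushforward (K := k) (F' := F') F) =
      degOn {w : Place k F' | w.restrict F ∈ S} := by
    refine Finsupp.addHom_ext fun w n => ?_
    rw [AddMonoidHom.comp_apply, pushforward_single']
    by_cases hw : w.restrict F ∈ S
    · rw [degOn_single_mem hw, degOn_single_mem (by exact hw)]
    · rw [degOn_single_notMem hw, degOn_single_notMem (by exact hw)]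
  exact DFunLike.congr_fun h D

/-- counting upstairs is counting the norm downstairs -/
theorem cnt_norm (S : Set (Place k F)) {x : F'} (hx : x ≠ 0) :
    cnt S (Algebra.norm F x) = cnt {w : Place k F' | w.restrict F ∈ S} x := by
  rw [cnt, ← pushforward_divisorOf hx, degOn_pushforward]; rfl

end Push

end FunctionField

section RatFunc

variable {k : Type*} [Field k]

theorem transcendental_X' : Transcendental k (RatFunc.X : RatFunc k) := RatFunc.transcendental_X

instance isFunctionField_ratFunc : IsFunctionField k (RatFunc k) := by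
  refine ⟨⟨RatFunc.X, transcendental_X', ?_⟩⟩
  rw [RatFunc.adjoin_X]
  exact Module.Finite.of_surjective
    (Algebra.linearMap (⊤ : IntermediateField k (RatFunc k)) (RatFunc k))
    (fun y => ⟨⟨y, trivial⟩, rfl⟩)

variable [IsAlgClosed k]

theorem ratFunc_gen (c : k) (y : RatFunc k) : ∃ r s : Polynomial k,
    y = Polynomial.aeval (RatFunc.X - algebraMap k (RatFunc k) c) r /
      Polynomial.aeval (RatFunc.X - algebraMap k (RatFunc k) c) s := by
  refine ⟨y.num.comp (X + C c), y.denom.comp (X + C c), ?_⟩
  have e : ∀ p : k[X], Polynomial.aeval (RatFunc.X - algebraMap k (RatFunc k) c)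
      (p.comp (X + C c)) = algebraMap k[X] (RatFunc k) p := by
    intro p
    rw [Polynomial.aeval_comp]
    simp
  rw [e, e, RatFunc.num_div_denom]

theorem X_sub_ne_zero (c : k) : RatFunc.X - algebraMap k (RatFunc k) c ≠ 0 :=
  sub_algebraMap_ne_zero transcendental_X' c

/-- the place of `k(X)` at a point -/
theorem exists_place_at (c : k) : ∃ v : Place k (RatFunc k),
    0 < v.ord (RatFunc.X - algebraMap k (RatFunc k) c) ∧
      (RatFunc.X : RatFunc k) ∈ v.toValuationSubring ∧ value v (RatFunc.X : RatFunc k) = c := by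
  have ht : Transcendental k (RatFunc.X - algebraMap k (RatFunc k) c) := by
    intro h
    apply transcendental_X' (k := k)
    have := h.add (isAlgebraic_algebraMap c)
    rwa [sub_add_cancel] at this
  obtain ⟨v, hv⟩ := exists_ord_pos_of_transcendental ht
  have h1 : (RatFunc.X : RatFunc k) - algebraMap k (RatFunc k) c ∈ v.toValuationSubring :=
    (mem_iff_ord v (X_sub_ne_zero c)).mpr hv.le
  have h2 : (RatFunc.X : RatFunc k) ∈ v.toValuationSubring := by
    have := add_mem h1 (v.algebraMap_mem' c)
    rwa [sub_add_cancel] at this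
  refine ⟨v, hv, h2, ?_⟩
  rwa [← ord_sub_pos_iff transcendental_X' h2]

/-- counting the zeros of `X - c` on a set of finite places -/
theorem cnt_X_sub_mem (S : Set (Place k (RatFunc k)))
    (hS : ∀ v ∈ S, (RatFunc.X : RatFunc k) ∈ v.toValuationSubring) (c : k) {v : Place k (RatFunc k)}
    (hv : v ∈ S) (hvc : value v (RatFunc.X : RatFunc k) = c) :
    cnt S (RatFunc.X - algebraMap k (RatFunc k) c) = 1 := by
  have h1 : 0 < v.ord (RatFunc.X - algebraMap k (RatFunc k) c) := by
    rwa [ord_sub_pos_iff transcendental_X' (hS v hv)]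
  rw [cnt_eq_single hv, ord_eq_one_of_gen (X_sub_ne_zero c) (ratFunc_gen c) v h1]
  intro w hw hwv
  have h2 := ord_sub_nonneg transcendental_X' (hS w hw) c
  by_contra hne
  exact hwv (eq_of_gen (X_sub_ne_zero c) (ratFunc_gen c) w v (by omega) h1)

theorem cnt_X_sub_notMem (S : Set (Place k (RatFunc k)))
    (hS : ∀ v ∈ S, (RatFunc.X : RatFunc k) ∈ v.toValuationSubring) (c : k)
    (h : ∀ v ∈ S, value v (RatFunc.X : RatFunc k) ≠ c) :
    cnt S (RatFunc.X - algebraMap k (RatFunc k) c) = 0 := by
  refine cnt_eq_zero fun v hv => ?_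
  have h2 := ord_sub_nonneg transcendental_X' (hS v hv) c
  have h3 := (ord_sub_pos_iff transcendental_X' (hS v hv) c).not.mpr (h v hv)
  omega

end RatFunc

end Fermat.Agent.Models
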