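import Fermat.Agent.Models.Count

/-!
# Zeros in residue discs of the rational function field
-/

set_option autoImplicit false
set_option linter.unusedSectionVars false

noncomputable section

namespace Fermat.Agent.Models

open AlgebraicCurve Fermat.Agent.Curves Polynomial

variable {k κ : Type*} [Field k] [Field κ] [IsAlgClosed k] [IsAlgClosed κ]

/-- places where `t` is finite and reduces to `c` -/
def disc (B : Res k κ) {F : Type*} [Field F] [Algebra k F] [IsFunctionField k F] (t : F) (c : κ) :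
    Set (Place k F) :=
  {v | t ∈ v.toValuationSubring ∧ value v t ∈ B.O ∧ B.r (value v t) = c}

/-- places with value `c` -/
def fib {F : Type*} [Field F] [Algebra k F] [IsFunctionField k F] (t : F) (c : k) :
    Set (Place k F) :=
  {v | t ∈ v.toValuationSubring ∧ value v t = c}

variable {B : Res k κ}

theorem toK_X_sub (a : B.O) : toK B (X - C a) = RatFunc.X - algebraMap k (RatFunc k) a := by
  rw [map_sub, toK_C]
  congr 1
  rw [toK, RingHom.comp_apply, coe_mapRingHom, Polynomial.map_X, RatFunc.algebraMap_X]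

theorem toκ_X_sub (a : B.O) :
    toκ B (X - C a) = RatFunc.X - algebraMap κ (RatFunc κ) (B.res a) := by
  rw [map_sub, toκ_C]
  congr 1
  rw [toκ, RingHom.comp_apply, coe_mapRingHom, Polynomial.map_X, RatFunc.algebraMap_X]

/-- the counting property -/
def Good (B : Res k κ) (c : κ) (P : (B.O)[X]) : Prop :=
  cnt (disc B (RatFunc.X : RatFunc k) c) (toK B P) = cnt (fib (RatFunc.X : RatFunc κ) c) (toκ B P)

theorem Good.mul {c : κ} {P Q : (B.O)[X]} (hP : Good B c P) (hQ : Good B c Q)
    (hP0 : P.map B.res ≠ 0) (hQ0 : Q.map B.res ≠ 0) : Good B c (P * Q) := by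
  unfold Good at *
  rw [map_mul, map_mul, cnt_mul _ (toK_ne_zero B (ne_zero_of_map B hP0))
    (toK_ne_zero B (ne_zero_of_map B hQ0)), cnt_mul _ ((toκ_ne_zero_iff B).mpr hP0)
    ((toκ_ne_zero_iff B).mpr hQ0), hP, hQ]

theorem Good.const (c : κ) (a : B.O) : Good B c (C a) := by
  unfold Good
  rw [toK_C, toκ_C, cnt_algebraMap, cnt_algebraMap]

theorem Good.linear (c : κ) (a : B.O) : Good B c (X - C a) := by
  unfold Good
  rw [toK_X_sub, toκ_X_sub]
  have hra : B.r (a : k) = B.res a := Res.r_of_mem a.2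
  by_cases h : B.res a = c
  · obtain ⟨v, -, hv1, hv2⟩ := exists_place_at (a : k)
    obtain ⟨w, -, hw1, hw2⟩ := exists_place_at (B.res a)
    rw [cnt_X_sub_mem (disc B RatFunc.X c) (fun v hv => hv.1) (a : k) (v := v)
        ⟨hv1, by rw [hv2]; exact a.2, by rw [hv2, hra, h]⟩ hv2,
      cnt_X_sub_mem (fib RatFunc.X c) (fun v hv => hv.1) (B.res a) (v := w)
        ⟨hw1, by rw [hw2, h]⟩ hw2]
  · rw [cnt_X_sub_notMem (disc B RatFunc.X c) (fun v hv => hv.1),
      cnt_X_sub_notMem (fib RatFunc.X c) (fun v hv => hv.1)]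
    · rintro v ⟨-, hv⟩ hv'
      exact h (hv'.symm.trans hv)
    · rintro v ⟨-, -, hv⟩ hv'
      rw [hv', hra] at hv
      exact h hv

/-- `τ⁻¹ X - 1` for non-integral `τ` -/
theorem Good.outer (c : κ) {τ : k} (hτ : τ ∉ B.O) :
    Good B c (C (⟨τ⁻¹, Res.inv_mem_of_notMem hτ⟩ : B.O) * X - 1) ∧
      (C (⟨τ⁻¹, Res.inv_mem_of_notMem hτ⟩ : B.O) * X - 1 : (B.O)[X]).map B.res = -1 := by
  set a : B.O := ⟨τ⁻¹, Res.inv_mem_of_notMem hτ⟩ with ha
  have hτ0 := Res.ne_zero_of_notMem hτ
  have hra : B.res a = 0 := by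
    have := Res.r_inv_of_notMem hτ
    rwa [Res.r_of_mem (Res.inv_mem_of_notMem hτ)] at this
  have e0 : (C a * X - 1 : (B.O)[X]).map B.res = -1 := by
    simp [hra]
  refine ⟨?_, e0⟩
  have e1 : toK B (C a * X - 1) = algebraMap k (RatFunc k) τ⁻¹ *
      (RatFunc.X - algebraMap k (RatFunc k) τ) := by
    rw [map_sub, map_mul, toK_C, map_one]
    have : toK B X = RatFunc.X := by
      rw [toK, RingHom.comp_apply, coe_mapRingHom, Polynomial.map_X, RatFunc.algebraMap_X]
    rw [this, mul_sub, ← map_mul, inv_mul_cancel₀ hτ0, map_one]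
  have e2 : toκ B (C a * X - 1) = algebraMap κ (RatFunc κ) (-1) := by
    rw [toκ, RingHom.comp_apply, coe_mapRingHom, e0]
    simp
  unfold Good
  rw [e1, e2, cnt_algebraMap, cnt_mul _ (by simpa using hτ0) (X_sub_ne_zero τ), cnt_algebraMap,
    cnt_X_sub_notMem (disc B RatFunc.X c) (fun v hv => hv.1), add_zero]
  rintro v ⟨-, hv, -⟩ hv'
  rw [hv'] at hv
  exact hτ hv

theorem good_all (c : κ) (n : ℕ) : ∀ P : (B.O)[X], P.map B.res ≠ 0 → P.natDegree ≤ n →
    Good B c P := by
  induction n with
  | zero =>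
    intro P _ hdeg
    rw [Polynomial.eq_C_of_natDegree_le_zero hdeg]
    exact Good.const c _
  | succ n ih =>
    intro P hP hdeg
    have hP0 : P ≠ 0 := ne_zero_of_map B hP
    by_cases hdeg0 : P.natDegree = 0
    · rw [Polynomial.eq_C_of_natDegree_le_zero hdeg0.le]
      exact Good.const c _
    have hinj : Function.Injective B.O.subtype := B.O.subtype_injective
    have hdegk : (P.map B.O.subtype).natDegree = P.natDegree :=
      Polynomial.natDegree_map_eq_of_injective hinj P
    have hdeg1 : (P.map B.O.subtype).degree ≠ 0 := by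
      intro h
      have := Polynomial.natDegree_eq_of_degree_eq_some h
      rw [hdegk] at this
      exact hdeg0 this
    obtain ⟨τ, hτ⟩ := IsAlgClosed.exists_root _ hdeg1
    by_cases hτO : τ ∈ B.O
    · -- root in the ring
      have hroot : P.IsRoot ⟨τ, hτO⟩ := by
        rw [Polynomial.IsRoot.def] at hτ ⊢
        apply hinj
        rw [map_zero, ← hτ, Polynomial.eval_map, ← Polynomial.eval₂_hom]
        rfl
      obtain ⟨Q, hQ⟩ := Polynomial.dvd_iff_isRoot.mpr hroot
      have hmon : (X - C (⟨τ, hτO⟩ : B.O)).Monic := Polynomial.monic_X_sub_C _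
      have hQ0 : Q.map B.res ≠ 0 := by
        intro h
        apply hP
        rw [hQ, Polynomial.map_mul, h, mul_zero]
      have hQ00 : Q ≠ 0 := ne_zero_of_map B hQ0
      have hdQ : Q.natDegree ≤ n := by
        have := hmon.natDegree_mul' hQ00
        rw [← hQ, Polynomial.natDegree_X_sub_C] at this
        omega
      rw [hQ]
      refine (Good.linear c _).mul (ih Q hQ0 hdQ) ?_ hQ0
      rw [Polynomial.map_sub, Polynomial.map_X, Polynomial.map_C]
      exact Polynomial.X_sub_C_ne_zero _
    · -- root outside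
      obtain ⟨R, hR⟩ := Polynomial.dvd_iff_isRoot.mpr hτ
      have hτ0 := Res.ne_zero_of_notMem hτO
      have hR0 : R ≠ 0 := by
        rintro rfl
        rw [mul_zero, Polynomial.map_eq_zero_iff hinj] at hR
        exact hP0 hR
      obtain ⟨d, hd, Q, hQ, hQ0⟩ := exists_primitive (B := B) hR0
      have hQ00 : Q ≠ 0 := ne_zero_of_map B hQ0
      set a : B.O := ⟨τ⁻¹, Res.inv_mem_of_notMem hτO⟩ with ha
      -- `(d / τ) P = (τ⁻¹ X - 1) Q`
      have e1 : C (d * τ⁻¹) * P.map B.O.subtype = ((C a * X - 1) * Q).map B.O.subtype := by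
        rw [hR, Polynomial.map_mul, hQ, Polynomial.map_sub, Polynomial.map_mul, Polynomial.map_C,
          Polynomial.map_X, Polynomial.map_one]
        have e2 : (C (B.O.subtype a) * X - 1 : k[X]) = C τ⁻¹ * (X - C τ) := by
          rw [mul_sub, ← C_mul, inv_mul_cancel₀ hτ0, C_1]; rfl
        rw [e2, C_mul]
        ring
      have hred : ((C a * X - 1) * Q).map B.res ≠ 0 := by
        rw [Polynomial.map_mul, (Good.outer c hτO).2]
        simpa using hQ0
      have hd0 : d * τ⁻¹ ≠ 0 := mul_ne_zero hd (inv_ne_zero hτ0)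
      -- the constant is a unit
      have hunit : B.r (d * τ⁻¹) ≠ 0 := by
        by_cases hmem : d * τ⁻¹ ∈ B.O
        · intro h0
          apply hred
          have e3 : C (⟨d * τ⁻¹, hmem⟩ : B.O) * P = (C a * X - 1) * Q := by
            apply Polynomial.map_injective _ hinj
            rw [← e1, Polynomial.map_mul, Polynomial.map_C]
            rfl
          rw [← e3, Polynomial.map_mul, Polynomial.map_C, ← Res.r_of_mem hmem, h0, C_0, zero_mul]
        · exfalso
          apply hP
          have hinv := Res.inv_mem_of_notMem hmem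
          have e3 : P = C (⟨(d * τ⁻¹)⁻¹, hinv⟩ : B.O) * ((C a * X - 1) * Q) := by
            apply Polynomial.map_injective _ hinj
            rw [Polynomial.map_mul, ← e1, Polynomial.map_C]
            have : B.O.subtype (⟨(d * τ⁻¹)⁻¹, hinv⟩ : B.O) = (d * τ⁻¹)⁻¹ := rfl
            rw [this, ← mul_assoc, ← C_mul, inv_mul_cancel₀ hd0, C_1, one_mul]
          rw [e3, Polynomial.map_mul, Polynomial.map_C, ← Res.r_of_mem hinv,
            Res.r_inv_of_notMem hmem, C_0, zero_mul]
      have hinv := Res.inv_mem_of_r hunit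
      have e3 : P = C (⟨(d * τ⁻¹)⁻¹, hinv⟩ : B.O) * ((C a * X - 1) * Q) := by
        apply Polynomial.map_injective _ hinj
        rw [Polynomial.map_mul, ← e1, Polynomial.map_C]
        have : B.O.subtype (⟨(d * τ⁻¹)⁻¹, hinv⟩ : B.O) = (d * τ⁻¹)⁻¹ := rfl
        rw [this, ← mul_assoc, ← C_mul, inv_mul_cancel₀ hd0, C_1, one_mul]
      have hdQ : Q.natDegree ≤ n := by
        have h1 : (P.map B.O.subtype).natDegree = 1 + R.natDegree := by
          rw [hR, (Polynomial.monic_X_sub_C τ).natDegree_mul' hR0, Polynomial.natDegree_X_sub_C]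
        have h2 : (Q.map B.O.subtype).natDegree = R.natDegree := by
          rw [hQ, Polynomial.natDegree_C_mul hd]
        rw [hdegk] at h1
        rw [Polynomial.natDegree_map_eq_of_injective hinj] at h2
        omega
      rw [e3]
      refine (Good.const c _).mul ((Good.outer c hτO).1.mul (ih Q hQ0 hdQ) ?_ hQ0) ?_ hred
      · rw [(Good.outer c hτO).2]
        exact neg_ne_zero.mpr one_ne_zero
      · rw [Polynomial.map_C, ← Res.r_of_mem hinv, Res.r_inv hunit]
        simpa using hunit

/-- **Counting for the Gauss valuation.** -/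
theorem gauss_cnt (c : κ) {f : RatFunc k} (hf : (gauss B).r f ≠ 0) :
    cnt (disc B (RatFunc.X : RatFunc k) c) f =
      cnt (fib (RatFunc.X : RatFunc κ) c) ((gauss B).r f) := by
  obtain ⟨P, Q, hP, hQ, rfl⟩ := exists_of_gauss_r_ne_zero hf
  have e : (gauss B).r (toK B P / toK B Q) = toκ B P / toκ B Q := gauss_r P Q hQ
  rw [e, cnt_div _ (toK_ne_zero B (ne_zero_of_map B hP)) (toK_ne_zero B (ne_zero_of_map B hQ)),
    cnt_div _ ((toκ_ne_zero_iff B).mpr hP) ((toκ_ne_zero_iff B).mpr hQ),
    good_all c _ P hP le_rfl, good_all c _ Q hQ le_rfl]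

end Fermat.Agent.Models
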