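import Fermat.Agent.Models.Comp

/-!
# Families of components: approximation
-/

set_option autoImplicit false
set_option linter.unusedSectionVars false

noncomputable section

namespace Fermat.Agent.Models

variable {k κ : Type*} [Field k] [Field κ] {B : Res k κ} {F : Type*} [Field F] [Algebra k F]
  {ι : Type*} [Fintype ι] [DecidableEq ι] {𝓕 : ι → Type*} [∀ i, Field (𝓕 i)]
  [∀ i, Algebra κ (𝓕 i)] (C : ∀ i, Comp B F (𝓕 i))

/-- the components are pairwise incomparable -/
def Incomp : Prop := ∀ i j, i ≠ j → ∃ z, z ∈ (C i).O ∧ z ∉ (C j).O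

variable {C}

/-- Shifting by a constant makes finitely many conditions of being a unit true. -/
theorem exists_shift [Infinite κ] (x : F) :
    ∃ a ∈ B.O, ∀ i, (x ∈ (C i).O → (C i).r (x + algebraMap k F a) ≠ 0) ∧
      (x ∉ (C i).O → x + algebraMap k F a ∉ (C i).O) := by
  classical
  -- bad residues
  have hfin : (⋃ i, {c : κ | algebraMap κ (𝓕 i) c = -(C i).r x}).Finite := by
    refine Set.finite_iUnion fun i => Set.Subsingleton.finite ?_
    intro c hc d hd
    exact (algebraMap κ (𝓕 i)).injective (hc.trans hd.symm)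
  obtain ⟨c, hc⟩ := hfin.infinite_compl.nonempty
  obtain ⟨a, ha, rfl⟩ := B.r_surjective c
  refine ⟨a, ha, fun i => ⟨fun hx h0 => ?_, fun hx h0 => ?_⟩⟩
  · apply hc
    rw [Set.mem_iUnion]
    refine ⟨i, ?_⟩
    rw [Res.r_add hx ((C i).algebraMap_mem a ha), (C i).r_algebraMap a ha] at h0
    exact eq_neg_of_add_eq_zero_right h0
  · apply hx
    have := sub_mem h0 ((C i).algebraMap_mem a ha)
    rwa [add_sub_cancel_right] at this

/-- Idempotent-like elements. -/
theorem exists_idem [Infinite κ] (hC : Incomp C) (i : ι) :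
    ∃ e : F, (∀ j, e ∈ (C j).O) ∧ ∀ j, (C j).r e = if j = i then 1 else 0 := by
  classical
  -- separating elements
  have h1 : ∀ i j, i ≠ j → ∃ y : F, (∀ l, y ∈ (C l).O) ∧ (C i).r y ≠ 0 ∧ (C j).r y = 0 := by
    intro i j hij
    obtain ⟨z, hz1, hz2⟩ := hC i j hij
    obtain ⟨a, ha, h⟩ := exists_shift (C := C) z
    refine ⟨(z + algebraMap k F a)⁻¹, fun l => ?_, ?_, ?_⟩
    · by_cases hl : z ∈ (C l).O
      · exact Res.inv_mem_of_r ((h l).1 hl)
      · exact Res.inv_mem_of_notMem ((h l).2 hl)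
    · exact Res.r_inv_ne_zero ((h i).1 hz1)
    · exact Res.r_inv_of_notMem ((h j).2 hz2)
  choose! y hy1 hy2 hy3 using h1
  set Y : ι → F := fun i => ∏ j ∈ Finset.univ.erase i, y i j with hY
  have hYm : ∀ i l, Y i ∈ (C l).O := fun i l => prod_mem fun j hj =>
    hy1 i j (Finset.ne_of_mem_erase hj).symm l
  have hY1 : ∀ i, (C i).r (Y i) ≠ 0 := by
    intro i
    rw [hY, Res.r_prod _ _ fun j hj => hy1 i j (Finset.ne_of_mem_erase hj).symm i,
      Finset.prod_ne_zero_iff]
    exact fun j hj => hy2 i j (Finset.ne_of_mem_erase hj).symm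
  have hY2 : ∀ i j, i ≠ j → (C j).r (Y i) = 0 := by
    intro i j hij
    rw [hY, Res.r_prod _ _ fun j' hj => hy1 i j' (Finset.ne_of_mem_erase hj).symm j]
    exact Finset.prod_eq_zero (Finset.mem_erase.mpr ⟨hij.symm, Finset.mem_univ j⟩) (hy3 i j hij)
  set s : F := ∑ i, Y i with hs
  have hs1 : ∀ j, (C j).r s = (C j).r (Y j) := by
    intro j
    rw [hs, Res.r_sum _ _ fun i _ => hYm i j]
    exact Finset.sum_eq_single j (fun i _ hij => hY2 i j hij) (fun h => absurd (Finset.mem_univ j) h)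
  have hs2 : ∀ j, (C j).r s ≠ 0 := fun j => by rw [hs1]; exact hY1 j
  refine ⟨Y i / s, fun j => ?_, fun j => ?_⟩
  · rw [div_eq_mul_inv]; exact mul_mem (hYm i j) (Res.inv_mem_of_r (hs2 j))
  · rw [Res.r_div (hYm i j) (hs2 j), hs1]
    split_ifs with h
    · subst h; exact div_self (hY1 j)
    · rw [hY2 i j (Ne.symm h), zero_div]

/-- A single residue. -/
theorem exists_res_single [Infinite κ] (hB : B.RankOne) (hC : Incomp C) (i : ι) (y : 𝓕 i) :
    ∃ x : F, (∀ j, x ∈ (C j).O) ∧ (C i).r x = y ∧ ∀ j, j ≠ i → (C j).r x = 0 := by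
  classical
  obtain ⟨x, hx, rfl⟩ := (C i).r_surjective y
  obtain ⟨e, he1, he2⟩ := exists_idem hC i
  have h1 : ∀ j, j ≠ i → ∃ n : ℕ, e ^ n * x ∈ (C j).O ∧ (C j).r (e ^ n * x) = 0 := fun j hj =>
    (C j).exists_pow_mul hB (he1 j) (by rw [he2, if_neg hj]) x
  choose! n hn1 hn2 using h1
  set N := ∑ j, n j with hN
  have hle : ∀ j, n j ≤ N := fun j => Finset.single_le_sum (f := n) (fun _ _ => Nat.zero_le _)
    (Finset.mem_univ j)
  have e1 : ∀ j, e ^ N * x = e ^ (N - n j) * (e ^ n j * x) := by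
    intro j
    rw [← mul_assoc, ← pow_add, Nat.sub_add_cancel (hle j)]
  refine ⟨e ^ N * x, fun j => ?_, ?_, fun j hj => ?_⟩
  · by_cases hj : j = i
    · subst hj; exact mul_mem (pow_mem (he1 j) _) hx
    · rw [e1 j]; exact mul_mem (pow_mem (he1 j) _) (hn1 j hj)
  · rw [Res.r_mul (pow_mem (he1 i) _) hx, Res.r_pow (he1 i), he2, if_pos rfl, one_pow, one_mul]
  · rw [e1 j, Res.r_mul (pow_mem (he1 j) _) (hn1 j hj), hn2 j hj, mul_zero]

/-- Simultaneous residues. -/
theorem exists_res [Infinite κ] (hB : B.RankOne) (hC : Incomp C) (y : ∀ i, 𝓕 i) :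
    ∃ x : F, (∀ j, x ∈ (C j).O) ∧ ∀ j, (C j).r x = y j := by
  classical
  choose x hx1 hx2 hx3 using fun i => exists_res_single (C := C) hB hC i (y i)
  refine ⟨∑ i, x i, fun j => sum_mem fun i _ => hx1 i j, fun j => ?_⟩
  rw [Res.r_sum _ _ fun i _ => hx1 i j, Finset.sum_eq_single j (fun i _ hij => hx3 i j hij.symm)
    (fun h => absurd (Finset.mem_univ j) h), hx2]

end Fermat.Agent.Models
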