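import Fermat.Agent.Models.Norm

/-!
# The Gauss component of a rational function field
-/

set_option autoImplicit false
set_option linter.unusedSectionVars false

noncomputable section

namespace Fermat.Agent.Models

open Polynomial

variable {k κ : Type*} [Field k] [Field κ] (B : Res k κ)

/-- inclusion of integral polynomials -/
def toK : (B.O)[X] →+* RatFunc k :=
  (algebraMap k[X] (RatFunc k)).comp (Polynomial.mapRingHom B.O.subtype)

/-- reduction of integral polynomials -/
def toκ : (B.O)[X] →+* RatFunc κ :=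
  (algebraMap κ[X] (RatFunc κ)).comp (Polynomial.mapRingHom B.res)

theorem toK_injective : Function.Injective (toK B) := by
  intro P Q h
  have h1 := RatFunc.algebraMap_injective (K := k) h
  exact Polynomial.map_injective _ B.O.subtype_injective h1

theorem toK_ne_zero {P : (B.O)[X]} (h : P ≠ 0) : toK B P ≠ 0 := by
  rw [← map_zero (toK B)]
  exact fun h' => h (toK_injective B h')

theorem toκ_ne_zero_iff {P : (B.O)[X]} : toκ B P ≠ 0 ↔ P.map B.res ≠ 0 := by
  rw [toκ, RingHom.comp_apply, Ne, Ne, map_eq_zero_iff _ (RatFunc.algebraMap_injective (K := κ))]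
  rfl

/-- The prime ideal of polynomials with zero reduction. -/
def gaussIdeal : Ideal (B.O)[X] := RingHom.ker (Polynomial.mapRingHom B.res)

instance : (gaussIdeal B).IsPrime := RingHom.ker_isPrime _

theorem mem_gaussIdeal {P : (B.O)[X]} : P ∈ gaussIdeal B ↔ P.map B.res = 0 := Iff.rfl

theorem ne_zero_of_map {P : (B.O)[X]} (h : P.map B.res ≠ 0) : P ≠ 0 := by
  rintro rfl; simp at h

/-- the local ring -/
def GaussRing := Localization.AtPrime (gaussIdeal B)

instance : CommRing (GaussRing B) := inferInstanceAs (CommRing (Localization.AtPrime (gaussIdeal B)))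

instance : Algebra (B.O)[X] (GaussRing B) :=
  inferInstanceAs (Algebra (B.O)[X] (Localization.AtPrime (gaussIdeal B)))

instance : IsLocalization (gaussIdeal B).primeCompl (GaussRing B) :=
  inferInstanceAs (IsLocalization (gaussIdeal B).primeCompl
    (Localization.AtPrime (gaussIdeal B)))

/-- to the generic fibre -/
def gaussφ : GaussRing B →+* RatFunc k :=
  IsLocalization.lift (M := (gaussIdeal B).primeCompl) (g := toK B) (by
    intro y
    exact (toK_ne_zero B (ne_zero_of_map B y.2)).isUnit)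

/-- to the special fibre -/
def gaussψ : GaussRing B →+* RatFunc κ :=
  IsLocalization.lift (M := (gaussIdeal B).primeCompl) (g := toκ B) (by
    intro y
    exact ((toκ_ne_zero_iff B).mpr y.2).isUnit)

theorem gaussφ_mk' (P : (B.O)[X]) (Q : (gaussIdeal B).primeCompl) :
    gaussφ B (IsLocalization.mk' _ P Q) = toK B P / toK B Q := by
  rw [gaussφ, IsLocalization.lift_mk'_spec]
  rw [mul_div_cancel₀ _ (toK_ne_zero B (ne_zero_of_map B Q.2))]

theorem gaussψ_mk' (P : (B.O)[X]) (Q : (gaussIdeal B).primeCompl) :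
    gaussψ B (IsLocalization.mk' _ P Q) = toκ B P / toκ B Q := by
  rw [gaussψ, IsLocalization.lift_mk'_spec]
  rw [mul_div_cancel₀ _ ((toκ_ne_zero_iff B).mpr Q.2)]

theorem gaussφ_injective : Function.Injective (gaussφ B) := by
  rw [injective_iff_map_eq_zero]
  intro z hz
  obtain ⟨P, Q, rfl⟩ := IsLocalization.exists_mk'_eq (gaussIdeal B).primeCompl z
  rw [gaussφ_mk', div_eq_zero_iff] at hz
  have hP : P = 0 := by
    rcases hz with h | h
    · by_contra hP
      exact toK_ne_zero B hP h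
    · exact absurd h (toK_ne_zero B (ne_zero_of_map B Q.2))
  rw [hP, IsLocalization.mk'_zero]

variable {B}

/-- scaling a polynomial to be primitive -/
theorem exists_primitive {P : k[X]} (hP : P ≠ 0) :
    ∃ c : k, c ≠ 0 ∧ ∃ P' : (B.O)[X], P'.map B.O.subtype = C c * P ∧ P'.map B.res ≠ 0 := by
  classical
  obtain ⟨j, hj, hmax⟩ := Finset.exists_max_image P.support (fun i => B.O.valuation (P.coeff i))
    (Polynomial.support_nonempty.mpr hP)
  have hj0 : P.coeff j ≠ 0 := Polynomial.mem_support_iff.mp hj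
  have hint : ∀ i, (P.coeff j)⁻¹ * P.coeff i ∈ B.O := by
    intro i
    by_cases hi : P.coeff i = 0
    · rw [hi, mul_zero]; exact zero_mem _
    · rw [← ValuationSubring.valuation_le_one_iff, map_mul, map_inv₀, mul_comm, ← div_eq_mul_inv]
      exact div_le_one_of_le₀ (hmax i (Polynomial.mem_support_iff.mpr hi)) zero_le
  have hl : C (P.coeff j)⁻¹ * P ∈ Polynomial.lifts B.O.subtype := by
    rw [Polynomial.lifts_iff_coeff_lifts]
    intro i
    rw [Polynomial.coeff_C_mul]
    exact ⟨⟨_, hint i⟩, rfl⟩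
  obtain ⟨P', hP'⟩ := (Polynomial.mem_lifts _).mp hl
  refine ⟨(P.coeff j)⁻¹, inv_ne_zero hj0, P', hP', ?_⟩
  intro h0
  have h1 : (P'.map B.res).coeff j = 0 := by rw [h0]; simp
  rw [Polynomial.coeff_map] at h1
  have h2 : ((P'.coeff j : B.O) : k) = 1 := by
    have := congrArg (fun Q => Q.coeff j) hP'
    simp only [Polynomial.coeff_map, Polynomial.coeff_C_mul] at this
    rw [inv_mul_cancel₀ hj0] at this
    exact this
  have h3 : P'.coeff j = 1 := Subtype.ext h2
  rw [h3, map_one] at h1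
  exact one_ne_zero h1

/-- every rational function is a constant times a quotient of primitive polynomials -/
theorem exists_primitive_div {f : RatFunc k} (hf : f ≠ 0) :
    ∃ c : k, c ≠ 0 ∧ ∃ P Q : (B.O)[X], P.map B.res ≠ 0 ∧ Q.map B.res ≠ 0 ∧
      algebraMap k (RatFunc k) c * f = toK B P / toK B Q := by
  have hn : f.num ≠ 0 := RatFunc.num_ne_zero hf
  have hd : f.denom ≠ 0 := RatFunc.denom_ne_zero f
  obtain ⟨c, hc, P, hP, hP0⟩ := exists_primitive (B := B) hn
  obtain ⟨d, hd', Q, hQ, hQ0⟩ := exists_primitive (B := B) hd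
  refine ⟨c / d, div_ne_zero hc hd', P, Q, hP0, hQ0, ?_⟩
  have e1 : toK B P = algebraMap k (RatFunc k) c * algebraMap k[X] (RatFunc k) f.num := by
    rw [toK, RingHom.comp_apply, coe_mapRingHom, hP, map_mul]
    rfl
  have e2 : toK B Q = algebraMap k (RatFunc k) d * algebraMap k[X] (RatFunc k) f.denom := by
    rw [toK, RingHom.comp_apply, coe_mapRingHom, hQ, map_mul]
    rfl
  rw [e1, e2, map_div₀]
  conv_lhs => rw [← RatFunc.num_div_denom f]
  rw [div_mul_div_comm]

theorem exists_pol_inv {x : RatFunc k} (h : x ∉ (gaussφ B).range) (hx : x ≠ 0) :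
    x⁻¹ ∈ (gaussφ B).range := by
  obtain ⟨c, hc, P, Q, hP, hQ, e⟩ := exists_primitive_div (B := B) hx
  have hc' : algebraMap k (RatFunc k) c ≠ 0 := by simpa using hc
  by_cases hcO : c ∈ B.O
  · -- `x⁻¹ = c Q / P`
    refine ⟨IsLocalization.mk' _ (C ⟨c, hcO⟩ * Q) (⟨P, hP⟩ : (gaussIdeal B).primeCompl), ?_⟩
    rw [gaussφ_mk', map_mul]
    have e1 : toK B (C (⟨c, hcO⟩ : B.O)) = algebraMap k (RatFunc k) c := by
      rw [toK, RingHom.comp_apply, coe_mapRingHom, Polynomial.map_C]
      rfl
    have hQ' := toK_ne_zero B (ne_zero_of_map B hQ)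
    have hP' := toK_ne_zero B (ne_zero_of_map B hP)
    rw [e1, inv_eq_one_div, eq_div_iff hx]
    rw [eq_div_iff hQ'] at e
    field_simp
    rw [← e]
    ring
  · exfalso
    apply h
    have hcO' := Res.inv_mem_of_notMem hcO
    refine ⟨IsLocalization.mk' _ (C ⟨c⁻¹, hcO'⟩ * P) (⟨Q, hQ⟩ : (gaussIdeal B).primeCompl), ?_⟩
    rw [gaussφ_mk', map_mul]
    have e1 : toK B (C (⟨c⁻¹, hcO'⟩ : B.O)) = (algebraMap k (RatFunc k) c)⁻¹ := by
      rw [toK, RingHom.comp_apply, coe_mapRingHom, Polynomial.map_C, ← map_inv₀]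
      rfl
    rw [e1, mul_div_assoc, ← e, inv_mul_cancel_left₀ hc']

variable (B) in
/-- The Gauss valuation ring. -/
def gaussO : ValuationSubring (RatFunc k) where
  toSubring := (gaussφ B).range
  mem_or_inv_mem' x := by
    by_cases hx : x = 0
    · left; rw [hx]; exact (gaussφ B).range.zero_mem
    · by_cases h : x ∈ (gaussφ B).range
      · exact Or.inl h
      · exact Or.inr (exists_pol_inv h hx)

variable (B) in
/-- the identification of the Gauss ring with a subring -/
def gaussEquiv : GaussRing B ≃+* gaussO B :=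
  RingEquiv.ofBijective (gaussφ B).rangeRestrict
    ⟨fun _ _ h => gaussφ_injective B (congrArg Subtype.val h), (gaussφ B).rangeRestrict_surjective⟩

theorem coe_gaussEquiv (z : GaussRing B) : ((gaussEquiv B z : gaussO B) : RatFunc k) =
    gaussφ B z := rfl

variable (B) in
/-- The Gauss residue map. -/
def gaussRes : gaussO B →+* RatFunc κ := (gaussψ B).comp (gaussEquiv B).symm.toRingHom

theorem gaussRes_apply (z : GaussRing B) : gaussRes B (gaussEquiv B z) = gaussψ B z := by
  rw [gaussRes, RingHom.comp_apply]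
  congr 1
  exact (gaussEquiv B).symm_apply_apply z

theorem gaussψ_surjective : Function.Surjective (gaussψ B) := by
  intro g
  obtain ⟨P, hP⟩ := Polynomial.map_surjective B.res B.res_surjective g.num
  obtain ⟨Q, hQ⟩ := Polynomial.map_surjective B.res B.res_surjective g.denom
  have hQ0 : Q.map B.res ≠ 0 := by rw [hQ]; exact RatFunc.denom_ne_zero g
  refine ⟨IsLocalization.mk' _ P (⟨Q, hQ0⟩ : (gaussIdeal B).primeCompl), ?_⟩
  rw [gaussψ_mk', toκ, RingHom.comp_apply, RingHom.comp_apply, coe_mapRingHom, hP, hQ,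
    RatFunc.num_div_denom]

variable (B) in
/-- The residue structure on the rational function field. -/
def gaussResStr : Res (RatFunc k) (RatFunc κ) where
  O := gaussO B
  res := gaussRes B
  res_surjective := by
    intro g
    obtain ⟨z, rfl⟩ := gaussψ_surjective (B := B) g
    exact ⟨gaussEquiv B z, gaussRes_apply z⟩
  res_ne_zero_iff := by
    intro x
    obtain ⟨z, rfl⟩ := (gaussEquiv B).surjective x
    rw [gaussRes_apply, coe_gaussEquiv]
    constructor
    · intro h
      obtain ⟨P, Q, rfl⟩ := IsLocalization.exists_mk'_eq (gaussIdeal B).primeCompl z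
      rw [gaussψ_mk', div_ne_zero_iff] at h
      have hP := (toκ_ne_zero_iff B).mp h.1
      rw [gaussφ_mk']
      refine ⟨div_ne_zero (toK_ne_zero B (ne_zero_of_map B hP))
        (toK_ne_zero B (ne_zero_of_map B Q.2)), ?_⟩
      rw [inv_div]
      exact ⟨IsLocalization.mk' _ (Q : (B.O)[X]) (⟨P, hP⟩ : (gaussIdeal B).primeCompl),
        gaussφ_mk' _ _ _⟩
    · rintro ⟨h1, h2⟩ h3
      obtain ⟨w, hw⟩ := h2
      have : z * w = 1 := by
        apply gaussφ_injective B
        rw [map_mul, hw, mul_inv_cancel₀ h1, map_one]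
      have h4 := congrArg (gaussψ B) this
      rw [map_mul, h3, zero_mul, map_one] at h4
      exact zero_ne_one h4

theorem mem_gauss_of (P Q : (B.O)[X]) (hQ : Q.map B.res ≠ 0) :
    toK B P / toK B Q ∈ (gaussResStr B).O :=
  ⟨IsLocalization.mk' _ P (⟨Q, hQ⟩ : (gaussIdeal B).primeCompl), gaussφ_mk' _ _ _⟩

theorem gauss_r (P Q : (B.O)[X]) (hQ : Q.map B.res ≠ 0) :
    (gaussResStr B).r (toK B P / toK B Q) = toκ B P / toκ B Q := by
  rw [Res.r_of_mem (mem_gauss_of P Q hQ)]
  have e : (⟨toK B P / toK B Q, mem_gauss_of P Q hQ⟩ : gaussO B) =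
      gaussEquiv B (IsLocalization.mk' _ P (⟨Q, hQ⟩ : (gaussIdeal B).primeCompl)) := by
    apply Subtype.ext
    rw [coe_gaussEquiv, gaussφ_mk']
  calc gaussRes B ⟨toK B P / toK B Q, mem_gauss_of P Q hQ⟩
      = gaussRes B (gaussEquiv B
        (IsLocalization.mk' _ P (⟨Q, hQ⟩ : (gaussIdeal B).primeCompl))) := congrArg _ e
    _ = toκ B P / toκ B Q := by rw [gaussRes_apply, gaussψ_mk']

theorem mem_gauss_pol (P : (B.O)[X]) : toK B P ∈ (gaussResStr B).O := by
  have := mem_gauss_of P 1 (by simp)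
  rwa [map_one, div_one] at this

theorem gauss_r_pol (P : (B.O)[X]) : (gaussResStr B).r (toK B P) = toκ B P := by
  have := gauss_r P 1 (by simp)
  rwa [map_one, div_one, map_one, div_one] at this

theorem toK_C (a : B.O) : toK B (C a) = algebraMap k (RatFunc k) a := by
  rw [toK, RingHom.comp_apply, coe_mapRingHom, Polynomial.map_C]
  rfl

theorem toκ_C (a : B.O) : toκ B (C a) = algebraMap κ (RatFunc κ) (B.res a) := by
  rw [toκ, RingHom.comp_apply, coe_mapRingHom, Polynomial.map_C]
  rfl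

variable (B) in
/-- The Gauss component. -/
def gauss : Comp B (RatFunc k) (RatFunc κ) where
  toRes := gaussResStr B
  algebraMap_mem a ha := by
    have := mem_gauss_pol (C (⟨a, ha⟩ : B.O))
    rwa [toK_C] at this
  r_algebraMap a ha := by
    have := gauss_r_pol (C (⟨a, ha⟩ : B.O))
    rw [toK_C, toκ_C] at this
    rw [this, Res.r_of_mem ha]
  exists_scale f hf := by
    obtain ⟨c, hc, P, Q, hP, hQ, e⟩ := exists_primitive_div (B := B) hf
    refine ⟨c, hc, ?_⟩
    rw [e, gauss_r P Q hQ]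
    exact div_ne_zero ((toκ_ne_zero_iff B).mpr hP) ((toκ_ne_zero_iff B).mpr hQ)

/-- units of the Gauss ring are quotients of primitive polynomials -/
theorem exists_of_gauss_r_ne_zero {f : RatFunc k} (hf : (gauss B).r f ≠ 0) :
    ∃ P Q : (B.O)[X], P.map B.res ≠ 0 ∧ Q.map B.res ≠ 0 ∧ f = toK B P / toK B Q := by
  have h1 := Res.mem_of_r_ne_zero hf
  obtain ⟨z, hz⟩ := h1
  obtain ⟨P, Q, rfl⟩ := IsLocalization.exists_mk'_eq (gaussIdeal B).primeCompl z
  rw [gaussφ_mk'] at hz
  refine ⟨P, Q, ?_, Q.2, hz.symm⟩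
  rw [← hz] at hf
  have h2 := gauss_r P Q Q.2
  change (gaussResStr B).r _ ≠ 0 at hf
  rw [h2, div_ne_zero_iff] at hf
  exact (toκ_ne_zero_iff B).mp hf.1

theorem exists_of_mem_gauss {f : RatFunc k} (hf : f ∈ (gauss B).O) :
    ∃ P Q : (B.O)[X], Q.map B.res ≠ 0 ∧ f = toK B P / toK B Q := by
  obtain ⟨z, hz⟩ := hf
  obtain ⟨P, Q, rfl⟩ := IsLocalization.exists_mk'_eq (gaussIdeal B).primeCompl z
  rw [gaussφ_mk'] at hz
  exact ⟨P, Q, Q.2, hz.symm⟩

end Fermat.Agent.Models
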