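import Fermat.Agent.Models.Adjust

/-!
# Local principality at smooth points and at nodes
-/

set_option autoImplicit false
set_option linter.unusedSectionVars false
set_option linter.style.haveILetI false

noncomputable section

namespace Fermat.Agent.Models

open AlgebraicCurve Fermat.Agent.Curves Polynomial

/-- commensurable values -/
def Res.Commens {k κ : Type*} [Field k] [Field κ] (B : Res k κ) : Prop :=
  ∀ a b : k, a ≠ 0 → b ≠ 0 → a ∈ B.O → b ∈ B.O → B.r a = 0 → B.r b = 0 →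
    ∃ m n : ℕ, 0 < m ∧ B.r (a ^ m / b ^ n) ≠ 0

variable {k κ : Type*} [Field k] [Field κ] {B : Res k κ} {F : Type*} [Field F] [Algebra k F]
  {ι : Type*} {𝓕 : ι → Type*} [∀ i, Field (𝓕 i)] [∀ i, Algebra κ (𝓕 i)]
  {C : ∀ i, Comp B F (𝓕 i)}
  [IsAlgClosed k] [IsAlgClosed κ] [IsFunctionField k F] [∀ i, IsFunctionField κ (𝓕 i)]
  [Fintype ι] [DecidableEq ι] [Nonempty ι]

theorem ord_zpow' {K E : Type*} [Field K] [Field E] [Algebra K E] [IsAlgClosed K]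
    [IsFunctionField K E] (v : Place K E) (x : E) (n : ℤ) : v.ord (x ^ n) = n * v.ord x := by
  obtain ⟨m, rfl | rfl⟩ := n.eq_nat_or_neg
  · rw [zpow_natCast, ord_pow]
  · rw [zpow_neg, zpow_natCast, v.ord_inv, ord_pow]
    ring

open Classical in
/-- local principality: every place specialising to `M` is cut out by one function near `M` -/
def LP (C : ∀ i, Comp B F (𝓕 i)) (t : F) (M : Ideal (chart C t)) : Prop :=
  ∀ P ∈ gen t M, ∃ h : F, h ≠ 0 ∧ ∀ Q ∈ gen t M, Q.ord h = if Q = P then 1 else 0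

omit [Fintype ι] [DecidableEq ι] [Nonempty ι] [∀ i, IsFunctionField κ (𝓕 i)] [IsAlgClosed κ] in
theorem LP.exists_ord {t : F} {M : Ideal (chart C t)} (h : LP C t M) (D : Divisor k F) :
    ∃ g : F, g ≠ 0 ∧ ∀ P ∈ gen t M, P.ord g = D P := by
  classical
  have h1 : ∀ P : Place k F, ∃ g : F, g ≠ 0 ∧ (P ∈ gen t M →
      ∀ Q ∈ gen t M, Q.ord g = if Q = P then 1 else 0) := by
    intro P
    by_cases hP : P ∈ gen t M
    · obtain ⟨g, hg, hg'⟩ := h P hP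
      exact ⟨g, hg, fun _ Q hQ => by rw [hg' Q hQ]⟩
    · exact ⟨1, one_ne_zero, fun h => absurd h hP⟩
  choose g hg0 hg using h1
  refine ⟨∏ P ∈ D.support.filter (fun P => P ∈ gen t M), g P ^ D P,
    Finset.prod_ne_zero_iff.mpr fun P _ => zpow_ne_zero _ (hg0 P), fun Q hQ => ?_⟩
  rw [ord_prod Q _ _ fun P _ => zpow_ne_zero _ (hg0 P)]
  have h2 : ∀ P ∈ D.support.filter (fun P => P ∈ gen t M),
      Q.ord (g P ^ D P) = if Q = P then D P else 0 := by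
    intro P hP
    rw [ord_zpow', hg P (Finset.mem_filter.mp hP).2 Q hQ]
    split_ifs <;> ring
  rw [Finset.sum_congr rfl h2, Finset.sum_ite_eq]
  split_ifs with h3
  · rfl
  · rw [Finset.mem_filter, not_and_or, Finsupp.notMem_support_iff] at h3
    exact (h3.resolve_right (not_not.mpr hQ)).symm

/-- existence of uniformizers in the affine ring -/
theorem exists_uniformizer_affine {E : Type*} [Field E] [Algebra κ E] [IsFunctionField κ E]
    {τ : E} (hτ : Transcendental κ τ) {𝔭 : Place κ E} (h𝔭 : τ ∈ 𝔭.toValuationSubring) :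
    ∃ f ∈ affineRing κ τ, f ≠ 0 ∧ 𝔭.ord f = 1 := by
  obtain ⟨f₀, hf₀, h1⟩ := exists_ord_eq_finset ({𝔭} : Finset (Place κ E)) (fun _ => 1)
  have h2 := h1 𝔭 (Finset.mem_singleton_self _)
  obtain ⟨b, hb, hb0, hbf⟩ := exists_denominator hτ h𝔭 ((mem_iff_ord 𝔭 hf₀).mpr (by omega))
  have hbne : b ≠ 0 := by
    rintro rfl
    apply hb0
    have := value_algebraMap 𝔭 (0 : κ)
    rwa [map_zero] at this
  refine ⟨b * f₀, hbf, mul_ne_zero hbne hf₀, ?_⟩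
  rw [𝔭.ord_mul hbne hf₀, (value_ne_zero_iff hbne (hb 𝔭 h𝔭)).mp hb0, h2, zero_add]

/-- **Local principality at smooth points.** -/
theorem lp_of_smooth (hB : B.RankOne) (hC : Incomp C) {t : F} (ht : IsGood C t)
    (hS : Surj C t) {M : Ideal (chart C t)} {i : ι} {𝔭 : Place κ (𝓕 i)} (h𝔭 : 𝔭 ∈ spec t M i)
    (hj : ∀ j, j ≠ i → ¬ (spec t M j).Nonempty) : LP C t M := by
  classical
  have hM := isPoint_of_spec hB hC ht ⟨𝔭, h𝔭⟩
  obtain ⟨f, hf, hf0, hf1⟩ := exists_uniformizer_affine (ht.trans i) h𝔭.1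
  obtain ⟨s, hs, hsf⟩ := hS i f hf
  have hsM : (⟨s, hs⟩ : chart C t) ∈ M := by
    rw [h𝔭.2]
    show value 𝔭 ((C i).r s) = 0
    rw [hsf, value_eq_zero_iff 𝔭 (hf 𝔭 h𝔭.1), val_lt_one_iff]
    right; omega
  intro P hP
  have hvO : value P s ∈ B.O := value_mem hB hC ht hs hP.1 hP.2.1
  have hv0 : B.r (value P s) = 0 := (hP.2.2 ⟨s, hs⟩).mp hsM
  set h : F := s - algebraMap k F (value P s) with hh
  have hmem : h ∈ chart C t := sub_mem hs (algebraMap_mem_chart t hvO)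
  have hr : (C i).r h = f := by
    rw [hh, Res.r_sub (hs.2 i) ((C i).algebraMap_mem _ hvO), (C i).r_algebraMap_eq_zero hvO hv0,
      sub_zero, hsf]
  have hr0 : (C i).r h ≠ 0 := by rw [hr]; exact hf0
  have hh0 : h ≠ 0 := Res.ne_zero_of_r hr0
  refine ⟨h, hh0, ?_⟩
  have hcnt := local_conserve' hB hC ht hS hM hh0 (fun j hj' => by
    by_cases hji : j = i
    · subst hji; exact hr0
    · exact absurd hj' (hj j hji))
  rw [Finset.sum_eq_single i (fun j _ hji => cnt_empty (hj j hji) _)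
    (fun h => absurd (Finset.mem_univ i) h), cnt_subsingleton (spec_subsingleton ht hS M i) h𝔭,
    hr, hf1] at hcnt
  have hnn : ∀ Q ∈ gen t M, 0 ≤ Q.ord h := fun Q hQ =>
    (mem_iff_ord Q hh0).mp (hmem.1 Q hQ.1)
  have hP1 : 1 ≤ P.ord h := by
    have := value_spec P (hs.1 P hP.1)
    rw [val_lt_one_iff, ← hh, or_iff_right hh0] at this
    omega
  intro Q hQ
  exact ord_eq_of_cnt_one hnn hcnt.le hP hP1 Q hQ

/-- A node with an exact coordinate `Y` of thickness `ϖ`. -/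
structure IsNode (C : ∀ i, Comp B F (𝓕 i)) (t : F) (M : Ideal (chart C t)) (i₁ i₂ : ι)
    (𝔭₁ : Place κ (𝓕 i₁)) (𝔭₂ : Place κ (𝓕 i₂)) (Y : F) (ϖ : k) : Prop where
  ne : i₁ ≠ i₂
  spec₁ : 𝔭₁ ∈ spec t M i₁
  spec₂ : 𝔭₂ ∈ spec t M i₂
  others : ∀ j, j ≠ i₁ → j ≠ i₂ → ¬ (spec t M j).Nonempty
  ϖ_ne : ϖ ≠ 0
  ϖ_mem : ϖ ∈ B.O
  ϖ_r : B.r ϖ = 0
  r₁ : (C i₁).r Y ≠ 0
  ord₁ : 𝔭₁.ord ((C i₁).r Y) = 1
  r₂ : (C i₂).r (Y / algebraMap k F ϖ) ≠ 0
  ord₂ : 𝔭₂.ord ((C i₂).r (Y / algebraMap k F ϖ)) = -1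
  gen : ∀ P ∈ gen t M, P.ord Y = 0

theorem IsNode.sum_eq {t : F} {M : Ideal (chart C t)} {i₁ i₂ : ι} {𝔭₁ : Place κ (𝓕 i₁)}
    {𝔭₂ : Place κ (𝓕 i₂)} {Y : F} {ϖ : k} (h : IsNode C t M i₁ i₂ 𝔭₁ 𝔭₂ Y ϖ)
    (ht : IsGood C t) (hS : Surj C t) (x : F) :
    ∑ i, cnt (spec t M i) ((C i).r x) = 𝔭₁.ord ((C i₁).r x) + 𝔭₂.ord ((C i₂).r x) := by
  rw [← Finset.sum_subset (Finset.subset_univ {i₁, i₂}) (fun j _ hj => cnt_empty (by
    rw [Finset.mem_insert, Finset.mem_singleton, not_or] at hj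
    exact h.others j hj.1 hj.2) _), Finset.sum_pair h.ne,
    cnt_subsingleton (spec_subsingleton ht hS M i₁) h.spec₁,
    cnt_subsingleton (spec_subsingleton ht hS M i₂) h.spec₂]

/-- **Local principality at nodes.** -/
theorem lp_of_node (hB : B.RankOne) (hBc : B.Commens) (hC : Incomp C) {t : F} (ht : IsGood C t)
    (hS : Surj C t) {M : Ideal (chart C t)} {i₁ i₂ : ι} {𝔭₁ : Place κ (𝓕 i₁)}
    {𝔭₂ : Place κ (𝓕 i₂)} {Y : F} {ϖ : k} (h : IsNode C t M i₁ i₂ 𝔭₁ 𝔭₂ Y ϖ) : LP C t M := by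
  classical
  have hM := isPoint_of_spec hB hC ht ⟨𝔭₁, h.spec₁⟩
  have hϖF : algebraMap k F ϖ ≠ 0 := by simpa using h.ϖ_ne
  have hY0 : Y ≠ 0 := Res.ne_zero_of_r h.r₁
  have hbr : ∀ i, (spec t M i).Nonempty → i = i₁ ∨ i = i₂ := by
    intro i hi
    by_contra! hne
    exact h.others i hne.1 hne.2 hi
  have hY2 : Y ∈ (C i₂).O ∧ (C i₂).r Y = 0 := by
    have e : Y = algebraMap k F ϖ * (Y / algebraMap k F ϖ) := by field_simp
    have h1 := Res.mem_of_r_ne_zero h.r₂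
    rw [e]
    refine ⟨mul_mem ((C i₂).algebraMap_mem _ h.ϖ_mem) h1, ?_⟩
    rw [Res.r_mul ((C i₂).algebraMap_mem _ h.ϖ_mem) h1, (C i₂).r_algebraMap_eq_zero h.ϖ_mem h.ϖ_r,
      zero_mul]
  have hYinv1 : algebraMap k F ϖ / Y ∈ (C i₁).O ∧ (C i₁).r (algebraMap k F ϖ / Y) = 0 := by
    rw [div_eq_mul_inv]
    refine ⟨mul_mem ((C i₁).algebraMap_mem _ h.ϖ_mem) (Res.inv_mem_of_r h.r₁), ?_⟩
    rw [Res.r_mul ((C i₁).algebraMap_mem _ h.ϖ_mem) (Res.inv_mem_of_r h.r₁),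
      (C i₁).r_algebraMap_eq_zero h.ϖ_mem h.ϖ_r, zero_mul]
  have hYloc : Y ∈ loc t M hM.isMaximal.isPrime := mem_loc_of hB hC ht hS hM
    (fun P hP => (mem_iff_ord P hY0).mpr (h.gen P hP).ge) fun i hi => by
      rcases hbr i hi with rfl | rfl
      · exact Res.mem_of_r_ne_zero h.r₁
      · exact hY2.1
  have hYiloc : algebraMap k F ϖ / Y ∈ loc t M hM.isMaximal.isPrime :=
    mem_loc_of hB hC ht hS hM (fun P hP => by
      rw [div_eq_mul_inv]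
      exact mul_mem (P.algebraMap_mem' _) ((mem_iff_ord P (inv_ne_zero hY0)).mpr
        (by rw [P.ord_inv, h.gen P hP]; simp))) fun i hi => by
      rcases hbr i hi with rfl | rfl
      · exact hYinv1.1
      · have := Res.inv_mem_of_r h.r₂
        rwa [inv_div] at this
  intro P hP
  obtain ⟨hPY, hPYO⟩ := loc_mem_place hB hC ht _ hP hYloc
  obtain ⟨hPYi, hPYiO⟩ := loc_mem_place hB hC ht _ hP hYiloc
  set a := value P Y with ha
  have ha0 : a ≠ 0 := (value_ne_zero_iff hY0 hPY).mpr (h.gen P hP)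
  have har : B.r a = 0 := by
    rw [ha, loc_value_place hB hC ht _ hP h.spec₂ hYloc, hY2.2]
    have := value_algebraMap 𝔭₂ (0 : κ)
    rwa [map_zero] at this
  have haF : algebraMap k F a ≠ 0 := by simpa using ha0
  -- `ϖ / a` is small
  have hϖa : value P (algebraMap k F ϖ / Y) = ϖ / a := by
    have h1 := value_inv' hPY ha0
    rw [div_eq_mul_inv, value_mul P (P.algebraMap_mem' _) h1.1, h1.2, value_algebraMap,
      ← div_eq_mul_inv]
  have hϖaO : ϖ / a ∈ B.O := by rw [← hϖa]; exact hPYiO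
  have hϖar : B.r (ϖ / a) = 0 := by
    rw [← hϖa, loc_value_place hB hC ht _ hP h.spec₁ hYiloc, hYinv1.2]
    have := value_algebraMap 𝔭₁ (0 : κ)
    rwa [map_zero] at this
  set g : F := Y - algebraMap k F a with hg
  have hg1 : (C i₁).r g = (C i₁).r Y := by
    rw [hg, Res.r_sub (Res.mem_of_r_ne_zero h.r₁) ((C i₁).algebraMap_mem _ hPYO),
      (C i₁).r_algebraMap_eq_zero hPYO har, sub_zero]
  have hg10 : (C i₁).r g ≠ 0 := by rw [hg1]; exact h.r₁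
  have hg0 : g ≠ 0 := Res.ne_zero_of_r hg10
  have hg2 : (C i₂).r (g / algebraMap k F a) = -1 := by
    have e : g / algebraMap k F a =
        (Y / algebraMap k F ϖ) * algebraMap k F (ϖ / a) - 1 := by
      rw [hg, map_div₀]
      field_simp
    rw [e, Res.r_sub (mul_mem (Res.mem_of_r_ne_zero h.r₂) ((C i₂).algebraMap_mem _ hϖaO))
      (one_mem _), Res.r_mul (Res.mem_of_r_ne_zero h.r₂) ((C i₂).algebraMap_mem _ hϖaO),
      (C i₂).r_algebraMap_eq_zero hϖaO hϖar, mul_zero, Res.r_one, zero_sub]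
  have hg20 : (C i₂).r (g / algebraMap k F a) ≠ 0 := by
    rw [hg2]; exact neg_ne_zero.mpr one_ne_zero
  -- comparison of values
  obtain ⟨m, n, hm, hmn⟩ := hBc a ϖ ha0 h.ϖ_ne hPYO h.ϖ_mem har h.ϖ_r
  have hx1 : (C i₁).r (g ^ m / Y ^ n) = (C i₁).r Y ^ m / (C i₁).r Y ^ n := by
    rw [Res.r_div (pow_mem (Res.mem_of_r_ne_zero hg10) m) (Res.r_pow_ne_zero h.r₁ n),
      Res.r_pow (Res.mem_of_r_ne_zero hg10), Res.r_pow (Res.mem_of_r_ne_zero h.r₁), hg1]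
  have ex : g ^ m / Y ^ n = (g / algebraMap k F a) ^ m * ((Y / algebraMap k F ϖ) ^ n)⁻¹ *
      algebraMap k F (a ^ m / ϖ ^ n) := by
    rw [map_div₀, map_pow, map_pow, div_pow, div_pow]
    field_simp
  have hcr := (C i₂).r_algebraMap_ne_zero hmn
  have hx2 : (C i₂).r (g ^ m / Y ^ n) = (-1) ^ m * ((C i₂).r (Y / algebraMap k F ϖ) ^ n)⁻¹ *
      algebraMap κ (𝓕 i₂) (B.r (a ^ m / ϖ ^ n)) := by
    have h1 := Res.r_pow_ne_zero hg20 m
    have h2 := Res.r_pow_ne_zero h.r₂ n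
    rw [ex, Res.r_mul (mul_mem (Res.mem_of_r_ne_zero h1) (Res.inv_mem_of_r h2))
      (Res.mem_of_r_ne_zero hcr), Res.r_mul (Res.mem_of_r_ne_zero h1) (Res.inv_mem_of_r h2),
      Res.r_pow (Res.mem_of_r_ne_zero hg20), hg2, Res.r_inv h2,
      Res.r_pow (Res.mem_of_r_ne_zero h.r₂),
      (C i₂).r_algebraMap _ (Res.mem_of_r_ne_zero hmn)]
  have hx0 : g ^ m / Y ^ n ≠ 0 := div_ne_zero (pow_ne_zero _ hg0) (pow_ne_zero _ hY0)
  have hcnt := local_conserve' hB hC ht hS hM hx0 (fun i hi => by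
    rcases hbr i hi with rfl | rfl
    · rw [hx1]; exact div_ne_zero (pow_ne_zero _ h.r₁) (pow_ne_zero _ h.r₁)
    · rw [ex]
      exact Res.r_mul_ne_zero (Res.r_mul_ne_zero (Res.r_pow_ne_zero hg20 m)
        (Res.r_inv_ne_zero (Res.r_pow_ne_zero h.r₂ n))) hcr)
  rw [h.sum_eq ht hS, cnt_div _ (pow_ne_zero _ hg0) (pow_ne_zero _ hY0), cnt_pow, cnt_pow,
    cnt_eq_zero h.gen, mul_zero, sub_zero, hx1, hx2] at hcnt
  have ho1 : 𝔭₁.ord ((C i₁).r Y ^ m / (C i₁).r Y ^ n) = m - n := by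
    rw [div_eq_mul_inv, 𝔭₁.ord_mul (pow_ne_zero _ h.r₁) (inv_ne_zero (pow_ne_zero _ h.r₁)),
      𝔭₁.ord_inv, ord_pow, ord_pow, h.ord₁]
    ring
  have ho2 : 𝔭₂.ord ((-1) ^ m * ((C i₂).r (Y / algebraMap k F ϖ) ^ n)⁻¹ *
      algebraMap κ (𝓕 i₂) (B.r (a ^ m / ϖ ^ n))) = n := by
    have h1 : ((-1 : 𝓕 i₂)) ^ m = algebraMap κ (𝓕 i₂) ((-1) ^ m) := by
      rw [map_pow, map_neg, map_one]
    have h2 : ((C i₂).r (Y / algebraMap k F ϖ) ^ n)⁻¹ ≠ 0 := inv_ne_zero (pow_ne_zero _ h.r₂)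
    have h3 : algebraMap κ (𝓕 i₂) ((-1) ^ m) ≠ 0 := by
      rw [← h1]; exact pow_ne_zero _ (neg_ne_zero.mpr one_ne_zero)
    have h4 : algebraMap κ (𝓕 i₂) (B.r (a ^ m / ϖ ^ n)) ≠ 0 := by
      rw [Ne, FaithfulSMul.algebraMap_eq_zero_iff]
      exact hmn
    rw [h1, 𝔭₂.ord_mul (mul_ne_zero h3 h2) h4, 𝔭₂.ord_mul h3 h2, 𝔭₂.ord_inv, ord_pow, h.ord₂,
      ord_algebraMap, ord_algebraMap]
    ring
  rw [ho1, ho2, sub_add_cancel] at hcnt
  have hcnt1 : cnt (gen t M) g = 1 := by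
    have : (m : ℤ) ≠ 0 := by exact_mod_cast hm.ne'
    exact mul_left_cancel₀ this (by rw [hcnt, mul_one])
  have hgloc : g ∈ loc t M hM.isMaximal.isPrime :=
    sub_mem hYloc (chart_le_loc _ (algebraMap_mem_chart t hPYO))
  have hnn : ∀ Q ∈ gen t M, 0 ≤ Q.ord g := fun Q hQ =>
    (mem_iff_ord Q hg0).mp (loc_mem_place hB hC ht _ hQ hgloc).1
  have hP1 : 1 ≤ P.ord g := by
    have := value_spec P hPY
    rw [val_lt_one_iff, ← ha, ← hg, or_iff_right hg0] at this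
    omega
  exact ⟨g, hg0, fun Q hQ => ord_eq_of_cnt_one hnn hcnt1.le hP hP1 Q hQ⟩

end Fermat.Agent.Models
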