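import Fermat.Agent.Models.Patch

/-!
# Bounded generation of the modules of functions with prescribed poles
-/

set_option autoImplicit false
set_option linter.unusedSectionVars false
set_option linter.style.haveILetI false

noncomputable section

namespace Fermat.Agent.Models

open AlgebraicCurve Fermat.Agent.Curves Polynomial WithZero

open Fermat.Agent.GoodRed (InL inL_iff genPos genNeg genAll mulE mulE_zpow_apply)

section Pure

variable {k F : Type*} [Field k] [Field F] [Algebra k F] [IsAlgClosed k] [IsFunctionField k F]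

/-- a polynomial in `t` with prescribed zeros -/
theorem exists_poly_zeros {t : F} (ht : Transcendental k t) (D : Divisor k F) :
    ∃ p : k[X], p ≠ 0 ∧ ∀ P : Place k F, t ∈ P.toValuationSubring → D P ≤ P.ord (aeval t p) := by
  classical
  have hne : ∀ Q : Place k F, t - algebraMap k F (value Q t) ≠ 0 := by
    intro Q h
    apply ht
    rw [sub_eq_zero] at h
    rw [h]
    exact isAlgebraic_algebraMap _
  refine ⟨∏ Q ∈ D.support, (X - C (value Q t)) ^ (D Q).natAbs,
    Finset.prod_ne_zero_iff.mpr fun Q _ => pow_ne_zero _ (X_sub_C_ne_zero _), fun P hP => ?_⟩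
  have e : aeval t (∏ Q ∈ D.support, (X - C (value Q t)) ^ (D Q).natAbs) =
      ∏ Q ∈ D.support, (t - algebraMap k F (value Q t)) ^ (D Q).natAbs := by
    rw [map_prod]
    refine Finset.prod_congr rfl fun Q _ => ?_
    rw [map_pow, map_sub, aeval_X, aeval_C]
  rw [e, ord_prod P _ _ fun Q _ => pow_ne_zero _ (hne Q)]
  have h1 : ∀ Q ∈ D.support, 0 ≤ P.ord ((t - algebraMap k F (value Q t)) ^ (D Q).natAbs) := by
    intro Q _
    rw [← mem_iff_ord P (pow_ne_zero _ (hne Q))]
    exact pow_mem (sub_mem hP (P.algebraMap_mem' _)) _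
  by_cases hPD : P ∈ D.support
  · refine le_trans ?_ (Finset.single_le_sum h1 hPD)
    rw [ord_pow]
    have h2 : 1 ≤ P.ord (t - algebraMap k F (value P t)) := by
      have := value_spec P hP
      rw [val_lt_one_iff, or_iff_right (hne P)] at this
      omega
    have h3 : ((D P).natAbs : ℤ) ≤ (D P).natAbs * P.ord (t - algebraMap k F (value P t)) :=
      le_mul_of_one_le_right (Int.natCast_nonneg _) h2
    omega
  · rw [Finsupp.notMem_support_iff.mp hPD]
    exact Finset.sum_nonneg h1

/-- Functions with prescribed poles form a free `k[t]`-module. -/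
theorem exists_free_basis [CharZero k] {t : F} (ht : Transcendental k t) (D : Divisor k F) :
    letI := ratAlgebra t ht
    ∃ (r : ℕ) (β : Fin r → F), (∀ j, InL t D (β j)) ∧ LinearIndependent (RatFunc k) β ∧
      ∀ x, InL t D x → ∃ P : Fin r → k[X], x = ∑ j, aeval t (P j) * β j := by
  letI := ratAlgebra t ht
  haveI := ratAlgebra_isScalarTower t ht
  haveI : FiniteDimensional (RatFunc k) F := finiteDimensional_of_isFunctionField (k := k)
  letI : Algebra k[X] F :=
    ((algebraMap (RatFunc k) F).comp (algebraMap k[X] (RatFunc k))).toAlgebra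
  haveI : IsScalarTower k[X] (RatFunc k) F := IsScalarTower.of_algebraMap_eq fun _ => rfl
  have haeval : ∀ P : k[X], algebraMap k[X] F P = aeval t P := fun P => ratAlgebra_algebraMap t ht P
  haveI : CharZero (RatFunc k) :=
    charZero_of_injective_algebraMap (algebraMap k (RatFunc k)).injective
  -- the module
  let N : Submodule k[X] F :=
    { carrier := {x | InL t D x}
      add_mem' := fun hx hy => hx.add hy
      zero_mem' := InL.zero t D
      smul_mem' := by
        intro P x hx
        have : aeval t P ∈ affineRing k t := by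
          intro w hw
          rw [aeval_eq_sum_range]
          refine sum_mem fun j _ => ?_
          rw [Algebra.smul_def]
          exact mul_mem (w.algebraMap_mem' _) (pow_mem hw _)
        have h1 := hx.mul_aff this
        show InL t D (P • x)
        rw [Algebra.smul_def, haeval]
        exact h1 }
  obtain ⟨g, hg0, hg⟩ := exists_poly_zeros ht D
  have hg0' : aeval t g ≠ 0 := fun h => ht ⟨g, hg0, h⟩
  -- integrality
  have hint : ∀ x ∈ affineRing k t, IsIntegral k[X] x := by
    intro x hx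
    rw [mem_affineRing_iff_isIntegral] at hx
    obtain ⟨f, hf, hfx⟩ := hx
    have hsurj : ∀ y : Algebra.adjoin k {t}, ∃ P : k[X], aeval t P = (y : F) := by
      rintro ⟨y, hy⟩
      rw [Algebra.adjoin_singleton_eq_range_aeval] at hy
      exact hy
    let φ : k[X] →+* Algebra.adjoin k {t} :=
      ((aeval t : k[X] →ₐ[k] F).codRestrict (Algebra.adjoin k {t}) fun P => by
        rw [Algebra.adjoin_singleton_eq_range_aeval]; exact ⟨P, rfl⟩).toRingHom
    have hφ : Function.Surjective φ := by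
      intro y
      obtain ⟨P, hP⟩ := hsurj y
      exact ⟨P, Subtype.ext hP⟩
    have hl : f ∈ Polynomial.lifts φ := by
      rw [Polynomial.lifts_iff_coeff_lifts]
      intro n
      exact hφ _
    obtain ⟨q, hq, -, hqm⟩ := Polynomial.lifts_and_degree_eq_and_monic hl hf
    refine ⟨q, hqm, ?_⟩
    have hcomp : (algebraMap (Algebra.adjoin k {t}) F).comp φ = algebraMap k[X] F := by
      refine RingHom.ext fun P => ?_
      rw [haeval]
      rfl
    rw [← hq, eval₂_map, hcomp] at hfx
    exact hfx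
  let j : N →ₗ[k[X]] integralClosure k[X] F :=
    { toFun := fun x => ⟨aeval t g * (x : F), hint _ fun w hw => by
        rcases eq_or_ne (x : F) 0 with h0 | h0
        · rw [h0, mul_zero]; exact zero_mem _
        · rw [mem_iff_ord w (mul_ne_zero hg0' h0), w.ord_mul hg0' h0]
          have h1 := (x.2 w hw).resolve_left h0
          have h2 := hg w hw
          omega⟩
      map_add' := fun x y => Subtype.ext (mul_add _ _ _)
      map_smul' := fun P x => Subtype.ext (by
        show aeval t g * (P • (x : F)) = P • (aeval t g * (x : F))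
        rw [mul_smul_comm]) }
  have hj : Function.Injective j := by
    intro x y hxy
    exact Subtype.ext (mul_left_cancel₀ hg0' (congrArg Subtype.val hxy))
  haveI : IsNoetherian k[X] (integralClosure k[X] F) :=
    IsIntegralClosure.isNoetherian k[X] (RatFunc k) F (integralClosure k[X] F)
  haveI : IsNoetherian k[X] N := isNoetherian_of_injective j hj
  haveI : Module.IsTorsionFree k[X] F := by
    exact Module.IsTorsionFree.trans_faithfulSMul k[X] (RatFunc k) F
  haveI : Module.Finite k[X] N := inferInstance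
  haveI : Module.Free k[X] N := Module.free_of_finite_type_torsion_free'
  let bs := Module.Free.chooseBasis k[X] N
  let e := Fintype.equivFin (Module.Free.ChooseBasisIndex k[X] N)
  let b := bs.reindex e
  refine ⟨_, fun j => (b j : F), fun j => (b j).2, ?_, fun x hx => ?_⟩
  · rw [← LinearIndependent.iff_fractionRing k[X] (RatFunc k)]
    exact b.linearIndependent.map' N.subtype (Submodule.ker_subtype N)
  · refine ⟨fun j => b.repr ⟨x, hx⟩ j, ?_⟩
    have h1 := congrArg (N.subtype) (b.sum_repr ⟨x, hx⟩)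
    rw [map_sum] at h1
    refine (show x = N.subtype ⟨x, hx⟩ from rfl).trans (h1.symm.trans ?_)
    refine Finset.sum_congr rfl fun j _ => ?_
    rw [map_smul, Algebra.smul_def, haeval]
    rfl

end Pure

section Basis

variable {k κ : Type*} [Field k] [Field κ] {B : Res k κ}
  {K 𝒦 : Type*} [Field K] [Field 𝒦] [Algebra k K] [Algebra κ 𝒦]
  {F : Type*} [Field F] [Algebra k F] [Algebra K F] [IsScalarTower k K F]
  {ι : Type*} {𝓕 : ι → Type*} [∀ i, Field (𝓕 i)]
  [∀ i, Algebra κ (𝓕 i)] [∀ i, Algebra 𝒦 (𝓕 i)] [∀ i, IsScalarTower κ 𝒦 (𝓕 i)]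
  {C₀ : Comp B K 𝒦} {C : ∀ i, Comp B F (𝓕 i)}

/-- existence of an orthonormal basis -/
theorem Over.exists_basis (hO : Over C₀ C) [Fintype ι] [DecidableEq ι] [Infinite κ]
    (hB : B.RankOne) (hC : Incomp C) [FiniteDimensional K F] [∀ i, FiniteDimensional 𝒦 (𝓕 i)]
    (hdeg : ∑ i, Module.finrank 𝒦 (𝓕 i) = Module.finrank K F) :
    ∃ 𝔟 : Module.Basis (Σ i, Fin (Module.finrank 𝒦 (𝓕 i))) K F, (∀ p i, 𝔟 p ∈ (C i).O) ∧
      ∀ f : (Σ i, Fin (Module.finrank 𝒦 (𝓕 i))) → K,
        (∀ i, ∑ p, f p • 𝔟 p ∈ (C i).O) → ∀ p, f p ∈ C₀.O := by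
  classical
  let J : ι → Type := fun i => Fin (Module.finrank 𝒦 (𝓕 i))
  let β : ∀ i, Module.Basis (J i) 𝒦 (𝓕 i) := fun i => Module.finBasis 𝒦 (𝓕 i)
  choose b hb hb1 hb0 using fun p : Σ i, J i => exists_res_single (C := C) hB hC p.1 (β p.1 p.2)
  have hbi : ∀ i, LinearIndependent 𝒦 fun j => (C i).r (b ⟨i, j⟩) := by
    intro i
    have : (fun j => (C i).r (b ⟨i, j⟩)) = β i := funext fun j => hb1 ⟨i, j⟩
    rw [this]
    exact (β i).linearIndependent
  have hli := hO.linearIndependent b hb hb0 hbi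
  have hcard : Fintype.card (Σ i, J i) = Module.finrank K F := by
    rw [← hdeg, Fintype.card_sigma]
    simp [J]
  have hne : Nonempty (Σ i, J i) := by
    rw [← Fintype.card_pos_iff, hcard]
    exact Module.finrank_pos
  let 𝔟 : Module.Basis (Σ i, J i) K F := basisOfLinearIndependentOfCardEqFinrank hli hcard
  have h𝔟 : ∀ p, 𝔟 p = b p := fun p => by
    simp only [𝔟, coe_basisOfLinearIndependentOfCardEqFinrank]
  refine ⟨𝔟, fun p i => by rw [h𝔟]; exact hb p i, fun f hf p => ?_⟩
  refine hO.coeff_mem b hb hb0 hbi f (fun i => ?_) p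
  have := hf i
  simp only [h𝔟] at this
  exact this

end Basis

section Bounded

variable {k κ : Type*} [Field k] [Field κ] {B : Res k κ} {F : Type*} [Field F] [Algebra k F]
  {ι : Type*} {𝓕 : ι → Type*} [∀ i, Field (𝓕 i)] [∀ i, Algebra κ (𝓕 i)]
  {C : ∀ i, Comp B F (𝓕 i)}

/-- a polynomial in the Gauss valuation ring has integral coefficients -/
theorem exists_integral_of_gauss {P : k[X]} (hP : algebraMap k[X] (RatFunc k) P ∈ (gauss B).O) :
    ∃ P' : (B.O)[X], P'.map B.O.subtype = P := by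
  rcases eq_or_ne P 0 with rfl | hP0
  · exact ⟨0, by simp⟩
  obtain ⟨c, hc, P', hP', hP0'⟩ := exists_primitive (B := B) hP0
  have h1 : (gauss B).r (toK B P') ≠ 0 := by
    have : (gauss B).r (toK B P') = toκ B P' := gauss_r_pol P'
    rw [this]
    exact (toκ_ne_zero_iff (B := B)).mpr hP0'
  have h2 : toK B P' = algebraMap k (RatFunc k) c * algebraMap k[X] (RatFunc k) P := by
    show algebraMap k[X] (RatFunc k) (P'.map B.O.subtype) = _
    rw [hP', map_mul]
    rfl
  have hcinv : c⁻¹ ∈ B.O := by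
    by_cases hcO : c ∈ B.O
    · by_cases hr : B.r c = 0
      · exfalso
        apply h1
        rw [h2, Res.r_mul ((gauss B).algebraMap_mem c hcO) hP, (gauss B).r_algebraMap_eq_zero hcO hr,
          zero_mul]
      · exact Res.inv_mem_of_r hr
    · exact Res.inv_mem_of_notMem hcO
  refine ⟨Polynomial.C (⟨c⁻¹, hcinv⟩ : B.O) * P', ?_⟩
  rw [Polynomial.map_mul, Polynomial.map_C, hP', ← mul_assoc, ← map_mul]
  show Polynomial.C (c⁻¹ * c) * P = P
  rw [inv_mul_cancel₀ hc, map_one, one_mul]

variable [IsAlgClosed k] [IsAlgClosed κ] [IsFunctionField k F] [∀ i, IsFunctionField κ (𝓕 i)]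

theorem over_gauss [Fintype ι] {t : F} (ht : IsGood C t) (htk : Transcendental k t) :
    letI := ratAlgebra t htk
    letI : ∀ i, Algebra (RatFunc κ) (𝓕 i) := fun i => ratAlgebra ((C i).r t) (ht.trans i)
    Over (gauss B) C := by
  letI := ratAlgebra t htk
  letI : ∀ i, Algebra (RatFunc κ) (𝓕 i) := fun i => ratAlgebra ((C i).r t) (ht.trans i)
  have hpolk : ∀ P : (B.O)[X], algebraMap (RatFunc k) F (toK B P) =
      aeval t (P.map B.O.subtype) := fun P => ratAlgebra_algebraMap t htk _
  have hpolκ : ∀ i, ∀ P : (B.O)[X], algebraMap (RatFunc κ) (𝓕 i) (toκ B P) =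
      aeval ((C i).r t) (P.map B.res) := fun i P =>
    ratAlgebra_algebraMap ((C i).r t) (ht.trans i) _
  have key : ∀ i, ∀ f ∈ (gauss B).O, algebraMap (RatFunc k) F f ∈ (C i).O ∧
      (C i).r (algebraMap (RatFunc k) F f) =
        algebraMap (RatFunc κ) (𝓕 i) ((gauss B).r f) := by
    intro i f hf
    obtain ⟨P, Q, hQ, rfl⟩ := exists_of_mem_gauss hf
    have hP1 := (C i).aeval_mem (ht.mem i) P
    have hQ1 := (C i).aeval_mem (ht.mem i) Q
    have hQ2 : (C i).r (aeval t (Q.map B.O.subtype)) ≠ 0 := by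
      rw [hQ1.2]
      intro h0
      exact (transcendental_iff.mp (ht.trans i) _).mt hQ h0
    have e : (gauss B).r (toK B P / toK B Q) = toκ B P / toκ B Q := gauss_r P Q hQ
    rw [e, map_div₀, map_div₀, hpolk, hpolk, hpolκ, hpolκ]
    refine ⟨?_, ?_⟩
    · rw [div_eq_mul_inv]
      exact mul_mem hP1.1 (Res.inv_mem_of_r hQ2)
    · rw [Res.r_div hP1.1 hQ2, hP1.2, hQ1.2]
  exact ⟨fun i f hf => (key i f hf).1, fun i f hf => (key i f hf).2⟩

/-- **Bounded generation.** -/
theorem exists_lattice [Fintype ι] [DecidableEq ι] [Nonempty ι] [CharZero k] (hB : B.RankOne)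
    (hC : Incomp C) {t : F} (ht : IsGood C t) (ht0 : t ≠ 0) (D : Divisor k F) :
    ∃ s : Finset F, (∀ y ∈ s, InL t D y ∧ ∀ i, y ∈ (C i).O) ∧ ∃ a : B.O, a ≠ 0 ∧
      ∀ x, InL t D x → (∀ i, x ∈ (C i).O) → a • x ∈ genPos B.O (mulE k t ht0) s := by
  classical
  have htk := ht.transcendental
  letI := ratAlgebra t htk
  haveI := ratAlgebra_isScalarTower t htk
  haveI : FiniteDimensional (RatFunc k) F := finiteDimensional_of_isFunctionField (k := k)
  letI : ∀ i, Algebra (RatFunc κ) (𝓕 i) := fun i => ratAlgebra ((C i).r t) (ht.trans i)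
  haveI : ∀ i, IsScalarTower κ (RatFunc κ) (𝓕 i) := fun i =>
    ratAlgebra_isScalarTower ((C i).r t) (ht.trans i)
  haveI : ∀ i, FiniteDimensional (RatFunc κ) (𝓕 i) := fun i =>
    finiteDimensional_of_isFunctionField (k := κ)
  haveI : Infinite κ := IsAlgClosed.instInfinite
  have hO : Over (gauss B) C := over_gauss ht htk
  have hdeg : ∑ i, Module.finrank (RatFunc κ) (𝓕 i) = Module.finrank (RatFunc k) F := by
    rw [ratAlgebra_finrank t htk, ← ht.deg]
    exact Finset.sum_congr rfl fun i _ => ratAlgebra_finrank ((C i).r t) (ht.trans i)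
  obtain ⟨𝔟, h𝔟, hcoeff⟩ := hO.exists_basis hB hC hdeg
  obtain ⟨r, β, hβ, hβi, hβs⟩ := exists_free_basis htk D
  -- scaling `β`
  have hsc : ∀ j, ∃ c : k, c ≠ 0 ∧ ∀ i, algebraMap k F c * β j ∈ (C i).O := by
    intro j
    have hj : β j ≠ 0 := hβi.ne_zero j
    choose c hc0 hc using fun i => (C i).exists_scale (β j) hj
    obtain ⟨i, -, hi⟩ := Finset.exists_min_image Finset.univ (fun i => B.O.valuation (c i))
      ⟨Classical.arbitrary ι, Finset.mem_univ _⟩
    refine ⟨c i, hc0 i, fun l => ?_⟩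
    have e : algebraMap k F (c i) * β j =
        algebraMap k F (c i / c l) * (algebraMap k F (c l) * β j) := by
      have : algebraMap k F (c l) ≠ 0 := by simpa using hc0 l
      rw [map_div₀]
      field_simp
    rw [e]
    refine mul_mem ((C l).algebraMap_mem _ ?_) (Res.mem_of_r_ne_zero (hc l))
    rw [← ValuationSubring.valuation_le_one_iff, map_div₀]
    exact div_le_one_of_le₀ (hi l (Finset.mem_univ _)) zero_le
  choose c hc0 hc using hsc
  -- expressing the orthonormal basis
  have hq : ∀ p, ∃ (Q : k[X]) (R : Fin r → k[X]), Q ≠ 0 ∧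
      aeval t Q * 𝔟 p = ∑ j, aeval t (R j) * β j := by
    intro p
    obtain ⟨Q₁, hQ₁, hQ₁'⟩ := exists_mul_mem_affineRing htk (𝔟 p)
    obtain ⟨Q₂, hQ₂, hQ₂'⟩ := exists_poly_zeros htk (-D)
    have hne : ∀ Q : k[X], Q ≠ 0 → aeval t Q ≠ 0 := fun Q hQ h => htk ⟨Q, hQ, h⟩
    have hin : InL t D (aeval t (Q₂ * Q₁) * 𝔟 p) := by
      intro w hw
      right
      rw [map_mul, mul_assoc, w.ord_mul (hne _ hQ₂) (mul_ne_zero (hne _ hQ₁) (𝔟.ne_zero p))]
      have h1 := (mem_iff_ord w (mul_ne_zero (hne _ hQ₁) (𝔟.ne_zero p))).mp (hQ₁' w hw)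
      have h2 := hQ₂' w hw
      rw [Finsupp.neg_apply] at h2
      omega
    obtain ⟨R, hR⟩ := hβs _ hin
    exact ⟨_, R, mul_ne_zero hQ₂ hQ₁, hR⟩
  choose Q R hQ hQR using hq
  -- the bound
  have hbd : ∀ f : RatFunc k, ∃ a : k, a ≠ 0 ∧ a ∈ B.O ∧
      algebraMap k (RatFunc k) a * f ∈ (gauss B).O := by
    intro f
    rcases eq_or_ne f 0 with rfl | hf
    · exact ⟨1, one_ne_zero, one_mem _, by rw [mul_zero]; exact zero_mem _⟩
    obtain ⟨a, ha0, ha⟩ := (gauss B).exists_scale f hf
    by_cases haO : a ∈ B.O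
    · exact ⟨a, ha0, haO, Res.mem_of_r_ne_zero ha⟩
    · refine ⟨1, one_ne_zero, one_mem _, ?_⟩
      have e : algebraMap k (RatFunc k) 1 * f =
          algebraMap k (RatFunc k) a⁻¹ * (algebraMap k (RatFunc k) a * f) := by
        have : algebraMap k (RatFunc k) a ≠ 0 := by simpa using ha0
        rw [map_inv₀, map_one]
        field_simp
      rw [e]
      exact mul_mem ((gauss B).algebraMap_mem _ (Res.inv_mem_of_notMem haO))
        (Res.mem_of_r_ne_zero ha)
  let f : (Σ i, Fin (Module.finrank (RatFunc κ) (𝓕 i))) → Fin r → RatFunc k := fun p j =>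
    algebraMap k[X] (RatFunc k) (R p j) / algebraMap k[X] (RatFunc k) (Q p)
  choose a ha0 haO ha using hbd
  have hbd2 : ∀ j, ∃ d : k, d ≠ 0 ∧ d ∈ B.O ∧ d * (c j)⁻¹ ∈ B.O := by
    intro j
    by_cases h : (c j)⁻¹ ∈ B.O
    · exact ⟨1, one_ne_zero, one_mem _, by rwa [one_mul]⟩
    · have h2 := Res.inv_mem_of_notMem h
      rw [inv_inv] at h2
      exact ⟨c j, hc0 j, h2, by rw [mul_inv_cancel₀ (hc0 j)]; exact one_mem _⟩
  choose d hd0 hdO hd using hbd2
  set A : k := (∏ p, ∏ j, a (f p j)) * ∏ j, d j with hA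
  have hA0 : A ≠ 0 := mul_ne_zero (Finset.prod_ne_zero_iff.mpr fun p _ =>
    Finset.prod_ne_zero_iff.mpr fun j _ => ha0 _) (Finset.prod_ne_zero_iff.mpr fun j _ => hd0 _)
  have hAO : A ∈ B.O := mul_mem (prod_mem fun p _ => prod_mem fun j _ => haO _)
    (prod_mem fun j _ => hdO _)
  refine ⟨Finset.univ.image fun j => algebraMap k F (c j) * β j, ?_, ⟨A, hAO⟩,
    fun h => hA0 (congrArg Subtype.val h), fun x hx hxO => ?_⟩
  · intro y hy
    obtain ⟨j, -, rfl⟩ := Finset.mem_image.mp hy
    refine ⟨?_, hc j⟩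
    rw [mul_comm]
    exact mul_comm (β j) (algebraMap k F (c j)) ▸
      (hβ j).mul_aff (Fermat.Agent.GoodRed.algebraMap_mem_affineRing t (c j))
  obtain ⟨P, hP⟩ := hβs x hx
  -- coordinates in the orthonormal basis
  have hg : ∀ p, 𝔟.repr x p ∈ (gauss B).O := by
    refine hcoeff (fun p => 𝔟.repr x p) fun i => ?_
    rw [𝔟.sum_repr x]
    exact hxO i
  have haev : ∀ S : k[X], aeval t S = algebraMap (RatFunc k) F (algebraMap k[X] (RatFunc k) S) :=
    fun S => (ratAlgebra_algebraMap t htk S).symm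
  have hQne : ∀ p, algebraMap k[X] (RatFunc k) (Q p) ≠ 0 := fun p h =>
    hQ p ((map_eq_zero_iff _ (RatFunc.algebraMap_injective k)).mp h)
  have h𝔟β : ∀ p, 𝔟 p = ∑ j, f p j • β j := by
    intro p
    have h1 := hQR p
    have h2 : algebraMap (RatFunc k) F (algebraMap k[X] (RatFunc k) (Q p)) ≠ 0 := by
      simpa using hQne p
    apply mul_left_cancel₀ h2
    rw [← haev, h1, Finset.mul_sum]
    refine Finset.sum_congr rfl fun j _ => ?_
    rw [Algebra.smul_def, ← mul_assoc, haev, haev, ← map_mul, mul_div_cancel₀ _ (hQne p)]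
  have hPj : ∀ j, algebraMap k[X] (RatFunc k) (P j) = ∑ p, 𝔟.repr x p * f p j := by
    have h1 : ∑ j, (algebraMap k[X] (RatFunc k) (P j) - ∑ p, 𝔟.repr x p * f p j) • β j = 0 := by
      simp only [sub_smul, Finset.sum_sub_distrib, Finset.sum_smul]
      rw [Finset.sum_comm, sub_eq_zero]
      have h2 : ∀ p, ∑ j, (𝔟.repr x p * f p j) • β j = 𝔟.repr x p • 𝔟 p := by
        intro p
        rw [h𝔟β p, Finset.smul_sum]
        exact Finset.sum_congr rfl fun j _ => mul_smul _ _ _
      rw [Finset.sum_congr rfl fun p _ => h2 p, 𝔟.sum_repr x, hP]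
      refine Finset.sum_congr rfl fun j _ => ?_
      rw [Algebra.smul_def, haev]
    intro j
    exact sub_eq_zero.mp (Fintype.linearIndependent_iff.mp hβi _ h1 j)
  have hAP : ∀ j, algebraMap k[X] (RatFunc k) (Polynomial.C (A * (c j)⁻¹) * P j) ∈ (gauss B).O := by
    intro j
    have e1 : algebraMap k[X] (RatFunc k) (Polynomial.C (A * (c j)⁻¹) * P j) =
        algebraMap k (RatFunc k) (((∏ l ∈ Finset.univ.erase j, d l)) * (d j * (c j)⁻¹)) *
          ∑ p, 𝔟.repr x p * (algebraMap k (RatFunc k) (∏ p, ∏ j, a (f p j)) * f p j) := by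
      rw [map_mul, hPj j, Finset.mul_sum, Finset.mul_sum]
      refine Finset.sum_congr rfl fun p _ => ?_
      have e2 : algebraMap k[X] (RatFunc k) (Polynomial.C (A * (c j)⁻¹)) =
          algebraMap k (RatFunc k) (A * (c j)⁻¹) := rfl
      have e3 : A = (∏ p, ∏ j, a (f p j)) * ((∏ l ∈ Finset.univ.erase j, d l) * d j) := by
        rw [hA, Finset.prod_erase_mul Finset.univ d (Finset.mem_univ j)]
      rw [e2, e3]
      simp only [map_mul]
      ring
    rw [e1]
    refine mul_mem ((gauss B).algebraMap_mem _ (mul_mem (prod_mem fun l _ => hdO l) (hd j)))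
      (sum_mem fun p _ => mul_mem (hg p) ?_)
    have e4 : ∏ p, ∏ j, a (f p j) = ((∏ q ∈ Finset.univ.erase p, ∏ j, a (f q j)) *
        ∏ l ∈ Finset.univ.erase j, a (f p l)) * a (f p j) := by
      rw [mul_assoc, Finset.prod_erase_mul Finset.univ (fun l => a (f p l)) (Finset.mem_univ j),
        Finset.prod_erase_mul Finset.univ (fun q => ∏ j, a (f q j)) (Finset.mem_univ p)]
    rw [e4, map_mul, mul_assoc]
    exact mul_mem ((gauss B).algebraMap_mem _ (mul_mem (prod_mem fun q _ => prod_mem fun j _ =>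
      haO _) (prod_mem fun l _ => haO _))) (ha _)
  -- conclusion
  have hfin : (⟨A, hAO⟩ : B.O) • x =
      ∑ j, aeval t (Polynomial.C (A * (c j)⁻¹) * P j) * (algebraMap k F (c j) * β j) := by
    rw [Algebra.smul_def]
    show algebraMap k F A * x = _
    rw [hP, Finset.mul_sum]
    refine Finset.sum_congr rfl fun j _ => ?_
    have h3 : aeval t (Polynomial.C (A * (c j)⁻¹) * P j) =
        algebraMap k F A * (algebraMap k F (c j))⁻¹ * aeval t (P j) := by
      rw [map_mul, aeval_C, map_mul, map_inv₀]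
    have : algebraMap k F (c j) ≠ 0 := by simpa using hc0 j
    rw [h3]
    field_simp
  rw [hfin]
  refine Submodule.sum_mem _ fun j _ => ?_
  obtain ⟨P', hP'⟩ := exists_integral_of_gauss (hAP j)
  rw [← hP', aeval_eq_sum_range, Finset.sum_mul]
  refine Submodule.sum_mem _ fun m _ => ?_
  have e5 : (P'.map B.O.subtype).coeff m • t ^ m * (algebraMap k F (c j) * β j) =
      (P'.coeff m) • ((mulE k t ht0 ^ (m : ℤ)) (algebraMap k F (c j) * β j)) := by
    rw [mulE_zpow_apply, zpow_natCast, Polynomial.coeff_map, Algebra.smul_def, Algebra.smul_def,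
      mul_assoc]
    rfl
  rw [e5]
  exact Submodule.smul_mem _ _ (Submodule.subset_span ⟨m, _, Finset.mem_image.mpr
    ⟨j, Finset.mem_univ j, rfl⟩, rfl⟩)

end Bounded

end Fermat.Agent.Models
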