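import Fermat.Agent.Models.Units

/-!
# Lifting functions on the branches at a point
-/

set_option autoImplicit false
set_option linter.unusedSectionVars false
set_option linter.style.haveILetI false

noncomputable section

namespace Fermat.Agent.Models

open AlgebraicCurve Fermat.Agent.Curves Polynomial

section One

variable {κ E : Type*} [Field κ] [Field E] [Algebra κ E] [IsAlgClosed κ] [IsFunctionField κ E]

/-- local denominators on an affine curve -/
theorem exists_denominator {τ : E} (hτ : Transcendental κ τ) {𝔭 : Place κ E}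
    (h𝔭 : τ ∈ 𝔭.toValuationSubring) {f : E} (hf : f ∈ 𝔭.toValuationSubring) :
    ∃ b ∈ affineRing κ τ, value 𝔭 b ≠ 0 ∧ b * f ∈ affineRing κ τ := by
  classical
  rcases eq_or_ne f 0 with rfl | hf0
  · exact ⟨1, one_mem _, by rw [value_one']; exact one_ne_zero, by rw [mul_zero]; exact zero_mem _⟩
  obtain ⟨b, hb⟩ := exists_ord_bound (K := κ) f
  have h𝔭0 : 0 ≤ 𝔭.ord f := (mem_iff_ord 𝔭 hf0).mp hf
  obtain ⟨x, hx, hx0, hx1, hx2⟩ := exists_separating hτ h𝔭
    ((divisorOf (k := κ) f).support.filter fun v => v.ord f < 0) (by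
      rw [Finset.mem_filter]
      rintro ⟨-, h⟩
      omega) b
  refine ⟨x, hx, ?_, fun v hv => ?_⟩
  · rw [value_ne_zero_iff hx0 (hx 𝔭 h𝔭)]
    exact hx1
  · by_cases hvf : v.ord f < 0
    · have h1 := hx2 v (Finset.mem_filter.mpr ⟨Finsupp.mem_support_iff.mpr
        (by rw [divisorOf_apply]; omega), hvf⟩) hv
      rw [mem_iff_ord v (mul_ne_zero hx0 hf0), v.ord_mul hx0 hf0]
      have := hb v
      omega
    · exact mul_mem (hx v hv) ((mem_iff_ord v hf0).mpr (not_lt.mp hvf))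

end One

variable {k κ : Type*} [Field k] [Field κ] {B : Res k κ} {F : Type*} [Field F] [Algebra k F]
  {ι : Type*} {𝓕 : ι → Type*} [∀ i, Field (𝓕 i)] [∀ i, Algebra κ (𝓕 i)]
  {C : ∀ i, Comp B F (𝓕 i)}
  [IsAlgClosed k] [IsAlgClosed κ] [IsFunctionField k F] [∀ i, IsFunctionField κ (𝓕 i)]
  [Fintype ι] [DecidableEq ι] [Nonempty ι]

theorem ne_zero_of_notMem_ideal {t : F} {M : Ideal (chart C t)} {s : chart C t} (hs : s ∉ M) :
    (s : F) ≠ 0 := by
  intro h
  apply hs
  have : s = 0 := Subtype.ext h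
  rw [this]
  exact M.zero_mem

/-- lifting a function regular at a branch -/
theorem exists_loc_lift {t : F} (ht : IsGood C t) (hS : Surj C t) {M : Ideal (chart C t)}
    (hM : M.IsPrime) {i : ι} {𝔭 : Place κ (𝓕 i)} (h𝔭 : 𝔭 ∈ spec t M i) {f : 𝓕 i}
    (hf : f ∈ 𝔭.toValuationSubring) : ∃ x ∈ loc t M hM, (C i).r x = f := by
  obtain ⟨b, hb, hb0, hbf⟩ := exists_denominator (ht.trans i) h𝔭.1 hf
  obtain ⟨β, hβ, hβb⟩ := hS i b hb
  obtain ⟨α, hα, hαf⟩ := hS i _ hbf
  have hβM : (⟨β, hβ⟩ : chart C t) ∉ M := by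
    rw [h𝔭.2]
    show value 𝔭 ((C i).r β) ≠ 0
    rwa [hβb]
  have hb1 : b ≠ 0 := by
    rintro rfl
    apply hb0
    have := value_algebraMap 𝔭 (0 : κ)
    rwa [map_zero] at this
  have hβr : (C i).r β ≠ 0 := by rwa [hβb]
  have hβ0 : β ≠ 0 := Res.ne_zero_of_r hβr
  refine ⟨β⁻¹ * α, mul_mem (inv_mem_loc hM hβM) (chart_le_loc hM hα), ?_⟩
  rw [Res.r_mul (Res.inv_mem_of_r hβr) (hα.2 i), Res.r_inv hβr, hαf, hβb]
  field_simp

/-- a polynomial in `t` clearing the denominators of a function -/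
theorem exists_clear_good {t : F} (ht : IsGood C t) (x : F) :
    ∃ q ∈ chart C t, (∀ i, (C i).r q ≠ 0) ∧
      ∀ P : Place k F, t ∈ P.toValuationSubring → q * x ∈ P.toValuationSubring := by
  obtain ⟨p, hp0, hp⟩ := exists_mul_mem_affineRing ht.transcendental x
  obtain ⟨c, hc, P, hP, hP0⟩ := exists_primitive (B := B) hp0
  have hr : ∀ i, (C i).r (aeval t (P.map B.O.subtype)) ≠ 0 := by
    intro i
    rw [((C i).aeval_mem (ht.mem i) P).2]
    intro h0
    exact (transcendental_iff.mp (ht.trans i) _).mt hP0 h0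
  refine ⟨aeval t (P.map B.O.subtype), ⟨fun v hv => ?_, fun i => ((C i).aeval_mem (ht.mem i) P).1⟩,
    hr, fun v hv => ?_⟩
  · rw [aeval_eq_sum_range]
    refine sum_mem fun j _ => ?_
    rw [Algebra.smul_def]
    exact mul_mem (v.algebraMap_mem' _) (pow_mem hv _)
  · rw [hP, map_mul, aeval_C, mul_assoc]
    exact mul_mem (v.algebraMap_mem' _) (hp v hv)

/-- functions vanishing on all components but one -/
theorem exists_chart_single (hB : B.RankOne) (hC : Incomp C) {t : F} (ht : IsGood C t) (i : ι) :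
    ∃ s ∈ chart C t, (C i).r s ≠ 0 ∧ ∀ j, j ≠ i → (C j).r s = 0 := by
  haveI : Infinite κ := IsAlgClosed.instInfinite
  obtain ⟨x, hx, hxi, hxj⟩ := exists_res_single (C := C) hB hC i 1
  obtain ⟨q, hq, hqr, hqx⟩ := exists_clear_good ht x
  refine ⟨q * x, ⟨hqx, fun j => mul_mem (hq.2 j) (hx j)⟩, ?_, fun j hj => ?_⟩
  · rw [Res.r_mul (hq.2 i) (hx i), hxi, mul_one]
    exact hqr i
  · rw [Res.r_mul (hq.2 j) (hx j), hxj j hj, mul_zero]

/-- (A) functions vanishing to high order at the branches lift simultaneously -/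
theorem exists_loc_lift_all (hB : B.RankOne) (hC : Incomp C) {t : F} (ht : IsGood C t)
    (hS : Surj C t) {M : Ideal (chart C t)} (hM : M.IsPrime) :
    ∃ N : ℕ, ∀ f : ∀ i, 𝓕 i, (∀ i, ∀ 𝔭 ∈ spec t M i, f i = 0 ∨ (N : ℤ) ≤ 𝔭.ord (f i)) →
      ∃ x ∈ loc t M hM, ∀ i, (spec t M i).Nonempty → (C i).r x = f i := by
  classical
  choose s hs hsi hsj using fun i => exists_chart_single hB hC ht i
  choose b hb using fun i => exists_ord_bound (K := κ) ((C i).r (s i))
  refine ⟨∑ i, b i, fun f hf => ?_⟩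
  have hle : ∀ i, b i ≤ ∑ j, b j := fun i =>
    Finset.single_le_sum (f := b) (fun _ _ => Nat.zero_le _) (Finset.mem_univ i)
  have h1 : ∀ i, ∃ y ∈ loc t M hM, (spec t M i).Nonempty →
      (C i).r y = f i / (C i).r (s i) := by
    intro i
    by_cases hi : (spec t M i).Nonempty
    · obtain ⟨𝔭, h𝔭⟩ := hi
      have hreg : f i / (C i).r (s i) ∈ 𝔭.toValuationSubring := by
        rcases hf i 𝔭 h𝔭 with h0 | h0
        · rw [h0, zero_div]; exact zero_mem _
        · rcases eq_or_ne (f i) 0 with h2 | h2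
          · rw [h2, zero_div]; exact zero_mem _
          rw [mem_iff_ord 𝔭 (div_ne_zero h2 (hsi i)), div_eq_mul_inv,
            𝔭.ord_mul h2 (inv_ne_zero (hsi i)), 𝔭.ord_inv]
          have := hb i 𝔭
          have := hle i
          omega
      obtain ⟨y, hy, hyf⟩ := exists_loc_lift ht hS hM h𝔭 hreg
      exact ⟨y, hy, fun _ => hyf⟩
    · exact ⟨0, zero_mem _, fun h => absurd h hi⟩
  choose y hy hyr using h1
  have hyO : ∀ i j, (spec t M j).Nonempty → y i ∈ (C j).O := by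
    rintro i j ⟨𝔭, h𝔭⟩
    exact (loc_mem_O hB hC ht hM h𝔭 (hy i)).1
  refine ⟨∑ i, s i * y i, sum_mem fun i _ => mul_mem (chart_le_loc hM (hs i)) (hy i),
    fun j hj => ?_⟩
  rw [Res.r_sum _ _ fun i _ => mul_mem ((hs i).2 j) (hyO i j hj), Finset.sum_eq_single j]
  · rw [Res.r_mul ((hs j).2 j) (hyO j j hj), hyr j hj, mul_div_cancel₀ _ (hsi j)]
  · intro i _ hij
    rw [Res.r_mul ((hs i).2 j) (hyO i j hj), hsj i j hij.symm, zero_mul]
  · intro h
    exact absurd (Finset.mem_univ _) h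

end Fermat.Agent.Models
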