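import Fermat.Agent.Models.Center

/-!
# Local conservation of number
-/

set_option autoImplicit false
set_option linter.unusedSectionVars false
set_option linter.style.haveILetI false

noncomputable section

namespace Fermat.Agent.Models

open AlgebraicCurve Fermat.Agent.Curves Polynomial

variable {k κ : Type*} [Field k] [Field κ] {B : Res k κ} {F : Type*} [Field F] [Algebra k F]
  {ι : Type*} {𝓕 : ι → Type*} [∀ i, Field (𝓕 i)] [∀ i, Algebra κ (𝓕 i)]
  {C : ∀ i, Comp B F (𝓕 i)}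
  [IsAlgClosed k] [IsAlgClosed κ] [IsFunctionField k F] [∀ i, IsFunctionField κ (𝓕 i)]
  [Fintype ι] [DecidableEq ι] [Nonempty ι]

/-- separation of finitely many points by a good coordinate -/
theorem exists_separating_good (hB : B.RankOne) (hC : Incomp C) {t : F} (ht : IsGood C t)
    (T₁ : Finset (Ideal (chart C t))) (hT₁ : ∀ N ∈ T₁, IsPoint t N) {M : Ideal (chart C t)}
    (hM : M ∈ T₁) :
    ∃ (y : F) (hy : y ∈ chart C t), (⟨y, hy⟩ : chart C t) ∈ M ∧
      (∀ N ∈ T₁, N ≠ M → (⟨y, hy⟩ : chart C t) ∉ N) ∧ IsGood C y ∧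
      (∀ P : Place k F, y ∈ P.toValuationSubring →
        t ∈ P.toValuationSubring ∧ (value P y ∈ B.O → value P t ∈ B.O)) ∧
      ∀ i, ∀ 𝔭 : Place κ (𝓕 i), (C i).r y ∈ 𝔭.toValuationSubring →
        (C i).r t ∈ 𝔭.toValuationSubring := by
  classical
  -- prime avoidance
  obtain ⟨s, hsM, hsN⟩ : ∃ s : chart C t, s ∈ M ∧ ∀ N ∈ T₁, N ≠ M → s ∉ N := by
    by_contra! h
    have h1 : (M : Set (chart C t)) ⊆ ⋃ N ∈ ((T₁.erase M : Finset (Ideal (chart C t))) :
        Set (Ideal (chart C t))), (id N : Ideal (chart C t)) := by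
      intro s hs
      obtain ⟨N, hN, hNM, hsN⟩ := h s hs
      simp only [Set.mem_iUnion]
      exact ⟨N, Finset.mem_coe.mpr (Finset.mem_erase.mpr ⟨hNM, hN⟩), hsN⟩
    have h2 := (Ideal.subset_union_prime (s := T₁.erase M) (f := id) M M (fun N hN _ _ =>
      (hT₁ N (Finset.mem_of_mem_erase hN)).isMaximal.isPrime)).mp h1
    obtain ⟨N, hN, hMN⟩ := h2
    have h3 := (hT₁ M hM).isMaximal.eq_of_le (hT₁ N (Finset.mem_of_mem_erase hN)).isMaximal.ne_top hMN
    exact (Finset.ne_of_mem_erase hN) h3.symm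
  -- lifts of the values of `t`
  choose lift hlift1 hlift2 using B.r_surjective
  have hval : ∀ N ∈ T₁, ∃ c : κ, ∀ a : k, ∀ ha : a ∈ B.O, B.r a = c →
      (⟨t - algebraMap k F a, sub_mem (self_mem_chart ht.mem)
        (algebraMap_mem_chart t ha)⟩ : chart C t) ∈ N := by
    intro N hN
    obtain ⟨φ, hφ1, rfl⟩ := hT₁ N hN
    refine ⟨φ ⟨t, self_mem_chart ht.mem⟩, fun a ha h => ?_⟩
    have h3 : φ (⟨t - algebraMap k F a, sub_mem (self_mem_chart ht.mem)
        (algebraMap_mem_chart t ha)⟩ : chart C t) =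
        φ ⟨t, self_mem_chart ht.mem⟩ - φ ⟨algebraMap k F a, algebraMap_mem_chart t ha⟩ := by
      rw [← map_sub]; rfl
    rw [RingHom.mem_ker, h3, hφ1 a ha, h, sub_self]
  choose! cc hcc using hval
  let T : Finset k := T₁.image fun N => lift (cc N)
  have hTO : ∀ τ ∈ T, τ ∈ B.O := by
    intro τ hτ
    obtain ⟨N, -, rfl⟩ := Finset.mem_image.mp hτ
    exact hlift1 _
  have hTinj : Set.InjOn B.r (T : Set k) := by
    intro τ hτ τ' hτ' h
    obtain ⟨N, -, rfl⟩ := Finset.mem_image.mp (Finset.mem_coe.mp hτ)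
    obtain ⟨N', -, rfl⟩ := Finset.mem_image.mp (Finset.mem_coe.mp hτ')
    simp only [hlift2] at h
    simp only [h]
  have hTne : T.Nonempty := ⟨_, Finset.mem_image_of_mem _ hM⟩
  obtain ⟨J, hJ, hgood, hP, hp⟩ := ht.add_pow hB hC s.2 T hTO hTinj hTne
  have hprodmem : ∏ τ ∈ T, (t - algebraMap k F τ) ∈ chart C t :=
    prod_mem fun τ hτ => sub_mem (self_mem_chart ht.mem) (algebraMap_mem_chart t (hTO τ hτ))
  have hymem : (s : F) + (∏ τ ∈ T, (t - algebraMap k F τ)) ^ J ∈ chart C t :=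
    add_mem s.2 (pow_mem hprodmem _)
  -- the product lies in all the ideals
  have hprodN : ∀ N ∈ T₁, (⟨∏ τ ∈ T, (t - algebraMap k F τ), hprodmem⟩ : chart C t) ∈ N := by
    intro N hN
    set τ₀ := lift (cc N) with hτ₀
    have hτ₀T : τ₀ ∈ T := Finset.mem_image_of_mem _ hN
    have h1 : (⟨t - algebraMap k F τ₀, sub_mem (self_mem_chart ht.mem)
        (algebraMap_mem_chart t (hlift1 _))⟩ : chart C t) ∈ N := hcc N hN τ₀ (hlift1 _) (hlift2 _)
    have h2 : (⟨∏ τ ∈ T, (t - algebraMap k F τ), hprodmem⟩ : chart C t) =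
        ⟨∏ τ ∈ T.erase τ₀, (t - algebraMap k F τ), prod_mem fun τ hτ =>
          sub_mem (self_mem_chart ht.mem)
            (algebraMap_mem_chart t (hTO τ (Finset.mem_of_mem_erase hτ)))⟩ *
        ⟨t - algebraMap k F τ₀, sub_mem (self_mem_chart ht.mem)
          (algebraMap_mem_chart t (hlift1 _))⟩ := by
      apply Subtype.ext
      show ∏ τ ∈ T, (t - algebraMap k F τ) = (∏ τ ∈ T.erase τ₀, (t - algebraMap k F τ)) *
        (t - algebraMap k F τ₀)
      exact (Finset.prod_erase_mul T _ hτ₀T).symm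
    rw [h2]
    exact N.mul_mem_left _ h1
  have hpowN : ∀ N ∈ T₁, (⟨(∏ τ ∈ T, (t - algebraMap k F τ)) ^ J, pow_mem hprodmem J⟩ :
      chart C t) ∈ N := fun N hN => N.pow_mem_of_mem (hprodN N hN) J hJ
  have hsplit : (⟨(s : F) + (∏ τ ∈ T, (t - algebraMap k F τ)) ^ J, hymem⟩ : chart C t) =
      s + ⟨(∏ τ ∈ T, (t - algebraMap k F τ)) ^ J, pow_mem hprodmem J⟩ := rfl
  refine ⟨_, hymem, ?_, ?_, hgood, hP, hp⟩
  · rw [hsplit]; exact M.add_mem hsM (hpowN M hM)
  · intro N hN hNM h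
    rw [hsplit] at h
    exact hsN N hN hNM ((N.add_mem_iff_left (hpowN N hN)).mp h)

/-- **Local conservation of number.** -/
theorem local_conserve (hB : B.RankOne) (hC : Incomp C) {t : F} (ht : IsGood C t)
    {M : Ideal (chart C t)} (hM : IsPoint t M) {x : F} (hx : ∀ i, (C i).r x ≠ 0) :
    cnt (gen t M) x = ∑ i, cnt (spec t M i) ((C i).r x) := by
  classical
  let cenP : Place k F → Ideal (chart C t) := fun P =>
    if h : t ∈ P.toValuationSubring ∧ value P t ∈ B.O then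
      RingHom.ker (evP hB hC ht P h.1 h.2) else M
  let cenb : ∀ i, Place κ (𝓕 i) → Ideal (chart C t) := fun i 𝔭 =>
    if h : (C i).r t ∈ 𝔭.toValuationSubring then RingHom.ker (evb hB hC ht i 𝔭 h) else M
  let T₁ : Finset (Ideal (chart C t)) := insert M (((divisorOf (k := k) x).support.image cenP) ∪
    Finset.univ.biUnion fun i => (divisorOf (k := κ) ((C i).r x)).support.image (cenb i))
  have hT₁ : ∀ N ∈ T₁, IsPoint t N := by
    intro N hN
    rw [Finset.mem_insert, Finset.mem_union, Finset.mem_image, Finset.mem_biUnion] at hN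
    rcases hN with rfl | ⟨P, -, rfl⟩ | ⟨i, -, hN⟩
    · exact hM
    · by_cases h : t ∈ P.toValuationSubring ∧ value P t ∈ B.O
      · simp only [cenP, dif_pos h]
        exact isPoint_evP hB hC ht P h.1 h.2
      · simp only [cenP, dif_neg h]
        exact hM
    · obtain ⟨𝔭, -, rfl⟩ := Finset.mem_image.mp hN
      by_cases h : (C i).r t ∈ 𝔭.toValuationSubring
      · simp only [cenb, dif_pos h]
        exact isPoint_evb hB hC ht i 𝔭 h
      · simp only [cenb, dif_neg h]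
        exact hM
  obtain ⟨y, hy, hyM, hyN, hgood, hP, hp⟩ := exists_separating_good hB hC ht T₁ hT₁
    (Finset.mem_insert_self M _)
  have hcons := conserve hB hC hgood 0 hx
  have e1 : cnt (gen t M) x = cnt (disc B y 0) x := by
    refine cnt_congr_set fun P hPx => ⟨fun h => ?_, fun h => ?_⟩
    · obtain ⟨h1, h2, h3⟩ := h
      exact ⟨hy.1 P h1, value_mem hB hC ht hy h1 h2, (h3 ⟨y, hy⟩).mp hyM⟩
    · obtain ⟨h1, h2, h3⟩ := h
      obtain ⟨h4, h5⟩ := hP P h1
      have h6 := h5 h2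
      rw [mem_gen_iff hB hC ht]
      refine ⟨h4, h6, ?_⟩
      by_contra hne
      have hmem : RingHom.ker (evP hB hC ht P h4 h6) ∈ T₁ := by
        refine Finset.mem_insert_of_mem (Finset.mem_union_left _ (Finset.mem_image.mpr
          ⟨P, Finsupp.mem_support_iff.mpr (by rw [divisorOf_apply]; exact hPx), ?_⟩))
        simp only [cenP, dif_pos (show t ∈ P.toValuationSubring ∧ value P t ∈ B.O from ⟨h4, h6⟩)]
      refine hyN _ hmem (Ne.symm hne) ?_
      rw [RingHom.mem_ker]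
      exact h3
  rw [e1, hcons]
  refine Finset.sum_congr rfl fun i _ => ?_
  refine cnt_congr_set fun 𝔭 h𝔭x => ⟨fun h => ?_, fun h => ?_⟩
  · obtain ⟨h1, h2⟩ := h
    have h4 := hp i 𝔭 h1
    rw [mem_spec_iff hB hC ht]
    refine ⟨h4, ?_⟩
    by_contra hne
    have hmem : RingHom.ker (evb hB hC ht i 𝔭 h4) ∈ T₁ := by
      refine Finset.mem_insert_of_mem (Finset.mem_union_right _ (Finset.mem_biUnion.mpr
        ⟨i, Finset.mem_univ i, Finset.mem_image.mpr
        ⟨𝔭, Finsupp.mem_support_iff.mpr (by rw [divisorOf_apply]; exact h𝔭x), ?_⟩⟩))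
      simp only [cenb, dif_pos h4]
    refine hyN _ hmem (Ne.symm hne) ?_
    rw [RingHom.mem_ker]
    exact h2
  · obtain ⟨h1, h3⟩ := h
    exact ⟨r_mem hB hC ht hy i h1, (h3 ⟨y, hy⟩).mp hyM⟩

end Fermat.Agent.Models
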