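import Fermat.Agent.Models.LP

/-!
# Existence of exact coordinates at nodes
-/

set_option autoImplicit false
set_option linter.unusedSectionVars false
set_option linter.style.haveILetI false

noncomputable section

namespace Fermat.Agent.Models

open AlgebraicCurve Fermat.Agent.Curves Polynomial

variable {k κ : Type*} [Field k] [Field κ] {B : Res k κ} {F : Type*} [Field F] [Algebra k F]
  {ι : Type*} {𝓕 : ι → Type*} [∀ i, Field (𝓕 i)] [∀ i, Algebra κ (𝓕 i)]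
  {C : ∀ i, Comp B F (𝓕 i)}
  [IsAlgClosed k] [IsAlgClosed κ] [IsFunctionField k F] [∀ i, IsFunctionField κ (𝓕 i)]
  [Fintype ι] [DecidableEq ι] [Nonempty ι]

/-- A unit near the double point `M` vanishing on the second component. -/
structure DUnit (C : ∀ i, Comp B F (𝓕 i)) (t : F) (M : Ideal (chart C t)) (i₁ i₂ : ι)
    (𝔭₁ : Place κ (𝓕 i₁)) (𝔭₂ : Place κ (𝓕 i₂)) (g : F) (ϖ : k) : Prop where
  ne : i₁ ≠ i₂
  spec₁ : 𝔭₁ ∈ spec t M i₁
  spec₂ : 𝔭₂ ∈ spec t M i₂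
  others : ∀ j, j ≠ i₁ → j ≠ i₂ → ¬ (spec t M j).Nonempty
  ϖ_ne : ϖ ≠ 0
  ϖ_mem : ϖ ∈ B.O
  ϖ_r : B.r ϖ = 0
  r₁ : (C i₁).r g ≠ 0
  r₂ : (C i₂).r (g / algebraMap k F ϖ) ≠ 0
  gen : ∀ P ∈ gen t M, P.ord g = 0

namespace DUnit

variable {t : F} {M : Ideal (chart C t)} {i₁ i₂ : ι}
  {𝔭₁ : Place κ (𝓕 i₁)} {𝔭₂ : Place κ (𝓕 i₂)} {g : F} {ϖ : k}

theorem sum_eq (h : DUnit C t M i₁ i₂ 𝔭₁ 𝔭₂ g ϖ)
    (ht : IsGood C t) (hS : Surj C t) (x : F) :
    ∑ i, cnt (Models.spec t M i) ((C i).r x) = 𝔭₁.ord ((C i₁).r x) + 𝔭₂.ord ((C i₂).r x) := by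
  rw [← Finset.sum_subset (Finset.subset_univ {i₁, i₂}) (fun j _ hj => cnt_empty (by
    rw [Finset.mem_insert, Finset.mem_singleton, not_or] at hj
    exact h.others j hj.1 hj.2) _), Finset.sum_pair h.ne,
    cnt_subsingleton (spec_subsingleton ht hS M i₁) h.spec₁,
    cnt_subsingleton (spec_subsingleton ht hS M i₂) h.spec₂]

theorem branch (h : DUnit C t M i₁ i₂ 𝔭₁ 𝔭₂ g ϖ) (i : ι) (hi : (Models.spec t M i).Nonempty) :
    i = i₁ ∨ i = i₂ := by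
  by_contra! hne
  exact h.others i hne.1 hne.2 hi

/-- small constants -/
theorem r_small {i : ι} {c : k} (hc : c ∈ B.O) (hc0 : B.r c = 0) {x : F} (hx : x ∈ (C i).O) :
    algebraMap k F c * x ∈ (C i).O ∧ (C i).r (algebraMap k F c * x) = 0 := by
  refine ⟨mul_mem ((C i).algebraMap_mem c hc) hx, ?_⟩
  rw [Res.r_mul ((C i).algebraMap_mem c hc) hx, (C i).r_algebraMap_eq_zero hc hc0, zero_mul]

theorem g_ne (h : DUnit C t M i₁ i₂ 𝔭₁ 𝔭₂ g ϖ) : g ≠ 0 := Res.ne_zero_of_r h.r₁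

theorem r₂_zero (h : DUnit C t M i₁ i₂ 𝔭₁ 𝔭₂ g ϖ) : g ∈ (C i₂).O ∧ (C i₂).r g = 0 := by
  have hϖF : algebraMap k F ϖ ≠ 0 := by simpa using h.ϖ_ne
  have e : g = algebraMap k F ϖ * (g / algebraMap k F ϖ) := by field_simp
  rw [e]
  exact r_small h.ϖ_mem h.ϖ_r (Res.mem_of_r_ne_zero h.r₂)

theorem value_zero {E : Type*} [Field E] [Algebra κ E] [IsFunctionField κ E] (𝔭 : Place κ E) :
    value 𝔭 (0 : E) = 0 := by
  have := value_algebraMap 𝔭 (0 : κ)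
  rwa [map_zero] at this

/-- a function regular near the point, with nonzero residues and unit at one branch is a unit at
the other one -/
theorem ord_zero_of (hB : B.RankOne) (hC : Incomp C) (ht : IsGood C t) (hS : Surj C t)
    {i j : ι} {𝔭 : Place κ (𝓕 i)} {𝔮 : Place κ (𝓕 j)} (h𝔭 : 𝔭 ∈ Models.spec t M i)
    (h𝔮 : 𝔮 ∈ Models.spec t M j) {x : F} (hx : ∀ P ∈ Models.gen t M, x ∈ P.toValuationSubring)
    (hxO : ∀ l, (Models.spec t M l).Nonempty → x ∈ (C l).O) (hi : (C i).r x ≠ 0)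
    (hi0 : 𝔭.ord ((C i).r x) = 0) :
    (C j).r x ≠ 0 ∧ 𝔮.ord ((C j).r x) = 0 := by
  have hM := isPoint_of_spec hB hC ht ⟨𝔭, h𝔭⟩
  have hloc := mem_loc_of hB hC ht hS hM hx hxO
  obtain ⟨h1, h2⟩ := loc_mem_O hB hC ht hM.isMaximal.isPrime h𝔭 hloc
  obtain ⟨h3, h4⟩ := loc_mem_O hB hC ht hM.isMaximal.isPrime h𝔮 hloc
  have h5 := loc_value_eq hB hC ht hM.isMaximal.isPrime h𝔭 h𝔮 hloc
  have h6 : value 𝔭 ((C i).r x) ≠ 0 := (value_ne_zero_iff hi h2).mpr hi0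
  rw [h5] at h6
  have h7 : (C j).r x ≠ 0 := by
    intro h; rw [h] at h6; exact h6 (value_zero 𝔮)
  exact ⟨h7, (value_ne_zero_iff h7 h4).mp h6⟩

/-- a function regular near the point and vanishing on one branch vanishes at the other branch -/
theorem one_le_ord_of (hB : B.RankOne) (hC : Incomp C) (ht : IsGood C t) (hS : Surj C t)
    {i j : ι} {𝔭 : Place κ (𝓕 i)} {𝔮 : Place κ (𝓕 j)} (h𝔭 : 𝔭 ∈ Models.spec t M i)
    (h𝔮 : 𝔮 ∈ Models.spec t M j) {x : F} (hx : ∀ P ∈ Models.gen t M, x ∈ P.toValuationSubring)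
    (hxO : ∀ l, (Models.spec t M l).Nonempty → x ∈ (C l).O) (hi : (C i).r x ≠ 0)
    (hj : (C j).r x = 0) : 1 ≤ 𝔭.ord ((C i).r x) := by
  have hM := isPoint_of_spec hB hC ht ⟨𝔭, h𝔭⟩
  have hloc := mem_loc_of hB hC ht hS hM hx hxO
  obtain ⟨h1, h2⟩ := loc_mem_O hB hC ht hM.isMaximal.isPrime h𝔭 hloc
  have h3 := (mem_iff_ord 𝔭 hi).mp h2
  by_contra h4
  have h5 : 𝔭.ord ((C i).r x) = 0 := by omega
  exact (ord_zero_of hB hC ht hS h𝔭 h𝔮 hx hxO hi h5).1 hj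

/-- the order on the first branch is positive -/
theorem one_le (hB : B.RankOne) (hC : Incomp C) (ht : IsGood C t) (hS : Surj C t)
    (h : DUnit C t M i₁ i₂ 𝔭₁ 𝔭₂ g ϖ) : 1 ≤ 𝔭₁.ord ((C i₁).r g) :=
  one_le_ord_of hB hC ht hS h.spec₁ h.spec₂
    (fun P hP => (mem_iff_ord P h.g_ne).mpr (h.gen P hP).ge)
    (fun i hi => by
      rcases h.branch i hi with rfl | rfl
      · exact Res.mem_of_r_ne_zero h.r₁
      · exact h.r₂_zero.1) h.r₁ h.r₂_zero.2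

/-- **Slope lemma.** -/
theorem slope (hB : B.RankOne) (hC : Incomp C) (ht : IsGood C t) (hS : Surj C t)
    (h : DUnit C t M i₁ i₂ 𝔭₁ 𝔭₂ g ϖ) :
    𝔭₂.ord ((C i₂).r (g / algebraMap k F ϖ)) = -𝔭₁.ord ((C i₁).r g) := by
  have hM := isPoint_of_spec hB hC ht ⟨𝔭₁, h.spec₁⟩
  have hg0 := h.g_ne
  have hϖF : algebraMap k F ϖ ≠ 0 := by simpa using h.ϖ_ne
  set a := 𝔭₁.ord ((C i₁).r g) with ha
  set b := 𝔭₂.ord ((C i₂).r (g / algebraMap k F ϖ)) with hb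
  -- a root of `ϖ`
  set m : ℕ := (a + b).natAbs + 2 with hm
  obtain ⟨c, hc⟩ := IsAlgClosed.exists_pow_nat_eq ϖ (show 0 < m by omega)
  have hc0 : c ≠ 0 := by
    rintro rfl
    rw [zero_pow (by omega)] at hc
    exact h.ϖ_ne hc.symm
  have hcO : c ∈ B.O := by
    by_contra hcO
    have h1 := Res.inv_mem_of_notMem hcO
    have h2 := Res.r_inv_of_notMem hcO
    have h3 : (c⁻¹) ^ m * ϖ = 1 := by rw [← hc, inv_pow]; exact inv_mul_cancel₀ (pow_ne_zero _ hc0)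
    have h4 : B.r ((c⁻¹) ^ m * ϖ) = 0 := by
      rw [Res.r_mul (pow_mem h1 m) h.ϖ_mem, h.ϖ_r, mul_zero]
    rw [h3, Res.r_one] at h4
    exact one_ne_zero h4
  have hcr : B.r c = 0 := by
    by_contra hne
    have := Res.r_pow_ne_zero hne m
    rw [hc] at this
    exact this h.ϖ_r
  have hcF : algebraMap k F c ≠ 0 := by simpa using hc0
  -- the function `g - c`
  set y := g - algebraMap k F c with hy
  have hy1 : (C i₁).r y = (C i₁).r g := by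
    rw [hy, Res.r_sub (Res.mem_of_r_ne_zero h.r₁) ((C i₁).algebraMap_mem _ hcO),
      (C i₁).r_algebraMap_eq_zero hcO hcr, sub_zero]
  have hy10 : (C i₁).r y ≠ 0 := by rw [hy1]; exact h.r₁
  have hy0 : y ≠ 0 := Res.ne_zero_of_r hy10
  have hm1 : m = (m - 1) + 1 := by omega
  have hcm1 : c ^ (m - 1) ∈ B.O ∧ B.r (c ^ (m - 1)) = 0 :=
    ⟨pow_mem hcO _, by rw [Res.r_pow hcO, hcr, zero_pow (by omega)]⟩
  have hy2 : (C i₂).r (y / algebraMap k F c) = -1 := by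
    have e : y / algebraMap k F c =
        algebraMap k F (c ^ (m - 1)) * (g / algebraMap k F ϖ) - 1 := by
      rw [hy, sub_div, div_self hcF]
      congr 1
      rw [div_eq_iff hcF, mul_right_comm, ← map_mul, ← pow_succ, ← hm1, hc]
      field_simp
    obtain ⟨h1, h2⟩ := r_small (C := C) (i := i₂) hcm1.1 hcm1.2 (Res.mem_of_r_ne_zero h.r₂)
    rw [e, Res.r_sub h1 (one_mem _), h2, Res.r_one, zero_sub]
  have hy20 : (C i₂).r (y / algebraMap k F c) ≠ 0 := by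
    rw [hy2]; exact neg_ne_zero.mpr one_ne_zero
  -- the test function
  set x := y ^ m / g with hx
  have hx1 : (C i₁).r x = (C i₁).r g ^ m / (C i₁).r g := by
    rw [hx, Res.r_div (pow_mem (Res.mem_of_r_ne_zero hy10) m) h.r₁,
      Res.r_pow (Res.mem_of_r_ne_zero hy10), hy1]
  have hx10 : (C i₁).r x ≠ 0 := by
    rw [hx1]; exact div_ne_zero (pow_ne_zero _ h.r₁) h.r₁
  have ex : x = (y / algebraMap k F c) ^ m / (g / algebraMap k F ϖ) := by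
    rw [hx, div_pow, ← map_pow, hc]
    field_simp
  have hx2 : (C i₂).r x = (-1) ^ m / (C i₂).r (g / algebraMap k F ϖ) := by
    rw [ex, Res.r_div (pow_mem (Res.mem_of_r_ne_zero hy20) m) h.r₂,
      Res.r_pow (Res.mem_of_r_ne_zero hy20), hy2]
  have h10 : ((-1 : 𝓕 i₂)) ^ m ≠ 0 := pow_ne_zero _ (neg_ne_zero.mpr one_ne_zero)
  have hx20 : (C i₂).r x ≠ 0 := by
    rw [hx2]; exact div_ne_zero h10 h.r₂
  have hx0 : x ≠ 0 := Res.ne_zero_of_r hx10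
  have hcnt := local_conserve' hB hC ht hS hM hx0 (fun i hi => by
    rcases h.branch i hi with rfl | rfl
    · exact hx10
    · exact hx20)
  rw [h.sum_eq ht hS, hx, cnt_div _ (pow_ne_zero _ hy0) hg0, cnt_pow, cnt_eq_zero h.gen,
    sub_zero, ← hx, hx1, hx2] at hcnt
  have o1 : 𝔭₁.ord ((C i₁).r g ^ m / (C i₁).r g) = m * a - a := by
    rw [div_eq_mul_inv, 𝔭₁.ord_mul (pow_ne_zero _ h.r₁) (inv_ne_zero h.r₁), 𝔭₁.ord_inv, ord_pow]
    ring
  have o2 : 𝔭₂.ord ((-1) ^ m / (C i₂).r (g / algebraMap k F ϖ)) = -b := by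
    have h1 : ((-1 : 𝓕 i₂)) ^ m = algebraMap κ (𝓕 i₂) ((-1) ^ m) := by
      rw [map_pow, map_neg, map_one]
    rw [div_eq_mul_inv, 𝔭₂.ord_mul h10 (inv_ne_zero h.r₂), 𝔭₂.ord_inv, h1, ord_algebraMap, ← hb]
    ring
  rw [o1, o2] at hcnt
  have hdvd : (m : ℤ) ∣ a + b := by
    refine ⟨a - cnt (Models.gen t M) y, ?_⟩
    linear_combination hcnt
  have habs : (a + b).natAbs < m := by omega
  have h0 : a + b = 0 := Int.eq_zero_of_abs_lt_dvd hdvd (by rw [Int.abs_eq_natAbs]; exact_mod_cast habs)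
  omega

end DUnit

/-- **Existence of an exact coordinate.** `E` is a set of functions whose values on the second
component are powers of the value of `q₀`, stable under improvements. -/
theorem exists_node_coord' (hB : B.RankOne) (hC : Incomp C) {t : F} (ht : IsGood C t)
    (hS : Surj C t) {M : Ideal (chart C t)} {i₁ i₂ : ι}
    {𝔭₁ : Place κ (𝓕 i₁)} {𝔭₂ : Place κ (𝓕 i₂)} {g : F} {ϖ : k}
    (hg : DUnit C t M i₁ i₂ 𝔭₁ 𝔭₂ g ϖ) (E : Set F) {q₀ : k} (hq₀ : q₀ ∈ B.O) (hq₀r : B.r q₀ = 0)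
    (hq₀0 : q₀ ≠ 0)
    (hval : ∀ Y ∈ E, Y ≠ 0 → ∃ n : ℤ, (C i₂).r (Y / algebraMap k F q₀ ^ n) ≠ 0)
    {m : ℕ} (hm : B.r (ϖ / q₀ ^ m) ≠ 0)
    (himp : ∀ Y ∈ E, ∀ n : ℕ, 0 < n → (C i₂).r (Y / algebraMap k F q₀ ^ n) ≠ 0 →
      0 ≤ 𝔭₂.ord ((C i₂).r (Y / algebraMap k F q₀ ^ n)) →
      ∃ Z : F, (∀ P ∈ gen t M, Z ∈ P.toValuationSubring) ∧ Z ∈ (C i₁).O ∧ Z ∈ (C i₂).O ∧
        (C i₂).r Z = (C i₂).r (Y / algebraMap k F q₀ ^ n) ∧ Y - algebraMap k F q₀ ^ n * Z ∈ E)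
    {Y₀ : F} (hY₀ : Y₀ ∈ E) (hY₀g : ∀ P ∈ gen t M, Y₀ ∈ P.toValuationSubring)
    (hY₀1 : (C i₁).r Y₀ ≠ 0) (hY₀o : 𝔭₁.ord ((C i₁).r Y₀) = 1)
    (hY₀2 : Y₀ ∈ (C i₂).O) (hY₀2' : (C i₂).r Y₀ = 0) :
    ∃ (Y : F) (n : ℕ), 0 < n ∧ (n : ℤ) * 𝔭₁.ord ((C i₁).r g) = m ∧
      IsNode C t M i₁ i₂ 𝔭₁ 𝔭₂ Y (q₀ ^ n) := by
  have hM := isPoint_of_spec hB hC ht ⟨𝔭₁, hg.spec₁⟩
  have hg0 := hg.g_ne
  have hϖF : algebraMap k F ϖ ≠ 0 := by simpa using hg.ϖ_ne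
  have hqF : algebraMap k F q₀ ≠ 0 := by simpa using hq₀0
  obtain ⟨e, he⟩ := Int.eq_ofNat_of_zero_le (zero_le_one.trans (hg.one_le hB hC ht hS))
  have he1 : 1 ≤ e := by
    have := hg.one_le hB hC ht hS
    rw [he] at this
    exact_mod_cast this
  have hslope := hg.slope hB hC ht hS
  rw [he] at hslope
  -- the quotient `ϖ / q₀ ^ m`
  have hϖm : ϖ = q₀ ^ m * (ϖ / q₀ ^ m) := by field_simp
  have hqpow : ∀ n : ℕ, 0 < n → q₀ ^ n ∈ B.O ∧ B.r (q₀ ^ n) = 0 := fun n hn =>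
    ⟨pow_mem hq₀ n, by rw [Res.r_pow hq₀, hq₀r, zero_pow hn.ne']⟩
  -- one step
  have step : ∀ (Y : F) (n : ℕ), 0 < n → Y ∈ E → (∀ P ∈ gen t M, Y ∈ P.toValuationSubring) →
      (C i₁).r Y ≠ 0 → 𝔭₁.ord ((C i₁).r Y) = 1 → (C i₂).r (Y / algebraMap k F q₀ ^ n) ≠ 0 →
      n * e ≤ m ∧ ((∃ (Y : F) (n : ℕ), 0 < n ∧ (n : ℤ) * 𝔭₁.ord ((C i₁).r g) = m ∧
        IsNode C t M i₁ i₂ 𝔭₁ 𝔭₂ Y (q₀ ^ n)) ∨
        ∃ (Y' : F) (n' : ℕ), n < n' ∧ Y' ∈ E ∧ (∀ P ∈ gen t M, Y' ∈ P.toValuationSubring) ∧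
          (C i₁).r Y' ≠ 0 ∧ 𝔭₁.ord ((C i₁).r Y') = 1 ∧
          (C i₂).r (Y' / algebraMap k F q₀ ^ n') ≠ 0) := by
    intro Y n hn hYE hYg hY1 hYo hY2
    have hY0 : Y ≠ 0 := Res.ne_zero_of_r hY1
    have hqn : algebraMap k F q₀ ^ n ≠ 0 := pow_ne_zero _ hqF
    -- `h = Y ^ e / g`
    have hh1 : (C i₁).r (Y ^ e / g) = (C i₁).r Y ^ e / (C i₁).r g := by
      rw [Res.r_div (pow_mem (Res.mem_of_r_ne_zero hY1) e) hg.r₁,
        Res.r_pow (Res.mem_of_r_ne_zero hY1)]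
    have hh10 : (C i₁).r (Y ^ e / g) ≠ 0 := by
      rw [hh1]; exact div_ne_zero (pow_ne_zero _ hY1) hg.r₁
    have hh1o : 𝔭₁.ord ((C i₁).r (Y ^ e / g)) = 0 := by
      rw [hh1, div_eq_mul_inv, 𝔭₁.ord_mul (pow_ne_zero _ hY1) (inv_ne_zero hg.r₁), 𝔭₁.ord_inv,
        ord_pow, hYo, he]
      ring
    have hhg : ∀ P ∈ gen t M, Y ^ e / g ∈ P.toValuationSubring := fun P hP => by
      rw [div_eq_mul_inv]
      exact mul_mem (pow_mem (hYg P hP) e) ((mem_iff_ord P (inv_ne_zero hg0)).mpr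
        (by rw [P.ord_inv, hg.gen P hP]; simp))
    -- `h' = (Y / q₀^n)^e / (g / ϖ)`
    set h' := (Y / algebraMap k F q₀ ^ n) ^ e / (g / algebraMap k F ϖ) with hh'
    have hh'2 : (C i₂).r h' = (C i₂).r (Y / algebraMap k F q₀ ^ n) ^ e /
        (C i₂).r (g / algebraMap k F ϖ) := by
      rw [hh', Res.r_div (pow_mem (Res.mem_of_r_ne_zero hY2) e) hg.r₂,
        Res.r_pow (Res.mem_of_r_ne_zero hY2)]
    have hh'20 : (C i₂).r h' ≠ 0 := by
      rw [hh'2]; exact div_ne_zero (pow_ne_zero _ hY2) hg.r₂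
    have hh'2o : 𝔭₂.ord ((C i₂).r h') =
        e * 𝔭₂.ord ((C i₂).r (Y / algebraMap k F q₀ ^ n)) + e := by
      rw [hh'2, div_eq_mul_inv, 𝔭₂.ord_mul (pow_ne_zero _ hY2) (inv_ne_zero hg.r₂), 𝔭₂.ord_inv,
        ord_pow, hslope]
      ring
    have hYeg0 : Y ^ e / g ≠ 0 := div_ne_zero (pow_ne_zero _ hY0) hg0
    have hgO : ∀ P ∈ gen t M, ∀ c : k, algebraMap k F c * (Y ^ e / g) ∈ P.toValuationSubring :=
      fun P hP c => mul_mem (P.algebraMap_mem' c) (hhg P hP)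
    rcases lt_trichotomy m (n * e) with hlt | heq | hgt
    · -- impossible
      exfalso
      have e1 : Y ^ e / g = algebraMap k F (q₀ ^ (n * e - m) * (ϖ / q₀ ^ m)⁻¹) * h' := by
        rw [hh', map_mul, map_inv₀, map_div₀, map_pow, map_pow, div_pow, ← pow_mul]
        have e2 : algebraMap k F q₀ ^ (n * e) =
            algebraMap k F q₀ ^ (n * e - m) * algebraMap k F q₀ ^ m := by
          rw [← pow_add]; congr 1; omega
        rw [e2]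
        field_simp
      obtain ⟨h1, h2⟩ := hqpow (n * e - m) (by omega)
      have h3 : q₀ ^ (n * e - m) * (ϖ / q₀ ^ m)⁻¹ ∈ B.O ∧
          B.r (q₀ ^ (n * e - m) * (ϖ / q₀ ^ m)⁻¹) = 0 := by
        refine ⟨mul_mem h1 (Res.inv_mem_of_r hm), ?_⟩
        rw [Res.r_mul h1 (Res.inv_mem_of_r hm), h2, zero_mul]
      obtain ⟨h4, h5⟩ := DUnit.r_small (C := C) (i := i₂) h3.1 h3.2 (Res.mem_of_r_ne_zero hh'20)
      rw [← e1] at h4 h5
      have h6 := DUnit.one_le_ord_of hB hC ht hS hg.spec₁ hg.spec₂ hhg (fun i hi => by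
        rcases hg.branch i hi with rfl | rfl
        · exact Res.mem_of_r_ne_zero hh10
        · exact h4) hh10 h5
      omega
    · -- exact coordinate
      refine ⟨heq.ge, Or.inl ⟨Y, n, hn, by rw [he, heq]; push_cast; ring, ?_⟩⟩
      have e1 : Y ^ e / g = algebraMap k F (ϖ / q₀ ^ m)⁻¹ * h' := by
        rw [hh', map_inv₀, map_div₀, map_pow, div_pow, ← pow_mul, ← heq]
        field_simp
      have h1 := (C i₂).r_algebraMap_ne_zero (Res.r_inv_ne_zero hm)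
      have h2 : (C i₂).r (Y ^ e / g) ≠ 0 := by
        rw [e1]; exact Res.r_mul_ne_zero h1 hh'20
      have hxO : ∀ l, (spec t M l).Nonempty → Y ^ e / g ∈ (C l).O := fun i hi => by
        rcases hg.branch i hi with rfl | rfl
        · exact Res.mem_of_r_ne_zero hh10
        · exact Res.mem_of_r_ne_zero h2
      obtain ⟨-, h3⟩ := DUnit.ord_zero_of hB hC ht hS hg.spec₁ hg.spec₂ hhg hxO hh10 hh1o
      have h4 : 𝔭₂.ord ((C i₂).r (Y ^ e / g)) =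
          e * 𝔭₂.ord ((C i₂).r (Y / algebraMap k F q₀ ^ n)) + e := by
        rw [e1, Res.r_mul (Res.mem_of_r_ne_zero h1) (Res.mem_of_r_ne_zero hh'20),
          𝔭₂.ord_mul h1 hh'20, hh'2o, (C i₂).r_algebraMap _ (Res.inv_mem_of_r hm),
          ord_algebraMap, zero_add]
      rw [h3] at h4
      have h5 : 𝔭₂.ord ((C i₂).r (Y / algebraMap k F q₀ ^ n)) = -1 := by
        have he0 : (e : ℤ) ≠ 0 := by exact_mod_cast (by omega : e ≠ 0)
        have : (e : ℤ) * (𝔭₂.ord ((C i₂).r (Y / algebraMap k F q₀ ^ n)) + 1) = 0 := by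
          rw [mul_add, mul_one]; exact h4.symm
        have := (mul_eq_zero.mp this).resolve_left he0
        omega
      have hcnt := local_conserve' hB hC ht hS hM hYeg0 (fun i hi => by
        rcases hg.branch i hi with rfl | rfl
        · exact hh10
        · exact h2)
      rw [hg.sum_eq ht hS, hh1o, h3, add_zero] at hcnt
      have h6 : ∀ P ∈ gen t M, P.ord (Y ^ e / g) = 0 := fun P hP => by
        have h7 := le_cnt (S := gen t M) (x := Y ^ e / g) (fun Q hQ =>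
          (mem_iff_ord Q hYeg0).mp (hhg Q hQ)) hP
        have h8 := (mem_iff_ord P hYeg0).mp (hhg P hP)
        omega
      exact {
        ne := hg.ne
        spec₁ := hg.spec₁
        spec₂ := hg.spec₂
        others := hg.others
        ϖ_ne := pow_ne_zero _ hq₀0
        ϖ_mem := (hqpow n hn).1
        ϖ_r := (hqpow n hn).2
        r₁ := hY1
        ord₁ := hYo
        r₂ := by rw [map_pow]; exact hY2
        ord₂ := by rw [map_pow]; exact h5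
        gen := fun P hP => by
          have h9 := h6 P hP
          rw [div_eq_mul_inv, P.ord_mul (pow_ne_zero _ hY0) (inv_ne_zero hg0), P.ord_inv,
            hg.gen P hP, ord_pow, neg_zero, add_zero] at h9
          exact (mul_eq_zero.mp h9).resolve_left (by exact_mod_cast (by omega : e ≠ 0)) }
    · -- improvement
      refine ⟨hgt.le, Or.inr ?_⟩
      have e1 : h' = algebraMap k F (q₀ ^ (m - n * e) * (ϖ / q₀ ^ m)) * (Y ^ e / g) := by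
        rw [hh', map_mul, map_div₀, map_pow, map_pow, div_pow, ← pow_mul]
        have e2 : algebraMap k F q₀ ^ m =
            algebraMap k F q₀ ^ (m - n * e) * algebraMap k F q₀ ^ (n * e) := by
          rw [← pow_add]; congr 1; omega
        rw [e2]
        field_simp
      obtain ⟨h1, h2⟩ := hqpow (m - n * e) (by omega)
      have h3 : q₀ ^ (m - n * e) * (ϖ / q₀ ^ m) ∈ B.O ∧
          B.r (q₀ ^ (m - n * e) * (ϖ / q₀ ^ m)) = 0 := by
        refine ⟨mul_mem h1 (Res.mem_of_r_ne_zero hm), ?_⟩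
        rw [Res.r_mul h1 (Res.mem_of_r_ne_zero hm), h2, zero_mul]
      obtain ⟨h4, h5⟩ := DUnit.r_small (C := C) (i := i₁) h3.1 h3.2 (Res.mem_of_r_ne_zero hh10)
      rw [← e1] at h4 h5
      have h6 := DUnit.one_le_ord_of hB hC ht hS hg.spec₂ hg.spec₁
        (fun P hP => by rw [e1]; exact hgO P hP _) (fun i hi => by
        rcases hg.branch i hi with rfl | rfl
        · exact h4
        · exact Res.mem_of_r_ne_zero hh'20) hh'20 h5
      rw [hh'2o] at h6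
      have h7 : 0 ≤ 𝔭₂.ord ((C i₂).r (Y / algebraMap k F q₀ ^ n)) := by
        by_contra hneg
        have h8 : 𝔭₂.ord ((C i₂).r (Y / algebraMap k F q₀ ^ n)) ≤ -1 := by omega
        have h9 : (e : ℤ) * 𝔭₂.ord ((C i₂).r (Y / algebraMap k F q₀ ^ n)) ≤ e * (-1) :=
          mul_le_mul_of_nonneg_left h8 (by positivity)
        omega
      obtain ⟨Z, hZg, hZ1, hZ2, hZr, hZE⟩ := himp Y hYE n hn hY2 h7
      have hsm : algebraMap k F q₀ ^ n * Z ∈ (C i₁).O ∧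
          (C i₁).r (algebraMap k F q₀ ^ n * Z) = 0 := by
        rw [← map_pow]
        exact DUnit.r_small (hqpow n hn).1 (hqpow n hn).2 hZ1
      set Y' := Y - algebraMap k F q₀ ^ n * Z with hY'
      have hY'1 : (C i₁).r Y' = (C i₁).r Y := by
        rw [hY', Res.r_sub (Res.mem_of_r_ne_zero hY1) hsm.1, hsm.2, sub_zero]
      have hY'10 : (C i₁).r Y' ≠ 0 := by rw [hY'1]; exact hY1
      have hY'0 : Y' ≠ 0 := Res.ne_zero_of_r hY'10
      have hY'2 : Y' / algebraMap k F q₀ ^ n ∈ (C i₂).O ∧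
          (C i₂).r (Y' / algebraMap k F q₀ ^ n) = 0 := by
        have e2 : Y' / algebraMap k F q₀ ^ n = Y / algebraMap k F q₀ ^ n - Z := by
          rw [hY']; field_simp
        rw [e2]
        exact ⟨sub_mem (Res.mem_of_r_ne_zero hY2) hZ2, by
          rw [Res.r_sub (Res.mem_of_r_ne_zero hY2) hZ2, hZr, sub_self]⟩
      obtain ⟨n', hn'⟩ := hval Y' hZE hY'0
      have hlt : (n : ℤ) < n' := by
        by_contra hle
        obtain ⟨l, hl⟩ := Int.eq_ofNat_of_zero_le (show 0 ≤ (n : ℤ) - n' by omega)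
        apply hn'
        have e3 : Y' / algebraMap k F q₀ ^ n' =
            algebraMap k F q₀ ^ l * (Y' / algebraMap k F q₀ ^ n) := by
          have e4 : algebraMap k F q₀ ^ n = algebraMap k F q₀ ^ l * algebraMap k F q₀ ^ n' := by
            rw [← zpow_natCast, ← zpow_natCast, ← zpow_add₀ hqF]
            congr 1
            omega
          rw [e4]
          field_simp
        rw [e3, ← map_pow, Res.r_mul ((C i₂).algebraMap_mem _ (pow_mem hq₀ l)) hY'2.1, hY'2.2,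
          mul_zero]
      obtain ⟨N', hN'⟩ := Int.eq_ofNat_of_zero_le (show 0 ≤ n' by omega)
      refine ⟨Y', N', by omega, hZE, fun P hP => ?_, hY'10, by rw [hY'1]; exact hYo, ?_⟩
      · rw [hY', ← map_pow]
        exact sub_mem (hYg P hP) (mul_mem (P.algebraMap_mem' _) (hZg P hP))
      · rw [hN', zpow_natCast] at hn'
        exact hn'
  -- iterate
  have iter : ∀ (d : ℕ) (Y : F) (n : ℕ), m < n + d → 0 < n → Y ∈ E →
      (∀ P ∈ gen t M, Y ∈ P.toValuationSubring) →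
      (C i₁).r Y ≠ 0 → 𝔭₁.ord ((C i₁).r Y) = 1 → (C i₂).r (Y / algebraMap k F q₀ ^ n) ≠ 0 →
      ∃ (Y : F) (n : ℕ), 0 < n ∧ (n : ℤ) * 𝔭₁.ord ((C i₁).r g) = m ∧
      IsNode C t M i₁ i₂ 𝔭₁ 𝔭₂ Y (q₀ ^ n) := by
    intro d
    induction d with
    | zero =>
      intro Y n hmn hn hYE hYg hY1 hYo hY2
      have h1 := (step Y n hn hYE hYg hY1 hYo hY2).1
      have h2 : n * 1 ≤ n * e := Nat.mul_le_mul_left n he1
      omega
    | succ d ih =>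
      intro Y n hmn hn hYE hYg hY1 hYo hY2
      rcases (step Y n hn hYE hYg hY1 hYo hY2).2 with h | ⟨Y', n', hn', h1, h2, h3, h4, h5⟩
      · exact h
      · exact ih Y' n' (by omega) (by omega) h1 h2 h3 h4 h5
  have hY₀0 : Y₀ ≠ 0 := Res.ne_zero_of_r hY₀1
  obtain ⟨n₀, hn₀⟩ := hval Y₀ hY₀ hY₀0
  have hpos : 0 < n₀ := by
    by_contra hle
    obtain ⟨l, hl⟩ := Int.eq_ofNat_of_zero_le (show 0 ≤ -n₀ by omega)
    apply hn₀
    have e3 : Y₀ / algebraMap k F q₀ ^ n₀ = algebraMap k F q₀ ^ l * Y₀ := by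
      have e4 : n₀ = -(l : ℤ) := by omega
      rw [e4, zpow_neg, zpow_natCast, div_inv_eq_mul, mul_comm]
    rw [e3, ← map_pow, Res.r_mul ((C i₂).algebraMap_mem _ (pow_mem hq₀ l)) hY₀2, hY₀2', mul_zero]
  obtain ⟨N₀, hN₀⟩ := Int.eq_ofNat_of_zero_le hpos.le
  rw [hN₀, zpow_natCast] at hn₀
  exact iter (m + 1) Y₀ N₀ (by omega) (by omega) hY₀ hY₀g hY₀1 hY₀o hn₀

theorem exists_node_coord (hB : B.RankOne) (hC : Incomp C) {t : F} (ht : IsGood C t)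
    (hS : Surj C t) {M : Ideal (chart C t)} {i₁ i₂ : ι}
    {𝔭₁ : Place κ (𝓕 i₁)} {𝔭₂ : Place κ (𝓕 i₂)} {g : F} {ϖ : k}
    (hg : DUnit C t M i₁ i₂ 𝔭₁ 𝔭₂ g ϖ) (E : Set F) {q₀ : k} (hq₀ : q₀ ∈ B.O) (hq₀r : B.r q₀ = 0)
    (hq₀0 : q₀ ≠ 0)
    (hval : ∀ Y ∈ E, Y ≠ 0 → ∃ n : ℤ, (C i₂).r (Y / algebraMap k F q₀ ^ n) ≠ 0)
    {m : ℕ} (hm : B.r (ϖ / q₀ ^ m) ≠ 0)
    (himp : ∀ Y ∈ E, ∀ n : ℕ, 0 < n → (C i₂).r (Y / algebraMap k F q₀ ^ n) ≠ 0 →
      0 ≤ 𝔭₂.ord ((C i₂).r (Y / algebraMap k F q₀ ^ n)) →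
      ∃ Z : F, (∀ P ∈ gen t M, Z ∈ P.toValuationSubring) ∧ Z ∈ (C i₁).O ∧ Z ∈ (C i₂).O ∧
        (C i₂).r Z = (C i₂).r (Y / algebraMap k F q₀ ^ n) ∧ Y - algebraMap k F q₀ ^ n * Z ∈ E)
    {Y₀ : F} (hY₀ : Y₀ ∈ E) (hY₀g : ∀ P ∈ gen t M, Y₀ ∈ P.toValuationSubring)
    (hY₀1 : (C i₁).r Y₀ ≠ 0) (hY₀o : 𝔭₁.ord ((C i₁).r Y₀) = 1)
    (hY₀2 : Y₀ ∈ (C i₂).O) (hY₀2' : (C i₂).r Y₀ = 0) :
    ∃ (Y : F) (ϖ' : k), IsNode C t M i₁ i₂ 𝔭₁ 𝔭₂ Y ϖ' := by
  obtain ⟨Y, n, -, -, h⟩ := exists_node_coord' hB hC ht hS hg E hq₀ hq₀r hq₀0 hval hm himp hY₀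
    hY₀g hY₀1 hY₀o hY₀2 hY₀2'
  exact ⟨Y, _, h⟩

end Fermat.Agent.Models
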