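import Fermat.Agent.Models.NodeModel
import Fermat.Agent.Models.FrobChain

/-!
# The square of Frobenius fixes the supersingular points
-/

set_option autoImplicit false
set_option linter.unusedSectionVars false
set_option linter.style.haveILetI false

noncomputable section

namespace Fermat.Agent.Models

open AlgebraicCurve Fermat.Agent.Curves Polynomial

variable {k κ : Type*} [Field k] [Field κ] {B : Res k κ} {F 𝓕 : Type*} [Field F] [Algebra k F]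
  [Field 𝓕] [Algebra κ 𝓕] {C : Bool → Comp B F 𝓕}
  [IsAlgClosed k] [IsAlgClosed κ] [IsFunctionField k F] [IsFunctionField κ 𝓕]

namespace CrossLift

variable {t : F} {q : ℕ} {a b : F} {j : 𝓕} {R : Subfield F} {φ : 𝓕 ≃+* 𝓕} {g u : F} {q₀ : k}

/-- two branches at a common point are exchanged by Frobenius -/
theorem branch_iff (h : Cross C t q a b j) (hl : CrossLift C t q j R φ g u q₀)
    {M : Ideal (chart C t)} {𝔭₁ 𝔭₂ : Place κ 𝓕} (h1 : 𝔭₁ ∈ spec t M true)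
    (h2 : 𝔭₂ ∈ spec t M false) {f : 𝓕} (hf : f ∈ affineRing κ j) :
    (value 𝔭₁ f = 0 ↔ value 𝔭₂ (φ.symm f) = 0) ∧ (value 𝔭₂ f = 0 ↔ value 𝔭₁ (φ.symm f) = 0) := by
  obtain ⟨x, y, -, -, hxC, hyC, hx1, hy2, hx2, hy1⟩ := hl.lift f hf
  have hq0 : q ≠ 0 := by have := h.two_le; omega
  have hf' := hl.φ_mem f hf
  have m1 : φ.symm f ∈ 𝔭₁.toValuationSubring := hf' 𝔭₁ (h.j_mem h1)
  have m2 : φ.symm f ∈ 𝔭₂.toValuationSubring := hf' 𝔭₂ (h.j_mem h2)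
  have a1 := h1.2 ⟨x, hxC⟩
  have a2 := h2.2 ⟨x, hxC⟩
  have b1 := h1.2 ⟨y, hyC⟩
  have b2 := h2.2 ⟨y, hyC⟩
  simp only at a1 a2 b1 b2
  rw [hx1] at a1
  rw [hx2, value_pow' 𝔭₂ m2, pow_eq_zero_iff hq0] at a2
  rw [hy1, value_pow' 𝔭₁ m1, pow_eq_zero_iff hq0] at b1
  rw [hy2] at b2
  exact ⟨a1.symm.trans a2, b2.symm.trans b1⟩

theorem fix_branch (h : Cross C t q a b j) (hl : CrossLift C t q j R φ g u q₀)
    {s' : Place κ 𝓕 ≃ Place κ 𝓕} {τ₀ : κ ≃+* κ}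
    (hc : ∀ c : κ, φ (φ (algebraMap κ 𝓕 c)) = algebraMap κ 𝓕 (τ₀ c))
    (hs' : ∀ (𝔭 : Place κ 𝓕) (x : 𝓕), (s' 𝔭).ord (φ (φ x)) = 𝔭.ord x) (hj : φ j = j)
    {M : Ideal (chart C t)} {𝔭₁ 𝔭₂ : Place κ 𝓕} (h1 : 𝔭₁ ∈ spec t M true)
    (h2 : 𝔭₂ ∈ spec t M false) : s' 𝔭₁ = 𝔭₁ ∧ s' 𝔭₂ = 𝔭₂ := by
  have hτ : Transcendental κ j := by
    intro hj
    have := h.good.trans true
    rw [h.r_t] at this
    exact this (hj.pow _)
  have hsemi : ∀ (𝔭 : Place κ 𝓕) (x : 𝓕), x ∈ 𝔭.toValuationSubring →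
      φ (φ x) ∈ (s' 𝔭).toValuationSubring ∧ value (s' 𝔭) (φ (φ x)) = τ₀ (value 𝔭 x) := by
    intro 𝔭 x hx
    exact value_semi (σ := φ.trans φ) (σ₀ := τ₀) (P := 𝔭) (P' := s' 𝔭) hc (hs' 𝔭) hx
  have key : ∀ 𝔭 : Place κ 𝓕, j ∈ 𝔭.toValuationSubring →
      (∀ f ∈ affineRing κ j, value 𝔭 f = 0 ↔ value 𝔭 (φ.symm (φ.symm f)) = 0) → s' 𝔭 = 𝔭 := by
    intro 𝔭 hj𝔭 hiff
    have hj' : j ∈ (s' 𝔭).toValuationSubring := by
      have := (hsemi 𝔭 j hj𝔭).1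
      rwa [hj, hj] at this
    refine eq_of_affineRing hτ hj' hj𝔭 fun x hx hx0 => ?_
    have hx' := hl.φ_mem _ (hl.φ_mem x hx)
    have e := hsemi 𝔭 (φ.symm (φ.symm x)) (hx' 𝔭 hj𝔭)
    rw [RingEquiv.apply_symm_apply, RingEquiv.apply_symm_apply] at e
    rw [← value_eq_zero_iff _ e.1, e.2, map_eq_zero, ← hiff x hx,
      value_eq_zero_iff _ (hx 𝔭 hj𝔭)]
    exact hx0
  constructor
  · refine key 𝔭₁ (h.j_mem h1) fun f hf => ?_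
    rw [(branch_iff h hl h1 h2 hf).1, (branch_iff h hl h1 h2 (hl.φ_mem f hf)).2]
  · refine key 𝔭₂ (h.j_mem h2) fun f hf => ?_
    rw [(branch_iff h hl h1 h2 hf).2, (branch_iff h hl h1 h2 (hl.φ_mem f hf)).1]

end CrossLift

end Fermat.Agent.Models
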