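import Fermat.Agent.Models.Family

/-!
# Orthonormal bases and the reduction of the norm
-/

set_option autoImplicit false
set_option linter.unusedSectionVars false

noncomputable section

namespace Fermat.Agent.Models

/-- determinant of a block diagonal matrix with blocks of varying size -/
theorem det_blockDiagonal_sigma {ι : Type*} [Fintype ι] [DecidableEq ι] {J : ι → Type*}
    [∀ i, Fintype (J i)] [∀ i, DecidableEq (J i)] {R : Type*} [CommRing R]
    (N : Matrix (Σ i, J i) (Σ i, J i) R)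
    (hN : ∀ p q : Σ i, J i, p.1 ≠ q.1 → N p q = 0) :
    N.det = ∏ i, (Matrix.of fun j j' => N ⟨i, j⟩ ⟨i, j'⟩).det := by
  classical
  let _ : LinearOrder ι := LinearOrder.lift' (Fintype.equivFin ι) (Fintype.equivFin ι).injective
  have h : N.BlockTriangular (Sigma.fst : (Σ i, J i) → ι) := fun p q hpq => hN p q (ne_of_gt hpq)
  have e1 := h.det_fintype
  have e2 : ∀ i, (N.toSquareBlock (Sigma.fst : (Σ i, J i) → ι) i).det =
      (Matrix.of fun j j' => N ⟨i, j⟩ ⟨i, j'⟩).det := by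
    intro i
    let e : J i ≃ {p : Σ i, J i // p.1 = i} :=
      { toFun := fun j => ⟨⟨i, j⟩, rfl⟩
        invFun := fun p => p.2 ▸ p.1.2
        left_inv := fun j => rfl
        right_inv := by rintro ⟨⟨i', j⟩, rfl⟩; rfl }
    rw [← Matrix.det_submatrix_equiv_self e]
    rfl
  rw [Finset.prod_congr rfl fun i _ => (e2 i).symm]
  convert e1 using 1

variable {k κ : Type*} [Field k] [Field κ] {B : Res k κ}
  {K 𝒦 : Type*} [Field K] [Field 𝒦] [Algebra k K] [Algebra κ 𝒦]
  {F : Type*} [Field F] [Algebra k F] [Algebra K F] [IsScalarTower k K F]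
  {ι : Type*} {𝓕 : ι → Type*} [∀ i, Field (𝓕 i)]
  [∀ i, Algebra κ (𝓕 i)] [∀ i, Algebra 𝒦 (𝓕 i)] [∀ i, IsScalarTower κ 𝒦 (𝓕 i)]

/-- The components `C i` of `F` lie over the component `C₀` of `K`. -/
structure Over (C₀ : Comp B K 𝒦) (C : ∀ i, Comp B F (𝓕 i)) : Prop where
  mem : ∀ i, ∀ f ∈ C₀.O, algebraMap K F f ∈ (C i).O
  r_eq : ∀ i, ∀ f ∈ C₀.O, (C i).r (algebraMap K F f) = algebraMap 𝒦 (𝓕 i) (C₀.r f)

variable {C₀ : Comp B K 𝒦} {C : ∀ i, Comp B F (𝓕 i)} (hO : Over C₀ C)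

include hO

/-- The key property of a family of elements reducing to bases of all components. -/
theorem Over.exists_scale_comb {J : ι → Type*} [Fintype ι] [∀ i, Fintype (J i)]
    (b : (Σ i, J i) → F) (hb : ∀ p i, b p ∈ (C i).O)
    (hb0 : ∀ p i, i ≠ p.1 → (C i).r (b p) = 0)
    (hbi : ∀ i, LinearIndependent 𝒦 fun j => (C i).r (b ⟨i, j⟩))
    (f : (Σ i, J i) → K) (hf : f ≠ 0) :
    ∃ c : k, (∀ p, algebraMap k K c * f p ∈ C₀.O) ∧
      ∃ i, (C i).r (algebraMap k F c * ∑ p, f p • b p) ≠ 0 := by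
  classical
  obtain ⟨p₁, hp₁⟩ : ∃ p, f p ≠ 0 := by
    by_contra! h
    exact hf (funext h)
  obtain ⟨p₀, -, hp₀⟩ := Finset.exists_max_image Finset.univ (fun p => C₀.O.valuation (f p))
    ⟨p₁, Finset.mem_univ _⟩
  have hf0 : f p₀ ≠ 0 := by
    intro h
    have := hp₀ p₁ (Finset.mem_univ _)
    rw [h, map_zero, le_zero_iff, map_eq_zero] at this
    exact hp₁ this
  obtain ⟨c, hc0, hc⟩ := C₀.exists_scale (f p₀) hf0
  have hdiv : ∀ p, f p / f p₀ ∈ C₀.O := by
    intro p
    rw [← ValuationSubring.valuation_le_one_iff, map_div₀]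
    exact div_le_one_of_le₀ (hp₀ p (Finset.mem_univ _)) zero_le
  have hcf : ∀ p, algebraMap k K c * f p ∈ C₀.O := by
    intro p
    have : algebraMap k K c * f p = (f p / f p₀) * (algebraMap k K c * f p₀) := by
      field_simp
    rw [this]
    exact mul_mem (hdiv p) (Res.mem_of_r_ne_zero hc)
  refine ⟨c, hcf, p₀.1, ?_⟩
  have e1 : algebraMap k F c * ∑ p, f p • b p =
      ∑ p, algebraMap K F (algebraMap k K c * f p) * b p := by
    rw [Finset.mul_sum]
    refine Finset.sum_congr rfl fun p _ => ?_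
    rw [map_mul, ← IsScalarTower.algebraMap_apply k K F, Algebra.smul_def, mul_assoc]
  rw [e1, Res.r_sum _ _ fun p _ => mul_mem (hO.mem _ _ (hcf p)) (hb p _)]
  have e2 : ∀ p, (C p₀.1).r (algebraMap K F (algebraMap k K c * f p) * b p) =
      C₀.r (algebraMap k K c * f p) • (C p₀.1).r (b p) := by
    intro p
    rw [Res.r_mul (hO.mem _ _ (hcf p)) (hb p _), hO.r_eq _ _ (hcf p), Algebra.smul_def]
  rw [Finset.sum_congr rfl fun p _ => e2 p, Fintype.sum_sigma,
    Finset.sum_eq_single p₀.1]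
  · intro h0
    have h1 := Fintype.linearIndependent_iff.mp (hbi p₀.1)
      (fun j => C₀.r (algebraMap k K c * f ⟨p₀.1, j⟩)) h0 p₀.2
    exact hc h1
  · intro i _ hi
    refine Finset.sum_eq_zero fun j _ => ?_
    rw [hb0 ⟨i, j⟩ p₀.1 (Ne.symm hi), smul_zero]
  · intro h
    exact absurd (Finset.mem_univ _) h

/-- Integral combinations have integral coefficients. -/
theorem Over.coeff_mem {J : ι → Type*} [Fintype ι] [∀ i, Fintype (J i)]
    (b : (Σ i, J i) → F) (hb : ∀ p i, b p ∈ (C i).O)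
    (hb0 : ∀ p i, i ≠ p.1 → (C i).r (b p) = 0)
    (hbi : ∀ i, LinearIndependent 𝒦 fun j => (C i).r (b ⟨i, j⟩))
    (f : (Σ i, J i) → K) (hf : ∀ i, ∑ p, f p • b p ∈ (C i).O) (p : Σ i, J i) :
    f p ∈ C₀.O := by
  rcases eq_or_ne f 0 with rfl | hf0
  · exact zero_mem _
  obtain ⟨c, hc1, i, hc2⟩ := hO.exists_scale_comb b hb hb0 hbi f hf0
  -- `c⁻¹` is integral
  have hc : c⁻¹ ∈ B.O := by
    by_cases hcO : c ∈ B.O
    · by_cases hr : B.r c = 0
      · exfalso
        apply hc2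
        rw [Res.r_mul ((C i).algebraMap_mem c hcO) (hf i), (C i).r_algebraMap_eq_zero hcO hr,
          zero_mul]
      · exact Res.inv_mem_of_r hr
    · exact Res.inv_mem_of_notMem hcO
  have hc0 : c ≠ 0 := by
    rintro rfl
    apply hc2
    simp
  have e : f p = algebraMap k K c⁻¹ * (algebraMap k K c * f p) := by
    have : algebraMap k K c ≠ 0 := by simpa using hc0
    rw [map_inv₀]
    field_simp
  rw [e]
  exact mul_mem (C₀.algebraMap_mem _ hc) (hc1 p)

theorem Over.linearIndependent {J : ι → Type*} [Fintype ι] [∀ i, Fintype (J i)]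
    (b : (Σ i, J i) → F) (hb : ∀ p i, b p ∈ (C i).O)
    (hb0 : ∀ p i, i ≠ p.1 → (C i).r (b p) = 0)
    (hbi : ∀ i, LinearIndependent 𝒦 fun j => (C i).r (b ⟨i, j⟩)) :
    LinearIndependent K b := by
  rw [Fintype.linearIndependent_iff]
  intro f hf
  by_contra! h
  have hf0 : f ≠ 0 := by
    rintro rfl
    obtain ⟨i, hi⟩ := h
    exact hi rfl
  obtain ⟨c, -, i, hc2⟩ := hO.exists_scale_comb b hb hb0 hbi f hf0
  rw [hf, mul_zero] at hc2
  exact hc2 Res.r_zero

/-- **Reduction of the norm.** -/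
theorem Over.norm [Fintype ι] [DecidableEq ι] [Infinite κ] (hB : B.RankOne) (hC : Incomp C)
    [FiniteDimensional K F] [∀ i, FiniteDimensional 𝒦 (𝓕 i)]
    (hdeg : ∑ i, Module.finrank 𝒦 (𝓕 i) = Module.finrank K F)
    (x : F) (hx : ∀ i, x ∈ (C i).O) :
    Algebra.norm K x ∈ C₀.O ∧ C₀.r (Algebra.norm K x) = ∏ i, Algebra.norm 𝒦 ((C i).r x) := by
  classical
  let J : ι → Type := fun i => Fin (Module.finrank 𝒦 (𝓕 i))
  let β : ∀ i, Module.Basis (J i) 𝒦 (𝓕 i) := fun i => Module.finBasis 𝒦 (𝓕 i)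
  choose b hb hb1 hb0 using fun p : Σ i, J i => exists_res_single (C := C) hB hC p.1 (β p.1 p.2)
  have hbi : ∀ i, LinearIndependent 𝒦 fun j => (C i).r (b ⟨i, j⟩) := by
    intro i
    have : (fun j => (C i).r (b ⟨i, j⟩)) = β i := funext fun j => hb1 ⟨i, j⟩
    rw [this]
    exact (β i).linearIndependent
  have hli := hO.linearIndependent b hb hb0 hbi
  have hcard : Fintype.card (Σ i, J i) = Module.finrank K F := by
    rw [← hdeg, Fintype.card_sigma]
    simp [J]
  have hne : Nonempty (Σ i, J i) := by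
    rw [← Fintype.card_pos_iff, hcard]
    exact Module.finrank_pos
  let 𝔟 : Module.Basis (Σ i, J i) K F := basisOfLinearIndependentOfCardEqFinrank hli hcard
  have h𝔟 : ∀ p, 𝔟 p = b p := fun p => by
    simp only [𝔟, coe_basisOfLinearIndependentOfCardEqFinrank]
  -- the matrix of multiplication by `x`
  set M := Algebra.leftMulMatrix 𝔟 x with hM
  have hcomb : ∀ q, ∑ p, M p q • b p = x * b q := by
    intro q
    have := 𝔟.sum_repr (x * b q)
    rw [← this]
    refine Finset.sum_congr rfl fun p _ => ?_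
    rw [hM, Algebra.leftMulMatrix_eq_repr_mul, h𝔟, h𝔟]
  have hMem : ∀ p q, M p q ∈ C₀.O := by
    intro p q
    exact hO.coeff_mem b hb hb0 hbi (fun p => M p q)
      (fun i => by rw [hcomb]; exact mul_mem (hx i) (hb q i)) p
  -- residues
  have hres : ∀ i q, ∑ j, C₀.r (M ⟨i, j⟩ q) • β i j = (C i).r x * (C i).r (b q) := by
    intro i q
    rw [← Res.r_mul (hx i) (hb q i), ← hcomb q,
      Res.r_sum _ _ fun p _ => by
        rw [Algebra.smul_def]; exact mul_mem (hO.mem _ _ (hMem p q)) (hb p i)]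
    have e2 : ∀ p, (C i).r (M p q • b p) = C₀.r (M p q) • (C i).r (b p) := by
      intro p
      rw [Algebra.smul_def, Res.r_mul (hO.mem _ _ (hMem p q)) (hb p _), hO.r_eq _ _ (hMem p q),
        Algebra.smul_def]
    rw [Finset.sum_congr rfl fun p _ => e2 p, Fintype.sum_sigma, Finset.sum_eq_single i]
    · refine Finset.sum_congr rfl fun j _ => ?_
      rw [hb1 ⟨i, j⟩]
    · intro i' _ hi'
      refine Finset.sum_eq_zero fun j _ => ?_
      rw [hb0 ⟨i', j⟩ i (Ne.symm hi'), smul_zero]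
    · intro h
      exact absurd (Finset.mem_univ _) h
  have hres0 : ∀ p q : Σ i, J i, p.1 ≠ q.1 → C₀.r (M p q) = 0 := by
    rintro ⟨i, j⟩ q hne
    have h1 := hres i q
    rw [hb0 q i hne, mul_zero] at h1
    exact Fintype.linearIndependent_iff.mp (β i).linearIndependent
      (fun j => C₀.r (M ⟨i, j⟩ q)) h1 j
  have hres1 : ∀ i j j', C₀.r (M ⟨i, j⟩ ⟨i, j'⟩) =
      Algebra.leftMulMatrix (β i) ((C i).r x) j j' := by
    intro i j j'
    have h1 := hres i ⟨i, j'⟩
    rw [hb1 ⟨i, j'⟩] at h1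
    rw [Algebra.leftMulMatrix_eq_repr_mul, ← h1]
    exact (congrFun ((β i).repr_sum_self fun j => C₀.r (M ⟨i, j⟩ ⟨i, j'⟩)) j).symm
  -- determinants
  let N : Matrix (Σ i, J i) (Σ i, J i) C₀.O := Matrix.of fun p q => ⟨M p q, hMem p q⟩
  have hMN : M = N.map C₀.O.subtype := by
    ext p q
    rfl
  have hdet : M.det = ((N.det : C₀.O) : K) := by
    rw [hMN]
    exact (RingHom.map_det C₀.O.subtype N).symm
  have hnorm : Algebra.norm K x = ((N.det : C₀.O) : K) := by
    rw [Algebra.norm_eq_matrix_det 𝔟, ← hM, hdet]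
  rw [hnorm]
  refine ⟨N.det.2, ?_⟩
  rw [Res.r_of_mem N.det.2]
  show C₀.res N.det = _
  rw [RingHom.map_det, det_blockDiagonal_sigma]
  · refine Finset.prod_congr rfl fun i _ => ?_
    rw [Algebra.norm_eq_matrix_det (β i)]
    congr 1
    ext j j'
    rw [← hres1]
    exact (Res.r_of_mem (hMem _ _)).symm
  · intro p q hpq
    have := hres0 p q hpq
    rw [Res.r_of_mem (hMem _ _)] at this
    exact this

end Fermat.Agent.Models
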