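import Fermat.Agent.Models.Root

/-!
# Patching local lifts of roots in a chart
-/

set_option autoImplicit false
set_option linter.unusedSectionVars false
set_option linter.style.haveILetI false

noncomputable section

namespace Fermat.Agent.Models

open AlgebraicCurve Fermat.Agent.Curves Polynomial WithZero

open Fermat.Agent.GoodRed (InL inL_iff)

variable {k κ : Type*} [Field k] [Field κ] {B : Res k κ} {F : Type*} [Field F] [Algebra k F]
  {ι : Type*} {𝓕 : ι → Type*} [∀ i, Field (𝓕 i)] [∀ i, Algebra κ (𝓕 i)]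
  {C : ∀ i, Comp B F (𝓕 i)}
  [IsAlgClosed k] [IsAlgClosed κ] [IsFunctionField k F] [∀ i, IsFunctionField κ (𝓕 i)]
  [Fintype ι] [DecidableEq ι] [Nonempty ι]

/-- Local compatibility data at a point: a local generator `h` of `D` with compatible values of
`r h / w` at the branches. -/
def LocData (C : ∀ i, Comp B F (𝓕 i)) (t : F) (D : Divisor k F) (w : ∀ i, 𝓕 i)
    (M : Ideal (chart C t)) : Prop :=
  ∃ h : F, h ≠ 0 ∧ (∀ i, (spec t M i).Nonempty → (C i).r h ≠ 0) ∧
    (∀ P ∈ gen t M, P.ord h = D P) ∧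
    ∃ γ : κ, ∀ i, ∀ 𝔭 ∈ spec t M i, (C i).r h / w i ∈ 𝔭.toValuationSubring ∧
      value 𝔭 ((C i).r h / w i) = γ

/-- the local lift -/
theorem exists_local_root (hB : B.RankOne) (hC : Incomp C) {t : F} (ht : IsGood C t)
    (hS : Surj C t) {M : Ideal (chart C t)} (hM : IsPoint t M) {n : ℕ} (hn : (n : κ) ≠ 0)
    {u : F} (hu : ∀ i, (C i).r u ≠ 0) (w : ∀ i, 𝓕 i) (hw : ∀ i, w i ^ n = (C i).r u)
    {D : Divisor k F} (hD : ∀ P : Place k F, P.ord u = n * D P) (hM' : LocData C t D w M) :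
    ∃ y : F, (∀ P ∈ gen t M, y = 0 ∨ 0 ≤ P.ord y + D P) ∧
      ∀ i, (spec t M i).Nonempty → y ∈ (C i).O ∧ (C i).r y = (w i)⁻¹ := by
  obtain ⟨h, h0, hr, hP, γ, hγ⟩ := hM'
  have hn0 : n ≠ 0 := by rintro rfl; simp at hn
  have hu0 : u ≠ 0 := Res.ne_zero_of_r (hu (Classical.arbitrary ι))
  have hw0 : ∀ i, w i ≠ 0 := fun i hi => hu i (by rw [← hw, hi, zero_pow hn0])
  have hc0 : u / h ^ n ≠ 0 := div_ne_zero hu0 (pow_ne_zero _ h0)
  have hcr : ∀ i, (spec t M i).Nonempty → (C i).r (u / h ^ n) = (C i).r u / (C i).r h ^ n := by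
    intro i hi
    rw [Res.r_div (Res.mem_of_r_ne_zero (hu i)) (Res.r_pow_ne_zero (hr i hi) n),
      Res.r_pow (Res.mem_of_r_ne_zero (hr i hi))]
  have hcr0 : ∀ i, (spec t M i).Nonempty → (C i).r (u / h ^ n) ≠ 0 := by
    intro i hi
    rw [hcr i hi]
    exact div_ne_zero (hu i) (pow_ne_zero _ (hr i hi))
  have hcloc := (unit_loc_of hB hC ht hS hM hc0 (fun P hPM => by
    rw [div_eq_mul_inv, P.ord_mul hu0 (inv_ne_zero (pow_ne_zero _ h0)), P.ord_inv, ord_pow, hD,
      hP P hPM]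
    ring) hcr0).1
  obtain ⟨b, hb, hbr⟩ := exists_root_loc hB hC ht hS hM.isMaximal.isPrime hn hcloc
    (fun i => (C i).r h / w i) hγ (fun i hi => by
      rw [hcr i hi, div_pow, hw i]
      have := hr i hi
      have := hu i
      field_simp)
  refine ⟨b / h, fun P hPM => ?_, fun i hi => ⟨?_, ?_⟩⟩
  · rcases eq_or_ne b 0 with hb0 | hb0
    · left; rw [hb0, zero_div]
    · right
      have h1 := (mem_iff_ord P hb0).mp (loc_mem_place hB hC ht _ hPM hb).1
      rw [div_eq_mul_inv, P.ord_mul hb0 (inv_ne_zero h0), P.ord_inv, hP P hPM]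
      omega
  · obtain ⟨𝔭, h𝔭⟩ := hi
    rw [div_eq_mul_inv]
    exact mul_mem (loc_mem_O hB hC ht _ h𝔭 hb).1 (Res.inv_mem_of_r (hr i ⟨𝔭, h𝔭⟩))
  · obtain ⟨𝔭, h𝔭⟩ := hi
    rw [Res.r_div (loc_mem_O hB hC ht _ h𝔭 hb).1 (hr i ⟨𝔭, h𝔭⟩), hbr i ⟨𝔭, h𝔭⟩]
    have := hr i ⟨𝔭, h𝔭⟩
    have := hw0 i
    field_simp

/-- clearing denominators of a local lift -/
theorem exists_mul_global (hB : B.RankOne) (hC : Incomp C) {t : F} (ht : IsGood C t)
    (hS : Surj C t) {M : Ideal (chart C t)} (hM : IsPoint t M) (D : Divisor k F) (v : ∀ i, 𝓕 i)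
    {y : F} (hy : ∀ P ∈ gen t M, y = 0 ∨ 0 ≤ P.ord y + D P)
    (hyr : ∀ i, (spec t M i).Nonempty → y ∈ (C i).O ∧ (C i).r y = v i) :
    ∃ s : chart C t, s ∉ M ∧ InL t D ((s : F) * y) ∧
      ∀ i, (s : F) * y ∈ (C i).O ∧ (C i).r ((s : F) * y) = (C i).r (s : F) * v i := by
  classical
  have hMp := hM.isMaximal.isPrime
  have hone : (1 : chart C t) ∉ M := fun h => hM.isMaximal.ne_top ((Ideal.eq_top_iff_one _).mpr h)
  obtain ⟨b, hb⟩ := exists_ord_bound (K := k) y
  obtain ⟨s, hs, hsP⟩ := exists_kill_places hB hC ht hM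
    (((divisorOf (k := k) y).support ∪ D.support).filter fun P =>
      t ∈ P.toValuationSubring ∧ P ∉ gen t M)
    (fun P hP => (Finset.mem_filter.mp hP).2) (b + D.support.sup fun P => (D P).natAbs)
  have hs0 := ne_zero_of_notMem_ideal hs
  have h2 : ∀ i, ∃ σ : chart C t, σ ∉ M ∧ (¬ (spec t M i).Nonempty →
      (C i).r (σ : F) = 0 ∧ (σ : F) * y ∈ (C i).O ∧ (C i).r ((σ : F) * y) = 0) := by
    intro i
    by_cases hi : (spec t M i).Nonempty
    · exact ⟨1, hone, fun h => absurd hi h⟩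
    · obtain ⟨σ, hσ, hσ0⟩ := exists_kill_comp hB hC ht hS hM hi
      obtain ⟨n, hn, hn0⟩ := (C i).exists_pow_mul hB (σ.2.2 i) hσ0 y
      refine ⟨σ ^ (n + 1), fun h => hσ (hMp.mem_of_pow_mem _ h), fun _ => ?_⟩
      rw [SubmonoidClass.coe_pow]
      have e : (σ : F) ^ (n + 1) * y = σ * (σ ^ n * y) := by ring
      refine ⟨?_, ?_, ?_⟩
      · rw [Res.r_pow (σ.2.2 i), hσ0, zero_pow (Nat.succ_ne_zero n)]
      · rw [e]; exact mul_mem (σ.2.2 i) hn
      · rw [e, Res.r_mul (σ.2.2 i) hn, hσ0, zero_mul]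
  choose σ hσ1 hσ2 using h2
  refine ⟨(∏ i, σ i) * s, fun h => ?_, fun P hP => ?_, fun i => ?_⟩
  · rcases hMp.mem_or_mem h with h | h
    · obtain ⟨i, -, hi⟩ := (hMp.prod_mem_iff).mp h
      exact hσ1 i hi
    · exact hs h
  · -- places
    have key : (s : F) * y = 0 ∨ 0 ≤ P.ord ((s : F) * y) + D P := by
      rcases eq_or_ne y 0 with hy0 | hy0
      · left; rw [hy0, mul_zero]
      right
      rw [P.ord_mul hs0 hy0]
      by_cases hPM : P ∈ gen t M
      · have h3 := (hy P hPM).resolve_left hy0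
        have h4 := (mem_iff_ord P hs0).mp (s.2.1 P hP)
        omega
      · by_cases hPS : P ∈ (divisorOf (k := k) y).support ∪ D.support
        · have h3 := hsP P (Finset.mem_filter.mpr ⟨hPS, hP, hPM⟩)
          have h4 := hb P
          have h5 : (D P).natAbs ≤ D.support.sup fun P => (D P).natAbs := by
            by_cases hPD : P ∈ D.support
            · exact Finset.le_sup (f := fun P => (D P).natAbs) hPD
            · rw [Finsupp.notMem_support_iff.mp hPD]; exact Nat.zero_le _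
          push_cast at h3
          omega
        · rw [Finset.mem_union, not_or, Finsupp.notMem_support_iff, Finsupp.notMem_support_iff,
            divisorOf_apply] at hPS
          have h4 := (mem_iff_ord P hs0).mp (s.2.1 P hP)
          omega
    have hπ : ((∏ i, σ i : chart C t) : F) ≠ 0 := ne_zero_of_notMem_ideal (M := M) fun h => by
      obtain ⟨i, -, hi⟩ := (hMp.prod_mem_iff).mp h
      exact hσ1 i hi
    have e : (((∏ i, σ i) * s : chart C t) : F) * y = ((∏ i, σ i : chart C t) : F) * ((s : F) * y) := by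
      push_cast; ring
    rw [e]
    rcases key with h3 | h3
    · left; rw [h3, mul_zero]
    · by_cases hsy : (s : F) * y = 0
      · left; rw [hsy, mul_zero]
      right
      rw [P.ord_mul hπ hsy]
      have h4 := (mem_iff_ord P hπ).mp ((∏ i, σ i : chart C t).2.1 P hP)
      omega
  · -- components
    by_cases hi : (spec t M i).Nonempty
    · obtain ⟨h3, h4⟩ := hyr i hi
      exact ⟨mul_mem (((∏ i, σ i) * s : chart C t).2.2 i) h3, by
        rw [Res.r_mul (((∏ i, σ i) * s : chart C t).2.2 i) h3, h4]⟩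
    · obtain ⟨h3, h4, h5⟩ := hσ2 i hi
      have hρ := ((∏ j ∈ Finset.univ.erase i, σ j) * s : chart C t).2.2 i
      have e0 : (((∏ i, σ i) * s : chart C t) : F) =
          ((∏ j ∈ Finset.univ.erase i, σ j) * s : chart C t) * (σ i : F) := by
        rw [← Finset.prod_erase_mul Finset.univ σ (Finset.mem_univ i)]
        push_cast
        ring
      have e : (((∏ i, σ i) * s : chart C t) : F) * y =
          ((∏ j ∈ Finset.univ.erase i, σ j) * s : chart C t) * ((σ i : F) * y) := by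
        rw [e0]; ring
      refine ⟨by rw [e]; exact mul_mem hρ h4, ?_⟩
      rw [e, e0, Res.r_mul hρ h4, Res.r_mul hρ ((σ i).2.2 i), h5, h3]
      ring

/-- **Patching.** Simultaneous lifting of the inverse roots in a chart. -/
theorem exists_lift_chart (hB : B.RankOne) (hC : Incomp C) {t : F} (ht : IsGood C t)
    (hS : Surj C t) {n : ℕ} (hn : (n : κ) ≠ 0)
    {u : F} (hu : ∀ i, (C i).r u ≠ 0) (w : ∀ i, 𝓕 i) (hw : ∀ i, w i ^ n = (C i).r u)
    {D : Divisor k F} (hD : ∀ P : Place k F, P.ord u = n * D P)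
    (hL : ∀ M : Ideal (chart C t), IsPoint t M → LocData C t D w M) :
    ∃ y : F, InL t D y ∧ ∀ i, y ∈ (C i).O ∧ (C i).r y = (w i)⁻¹ := by
  classical
  let J : Ideal (chart C t) :=
    { carrier := {s | ∃ y, InL t D y ∧ ∀ i, y ∈ (C i).O ∧ (C i).r y = (C i).r (s : F) * (w i)⁻¹}
      add_mem' := by
        rintro a b ⟨y, hy1, hy2⟩ ⟨z, hz1, hz2⟩
        refine ⟨y + z, hy1.add hz1, fun i => ⟨add_mem (hy2 i).1 (hz2 i).1, ?_⟩⟩
        rw [Res.r_add (hy2 i).1 (hz2 i).1, (hy2 i).2, (hz2 i).2,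
          show ((a + b : chart C t) : F) = a + b from rfl, Res.r_add (a.2.2 i) (b.2.2 i)]
        ring
      zero_mem' := ⟨0, InL.zero t D, fun i => ⟨zero_mem _, by simp⟩⟩
      smul_mem' := by
        rintro a b ⟨y, hy1, hy2⟩
        refine ⟨a * y, ?_, fun i => ⟨mul_mem (a.2.2 i) (hy2 i).1, ?_⟩⟩
        · rw [mul_comm]
          exact mul_comm (y : F) a ▸ hy1.mul_aff (r := (a : F)) a.2.1
        · rw [Res.r_mul (a.2.2 i) (hy2 i).1, (hy2 i).2, smul_eq_mul,
            show ((a * b : chart C t) : F) = a * b from rfl, Res.r_mul (a.2.2 i) (b.2.2 i)]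
          ring }
  have hJ : J = ⊤ := by
    by_contra hne
    obtain ⟨N, hN, hJN⟩ := Ideal.exists_le_maximal J hne
    obtain ⟨i, hi⟩ := exists_spec hB hC ht hS hN fun a ha ha0 => hJN ⟨0, InL.zero t D,
      fun i => ⟨zero_mem _, by
        rw [(C i).r_algebraMap_eq_zero ha ha0, Res.r_zero, zero_mul]⟩⟩
    have hNp := isPoint_of_spec hB hC ht hi
    obtain ⟨y, hy1, hy2⟩ := exists_local_root hB hC ht hS hNp hn hu w hw hD (hL N hNp)
    obtain ⟨s, hs, hs1, hs2⟩ := exists_mul_global hB hC ht hS hNp D (fun i => (w i)⁻¹) hy1 hy2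
    exact hs (hJN ⟨_, hs1, hs2⟩)
  have h1 : (1 : chart C t) ∈ J := by rw [hJ]; trivial
  obtain ⟨y, hy1, hy2⟩ := h1
  refine ⟨y, hy1, fun i => ⟨(hy2 i).1, ?_⟩⟩
  rw [(hy2 i).2, OneMemClass.coe_one, Res.r_one, one_mul]

end Fermat.Agent.Models
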