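import Fermat.Agent.Models.LocalConserve

/-!
# Points of the special fibre, local rings
-/

set_option autoImplicit false
set_option linter.unusedSectionVars false
set_option linter.style.haveILetI false

noncomputable section

namespace Fermat.Agent.Models

open AlgebraicCurve Fermat.Agent.Curves Polynomial

variable {k κ : Type*} [Field k] [Field κ] {B : Res k κ} {F : Type*} [Field F] [Algebra k F]
  {ι : Type*} {𝓕 : ι → Type*} [∀ i, Field (𝓕 i)] [∀ i, Algebra κ (𝓕 i)]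
  {C : ∀ i, Comp B F (𝓕 i)}
  [IsAlgClosed k] [IsAlgClosed κ] [IsFunctionField k F] [∀ i, IsFunctionField κ (𝓕 i)]
  [Fintype ι] [DecidableEq ι] [Nonempty ι]

/-- every regular function on a component lifts -/
def Surj (C : ∀ i, Comp B F (𝓕 i)) (t : F) : Prop :=
  ∀ i, ∀ y ∈ affineRing κ ((C i).r t), ∃ x ∈ chart C t, (C i).r x = y

/-- the residue map on the chart -/
def rHom (hB : B.RankOne) (hC : Incomp C) {t : F} (ht : IsGood C t) (i : ι) :
    chart C t →+* affineRing κ ((C i).r t) where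
  toFun x := ⟨(C i).r (x : F), fun _ h𝔭 => r_mem hB hC ht x.2 i h𝔭⟩
  map_one' := Subtype.ext Res.r_one
  map_mul' x y := Subtype.ext (Res.r_mul (x.2.2 i) (y.2.2 i))
  map_zero' := Subtype.ext Res.r_zero
  map_add' x y := Subtype.ext (Res.r_add (x.2.2 i) (y.2.2 i))

theorem rHom_surjective (hB : B.RankOne) (hC : Incomp C) {t : F} (ht : IsGood C t)
    (hS : Surj C t) (i : ι) : Function.Surjective (rHom hB hC ht i) := by
  rintro ⟨y, hy⟩
  obtain ⟨x, hx, h⟩ := hS i y hy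
  exact ⟨⟨x, hx⟩, Subtype.ext h⟩

/-- An ideal containing the kernel of a residue map comes from a place. -/
theorem exists_spec_of_ker_le (hB : B.RankOne) (hC : Incomp C) {t : F} (ht : IsGood C t)
    (hS : Surj C t) (i : ι) {N : Ideal (chart C t)} (hN : N.IsMaximal)
    (h : ∀ x : chart C t, (C i).r (x : F) = 0 → x ∈ N) : (spec t N i).Nonempty := by
  have hsurj := rHom_surjective hB hC ht hS i
  have hker : RingHom.ker (rHom hB hC ht i) ≤ N := by
    intro x hx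
    apply h
    exact congrArg Subtype.val (RingHom.mem_ker.mp hx)
  have hmax : (N.map (rHom hB hC ht i)).IsMaximal := by
    refine (Ideal.map_eq_top_or_isMaximal_of_surjective _ hsurj hN).resolve_left fun htop => ?_
    have h1 := Ideal.comap_map_of_surjective (rHom hB hC ht i) hsurj N
    rw [htop, Ideal.comap_top] at h1
    have h2 : Ideal.comap (rHom hB hC ht i) ⊥ ≤ N := hker
    rw [sup_eq_left.mpr h2] at h1
    exact hN.ne_top h1.symm
  obtain ⟨𝔭, ⟨h1, h2⟩, -⟩ := existsUnique_place_of_isMaximal (ht.trans i)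
    (N.map (rHom hB hC ht i)) (hM := hmax)
  refine ⟨𝔭, h1, fun x => ?_⟩
  have h3 : x ∈ N ↔ rHom hB hC ht i x ∈ N.map (rHom hB hC ht i) := by
    refine ⟨fun hx => Ideal.mem_map_of_mem _ hx, fun hx => ?_⟩
    rw [Ideal.mem_map_iff_of_surjective _ hsurj] at hx
    obtain ⟨y, hy, hyx⟩ := hx
    have h4 : x - y ∈ N := hker (by rw [RingHom.mem_ker, map_sub, hyx, sub_self])
    have := N.add_mem h4 hy
    rwa [sub_add_cancel] at this
  rw [h3, h2, value_eq_zero_iff 𝔭 (r_mem hB hC ht x.2 i h1)]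
  rfl

/-- Classification of the points of the special fibre. -/
theorem exists_spec (hB : B.RankOne) (hC : Incomp C) {t : F} (ht : IsGood C t)
    (hS : Surj C t) {N : Ideal (chart C t)} (hN : N.IsMaximal)
    (hsmall : ∀ a : k, ∀ ha : a ∈ B.O, B.r a = 0 →
      (⟨algebraMap k F a, algebraMap_mem_chart t ha⟩ : chart C t) ∈ N) :
    ∃ i, (spec t N i).Nonempty := by
  by_contra! hne
  have h1 : ∀ i, ∃ x : chart C t, (C i).r (x : F) = 0 ∧ x ∉ N := by
    intro i
    by_contra! h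
    have := exists_spec_of_ker_le hB hC ht hS i hN h
    rw [hne i] at this
    exact Set.not_nonempty_empty this
  choose x hx1 hx2 using h1
  have hprod : (∏ i, x i) ∉ N := by
    intro h
    obtain ⟨i, -, hi⟩ := (hN.isPrime.prod_mem_iff).mp h
    exact hx2 i hi
  apply hprod
  have hr0 : ∀ i, (C i).r ((∏ j, x j : chart C t) : F) = 0 := by
    intro i
    have : ((∏ j, x j : chart C t) : F) = ∏ j, (x j : F) := map_prod (chart C t).subtype _ _
    rw [this, Res.r_prod _ _ fun j _ => (x j).2.2 i]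
    exact Finset.prod_eq_zero (Finset.mem_univ i) (hx1 i)
  obtain ⟨a, ha, ha0, y, hy, hxy⟩ := exists_factor_chart (∏ j, x j : chart C t).2 hr0
  have e : (∏ j, x j : chart C t) =
      ⟨algebraMap k F a, algebraMap_mem_chart t ha⟩ * ⟨y, hy⟩ := Subtype.ext hxy
  rw [e]
  exact N.mul_mem_right _ (hsmall a ha ha0)

theorem isPoint_of_spec (hB : B.RankOne) (hC : Incomp C) {t : F} (ht : IsGood C t)
    {N : Ideal (chart C t)} {i : ι} (h : (spec t N i).Nonempty) : IsPoint t N := by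
  obtain ⟨𝔭, h𝔭⟩ := h
  obtain ⟨h1, rfl⟩ := (mem_spec_iff hB hC ht).mp h𝔭
  exact isPoint_evb hB hC ht i 𝔭 h1

theorem isPoint_of_gen (hB : B.RankOne) (hC : Incomp C) {t : F} (ht : IsGood C t)
    {N : Ideal (chart C t)} (h : (gen t N).Nonempty) : IsPoint t N := by
  obtain ⟨P, hP⟩ := h
  obtain ⟨h1, h2, rfl⟩ := (mem_gen_iff hB hC ht).mp hP
  exact isPoint_evP hB hC ht P h1 h2

/-- A component passes through a point in at most one branch. -/
theorem spec_subsingleton {t : F} (ht : IsGood C t)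
    (hS : Surj C t) (N : Ideal (chart C t)) (i : ι) : (spec t N i).Subsingleton := by
  rintro 𝔭 ⟨h1, h2⟩ 𝔮 ⟨h3, h4⟩
  refine eq_of_affineRing (ht.trans i) h1 h3 fun x hx hx0 => ?_
  obtain ⟨y, hy, rfl⟩ := hS i x hx
  have h5 := (value_eq_zero_iff 𝔮 (hx 𝔮 h3)).mpr hx0
  have h6 := (h2 ⟨y, hy⟩).mp ((h4 ⟨y, hy⟩).mpr h5)
  exact (value_eq_zero_iff 𝔭 (hx 𝔭 h1)).mp h6

/-- The local ring at a prime of the chart. -/
def loc (t : F) (M : Ideal (chart C t)) (hM : M.IsPrime) : Subring F where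
  carrier := {x | ∃ s : chart C t, s ∉ M ∧ (s : F) * x ∈ chart C t}
  mul_mem' := by
    rintro x y ⟨s, hs, hsx⟩ ⟨s', hs', hsy⟩
    refine ⟨s * s', fun h => (hM.mem_or_mem h).elim hs hs', ?_⟩
    have : ((s * s' : chart C t) : F) * (x * y) = ((s : F) * x) * ((s' : F) * y) := by
      push_cast; ring
    rw [this]
    exact mul_mem hsx hsy
  one_mem' := ⟨1, fun h => hM.ne_top ((Ideal.eq_top_iff_one _).mpr h), by simp⟩
  add_mem' := by
    rintro x y ⟨s, hs, hsx⟩ ⟨s', hs', hsy⟩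
    refine ⟨s * s', fun h => (hM.mem_or_mem h).elim hs hs', ?_⟩
    have : ((s * s' : chart C t) : F) * (x + y) = (s' : F) * ((s : F) * x) + s * ((s' : F) * y) := by
      push_cast; ring
    rw [this]
    exact add_mem (mul_mem s'.2 hsx) (mul_mem s.2 hsy)
  zero_mem' := ⟨1, fun h => hM.ne_top ((Ideal.eq_top_iff_one _).mpr h), by simp⟩
  neg_mem' := by
    rintro x ⟨s, hs, hsx⟩
    refine ⟨s, hs, ?_⟩
    rw [mul_neg]
    exact neg_mem hsx

theorem mem_loc {t : F} {M : Ideal (chart C t)} {hM : M.IsPrime} {x : F} :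
    x ∈ loc t M hM ↔ ∃ s : chart C t, s ∉ M ∧ (s : F) * x ∈ chart C t := Iff.rfl

theorem chart_le_loc {t : F} {M : Ideal (chart C t)} (hM : M.IsPrime) {x : F}
    (hx : x ∈ chart C t) : x ∈ loc t M hM :=
  ⟨1, fun h => hM.ne_top ((Ideal.eq_top_iff_one _).mpr h), by simpa using hx⟩

/-- Elements outside `M` become units in the local ring. -/
theorem inv_mem_loc {t : F} {M : Ideal (chart C t)} (hM : M.IsPrime) {s : chart C t}
    (hs : s ∉ M) : (s : F)⁻¹ ∈ loc t M hM := by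
  have hs0 : (s : F) ≠ 0 := by
    intro h
    apply hs
    have : s = 0 := Subtype.ext h
    rw [this]
    exact M.zero_mem
  exact ⟨s, hs, by rw [mul_inv_cancel₀ hs0]; exact one_mem _⟩

section LocVal

variable (hB : B.RankOne) (hC : Incomp C) {t : F} (ht : IsGood C t)
include hB hC ht

/-- elements of the local ring at a branch -/
theorem loc_mem_O {M : Ideal (chart C t)} (hM : M.IsPrime) {i : ι} {𝔭 : Place κ (𝓕 i)}
    (h𝔭 : 𝔭 ∈ spec t M i) {x : F} (hx : x ∈ loc t M hM) :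
    x ∈ (C i).O ∧ (C i).r x ∈ 𝔭.toValuationSubring := by
  obtain ⟨s, hs, hsx⟩ := hx
  have h1 : value 𝔭 ((C i).r (s : F)) ≠ 0 := fun h => hs ((h𝔭.2 s).mpr h)
  have hsm := r_mem hB hC ht s.2 i h𝔭.1
  obtain ⟨h2, -⟩ := value_inv' hsm h1
  have h3 : (C i).r (s : F) ≠ 0 := by
    intro h
    rw [h] at h1
    apply h1
    have := value_algebraMap 𝔭 (0 : κ)
    rwa [map_zero] at this
  have hs0 : (s : F) ≠ 0 := Res.ne_zero_of_r h3
  have e : x = (s : F)⁻¹ * ((s : F) * x) := by field_simp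
  have h4 : x ∈ (C i).O := by
    rw [e]; exact mul_mem (Res.inv_mem_of_r h3) (hsx.2 i)
  refine ⟨h4, ?_⟩
  rw [e, Res.r_mul (Res.inv_mem_of_r h3) (hsx.2 i), Res.r_inv h3]
  exact mul_mem h2 (r_mem hB hC ht hsx i h𝔭.1)

/-- the value of an element of the local ring does not depend on the branch -/
theorem loc_value_eq {M : Ideal (chart C t)} (hM : M.IsPrime) {i j : ι} {𝔭 : Place κ (𝓕 i)}
    (h𝔭 : 𝔭 ∈ spec t M i) {𝔮 : Place κ (𝓕 j)} (h𝔮 : 𝔮 ∈ spec t M j) {x : F}
    (hx : x ∈ loc t M hM) : value 𝔭 ((C i).r x) = value 𝔮 ((C j).r x) := by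
  have hpt := isPoint_of_spec hB hC ht ⟨𝔭, h𝔭⟩
  -- for elements of the chart
  have key : ∀ y : chart C t, value 𝔭 ((C i).r (y : F)) = value 𝔮 ((C j).r (y : F)) := by
    intro y
    obtain ⟨a, ha, hya⟩ := hpt.exists_const y
    have e1 : ((y - ⟨algebraMap k F a, algebraMap_mem_chart t ha⟩ : chart C t) : F) =
        y - algebraMap k F a := rfl
    have h1 := (h𝔭.2 _).mp hya
    have h2 := (h𝔮.2 _).mp hya
    rw [e1] at h1 h2
    rw [Res.r_sub (y.2.2 i) ((C i).algebraMap_mem a ha), (C i).r_algebraMap a ha,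
      value_sub' 𝔭 (r_mem hB hC ht y.2 i h𝔭.1) (𝔭.algebraMap_mem' _), value_algebraMap] at h1
    rw [Res.r_sub (y.2.2 j) ((C j).algebraMap_mem a ha), (C j).r_algebraMap a ha,
      value_sub' 𝔮 (r_mem hB hC ht y.2 j h𝔮.1) (𝔮.algebraMap_mem' _), value_algebraMap] at h2
    rw [sub_eq_zero.mp h1, sub_eq_zero.mp h2]
  obtain ⟨hx1, hx2⟩ := loc_mem_O hB hC ht hM h𝔭 hx
  obtain ⟨hx3, hx4⟩ := loc_mem_O hB hC ht hM h𝔮 hx
  obtain ⟨s, hs, hsx⟩ := hx
  have h1 : value 𝔭 ((C i).r (s : F)) ≠ 0 := fun h => hs ((h𝔭.2 s).mpr h)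
  have h3 := key ⟨(s : F) * x, hsx⟩
  rw [show ((⟨(s : F) * x, hsx⟩ : chart C t) : F) = (s : F) * x from rfl,
    Res.r_mul (s.2.2 i) hx1, Res.r_mul (s.2.2 j) hx3,
    value_mul 𝔭 (r_mem hB hC ht s.2 i h𝔭.1) hx2,
    value_mul 𝔮 (r_mem hB hC ht s.2 j h𝔮.1) hx4, ← key s] at h3
  exact mul_left_cancel₀ h1 h3

/-- elements of the local ring at a place of the generic fibre -/
theorem loc_mem_place {M : Ideal (chart C t)} (hM : M.IsPrime) {P : Place k F}
    (hP : P ∈ gen t M) {x : F} (hx : x ∈ loc t M hM) :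
    x ∈ P.toValuationSubring ∧ value P x ∈ B.O := by
  obtain ⟨s, hs, hsx⟩ := hx
  have h1 : B.r (value P (s : F)) ≠ 0 := fun h => hs ((hP.2.2 s).mpr h)
  have h1' : value P (s : F) ≠ 0 := Res.ne_zero_of_r h1
  obtain ⟨h2, h3⟩ := value_inv' (s.2.1 P hP.1) h1'
  have hs0 : (s : F) ≠ 0 := by
    intro h
    rw [h] at h1'
    apply h1'
    have := value_algebraMap P (0 : k)
    rwa [map_zero] at this
  have e : x = (s : F)⁻¹ * ((s : F) * x) := by field_simp
  rw [e]
  refine ⟨mul_mem h2 (hsx.1 P hP.1), ?_⟩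
  rw [value_mul P h2 (hsx.1 P hP.1), h3]
  exact mul_mem (Res.inv_mem_of_r h1) (value_mem hB hC ht hsx hP.1 hP.2.1)

/-- the value at a place agrees with the value at the branches modulo small elements -/
theorem loc_value_place {M : Ideal (chart C t)} (hM : M.IsPrime) {P : Place k F}
    (hP : P ∈ gen t M) {i : ι} {𝔭 : Place κ (𝓕 i)} (h𝔭 : 𝔭 ∈ spec t M i) {x : F}
    (hx : x ∈ loc t M hM) : B.r (value P x) = value 𝔭 ((C i).r x) := by
  have hpt := isPoint_of_spec hB hC ht ⟨𝔭, h𝔭⟩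
  have key : ∀ y : chart C t, B.r (value P (y : F)) = value 𝔭 ((C i).r (y : F)) := by
    intro y
    obtain ⟨a, ha, hya⟩ := hpt.exists_const y
    have e1 : ((y - ⟨algebraMap k F a, algebraMap_mem_chart t ha⟩ : chart C t) : F) =
        y - algebraMap k F a := rfl
    have h1 := (h𝔭.2 _).mp hya
    have h2 := (hP.2.2 _).mp hya
    rw [e1] at h1 h2
    rw [Res.r_sub (y.2.2 i) ((C i).algebraMap_mem a ha), (C i).r_algebraMap a ha,
      value_sub' 𝔭 (r_mem hB hC ht y.2 i h𝔭.1) (𝔭.algebraMap_mem' _), value_algebraMap] at h1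
    rw [value_sub' P (y.2.1 P hP.1) (P.algebraMap_mem' _), value_algebraMap,
      Res.r_sub (value_mem hB hC ht y.2 hP.1 hP.2.1) ha] at h2
    rw [sub_eq_zero.mp h1, sub_eq_zero.mp h2]
  obtain ⟨hx1, hx2⟩ := loc_mem_O hB hC ht hM h𝔭 hx
  obtain ⟨hx3, hx4⟩ := loc_mem_place hB hC ht hM hP hx
  obtain ⟨s, hs, hsx⟩ := hx
  have h1 : value 𝔭 ((C i).r (s : F)) ≠ 0 := fun h => hs ((h𝔭.2 s).mpr h)
  have h3 := key ⟨(s : F) * x, hsx⟩
  rw [show ((⟨(s : F) * x, hsx⟩ : chart C t) : F) = (s : F) * x from rfl,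
    Res.r_mul (s.2.2 i) hx1, value_mul 𝔭 (r_mem hB hC ht s.2 i h𝔭.1) hx2,
    value_mul P (s.2.1 P hP.1) hx3, Res.r_mul (value_mem hB hC ht s.2 hP.1 hP.2.1) hx4,
    key s] at h3
  exact mul_left_cancel₀ h1 h3

end LocVal

end Fermat.Agent.Models
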