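import Fermat.Agent.Models.Lift
import Fermat.Agent.GoodRed.KL

/-!
# Lifting roots at the points of the special fibre
-/

set_option autoImplicit false
set_option linter.unusedSectionVars false
set_option linter.style.haveILetI false

noncomputable section

namespace Fermat.Agent.Models

open AlgebraicCurve Fermat.Agent.Curves Polynomial WithZero

open Fermat.Agent.GoodRed (InL inL_iff)

theorem adic_le_exp_zero {K E : Type*} [Field K] [Field E] [Algebra K E] [IsAlgClosed K]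
    [IsFunctionField K E] (w : Place K E) {x : E} : x ∈ w.toValuationSubring ↔
      w.adicValuation x ≤ 1 := mem_iff_val w

theorem value_eq_zero_iff_exp {K E : Type*} [Field K] [Field E] [Algebra K E] [IsAlgClosed K]
    [IsFunctionField K E] (w : Place K E) {x : E} (hx : x ∈ w.toValuationSubring) :
    value w x = 0 ↔ w.adicValuation x ≤ exp (-(1 : ℤ)) := by
  rw [value_eq_zero_iff w hx]
  rcases eq_or_ne x 0 with rfl | h0
  · simp
  · rw [val_lt_one_iff, or_iff_right h0, val_le_exp_iff w h0]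
    omega

theorem adic_of_value_ne {K E : Type*} [Field K] [Field E] [Algebra K E] [IsAlgClosed K]
    [IsFunctionField K E] (w : Place K E) {x : E} (hx : x ∈ w.toValuationSubring)
    (h : value w x ≠ 0) : w.adicValuation x = 1 := by
  have h1 := (mem_iff_val w).mp hx
  refine le_antisymm h1 (not_lt.mp fun h2 => h ((value_eq_zero_iff w hx).mpr h2))

variable {k κ : Type*} [Field k] [Field κ] {B : Res k κ} {F : Type*} [Field F] [Algebra k F]
  {ι : Type*} {𝓕 : ι → Type*} [∀ i, Field (𝓕 i)] [∀ i, Algebra κ (𝓕 i)]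
  {C : ∀ i, Comp B F (𝓕 i)}
  [IsAlgClosed k] [IsAlgClosed κ] [IsFunctionField k F] [∀ i, IsFunctionField κ (𝓕 i)]
  [Fintype ι] [DecidableEq ι] [Nonempty ι]

/-- `n` is a unit of the base -/
theorem natCast_inv_mem {n : ℕ} (hn : (n : κ) ≠ 0) : B.r ((n : k)) = n ∧ ((n : k))⁻¹ ∈ B.O := by
  have h1 : (n : k) ∈ B.O := natCast_mem B.O n
  have h2 : B.r (n : k) = n := by
    rw [Res.r_of_mem h1]
    have : (⟨(n : k), h1⟩ : B.O) = (n : B.O) := rfl
    rw [this, map_natCast]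
  exact ⟨h2, Res.inv_mem_of_r (by rwa [h2])⟩

/-- approximate roots in the local ring -/
theorem exists_approx_root_loc (hB : B.RankOne) (hC : Incomp C) {t : F} (ht : IsGood C t)
    {M : Ideal (chart C t)} (hM : M.IsPrime) {n : ℕ} (hn : (n : κ) ≠ 0) {c : F}
    (hc : c ∈ loc t M hM) {γ : κ}
    (hcγ : ∀ i, ∀ 𝔭 ∈ spec t M i, γ ^ n * value 𝔭 ((C i).r c) = 1) (K : ℕ) :
    ∃ b ∈ loc t M hM, ∃ z ∈ loc t M hM, b ^ n * c = 1 + z ∧
      (∀ i, ∀ 𝔭 ∈ spec t M i, value 𝔭 ((C i).r b) = γ) ∧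
      ∀ i, ∀ 𝔭 ∈ spec t M i, 𝔭.adicValuation ((C i).r z) ≤ exp (-((K : ℤ) + 1)) := by
  induction K with
  | zero =>
    obtain ⟨g, hg, rfl⟩ := B.r_surjective γ
    have hgl : algebraMap k F g ∈ loc t M hM := chart_le_loc hM (algebraMap_mem_chart t hg)
    refine ⟨algebraMap k F g, hgl, algebraMap k F g ^ n * c - 1,
      sub_mem (mul_mem (pow_mem hgl n) hc) (one_mem _), by ring, fun i 𝔭 h𝔭 => ?_,
      fun i 𝔭 h𝔭 => ?_⟩
    · rw [(C i).r_algebraMap g hg, value_algebraMap]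
    · obtain ⟨h1, h2⟩ := loc_mem_O hB hC ht hM h𝔭 hc
      obtain ⟨h3, h4⟩ := loc_mem_O hB hC ht hM h𝔭 hgl
      rw [Nat.cast_zero, zero_add, ← value_eq_zero_iff_exp 𝔭 (loc_mem_O hB hC ht hM h𝔭
        (sub_mem (mul_mem (pow_mem hgl n) hc) (one_mem _))).2,
        Res.r_sub (mul_mem (pow_mem h3 n) h1) (one_mem _), Res.r_mul (pow_mem h3 n) h1,
        Res.r_pow h3, Res.r_one, (C i).r_algebraMap g hg,
        value_sub' 𝔭 (mul_mem (pow_mem (𝔭.algebraMap_mem' _) n) h2) (one_mem _),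
        value_mul 𝔭 (pow_mem (𝔭.algebraMap_mem' _) n) h2,
        value_pow' 𝔭 (𝔭.algebraMap_mem' _), value_algebraMap, value_one', hcγ i 𝔭 h𝔭, sub_self]
  | succ K ih =>
    obtain ⟨b, hb, z, hz, hbz, hbγ, hzv⟩ := ih
    obtain ⟨hn1, hn2⟩ := natCast_inv_mem (B := B) (k := k) hn
    have hn0 : (n : k) ≠ 0 := Res.ne_zero_of_r (C := B) (by rwa [hn1])
    have hnl : algebraMap k F ((n : k))⁻¹ ∈ loc t M hM :=
      chart_le_loc hM (algebraMap_mem_chart t hn2)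
    set ν : F := algebraMap k F ((n : k))⁻¹ with hν
    have hνn : (n : F) * ν = 1 := by
      rw [hν, ← map_natCast (algebraMap k F), ← map_mul, mul_inv_cancel₀ hn0, map_one]
    obtain ⟨y, hy⟩ := Fermat.Agent.GoodRed.exists_one_add_pow (B := loc t M hM)
      (⟨-(z * ν), neg_mem (mul_mem hz hnl)⟩) n
    have hyF : (1 + -(z * ν)) ^ n = 1 + n * -(z * ν) + (-(z * ν)) ^ 2 * (y : F) :=
      congrArg Subtype.val hy
    have hbl : b * (1 + -(z * ν)) ∈ loc t M hM :=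
      mul_mem hb (add_mem (one_mem _) (neg_mem (mul_mem hz hnl)))
    set q : F := ν ^ 2 * y * (1 + z) - 1 with hq
    have hql : q ∈ loc t M hM := sub_mem (mul_mem (mul_mem (pow_mem hnl 2) y.2)
      (add_mem (one_mem _) hz)) (one_mem _)
    refine ⟨b * (1 + -(z * ν)), hbl, z ^ 2 * q, mul_mem (pow_mem hz 2) hql, ?_,
      fun i 𝔭 h𝔭 => ?_, fun i 𝔭 h𝔭 => ?_⟩
    · rw [mul_pow, hyF, hq]
      linear_combination (1 + n * -(z * ν) + (-(z * ν)) ^ 2 * (y : F)) * hbz - z * (1 + z) * hνn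
    · obtain ⟨h1, h2⟩ := loc_mem_O hB hC ht hM h𝔭 hb
      obtain ⟨h3, h4⟩ := loc_mem_O hB hC ht hM h𝔭 hz
      obtain ⟨h5, h6⟩ := loc_mem_O hB hC ht hM h𝔭 hnl
      have h7 : value 𝔭 ((C i).r z) = 0 := by
        rw [value_eq_zero_iff 𝔭 h4]
        refine (hzv i 𝔭 h𝔭).trans_lt ?_
        rw [← exp_zero, exp_lt_exp]
        omega
      obtain ⟨h8, h9⟩ := loc_mem_O hB hC ht hM h𝔭 (mul_mem hz hnl)
      rw [Res.r_mul h1 (add_mem (one_mem _) (neg_mem h8)), Res.r_add (one_mem _) (neg_mem h8),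
        Res.r_neg h8, Res.r_one, value_mul 𝔭 h2 (add_mem (one_mem _) (neg_mem h9)), hbγ i 𝔭 h𝔭,
        value_add 𝔭 (one_mem _) (neg_mem h9), value_one', Res.r_mul h3 h5]
      have h10 : value 𝔭 (-((C i).r z * (C i).r ν)) = 0 := by
        have h11 : -((C i).r z * (C i).r ν) = (C i).r z * (-(C i).r ν) := by ring
        rw [h11, value_mul 𝔭 h4 (neg_mem h6), h7, zero_mul]
      rw [h10, add_zero, mul_one]
    · obtain ⟨h1, h2⟩ := loc_mem_O hB hC ht hM h𝔭 hql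
      obtain ⟨h3, h4⟩ := loc_mem_O hB hC ht hM h𝔭 hz
      rw [Res.r_mul (pow_mem h3 2) h1, Res.r_pow h3, map_mul, map_pow]
      have h5 := hzv i 𝔭 h𝔭
      have h6 := (mem_iff_val 𝔭).mp h2
      calc 𝔭.adicValuation ((C i).r z) ^ 2 * 𝔭.adicValuation ((C i).r q)
          ≤ 𝔭.adicValuation ((C i).r z) ^ 2 * 1 := by gcongr
        _ ≤ exp (-((K : ℤ) + 1)) ^ 2 * 1 := by gcongr
        _ ≤ exp (-(((K + 1 : ℕ) : ℤ) + 1)) := by
          rw [mul_one, ← exp_nsmul, exp_le_exp]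
          simp only [smul_neg, smul_add, nsmul_eq_mul]
          push_cast
          omega

/-- comparison of approximate roots at a place -/
theorem adic_sub_of_pow {E : Type*} [Field E] [Algebra κ E] [IsFunctionField κ E]
    (𝔭 : Place κ E) {n : ℕ} (hn : (n : κ) ≠ 0) {x e c z : E} (hx : x ∈ 𝔭.toValuationSubring)
    (he : e ∈ 𝔭.toValuationSubring) {γ : κ} (hγ : γ ≠ 0) (hxγ : value 𝔭 x = γ)
    (heγ : value 𝔭 e = γ) (hxc : x ^ n * c = 1 + z) (hec : e ^ n * c = 1) :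
    𝔭.adicValuation (e - x) ≤ 𝔭.adicValuation z := by
  have hc0 : c ≠ 0 := by rintro rfl; simp at hec
  have hec' : e ^ n - x ^ n = -(z * e ^ n) := by
    have h1 : (x ^ n - e ^ n - z * e ^ n) * c = 0 := by linear_combination hxc - (1 + z) * hec
    have h2 := (mul_eq_zero.mp h1).resolve_right hc0
    linear_combination -h2
  -- the geometric sum
  have hgeom : (∑ i ∈ Finset.range n, e ^ i * x ^ (n - 1 - i)) * (e - x) = e ^ n - x ^ n :=
    Commute.geom_sum₂_mul (Commute.all _ _) n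
  have hmem : (∑ i ∈ Finset.range n, e ^ i * x ^ (n - 1 - i)) ∈ 𝔭.toValuationSubring :=
    sum_mem fun i _ => mul_mem (pow_mem he _) (pow_mem hx _)
  have hval : value 𝔭 (∑ i ∈ Finset.range n, e ^ i * x ^ (n - 1 - i)) = n * γ ^ (n - 1) := by
    have h1 : ∀ s : Finset ℕ, (∀ i ∈ s, i ≤ n - 1) →
        value 𝔭 (∑ i ∈ s, e ^ i * x ^ (n - 1 - i)) = s.card * γ ^ (n - 1) := by
      classical
      intro s
      induction s using Finset.induction_on with
      | empty =>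
        intro _
        rw [Finset.sum_empty, Finset.card_empty, Nat.cast_zero, zero_mul]
        have := value_algebraMap 𝔭 (0 : κ)
        rwa [map_zero] at this
      | insert a s ha ih =>
        intro hs
        rw [Finset.sum_insert ha, value_add 𝔭 (mul_mem (pow_mem he _) (pow_mem hx _))
          (sum_mem fun i _ => mul_mem (pow_mem he _) (pow_mem hx _)),
          ih fun i hi => hs i (Finset.mem_insert_of_mem hi),
          value_mul 𝔭 (pow_mem he _) (pow_mem hx _), value_pow' 𝔭 he, value_pow' 𝔭 hx, hxγ, heγ,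
          ← pow_add, Nat.add_sub_cancel' (hs a (Finset.mem_insert_self _ _)),
          Finset.card_insert_of_notMem ha]
        push_cast
        ring
    rw [h1 _ (fun i hi => by rw [Finset.mem_range] at hi; omega), Finset.card_range]
  have h1 := adic_of_value_ne 𝔭 hmem (by
    rw [hval]; exact mul_ne_zero hn (pow_ne_zero _ hγ))
  have h2 := congrArg 𝔭.adicValuation hgeom
  rw [map_mul, h1, one_mul, hec', Valuation.map_neg, map_mul, map_pow] at h2
  rw [h2]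
  have h3 := (mem_iff_val 𝔭).mp he
  calc 𝔭.adicValuation z * 𝔭.adicValuation e ^ n ≤ 𝔭.adicValuation z * 1 ^ n := by gcongr
    _ = 𝔭.adicValuation z := by rw [one_pow, mul_one]

/-- lifting compatible roots of a unit of the local ring -/
theorem exists_root_loc (hB : B.RankOne) (hC : Incomp C) {t : F} (ht : IsGood C t)
    (hS : Surj C t) {M : Ideal (chart C t)} (hM : M.IsPrime) {n : ℕ} (hn : (n : κ) ≠ 0) {c : F}
    (hc : c ∈ loc t M hM) {γ : κ} (e : ∀ i, 𝓕 i)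
    (he : ∀ i, ∀ 𝔭 ∈ spec t M i, e i ∈ 𝔭.toValuationSubring ∧ value 𝔭 (e i) = γ)
    (hec : ∀ i, (spec t M i).Nonempty → e i ^ n * (C i).r c = 1) :
    ∃ b ∈ loc t M hM, ∀ i, (spec t M i).Nonempty → (C i).r b = e i := by
  by_cases hne : ∀ i, ¬ (spec t M i).Nonempty
  · exact ⟨0, zero_mem _, fun i hi => absurd hi (hne i)⟩
  push Not at hne
  obtain ⟨i₀, 𝔭₀, h𝔭₀⟩ := hne
  have hn0 : n ≠ 0 := by rintro rfl; simp at hn
  have hcγ : ∀ i, ∀ 𝔭 ∈ spec t M i, γ ^ n * value 𝔭 ((C i).r c) = 1 := by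
    intro i 𝔭 h𝔭
    have h1 := congrArg (value 𝔭) (hec i ⟨𝔭, h𝔭⟩)
    rw [value_mul 𝔭 (pow_mem (he i 𝔭 h𝔭).1 n) (loc_mem_O hB hC ht hM h𝔭 hc).2,
      value_pow' 𝔭 (he i 𝔭 h𝔭).1, (he i 𝔭 h𝔭).2, value_one'] at h1
    exact h1
  have hγ : γ ≠ 0 := by
    rintro rfl
    have := hcγ i₀ 𝔭₀ h𝔭₀
    rw [zero_pow hn0, zero_mul] at this
    exact zero_ne_one this
  obtain ⟨N, hN⟩ := exists_loc_lift_all hB hC ht hS hM
  obtain ⟨b, hb, z, hz, hbz, hbγ, hzv⟩ := exists_approx_root_loc hB hC ht hM hn hc hcγ N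
  obtain ⟨x, hx, hxr⟩ := hN (fun i => e i - (C i).r b) fun i 𝔭 h𝔭 => by
    obtain ⟨h1, h2⟩ := loc_mem_O hB hC ht hM h𝔭 hb
    obtain ⟨h3, h4⟩ := loc_mem_O hB hC ht hM h𝔭 hc
    obtain ⟨h5, h6⟩ := loc_mem_O hB hC ht hM h𝔭 hz
    have h7 : (C i).r b ^ n * (C i).r c = 1 + (C i).r z := by
      rw [← Res.r_pow h1, ← Res.r_mul (pow_mem h1 n) h3, hbz, Res.r_add (one_mem _) h5, Res.r_one]
    have h8 := (adic_sub_of_pow 𝔭 hn h2 (he i 𝔭 h𝔭).1 hγ (hbγ i 𝔭 h𝔭) (he i 𝔭 h𝔭).2 h7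
      (hec i ⟨𝔭, h𝔭⟩)).trans (hzv i 𝔭 h𝔭)
    rcases eq_or_ne (e i - (C i).r b) 0 with h9 | h9
    · exact Or.inl h9
    · right
      rw [val_le_exp_iff 𝔭 h9] at h8
      omega
  refine ⟨b + x, add_mem hb hx, fun i hi => ?_⟩
  obtain ⟨𝔭, h𝔭⟩ := hi
  rw [Res.r_add (loc_mem_O hB hC ht hM h𝔭 hb).1 (loc_mem_O hB hC ht hM h𝔭 hx).1,
    hxr i ⟨𝔭, h𝔭⟩]
  ring

end Fermat.Agent.Models
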