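import Fermat.Agent.Models.NodeModel

/-!
# Units at nodes, local data at smooth points and at nodes
-/

set_option autoImplicit false
set_option linter.unusedSectionVars false
set_option linter.style.haveILetI false

noncomputable section

namespace Fermat.Agent.Models

open AlgebraicCurve Fermat.Agent.Curves Polynomial

namespace Res

variable {F 𝓕 : Type*} [Field F] [Field 𝓕] {C : Res F 𝓕}

theorem r_ne_zero_of_pow {x : F} {n : ℕ} (hn : n ≠ 0) (h : C.r (x ^ n) ≠ 0) : C.r x ≠ 0 := by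
  rcases C.mem_or (x := x) with h1 | ⟨h1, h2⟩ | h1
  · exact h1
  · exfalso
    apply h
    rw [r_pow h1, h2, zero_pow hn]
  · exfalso
    have h2 := r_inv_of_notMem h1
    have h3 := inv_mem_of_notMem h1
    have h4 : C.r (x⁻¹ ^ n) = 0 := by rw [r_pow h3, h2, zero_pow hn]
    have h5 : C.r (x⁻¹ ^ n) ≠ 0 := by
      rw [inv_pow]
      exact r_inv_ne_zero h
    exact h5 h4

theorem r_zpow_ne_zero {x : F} (h : C.r x ≠ 0) (n : ℤ) : C.r (x ^ n) ≠ 0 := by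
  rw [r_zpow h]
  exact zpow_ne_zero _ h

end Res

variable {k κ : Type*} [Field k] [Field κ] {B : Res k κ} {F : Type*} [Field F] [Algebra k F]
  {ι : Type*} {𝓕 : ι → Type*} [∀ i, Field (𝓕 i)] [∀ i, Algebra κ (𝓕 i)]
  {C : ∀ i, Comp B F (𝓕 i)}
  [IsAlgClosed k] [IsAlgClosed κ] [IsFunctionField k F] [∀ i, IsFunctionField κ (𝓕 i)]
  [Fintype ι] [DecidableEq ι] [Nonempty ι]

omit [Fintype ι] [DecidableEq ι] [Nonempty ι] [∀ i, IsFunctionField κ (𝓕 i)]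
  [IsFunctionField k F] [IsAlgClosed k] in
theorem value_zero' {E : Type*} [Field E] [Algebra κ E] [IsFunctionField κ E]
    (𝔭 : Place κ E) : value 𝔭 (0 : E) = 0 := by
  have := value_algebraMap 𝔭 (0 : κ)
  rwa [map_zero] at this

/-- **Units at a node.** A function without zeros and poles near a node which is a unit on one
branch is a unit on the other branch. -/
theorem unit_at_node (hB : B.RankOne) (hC : Incomp C) {t : F} (ht : IsGood C t)
    (hS : Surj C t) {M : Ideal (chart C t)} {i₁ i₂ : ι} {𝔭₁ : Place κ (𝓕 i₁)}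
    {𝔭₂ : Place κ (𝓕 i₂)} (h₁ : 𝔭₁ ∈ spec t M i₁) (h₂ : 𝔭₂ ∈ spec t M i₂)
    (hbr : ∀ i, (spec t M i).Nonempty → i = i₁ ∨ i = i₂) {y : F}
    (hy : ∀ P ∈ gen t M, P.ord y = 0) (hy1 : (C i₁).r y ≠ 0)
    (ho : 𝔭₁.ord ((C i₁).r y) = 0) :
    (C i₂).r y ≠ 0 ∧ 𝔭₂.ord ((C i₂).r y) = 0 ∧
      value 𝔭₁ ((C i₁).r y) = value 𝔭₂ ((C i₂).r y) ∧ value 𝔭₁ ((C i₁).r y) ≠ 0 := by
  have hM := isPoint_of_spec hB hC ht ⟨𝔭₁, h₁⟩
  have hy0 : y ≠ 0 := Res.ne_zero_of_r hy1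
  have hm1 : (C i₁).r y ∈ 𝔭₁.toValuationSubring := (mem_iff_ord 𝔭₁ hy1).mpr ho.ge
  have hv1 : value 𝔭₁ ((C i₁).r y) ≠ 0 := (value_ne_zero_iff hy1 hm1).mpr ho
  have key : (C i₂).r y ≠ 0 := by
    rcases (C i₂).toRes.mem_or (x := y) with h | ⟨h3, h4⟩ | h3
    · exact h
    · exfalso
      have hloc := mem_loc_of hB hC ht hS hM
        (fun P hP => (mem_iff_ord P hy0).mpr (hy P hP).ge) (x := y) (fun i hi => by
          rcases hbr i hi with rfl | rfl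
          · exact Res.mem_of_r_ne_zero hy1
          · exact h3)
      have := loc_value_eq hB hC ht hM.isMaximal.isPrime h₁ h₂ hloc
      rw [h4, value_zero'] at this
      exact hv1 this
    · exfalso
      have h4 := Res.inv_mem_of_notMem h3
      have h5 := Res.r_inv_of_notMem h3
      have hloc := mem_loc_of hB hC ht hS hM
        (fun P hP => (mem_iff_ord P (inv_ne_zero hy0)).mpr (by rw [P.ord_inv, hy P hP]; simp))
        (x := y⁻¹) (fun i hi => by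
          rcases hbr i hi with rfl | rfl
          · exact Res.inv_mem_of_r hy1
          · exact h4)
      have h6 := loc_value_eq hB hC ht hM.isMaximal.isPrime h₁ h₂ hloc
      rw [h5, value_zero', Res.r_inv hy1, (value_inv' hm1 hv1).2] at h6
      exact inv_ne_zero hv1 h6
  have hloc := unit_loc_of hB hC ht hS hM hy0 hy (fun i hi => by
    rcases hbr i hi with rfl | rfl
    · exact hy1
    · exact key)
  have hval := loc_value_eq hB hC ht hM.isMaximal.isPrime h₁ h₂ hloc.1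
  have hm2 := (loc_mem_O hB hC ht hM.isMaximal.isPrime h₂ hloc.1).2
  refine ⟨key, ?_, hval, hv1⟩
  exact (value_ne_zero_iff key hm2).mp (by rw [← hval]; exact hv1)

section Smooth

/-- local data at a smooth point -/
theorem locData_of_smooth (hB : B.RankOne) (hC : Incomp C) {t : F} (ht : IsGood C t)
    (hS : Surj C t) {M : Ideal (chart C t)} (hLP : LP C t M) {i : ι} {𝔭 : Place κ (𝓕 i)}
    (h𝔭 : 𝔭 ∈ spec t M i) (hj : ∀ j, j ≠ i → ¬ (spec t M j).Nonempty) {n : ℕ} (hn : n ≠ 0)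
    {u : F} (hu : (C i).r u ≠ 0) {w : ∀ i, 𝓕 i} (hw : w i ^ n = (C i).r u)
    {D : Divisor k F} (hD : ∀ P : Place k F, P.ord u = n * D P) : LocData C t D w M := by
  have hM := isPoint_of_spec hB hC ht ⟨𝔭, h𝔭⟩
  obtain ⟨g, hg0, hg⟩ := hLP.exists_ord D
  obtain ⟨c, hc0, hc⟩ := (C i).exists_scale g hg0
  have hcF : algebraMap k F c ≠ 0 := by simpa using hc0
  set h := algebraMap k F c * g with hh
  have hh0 : h ≠ 0 := mul_ne_zero hcF hg0
  have hord : ∀ P ∈ gen t M, P.ord h = D P := by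
    intro P hP
    rw [hh, P.ord_mul hcF hg0, ord_algebraMap, zero_add, hg P hP]
  have hw0 : w i ≠ 0 := by
    intro h0
    rw [h0, zero_pow hn] at hw
    exact hu hw.symm
  have hu0 : u ≠ 0 := Res.ne_zero_of_r hu
  -- the unit `u / h ^ n`
  set x := u / h ^ n with hx
  have hx0 : x ≠ 0 := div_ne_zero hu0 (pow_ne_zero _ hh0)
  have hxr : (C i).r x ≠ 0 := Res.r_div_ne_zero hu (Res.r_pow_ne_zero hc n)
  have hxP : ∀ P ∈ gen t M, P.ord x = 0 := by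
    intro P hP
    rw [hx, div_eq_mul_inv, P.ord_mul hu0 (inv_ne_zero (pow_ne_zero _ hh0)), P.ord_inv, ord_pow,
      hord P hP, hD]
    ring
  have hcnt := local_conserve' hB hC ht hS hM hx0 (fun j hj' => by
    by_cases hji : j = i
    · subst hji; exact hxr
    · exact absurd hj' (hj j hji))
  rw [Finset.sum_eq_single i (fun j _ hji => cnt_empty (hj j hji) _)
    (fun h => absurd (Finset.mem_univ i) h), cnt_subsingleton (spec_subsingleton ht hS M i) h𝔭,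
    cnt_eq_zero hxP] at hcnt
  have e1 : (C i).r x = (w i / (C i).r h) ^ n := by
    rw [hx, Res.r_div (Res.mem_of_r_ne_zero hu) (Res.r_pow_ne_zero hc n),
      Res.r_pow (Res.mem_of_r_ne_zero hc), ← hw, div_pow]
  have hz0 : w i / (C i).r h ≠ 0 := div_ne_zero hw0 hc
  have e2 : 𝔭.ord (w i / (C i).r h) = 0 := by
    rw [e1, ord_pow] at hcnt
    have hnZ : (n : ℤ) ≠ 0 := by exact_mod_cast hn
    exact (mul_eq_zero.mp hcnt.symm).resolve_left hnZ
  refine ⟨h, hh0, fun j hj' => ?_, hord, value 𝔭 ((C i).r h / w i), fun j 𝔮 h𝔮 => ?_⟩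
  · by_cases hji : j = i
    · subst hji; exact hc
    · exact absurd hj' (hj j hji)
  · by_cases hji : j = i
    · subst hji
      have h1 : 𝔮 = 𝔭 := spec_subsingleton ht hS M j h𝔮 h𝔭
      subst h1
      refine ⟨?_, rfl⟩
      rw [← inv_div, mem_iff_ord 𝔮 (inv_ne_zero hz0), 𝔮.ord_inv, e2]
      simp
    · exact absurd ⟨𝔮, h𝔮⟩ (hj j hji)

end Smooth

section Node

/-- a local generator at a node, adapted to an `n`-th root on both branches -/
theorem exists_adapted (hB : B.RankOne) (hC : Incomp C) {t : F} (ht : IsGood C t)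
    (hS : Surj C t) {M : Ideal (chart C t)} (hLP : LP C t M) {i₁ i₂ : ι} {𝔭₁ : Place κ (𝓕 i₁)}
    {𝔭₂ : Place κ (𝓕 i₂)} {Y : F} {ϖ : k} (h : IsNode C t M i₁ i₂ 𝔭₁ 𝔭₂ Y ϖ) {n : ℕ}
    (hn : n ≠ 0) {u : F} (hu : ∀ i, (C i).r u ≠ 0) {w : ∀ i, 𝓕 i}
    (hw : ∀ i, w i ^ n = (C i).r u)
    {D : Divisor k F} (hD : ∀ P : Place k F, P.ord u = n * D P) :
    ∃ g : F, g ≠ 0 ∧ (∀ P ∈ gen t M, P.ord g = D P) ∧ (C i₁).r g ≠ 0 ∧ (C i₂).r g ≠ 0 ∧
      𝔭₁.ord ((C i₁).r g / w i₁) = 0 ∧ 𝔭₂.ord ((C i₂).r g / w i₂) = 0 := by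
  have hM := isPoint_of_spec hB hC ht ⟨𝔭₁, h.spec₁⟩
  have hbr : ∀ i, (spec t M i).Nonempty → i = i₁ ∨ i = i₂ := by
    intro i hi
    by_contra! hne
    exact h.others i hne.1 hne.2 hi
  have hnZ : (n : ℤ) ≠ 0 := by exact_mod_cast hn
  have hw0 : ∀ i, w i ≠ 0 := fun i hi => hu i (by rw [← hw, hi, zero_pow hn])
  have hY0 : Y ≠ 0 := Res.ne_zero_of_r h.r₁
  have hu0 : u ≠ 0 := Res.ne_zero_of_r (hu i₁)
  obtain ⟨g₀, hg0, hg⟩ := hLP.exists_ord D
  obtain ⟨c, hc0, hc⟩ := (C i₁).exists_scale g₀ hg0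
  have hcF : algebraMap k F c ≠ 0 := by simpa using hc0
  set g₁ := algebraMap k F c * g₀ with hg₁
  have hg10 : g₁ ≠ 0 := mul_ne_zero hcF hg0
  set m : ℤ := 𝔭₁.ord (w i₁) - 𝔭₁.ord ((C i₁).r g₁) with hm
  set g := g₁ * Y ^ m with hgdef
  have hgne : g ≠ 0 := mul_ne_zero hg10 (zpow_ne_zero _ hY0)
  have hYr : (C i₁).r (Y ^ m) ≠ 0 := Res.r_zpow_ne_zero h.r₁ m
  have hr1 : (C i₁).r g ≠ 0 := Res.r_mul_ne_zero hc hYr
  have hord : ∀ P ∈ gen t M, P.ord g = D P := by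
    intro P hP
    rw [hgdef, P.ord_mul hg10 (zpow_ne_zero _ hY0), ord_zpow', h.gen P hP, hg₁,
      P.ord_mul hcF hg0, ord_algebraMap, hg P hP]
    ring
  have ho1 : 𝔭₁.ord ((C i₁).r g) = 𝔭₁.ord (w i₁) := by
    rw [hgdef, Res.r_mul (Res.mem_of_r_ne_zero hc) (Res.mem_of_r_ne_zero hYr),
      𝔭₁.ord_mul hc hYr, Res.r_zpow h.r₁, ord_zpow', h.ord₁]
    omega
  set y := u / g ^ n with hy
  have hyP : ∀ P ∈ gen t M, P.ord y = 0 := by
    intro P hP
    rw [hy, div_eq_mul_inv, P.ord_mul hu0 (inv_ne_zero (pow_ne_zero _ hgne)), P.ord_inv, ord_pow,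
      hord P hP, hD]
    ring
  have hy1 : (C i₁).r y ≠ 0 := Res.r_div_ne_zero (hu i₁) (Res.r_pow_ne_zero hr1 n)
  have hyo : 𝔭₁.ord ((C i₁).r y) = 0 := by
    rw [hy, Res.r_div (Res.mem_of_r_ne_zero (hu i₁)) (Res.r_pow_ne_zero hr1 n),
      Res.r_pow (Res.mem_of_r_ne_zero hr1), ← hw, div_eq_mul_inv,
      𝔭₁.ord_mul (pow_ne_zero _ (hw0 i₁)) (inv_ne_zero (pow_ne_zero _ hr1)), 𝔭₁.ord_inv, ord_pow,
      ord_pow, ho1]
    ring
  obtain ⟨h3, h4, -, -⟩ := unit_at_node hB hC ht hS h.spec₁ h.spec₂ hbr hyP hy1 hyo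
  have e : g ^ n = u / y := by
    rw [hy]
    field_simp
  have h5 : (C i₂).r (g ^ n) ≠ 0 := by
    rw [e]
    exact Res.r_div_ne_zero (hu i₂) h3
  have hr2 := Res.r_ne_zero_of_pow hn h5
  have h6 : (n : ℤ) * 𝔭₂.ord ((C i₂).r g) = n * 𝔭₂.ord (w i₂) := by
    rw [← ord_pow, ← ord_pow, hw, ← Res.r_pow (Res.mem_of_r_ne_zero hr2), e,
      Res.r_div (Res.mem_of_r_ne_zero (hu i₂)) h3, div_eq_mul_inv,
      𝔭₂.ord_mul (hu i₂) (inv_ne_zero h3), 𝔭₂.ord_inv, h4]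
    ring
  have h7 := mul_left_cancel₀ hnZ h6
  refine ⟨g, hgne, hord, hr1, hr2, ?_, ?_⟩
  · rw [div_eq_mul_inv, 𝔭₁.ord_mul hr1 (inv_ne_zero (hw0 _)), 𝔭₁.ord_inv, ho1]
    ring
  · rw [div_eq_mul_inv, 𝔭₂.ord_mul hr2 (inv_ne_zero (hw0 _)), 𝔭₂.ord_inv, h7]
    ring

end Node

end Fermat.Agent.Models
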