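import Fermat.Agent.Models.Points

/-!
# The units lemma
-/

set_option autoImplicit false
set_option linter.unusedSectionVars false
set_option linter.style.haveILetI false

noncomputable section

namespace Fermat.Agent.Models

open AlgebraicCurve Fermat.Agent.Curves Polynomial

variable {k κ : Type*} [Field k] [Field κ] {B : Res k κ} {F : Type*} [Field F] [Algebra k F]
  {ι : Type*} {𝓕 : ι → Type*} [∀ i, Field (𝓕 i)] [∀ i, Algebra κ (𝓕 i)]
  {C : ∀ i, Comp B F (𝓕 i)}
  [IsAlgClosed k] [IsAlgClosed κ] [IsFunctionField k F] [∀ i, IsFunctionField κ (𝓕 i)]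
  [Fintype ι] [DecidableEq ι] [Nonempty ι]

/-- a finite place not specialising to `M` is cut out by a function not in `M` -/
theorem exists_kill_place (hB : B.RankOne) (hC : Incomp C) {t : F} (ht : IsGood C t)
    {M : Ideal (chart C t)} (hM : IsPoint t M) {P : Place k F} (hP : t ∈ P.toValuationSubring)
    (hPM : P ∉ gen t M) : ∃ s : chart C t, s ∉ M ∧ value P (s : F) = 0 := by
  have hone : (1 : chart C t) ∉ M := fun h => hM.isMaximal.ne_top ((Ideal.eq_top_iff_one _).mpr h)
  by_cases hPt : value P t ∈ B.O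
  · -- the point is integral
    have h1 := isPoint_evP hB hC ht P hP hPt
    have hne : RingHom.ker (evP hB hC ht P hP hPt) ≠ M := by
      intro h
      exact hPM ((mem_gen_iff hB hC ht).mpr ⟨hP, hPt, h.symm⟩)
    obtain ⟨s, hs, hsM⟩ : ∃ s ∈ RingHom.ker (evP hB hC ht P hP hPt), s ∉ M := by
      by_contra! h
      exact hne (h1.isMaximal.eq_of_le hM.isMaximal.ne_top h)
    have hsO := value_mem hB hC ht s.2 hP hPt
    have hs0 : B.r (value P (s : F)) = 0 := hs
    refine ⟨s - ⟨algebraMap k F (value P (s : F)), algebraMap_mem_chart t hsO⟩, fun h => ?_, ?_⟩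
    · have h2 := hM.small_mem hsO hs0
      have := M.add_mem h h2
      rw [sub_add_cancel] at this
      exact hsM this
    · show value P ((s : F) - algebraMap k F (value P (s : F))) = 0
      rw [value_sub' P (s.2.1 P hP) (P.algebraMap_mem' _), value_algebraMap, sub_self]
  · -- the point is near infinity
    have ha0 := Res.ne_zero_of_notMem hPt
    have hai := Res.inv_mem_of_notMem hPt
    have har := Res.r_inv_of_notMem hPt
    refine ⟨⟨algebraMap k F (value P t)⁻¹, algebraMap_mem_chart t hai⟩ *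
      ⟨t, self_mem_chart ht.mem⟩ - 1, fun h => ?_, ?_⟩
    · have h2 : (⟨algebraMap k F (value P t)⁻¹, algebraMap_mem_chart t hai⟩ *
          ⟨t, self_mem_chart ht.mem⟩ : chart C t) ∈ M := M.mul_mem_right _ (hM.small_mem hai har)
      have := M.sub_mem h2 h
      rw [sub_sub_cancel] at this
      exact hone this
    · show value P (algebraMap k F (value P t)⁻¹ * t - 1) = 0
      rw [value_sub' P (mul_mem (P.algebraMap_mem' _) hP) (one_mem _),
        value_mul P (P.algebraMap_mem' _) hP, value_algebraMap, inv_mul_cancel₀ ha0, value_one',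
        sub_self]

/-- a component not passing through `M` is cut out by a function not in `M` -/
theorem exists_kill_comp (hB : B.RankOne) (hC : Incomp C) {t : F} (ht : IsGood C t)
    (hS : Surj C t) {M : Ideal (chart C t)} (hM : IsPoint t M) {i : ι}
    (hi : ¬ (spec t M i).Nonempty) : ∃ s : chart C t, s ∉ M ∧ (C i).r (s : F) = 0 := by
  by_contra! h
  exact hi (exists_spec_of_ker_le hB hC ht hS i hM.isMaximal fun x hx => by
    by_contra hx'
    exact h x hx' hx)

/-- killing finitely many finite places to high order -/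
theorem exists_kill_places (hB : B.RankOne) (hC : Incomp C) {t : F} (ht : IsGood C t)
    {M : Ideal (chart C t)} (hM : IsPoint t M) (T : Finset (Place k F))
    (hT : ∀ P ∈ T, t ∈ P.toValuationSubring ∧ P ∉ gen t M) (n : ℕ) :
    ∃ s : chart C t, s ∉ M ∧ ∀ P ∈ T, (n : ℤ) ≤ P.ord (s : F) := by
  classical
  have hMp := hM.isMaximal.isPrime
  have h1 : ∀ P : Place k F, ∃ s : chart C t, P ∈ T → s ∉ M ∧ value P (s : F) = 0 := by
    intro P
    by_cases hP : P ∈ T
    · obtain ⟨s, hs⟩ := exists_kill_place hB hC ht hM (hT P hP).1 (hT P hP).2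
      exact ⟨s, fun _ => hs⟩
    · exact ⟨0, fun h => absurd h hP⟩
  choose s hs using h1
  have hs0 : ∀ P ∈ T, (s P : F) ≠ 0 := by
    intro P hP h
    apply (hs P hP).1
    have : s P = 0 := Subtype.ext h
    rw [this]
    exact M.zero_mem
  refine ⟨(∏ P ∈ T, s P) ^ n, fun h => ?_, fun P hP => ?_⟩
  · obtain ⟨P, hP, h2⟩ := (hMp.prod_mem_iff).mp (hMp.mem_of_pow_mem n h)
    exact (hs P hP).1 h2
  · have e : (((∏ Q ∈ T, s Q) ^ n : chart C t) : F) = (∏ Q ∈ T, (s Q : F)) ^ n := by
      rw [SubmonoidClass.coe_pow]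
      congr 1
      exact map_prod (chart C t).subtype _ _
    rw [e, ord_pow, ord_prod P T _ hs0]
    have h3 : 1 ≤ ∑ Q ∈ T, P.ord (s Q : F) := by
      have h4 : ∀ Q ∈ T, 0 ≤ P.ord (s Q : F) := fun Q hQ =>
        (mem_iff_ord P (hs0 Q hQ)).mp ((s Q).2.1 P (hT P hP).1)
      have h5 : 1 ≤ P.ord (s P : F) := by
        have h6 := (hs P hP).2
        rw [value_eq_zero_iff P ((s P).2.1 P (hT P hP).1), val_lt_one_iff,
          or_iff_right (hs0 P hP)] at h6
        omega
      exact h5.trans (Finset.single_le_sum (f := fun Q => P.ord (s Q : F)) h4 hP)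
    nlinarith

/-- **Units lemma, membership part.** -/
theorem mem_loc_of (hB : B.RankOne) (hC : Incomp C) {t : F} (ht : IsGood C t)
    (hS : Surj C t) {M : Ideal (chart C t)} (hM : IsPoint t M) {x : F}
    (hx1 : ∀ P ∈ gen t M, x ∈ P.toValuationSubring)
    (hx2 : ∀ i, (spec t M i).Nonempty → x ∈ (C i).O) :
    x ∈ loc t M hM.isMaximal.isPrime := by
  classical
  have hMp := hM.isMaximal.isPrime
  rcases eq_or_ne x 0 with rfl | hx0
  · exact zero_mem _
  obtain ⟨b, hb⟩ := exists_ord_bound (K := k) x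
  -- the finite poles
  obtain ⟨s, hs, hsP⟩ := exists_kill_places hB hC ht hM
    ((divisorOf (k := k) x).support.filter fun P => t ∈ P.toValuationSubring ∧ P ∉ gen t M)
    (fun P hP => (Finset.mem_filter.mp hP).2) b
  have hs0 : (s : F) ≠ 0 := by
    intro h
    apply hs
    have : s = 0 := Subtype.ext h
    rw [this]
    exact M.zero_mem
  have hsx : ∀ P : Place k F, t ∈ P.toValuationSubring → (s : F) * x ∈ P.toValuationSubring := by
    intro P hP
    by_cases hPM : P ∈ gen t M
    · exact mul_mem (s.2.1 P hP) (hx1 P hPM)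
    · by_cases hPx : P.ord x = 0
      · exact mul_mem (s.2.1 P hP) ((mem_iff_ord P hx0).mpr hPx.ge)
      · have h1 := hsP P (Finset.mem_filter.mpr ⟨Finsupp.mem_support_iff.mpr
          (by rw [divisorOf_apply]; exact hPx), hP, hPM⟩)
        rw [mem_iff_ord P (mul_ne_zero hs0 hx0), P.ord_mul hs0 hx0]
        have := hb P
        omega
  -- the components
  have h2 : ∀ i, ∃ σ : chart C t, σ ∉ M ∧ (σ : F) * ((s : F) * x) ∈ (C i).O := by
    intro i
    by_cases hi : (spec t M i).Nonempty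
    · exact ⟨1, fun h => hMp.ne_top ((Ideal.eq_top_iff_one _).mpr h), by
        rw [OneMemClass.coe_one, one_mul]; exact mul_mem (s.2.2 i) (hx2 i hi)⟩
    · obtain ⟨σ, hσ, hσ0⟩ := exists_kill_comp hB hC ht hS hM hi
      obtain ⟨n, hn, -⟩ := (C i).exists_pow_mul hB (σ.2.2 i) hσ0 ((s : F) * x)
      exact ⟨σ ^ n, fun h => hσ (hMp.mem_of_pow_mem n h), by
        rw [SubmonoidClass.coe_pow]; exact hn⟩
  choose σ hσ1 hσ2 using h2
  refine ⟨(∏ i, σ i) * s, fun h => ?_, ?_, ?_⟩
  · rcases hMp.mem_or_mem h with h | h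
    · obtain ⟨i, -, hi⟩ := (hMp.prod_mem_iff).mp h
      exact hσ1 i hi
    · exact hs h
  · intro P hP
    rw [show (((∏ i, σ i) * s : chart C t) : F) * x = ((∏ i, σ i : chart C t) : F) * ((s : F) * x)
      by push_cast; ring]
    exact mul_mem ((∏ i, σ i : chart C t).2.1 P hP) (hsx P hP)
  · intro i
    have e : (((∏ i, σ i) * s : chart C t) : F) * x =
        ((∏ j ∈ Finset.univ.erase i, σ j : chart C t) : F) * ((σ i : F) * ((s : F) * x)) := by
      rw [← Finset.prod_erase_mul Finset.univ σ (Finset.mem_univ i)]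
      push_cast
      ring
    rw [e]
    exact mul_mem ((∏ j ∈ Finset.univ.erase i, σ j : chart C t).2.2 i) (hσ2 i)

/-- **Units lemma.** -/
theorem unit_loc_of (hB : B.RankOne) (hC : Incomp C) {t : F} (ht : IsGood C t)
    (hS : Surj C t) {M : Ideal (chart C t)} (hM : IsPoint t M) {x : F} (hx0 : x ≠ 0)
    (hx1 : ∀ P ∈ gen t M, P.ord x = 0)
    (hx2 : ∀ i, (spec t M i).Nonempty → (C i).r x ≠ 0) :
    x ∈ loc t M hM.isMaximal.isPrime ∧ x⁻¹ ∈ loc t M hM.isMaximal.isPrime :=
  ⟨mem_loc_of hB hC ht hS hM (fun P hP => (mem_iff_ord P hx0).mpr (hx1 P hP).ge)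
    fun i hi => Res.mem_of_r_ne_zero (hx2 i hi),
  mem_loc_of hB hC ht hS hM (fun P hP => (mem_iff_ord P (inv_ne_zero hx0)).mpr
    (by rw [P.ord_inv, hx1 P hP]; simp)) fun i hi => Res.inv_mem_of_r (hx2 i hi)⟩

/-- Elements of the local ring with nonzero value are units. -/
theorem inv_mem_loc_of (hB : B.RankOne) (hC : Incomp C) {t : F} (ht : IsGood C t)
    {M : Ideal (chart C t)} (hM : IsPoint t M) {x : F}
    (hx : x ∈ loc t M hM.isMaximal.isPrime) {i : ι} {𝔭 : Place κ (𝓕 i)} (h𝔭 : 𝔭 ∈ spec t M i)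
    (hv : value 𝔭 ((C i).r x) ≠ 0) : x⁻¹ ∈ loc t M hM.isMaximal.isPrime := by
  obtain ⟨hx1, hx2⟩ := loc_mem_O hB hC ht _ h𝔭 hx
  have hrx : (C i).r x ≠ 0 := by
    intro h
    rw [h] at hv
    apply hv
    have := value_algebraMap 𝔭 (0 : κ)
    rwa [map_zero] at this
  have hx0 : x ≠ 0 := Res.ne_zero_of_r hrx
  obtain ⟨s, hs, hsx⟩ := hx
  have h1 : (⟨(s : F) * x, hsx⟩ : chart C t) ∉ M := by
    intro h
    have h2 := (h𝔭.2 _).mp h
    rw [show ((⟨(s : F) * x, hsx⟩ : chart C t) : F) = (s : F) * x from rfl,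
      Res.r_mul (s.2.2 i) hx1, value_mul 𝔭 (r_mem hB hC ht s.2 i h𝔭.1) hx2, mul_eq_zero] at h2
    rcases h2 with h2 | h2
    · exact hs ((h𝔭.2 s).mpr h2)
    · exact hv h2
  have hs0 : (s : F) ≠ 0 := by
    intro h
    apply hs
    have : s = 0 := Subtype.ext h
    rw [this]
    exact M.zero_mem
  refine ⟨⟨(s : F) * x, hsx⟩, h1, ?_⟩
  rw [show ((⟨(s : F) * x, hsx⟩ : chart C t) : F) * x⁻¹ = (s : F) from by
    show (s : F) * x * x⁻¹ = s
    field_simp]
  exact s.2

end Fermat.Agent.Models
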